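import Fermat.Agent.M13.FreyAt2

/-!
# M13 (S13), package [FREYLOC]: local toolbox for the instantiations AT-2 / AT-P

General lemmas (`K` a field with a `ℚ`-valued valuation `O`, `W` a Weierstrass curve over `K`):

* `fl_yc_int` : on an integral model a point with integral `x` has integral `y`;
* `fl_good_nonsing` : on an integral model with unit discriminant every integral point has
  nonsingular reduction (`F_X` or `F_Y` is a unit);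
* `fl_node_nonsing` : on a node model (`a₃ = a₆ = 0`, `b₂` a unit, `a₄` in the maximal ideal) every
  point whose `x`-coordinate is a unit has nonsingular reduction.

Frey facts (`W = (P.freyCurve)⁄ℚ̄`, a place over an arbitrary prime `q`):

* `fl_a₂_eq_int`, `fl_a₄_eq_int`, `fl_EC_eq_map` : the coefficients are integers (the curve is the
  base change of `P.freyCurveInt`), `fl_a₁_ge … fl_a₆_ge` integrality;
* `fl_Δ` : `Δ = (a^p b^p c^p)² / 256`, `fl_Δ_isU` for `q ∤ 2abc`;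
* `fl_node_a`, `fl_node_b` : node facts for odd `q ∣ a` resp. `q ∣ b`.
-/

set_option autoImplicit false
set_option linter.unusedSectionVars false
set_option linter.unusedSimpArgs false

namespace Fermat.Agent.M13

open WeierstrassCurve WeierstrassCurve.Affine
open Fermat.Agent.S05 Fermat.Agent.S05.OrdVal

section General

variable {K : Type*} [Field K] (O : OrdVal K) (W : WeierstrassCurve.Affine K)

/-- The explicit form of the Weierstrass equation. -/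
lemma fl_equation {x y : K} (h : W.Equation x y) :
    y ^ 2 + W.a₁ * x * y + W.a₃ * y = x ^ 3 + W.a₂ * x ^ 2 + W.a₄ * x + W.a₆ :=
  (W.equation_iff x y).1 h

/-- On an integral model, a point with integral `x`-coordinate has integral `y`-coordinate. -/
theorem fl_yc_int (h₁ : O.Ge W.a₁ 0) (h₂ : O.Ge W.a₂ 0) (h₃ : O.Ge W.a₃ 0) (h₄ : O.Ge W.a₄ 0)
    (h₆ : O.Ge W.a₆ 0) {x y : K} (h : W.Equation x y) (hx : O.Ge x 0) : O.Ge y 0 := by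
  by_contra hy
  have hy0 : y ≠ 0 := fun h0 => hy (Or.inl h0)
  have hylt : O.ord y < 0 := by
    by_contra hge
    exact hy (Or.inr (not_lt.1 hge))
  have he := fl_equation W h
  have hl : O.Ge (W.a₁ * x + W.a₃) 0 := (h₁.mul0 hx).add h₃
  have hc : O.Ge (x ^ 3 + W.a₂ * x ^ 2 + W.a₄ * x + W.a₆) 0 :=
    (((hx.pow0 3).add (h₂.mul0 (hx.pow0 2))).add (h₄.mul0 hx)).add h₆
  have hs : O.ord (y + (W.a₁ * x + W.a₃)) = O.ord y :=
    (ord_add_eq_of_Gt hy0 (hl.gt_of_lt hylt)).2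
  have hs0 : y + (W.a₁ * x + W.a₃) ≠ 0 :=
    (ord_add_eq_of_Gt hy0 (hl.gt_of_lt hylt)).1
  have hprod : y * (y + (W.a₁ * x + W.a₃)) = x ^ 3 + W.a₂ * x ^ 2 + W.a₄ * x + W.a₆ := by
    rw [← he]; ring
  have hord : O.ord (y * (y + (W.a₁ * x + W.a₃))) = 2 * O.ord y := by
    rw [O.ord_mul hy0 hs0, hs]; ring
  have hne : y * (y + (W.a₁ * x + W.a₃)) ≠ 0 := mul_ne_zero hy0 hs0
  rw [hprod] at hord hne
  have := hc.le_ord hne
  rw [hord] at this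
  linarith

/-- The discriminant in terms of the partial derivatives at a point of the curve. -/
lemma fl_Δ_eq {x y : K} (h : W.Equation x y) :
    W.Δ = -(W.b₂ + 12 * x) ^ 2 *
        (-W.a₁ * (2 * y + W.a₁ * x + W.a₃) * (3 * x ^ 2 + 2 * W.a₂ * x + W.a₄ - W.a₁ * y) +
          (W.a₂ + 3 * x) * (2 * y + W.a₁ * x + W.a₃) ^ 2 -
          (3 * x ^ 2 + 2 * W.a₂ * x + W.a₄ - W.a₁ * y) ^ 2) -
      8 * (2 * (3 * x ^ 2 + 2 * W.a₂ * x + W.a₄ - W.a₁ * y) +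
          W.a₁ * (2 * y + W.a₁ * x + W.a₃)) ^ 3 -
      27 * ((2 * y + W.a₁ * x + W.a₃) ^ 2) ^ 2 +
      9 * (W.b₂ + 12 * x) * (2 * (3 * x ^ 2 + 2 * W.a₂ * x + W.a₄ - W.a₁ * y) +
          W.a₁ * (2 * y + W.a₁ * x + W.a₃)) * (2 * y + W.a₁ * x + W.a₃) ^ 2 := by
  have he := fl_equation W h
  have hf : y ^ 2 + W.a₁ * x * y + W.a₃ * y - (x ^ 3 + W.a₂ * x ^ 2 + W.a₄ * x + W.a₆) = 0 := by
    rw [he]; ring
  have key : ∀ f : K,
      f = y ^ 2 + W.a₁ * x * y + W.a₃ * y - (x ^ 3 + W.a₂ * x ^ 2 + W.a₄ * x + W.a₆) →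
      W.Δ = -(W.b₂ + 12 * x) ^ 2 *
        (-W.a₁ * (2 * y + W.a₁ * x + W.a₃) * (3 * x ^ 2 + 2 * W.a₂ * x + W.a₄ - W.a₁ * y) +
          (W.a₂ + 3 * x) * (2 * y + W.a₁ * x + W.a₃) ^ 2 -
          (3 * x ^ 2 + 2 * W.a₂ * x + W.a₄ - W.a₁ * y) ^ 2 - (W.b₂ + 12 * x) * f) -
      8 * (2 * (3 * x ^ 2 + 2 * W.a₂ * x + W.a₄ - W.a₁ * y) +
          W.a₁ * (2 * y + W.a₁ * x + W.a₃)) ^ 3 -
      27 * ((2 * y + W.a₁ * x + W.a₃) ^ 2 - 4 * f) ^ 2 +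
      9 * (W.b₂ + 12 * x) * (2 * (3 * x ^ 2 + 2 * W.a₂ * x + W.a₄ - W.a₁ * y) +
          W.a₁ * (2 * y + W.a₁ * x + W.a₃)) * ((2 * y + W.a₁ * x + W.a₃) ^ 2 - 4 * f) := by
    intro f hf'
    rw [hf']
    simp only [WeierstrassCurve.Δ, WeierstrassCurve.b₂, WeierstrassCurve.b₄, WeierstrassCurve.b₆,
      WeierstrassCurve.b₈]
    ring
  have := key 0 hf.symm
  simpa using this

variable {O W}

/-- On an integral model with unit discriminant every integral point has nonsingular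
reduction. -/
theorem fl_good_nonsing (hnat : ∀ n : ℕ, O.Ge (n : K) 0)
    (h₁ : O.Ge W.a₁ 0) (h₂ : O.Ge W.a₂ 0) (h₃ : O.Ge W.a₃ 0) (h₄ : O.Ge W.a₄ 0)
    (h₆ : O.Ge W.a₆ 0) (hΔ : O.IsU W.Δ) {x y : K} (h : W.Equation x y) (hx : O.Ge x 0) :
    O.IsU (W.a₁ * y - (3 * x ^ 2 + 2 * W.a₂ * x + W.a₄)) ∨ O.IsU (2 * y + W.a₁ * x + W.a₃) := by
  have hy := fl_yc_int O W h₁ h₂ h₃ h₄ h₆ h hx
  have n2 : O.Ge (2 : K) 0 := by simpa using hnat 2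
  have n3 : O.Ge (3 : K) 0 := by simpa using hnat 3
  have n4 : O.Ge (4 : K) 0 := by simpa using hnat 4
  have n8 : O.Ge (8 : K) 0 := by simpa using hnat 8
  have n9 : O.Ge (9 : K) 0 := by simpa using hnat 9
  have n12 : O.Ge (12 : K) 0 := by simpa using hnat 12
  have n27 : O.Ge (27 : K) 0 := by simpa using hnat 27
  have hu : O.Ge (2 * y + W.a₁ * x + W.a₃) 0 := ((n2.mul0 hy).add (h₁.mul0 hx)).add h₃
  have hv : O.Ge (3 * x ^ 2 + 2 * W.a₂ * x + W.a₄ - W.a₁ * y) 0 :=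
    (((n3.mul0 (hx.pow0 2)).add ((n2.mul0 h₂).mul0 hx)).add h₄).sub (h₁.mul0 hy)
  by_contra hcon
  rw [not_or] at hcon
  obtain ⟨hX, hY⟩ := hcon
  have hv' : O.Ge (W.a₁ * y - (3 * x ^ 2 + 2 * W.a₂ * x + W.a₄)) 0 := by
    have e : W.a₁ * y - (3 * x ^ 2 + 2 * W.a₂ * x + W.a₄) =
        -(3 * x ^ 2 + 2 * W.a₂ * x + W.a₄ - W.a₁ * y) := by ring
    rw [e]; exact hv.neg
  have hXgt : O.Gt (W.a₁ * y - (3 * x ^ 2 + 2 * W.a₂ * x + W.a₄)) 0 := by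
    by_contra hng
    exact hX (isU_of_ge_of_not_gt hv' hng)
  have hYgt : O.Gt (2 * y + W.a₁ * x + W.a₃) 0 := by
    by_contra hng
    exact hY (isU_of_ge_of_not_gt hu hng)
  have hvgt : O.Gt (3 * x ^ 2 + 2 * W.a₂ * x + W.a₄ - W.a₁ * y) 0 := by
    have e : 3 * x ^ 2 + 2 * W.a₂ * x + W.a₄ - W.a₁ * y =
        -(W.a₁ * y - (3 * x ^ 2 + 2 * W.a₂ * x + W.a₄)) := by ring
    rw [e]; exact hXgt.neg
  have hb₂ : O.Ge W.b₂ 0 := by
    simp only [WeierstrassCurve.b₂]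
    exact (by simpa using h₁.pow0 2 : O.Ge (W.a₁ ^ 2) 0).add (n4.mul0 h₂)
  have hB₂ : O.Ge (W.b₂ + 12 * x) 0 := hb₂.add (n12.mul0 hx)
  have hA₂ : O.Ge (W.a₂ + 3 * x) 0 := h₂.add (n3.mul0 hx)
  have hu2 : O.Gt ((2 * y + W.a₁ * x + W.a₃) ^ 2) 0 := by
    rw [pow_two]; exact hYgt.mul_ge0 hu
  have hB₄ : O.Gt (2 * (3 * x ^ 2 + 2 * W.a₂ * x + W.a₄ - W.a₁ * y) +
      W.a₁ * (2 * y + W.a₁ * x + W.a₃)) 0 :=
    (n2.mul_gt0 hvgt).add (h₁.mul_gt0 hYgt)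
  have hB₈ : O.Gt (-W.a₁ * (2 * y + W.a₁ * x + W.a₃) *
      (3 * x ^ 2 + 2 * W.a₂ * x + W.a₄ - W.a₁ * y) +
      (W.a₂ + 3 * x) * (2 * y + W.a₁ * x + W.a₃) ^ 2 -
      (3 * x ^ 2 + 2 * W.a₂ * x + W.a₄ - W.a₁ * y) ^ 2) 0 := by
    refine ((?_ : O.Gt _ 0).add (hA₂.mul_gt0 hu2)).sub ?_
    · exact (h₁.neg.mul0 hu).mul_gt0 hvgt
    · rw [pow_two]; exact hvgt.mul_ge0 hv
  have hΔgt : O.Gt W.Δ 0 := by
    rw [fl_Δ_eq W h]
    refine (((?_ : O.Gt _ 0).sub ?_).sub ?_).add ?_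
    · exact ((hB₂.pow0 2).neg.mul_gt0 hB₈)
    · have : O.Gt ((2 * (3 * x ^ 2 + 2 * W.a₂ * x + W.a₄ - W.a₁ * y) +
          W.a₁ * (2 * y + W.a₁ * x + W.a₃)) ^ 3) 0 := by
        rw [pow_succ]; exact (hB₄.ge.pow0 2).mul_gt0 hB₄
      exact n8.mul_gt0 this
    · have : O.Gt (((2 * y + W.a₁ * x + W.a₃) ^ 2) ^ 2) 0 := by
        rw [pow_two]; exact hu2.mul_ge0 hu2.ge
      exact n27.mul_gt0 this
    · exact ((n9.mul0 hB₂).mul_gt0 hB₄).mul_ge0 hu2.ge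
  exact hΔ.not_gt hΔgt

/-- On a node model (`a₃ = a₆ = 0`, `b₂` a unit, `a₄` in the maximal ideal), every point whose
`x`-coordinate is a unit has nonsingular reduction. -/
theorem fl_node_nonsing (hnat : ∀ n : ℕ, O.Ge (n : K) 0) (ha₃ : W.a₃ = 0) (ha₆ : W.a₆ = 0)
    (h₁ : O.Ge W.a₁ 0) (h₂ : O.Ge W.a₂ 0) (h₄ : O.Gt W.a₄ 0) (hb₂ : O.IsU W.b₂)
    {x y : K} (h : W.Equation x y) (hx : O.IsU x) :
    O.IsU (W.a₁ * y - (3 * x ^ 2 + 2 * W.a₂ * x + W.a₄)) ∨ O.IsU (2 * y + W.a₁ * x + W.a₃) := by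
  have h₃ : O.Ge W.a₃ 0 := by rw [ha₃]; exact Ge.zero 0
  have h₆ : O.Ge W.a₆ 0 := by rw [ha₆]; exact Ge.zero 0
  have hy := fl_yc_int O W h₁ h₂ h₃ h₄.ge h₆ h hx.ge
  have he := fl_equation W h
  have n2 : O.Ge (2 : K) 0 := by simpa using hnat 2
  have n3 : O.Ge (3 : K) 0 := by simpa using hnat 3
  have n4 : O.Ge (4 : K) 0 := by simpa using hnat 4
  have n6 : O.Ge (6 : K) 0 := by simpa using hnat 6
  have hu : O.Ge (2 * y + W.a₁ * x + W.a₃) 0 := ((n2.mul0 hy).add (h₁.mul0 hx.ge)).add h₃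
  have hv' : O.Ge (W.a₁ * y - (3 * x ^ 2 + 2 * W.a₂ * x + W.a₄)) 0 :=
    (h₁.mul0 hy).sub (((n3.mul0 (hx.ge.pow0 2)).add ((n2.mul0 h₂).mul0 hx.ge)).add h₄.ge)
  by_contra hcon
  rw [not_or] at hcon
  obtain ⟨hX, hY⟩ := hcon
  have hXgt : O.Gt (W.a₁ * y - (3 * x ^ 2 + 2 * W.a₂ * x + W.a₄)) 0 := by
    by_contra hng
    exact hX (isU_of_ge_of_not_gt hv' hng)
  have hYgt : O.Gt (2 * y + W.a₁ * x + W.a₃) 0 := by
    by_contra hng
    exact hY (isU_of_ge_of_not_gt hu hng)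
  -- `x² (4x + b₂) = ψ² - 4 a₄ x`
  have e1 : x ^ 2 * (4 * x + W.b₂) = (2 * y + W.a₁ * x + W.a₃) ^ 2 - 4 * W.a₄ * x := by
    simp only [WeierstrassCurve.b₂]
    rw [ha₃, ha₆] at he
    rw [ha₃]
    linear_combination (-4) * he
  have h1 : O.Gt (x ^ 2 * (4 * x + W.b₂)) 0 := by
    rw [e1]
    refine (?_ : O.Gt _ 0).sub ((n4.mul_gt0 h₄).mul_ge0 hx.ge)
    rw [pow_two]; exact hYgt.mul_ge0 hu
  have h1' : O.Gt (4 * x + W.b₂) 0 := by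
    have := h1.mul_isU (hx.pow 2).inv
    have e : x ^ 2 * (4 * x + W.b₂) * (x ^ 2)⁻¹ = 4 * x + W.b₂ := by
      field_simp [hx.1]
    rwa [e] at this
  -- `x (6x + b₂) = a₁ ψ - 2 F_X - 2 a₄`
  have e2 : x * (6 * x + W.b₂) = W.a₁ * (2 * y + W.a₁ * x + W.a₃) -
      2 * (W.a₁ * y - (3 * x ^ 2 + 2 * W.a₂ * x + W.a₄)) - 2 * W.a₄ := by
    simp only [WeierstrassCurve.b₂]
    rw [ha₃]
    ring
  have h2 : O.Gt (x * (6 * x + W.b₂)) 0 := by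
    rw [e2]
    exact ((h₁.mul_gt0 hYgt).sub (n2.mul_gt0 hXgt)).sub (n2.mul_gt0 h₄)
  have h2' : O.Gt (6 * x + W.b₂) 0 := by
    have := h2.mul_isU hx.inv
    have e : x * (6 * x + W.b₂) * x⁻¹ = 6 * x + W.b₂ := by
      field_simp [hx.1]
    rwa [e] at this
  have hb : O.Gt W.b₂ 0 := by
    have e : W.b₂ = 3 * (4 * x + W.b₂) - 2 * (6 * x + W.b₂) := by ring
    rw [e]
    exact (n3.mul_gt0 h1').sub (n2.mul_gt0 h2')
  exact hb₂.not_gt hb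

end General

section Frey

variable (P : FreyPackage)

/-- `4 ∣ b^p - 1 - a^p`. -/
lemma fl_four_dvd : (4 : ℤ) ∣ P.b ^ P.p - 1 - P.a ^ P.p := by
  have hcast : ((4 : ℕ) : ℤ) = 4 := by norm_num
  rw [← hcast, ← ZMod.intCast_zmod_eq_zero_iff_dvd]
  push_cast
  obtain ⟨k, hk⟩ := P.hp_odd
  have hb : (4 : ℤ) ∣ P.b ^ P.p := by
    obtain ⟨b', hb'⟩ := fa2_two_dvd_b P
    have h2 : 2 ≤ P.p := by have := P.hp5; omega
    obtain ⟨m, hm⟩ := Nat.exists_eq_add_of_le h2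
    exact ⟨2 ^ m * b' ^ (2 + m), by rw [hb', hm]; ring⟩
  have hb' : ((P.b : ZMod 4)) ^ P.p = 0 := by
    have := (ZMod.intCast_zmod_eq_zero_iff_dvd (P.b ^ P.p) 4).2 (by simpa using hb)
    push_cast at this
    exact this
  have h3 : ((3 : ZMod 4)) ^ 2 = 1 := by decide
  rw [hb', P.ha4, hk, pow_succ, pow_mul, h3, one_pow]
  decide

/-- `16 ∣ a^p b^p`. -/
lemma fl_sixteen_dvd : (16 : ℤ) ∣ -(P.a ^ P.p) * (P.b ^ P.p) := by
  obtain ⟨b', hb'⟩ := fa2_two_dvd_b P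
  have h4 : 4 ≤ P.p := by have := P.hp5; omega
  obtain ⟨m, hm⟩ := Nat.exists_eq_add_of_le h4
  rw [hb', hm, mul_pow, pow_add]
  exact Dvd.intro (-(P.a ^ (4 + m)) * (2 ^ m * b' ^ (4 + m))) (by ring)

lemma fl_a₂_eq_int : ((P.freyCurve : WeierstrassCurve.Affine ℚ)⁄(AlgebraicClosure ℚ)).a₂ =
    ((P.freyCurveInt.a₂ : ℤ) : AlgebraicClosure ℚ) := by
  obtain ⟨m, hm⟩ := fl_four_dvd P
  have h1 : P.freyCurveInt.a₂ = m := by
    simp only [FreyPackage.freyCurveInt]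
    rw [hm]
    exact Int.mul_ediv_cancel_left m (by norm_num)
  rw [h1, fa2_a₂]
  have h2 : frBp P - 1 - frAp P = ((4 * m : ℤ) : AlgebraicClosure ℚ) := by
    rw [← hm]
    simp only [frAp, frBp]
    push_cast
    ring
  rw [h2]
  push_cast
  field_simp

lemma fl_a₄_eq_int : ((P.freyCurve : WeierstrassCurve.Affine ℚ)⁄(AlgebraicClosure ℚ)).a₄ =
    ((P.freyCurveInt.a₄ : ℤ) : AlgebraicClosure ℚ) := by
  obtain ⟨m, hm⟩ := fl_sixteen_dvd P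
  have h1 : P.freyCurveInt.a₄ = m := by
    simp only [FreyPackage.freyCurveInt]
    rw [hm]
    exact Int.mul_ediv_cancel_left m (by norm_num)
  rw [h1, fa2_a₄]
  have h2 : -(frAp P * frBp P) = ((16 * m : ℤ) : AlgebraicClosure ℚ) := by
    rw [← hm]
    simp only [frAp, frBp]
    push_cast
    ring
  rw [h2]
  push_cast
  field_simp

/-- The Frey curve over `ℚ̄` is the base change of the integral Frey curve. -/
theorem fl_EC_eq_map : ((P.freyCurve : WeierstrassCurve.Affine ℚ)⁄(AlgebraicClosure ℚ)) =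
    P.freyCurveInt.map (Int.castRingHom (AlgebraicClosure ℚ)) := by
  ext
  · rw [fa2_a₁]; simp [FreyPackage.freyCurveInt]
  · rw [fl_a₂_eq_int]; simp
  · rw [fa2_a₃]; simp [FreyPackage.freyCurveInt]
  · rw [fl_a₄_eq_int]; simp
  · rw [fa2_a₆]; simp [FreyPackage.freyCurveInt]

/-- The discriminant of the Frey curve. -/
theorem fl_Δ : ((P.freyCurve : WeierstrassCurve.Affine ℚ)⁄(AlgebraicClosure ℚ)).Δ =
    (frAp P * frBp P * frCp P) ^ 2 / 256 := by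
  simp only [WeierstrassCurve.Δ]
  rw [frey_b₂, frey_b₄, frey_b₆, frey_b₈, ← frABC]
  ring

variable {A : ValuationSubring (AlgebraicClosure ℚ)} {q : ℕ}
  {O : OrdVal (AlgebraicClosure ℚ)} (D : PlaceData A q O)
include D

lemma fl_a₁_ge : O.Ge ((P.freyCurve : WeierstrassCurve.Affine ℚ)⁄(AlgebraicClosure ℚ)).a₁ 0 := by
  rw [fa2_a₁]; exact (isU_one : O.IsU 1).ge

lemma fl_a₂_ge : O.Ge ((P.freyCurve : WeierstrassCurve.Affine ℚ)⁄(AlgebraicClosure ℚ)).a₂ 0 := by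
  rw [fl_a₂_eq_int]; exact D.int_ge _

lemma fl_a₃_ge : O.Ge ((P.freyCurve : WeierstrassCurve.Affine ℚ)⁄(AlgebraicClosure ℚ)).a₃ 0 := by
  rw [fa2_a₃]; exact Ge.zero 0

lemma fl_a₄_ge : O.Ge ((P.freyCurve : WeierstrassCurve.Affine ℚ)⁄(AlgebraicClosure ℚ)).a₄ 0 := by
  rw [fl_a₄_eq_int]; exact D.int_ge _

lemma fl_a₆_ge : O.Ge ((P.freyCurve : WeierstrassCurve.Affine ℚ)⁄(AlgebraicClosure ℚ)).a₆ 0 := by
  rw [fa2_a₆]; exact Ge.zero 0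

/-- `q ∣ c` implies `q` odd. -/
lemma fl_odd_of_dvd_c (hc : (q : ℤ) ∣ P.c) : q ≠ 2 := by
  rintro rfl
  have hb : ((2 : ℕ) : ℤ) ∣ P.b := by simpa using fa2_two_dvd_b P
  have hgcd : gcd P.c P.b = 1 := by rw [gcd_comm]; exact P.hgcdbc
  exact not_dvd_of_gcd hgcd Nat.prime_two hc hb

/-- `q ∣ a` implies `q` odd. -/
lemma fl_odd_of_dvd_a (ha : (q : ℤ) ∣ P.a) : q ≠ 2 := by
  rintro rfl
  exact fa2_two_not_dvd_a P (by simpa using ha)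

/-- Good reduction: the discriminant is a unit at `q ∤ 2abc`. -/
theorem fl_Δ_isU (hq2 : q ≠ 2) (ha : ¬ (q : ℤ) ∣ P.a) (hb : ¬ (q : ℤ) ∣ P.b)
    (hc : ¬ (q : ℤ) ∣ P.c) :
    O.IsU ((P.freyCurve : WeierstrassCurve.Affine ℚ)⁄(AlgebraicClosure ℚ)).Δ := by
  rw [fl_Δ]
  have h256 : O.IsU (256 : AlgebraicClosure ℚ) := by
    have : (256 : AlgebraicClosure ℚ) = 2 ^ 8 := by norm_num
    rw [this]; exact (two_isU D hq2).pow 8
  exact ((((pow_isU D ha _).mul (pow_isU D hb _)).mul (pow_isU D hc _)).pow 2).div h256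

/-- Node facts at `q ∣ a` (`q` is then odd): `b₂` is a unit, `a₄ ≠ 0`,
`ord a₄ = p * ord a > 0`. -/
theorem fl_node_a (ha : (q : ℤ) ∣ P.a) :
    O.IsU ((P.freyCurve : WeierstrassCurve.Affine ℚ)⁄(AlgebraicClosure ℚ)).b₂ ∧
    ((P.freyCurve : WeierstrassCurve.Affine ℚ)⁄(AlgebraicClosure ℚ)).a₄ ≠ 0 ∧
    0 < O.ord ((P.freyCurve : WeierstrassCurve.Affine ℚ)⁄(AlgebraicClosure ℚ)).a₄ ∧
    O.ord ((P.freyCurve : WeierstrassCurve.Affine ℚ)⁄(AlgebraicClosure ℚ)).a₄ =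
      P.p * O.ord ((P.a : ℤ) : AlgebraicClosure ℚ) := by
  have hq2 := fl_odd_of_dvd_a P D ha
  have hb : ¬ (q : ℤ) ∣ P.b := not_dvd_of_gcd P.hgcdab D.hq ha
  have hA' : O.Gt (frAp P) 0 := pow_gt D ha P.hp0
  have hB' : O.IsU (frBp P) := pow_isU D hb _
  have hA0 : frAp P ≠ 0 := int_pow_ne P.ha0 _
  have h16 := sixteen_isU D hq2
  have ht0 : ((P.a : ℤ) : AlgebraicClosure ℚ) ≠ 0 := Int.cast_ne_zero.2 P.ha0
  have hαt : O.ord (-(frAp P * frBp P) / 16) = P.p * O.ord ((P.a : ℤ) : AlgebraicClosure ℚ) := by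
    rw [O.ord_div (neg_ne_zero.2 (mul_ne_zero hA0 hB'.1)) h16.1, O.ord_neg,
      O.ord_mul hA0 hB'.1, hB'.2, h16.2, frAp, O.ord_pow ht0]
    ring
  have htpos : 0 < O.ord ((P.a : ℤ) : AlgebraicClosure ℚ) := (D.int_gt ha).lt_ord ht0
  refine ⟨?_, ?_, ?_, ?_⟩
  · rw [frey_b₂]; exact hB'.sub_gt hA'
  · rw [fa2_a₄]
    exact div_ne_zero (neg_ne_zero.2 (mul_ne_zero hA0 hB'.1)) h16.1
  · rw [fa2_a₄, hαt]
    have : (0 : ℚ) < P.p := by exact_mod_cast P.hppos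
    positivity
  · rw [fa2_a₄, hαt]

/-- Node facts at odd `q ∣ b`: `b₂` is a unit, `a₄ ≠ 0`, `ord a₄ = p * ord b > 0`. -/
theorem fl_node_b (hq2 : q ≠ 2) (hb : (q : ℤ) ∣ P.b) :
    O.IsU ((P.freyCurve : WeierstrassCurve.Affine ℚ)⁄(AlgebraicClosure ℚ)).b₂ ∧
    ((P.freyCurve : WeierstrassCurve.Affine ℚ)⁄(AlgebraicClosure ℚ)).a₄ ≠ 0 ∧
    0 < O.ord ((P.freyCurve : WeierstrassCurve.Affine ℚ)⁄(AlgebraicClosure ℚ)).a₄ ∧
    O.ord ((P.freyCurve : WeierstrassCurve.Affine ℚ)⁄(AlgebraicClosure ℚ)).a₄ =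
      P.p * O.ord ((P.b : ℤ) : AlgebraicClosure ℚ) := by
  have hgcd : gcd P.b P.a = 1 := by rw [gcd_comm]; exact P.hgcdab
  have ha : ¬ (q : ℤ) ∣ P.a := not_dvd_of_gcd hgcd D.hq hb
  have hB' : O.Gt (frBp P) 0 := pow_gt D hb P.hp0
  have hA' : O.IsU (frAp P) := pow_isU D ha _
  have hB0 : frBp P ≠ 0 := int_pow_ne P.hb0 _
  have h16 := sixteen_isU D hq2
  have ht0 : ((P.b : ℤ) : AlgebraicClosure ℚ) ≠ 0 := Int.cast_ne_zero.2 P.hb0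
  have hαt : O.ord (-(frAp P * frBp P) / 16) = P.p * O.ord ((P.b : ℤ) : AlgebraicClosure ℚ) := by
    rw [O.ord_div (neg_ne_zero.2 (mul_ne_zero hA'.1 hB0)) h16.1, O.ord_neg,
      O.ord_mul hA'.1 hB0, hA'.2, h16.2, frBp, O.ord_pow ht0]
    ring
  have htpos : 0 < O.ord ((P.b : ℤ) : AlgebraicClosure ℚ) := (D.int_gt hb).lt_ord ht0
  refine ⟨?_, ?_, ?_, ?_⟩
  · rw [frey_b₂]
    have e : frBp P - frAp P = -(frAp P - frBp P) := by ring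
    rw [e]
    exact (hA'.sub_gt hB').neg
  · rw [fa2_a₄]
    exact div_ne_zero (neg_ne_zero.2 (mul_ne_zero hA'.1 hB0)) h16.1
  · rw [fa2_a₄, hαt]
    have : (0 : ℚ) < P.p := by exact_mod_cast P.hppos
    positivity
  · rw [fa2_a₄, hαt]

end Frey

section FreyC

/-! ### The translated model at `q ∣ c` (node of the reduction at `x = a^p/4`) -/

variable (P : FreyPackage)

/-- `r = a^p / 4`, the `x`-coordinate of the node at `q ∣ c`. -/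
noncomputable def fl_r : AlgebraicClosure ℚ := frAp P / 4

/-- `t = -a^p / 8`, the `y`-coordinate of the node at `q ∣ c`. -/
noncomputable def fl_t : AlgebraicClosure ℚ := -(frAp P) / 8

/-- The Frey model translated by `(r, t)`: `Y² + XY = X³ + ((a^p + c^p - 1)/4) X² +
(a^p c^p / 16) X`. -/
noncomputable def fl_Wc : WeierstrassCurve.Affine (AlgebraicClosure ℚ) :=
  WeierstrassCurve.VariableChange.mk 1 (fl_r P) 0 (fl_t P) •
    ((P.freyCurve : WeierstrassCurve.Affine ℚ)⁄(AlgebraicClosure ℚ))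

lemma fl_Wc_a₁ : (fl_Wc P).a₁ = 1 := by
  simp only [fl_Wc, WeierstrassCurve.variableChange_a₁, fa2_a₁]
  simp

lemma fl_Wc_a₂ : (fl_Wc P).a₂ = (frAp P + frCp P - 1) / 4 := by
  simp only [fl_Wc, WeierstrassCurve.variableChange_a₂, fa2_a₁, fa2_a₂, fl_r, ← frABC]
  simp
  ring

lemma fl_Wc_a₃ : (fl_Wc P).a₃ = 0 := by
  simp only [fl_Wc, WeierstrassCurve.variableChange_a₃, fa2_a₁, fa2_a₃, fl_r, fl_t]
  simp
  ring

lemma fl_Wc_a₄ : (fl_Wc P).a₄ = frAp P * frCp P / 16 := by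
  simp only [fl_Wc, WeierstrassCurve.variableChange_a₄, fa2_a₁, fa2_a₂, fa2_a₃, fa2_a₄, fl_r,
    fl_t, ← frABC]
  simp
  ring

lemma fl_Wc_a₆ : (fl_Wc P).a₆ = 0 := by
  simp only [fl_Wc, WeierstrassCurve.variableChange_a₆, fa2_a₁, fa2_a₂, fa2_a₃, fa2_a₄, fa2_a₆,
    fl_r, fl_t]
  simp
  ring

lemma fl_Wc_b₂ : (fl_Wc P).b₂ = frAp P + frCp P := by
  simp only [WeierstrassCurve.b₂, fl_Wc_a₁, fl_Wc_a₂]
  ring

variable {A : ValuationSubring (AlgebraicClosure ℚ)} {q : ℕ}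
  {O : OrdVal (AlgebraicClosure ℚ)} (D : PlaceData A q O)
include D

lemma fl_r_ge (hq2 : q ≠ 2) : O.Ge (fl_r P) 0 := by
  rw [fl_r, div_eq_mul_inv]
  exact (pow_ge D P.a P.p).mul0 (four_isU D hq2).inv.ge

lemma fl_t_ge (hq2 : q ≠ 2) : O.Ge (fl_t P) 0 := by
  have h8 : O.IsU (8 : AlgebraicClosure ℚ) := by
    have : (8 : AlgebraicClosure ℚ) = 2 ^ 3 := by norm_num
    rw [this]; exact (two_isU D hq2).pow 3
  rw [fl_t, div_eq_mul_inv]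
  exact (pow_ge D P.a P.p).neg.mul0 h8.inv.ge

lemma fl_Wc_a₂_ge (hq2 : q ≠ 2) : O.Ge (fl_Wc P).a₂ 0 := by
  rw [fl_Wc_a₂, div_eq_mul_inv]
  exact (((pow_ge D P.a P.p).add (pow_ge D P.c P.p)).sub (isU_one : O.IsU 1).ge).mul0
    (four_isU D hq2).inv.ge

/-- Node facts for the translated model at `q ∣ c` (`q` is then odd): `b₂'` is a unit,
`a₄' ≠ 0`, `ord a₄' = p * ord c > 0`. -/
theorem fl_node_c (hc : (q : ℤ) ∣ P.c) :
    O.IsU (fl_Wc P).b₂ ∧ (fl_Wc P).a₄ ≠ 0 ∧ 0 < O.ord (fl_Wc P).a₄ ∧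
    O.ord (fl_Wc P).a₄ = P.p * O.ord ((P.c : ℤ) : AlgebraicClosure ℚ) := by
  have hq2 := fl_odd_of_dvd_c P D hc
  have hgcd : gcd P.c P.a = 1 := by rw [gcd_comm]; exact P.hgcdac
  have ha : ¬ (q : ℤ) ∣ P.a := not_dvd_of_gcd hgcd D.hq hc
  have hC' : O.Gt (frCp P) 0 := pow_gt D hc P.hp0
  have hA' : O.IsU (frAp P) := pow_isU D ha _
  have hC0 : frCp P ≠ 0 := int_pow_ne P.hc0 _
  have h16 := sixteen_isU D hq2
  have ht0 : ((P.c : ℤ) : AlgebraicClosure ℚ) ≠ 0 := Int.cast_ne_zero.2 P.hc0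
  have hαt : O.ord (frAp P * frCp P / 16) = P.p * O.ord ((P.c : ℤ) : AlgebraicClosure ℚ) := by
    rw [O.ord_div (mul_ne_zero hA'.1 hC0) h16.1, O.ord_mul hA'.1 hC0, hA'.2, h16.2, frCp,
      O.ord_pow ht0]
    ring
  have htpos : 0 < O.ord ((P.c : ℤ) : AlgebraicClosure ℚ) := (D.int_gt hc).lt_ord ht0
  refine ⟨?_, ?_, ?_, ?_⟩
  · rw [fl_Wc_b₂]; exact hA'.add_gt hC'
  · rw [fl_Wc_a₄]; exact div_ne_zero (mul_ne_zero hA'.1 hC0) h16.1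
  · rw [fl_Wc_a₄, hαt]
    have : (0 : ℚ) < P.p := by exact_mod_cast P.hppos
    positivity
  · rw [fl_Wc_a₄, hαt]

end FreyC

end Fermat.Agent.M13
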