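import Fermat.Agent.M13.LocBasic

/-!
# M13 / LOC (L1): congruent points with nonsingular reduction differ by an element of `E¹`

`loc_sub_some` / `loc_sub_mem_E1`: if `P`, `P'` are integral points, congruent modulo the maximal
ideal, and the reduction of `P` is nonsingular (one of the partial derivatives is a unit), then
`P' - P` lies in the kernel of reduction.  Valid in every residue characteristic.
-/

set_option autoImplicit false
set_option linter.unusedSectionVars false
set_option linter.unusedVariables false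

namespace Fermat.Agent.M13

open WeierstrassCurve WeierstrassCurve.Affine Fermat.Agent.S05 Fermat.Agent.S05.OrdVal

variable {K : Type*} [Field K] [DecidableEq K]
variable {W : WeierstrassCurve.Affine K} {O : OrdVal K}

/-- the partial derivative `-F_X = a₁ y - (3x² + 2 a₂ x + a₄)` at a point -/
def loc_FX (P : W.Point) : K :=
  W.a₁ * yc P - (3 * xc P ^ 2 + 2 * W.a₂ * xc P + W.a₄)

@[simp] lemma loc_FX_some {x y : K} (h : W.Nonsingular x y) :
    loc_FX (Point.some x y h) = W.a₁ * y - (3 * x ^ 2 + 2 * W.a₂ * x + W.a₄) := rfl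

/-- If the slope has negative order, the `x`-coordinate of the sum has negative order. -/
lemma loc_addX_ord (I : loc_Int W O) {x₁ x₂ ℓ : K} (hx₁ : O.Ge x₁ 0) (hx₂ : O.Ge x₂ 0)
    (hℓ0 : ℓ ≠ 0) (hℓ : O.ord ℓ < 0) :
    W.addX x₁ x₂ ℓ ≠ 0 ∧ O.ord (W.addX x₁ x₂ ℓ) = 2 * O.ord ℓ := by
  have hmain0 : ℓ ^ 2 ≠ 0 := pow_ne_zero 2 hℓ0
  have hmain : O.ord (ℓ ^ 2) = 2 * O.ord ℓ := ord_sq hℓ0
  have hℓge : O.Ge ℓ (O.ord ℓ) := loc_ge_self
  have hrest : O.Ge (W.a₁ * ℓ - W.a₂ - x₁ - x₂) (O.ord ℓ) := by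
    refine ((Ge.sub ?_ ?_).sub ?_).sub ?_
    · exact loc_ge_mul I.ha₁ hℓge (by linarith)
    · exact I.ha₂.mono hℓ.le
    · exact hx₁.mono hℓ.le
    · exact hx₂.mono hℓ.le
  have hgt : O.Gt (W.a₁ * ℓ - W.a₂ - x₁ - x₂) (O.ord (ℓ ^ 2)) := by
    rw [hmain]; exact hrest.gt_of_lt (by linarith)
  have e : W.addX x₁ x₂ ℓ = ℓ ^ 2 + (W.a₁ * ℓ - W.a₂ - x₁ - x₂) := by
    rw [addX]; ring
  rw [e]
  obtain ⟨h0, h1⟩ := ord_add_eq_of_Gt hmain0 hgt
  exact ⟨h0, by rw [h1, hmain]⟩

/-- a quotient `n / d` with `ord n < ord d` has negative order -/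
lemma loc_div_ord {n d : K} (hn : n ≠ 0) (hd : d ≠ 0) (h : O.ord n < O.ord d) :
    n / d ≠ 0 ∧ O.ord (n / d) < 0 := by
  refine ⟨div_ne_zero hn hd, ?_⟩
  rw [O.ord_div hn hd]; linarith

/-- **(L1)**, coordinate form. -/
theorem loc_sub_some (I : loc_Int W O) {x y x' y' : K} (h : W.Nonsingular x y)
    (h' : W.Nonsingular x' y') (hx : O.Ge x 0) (hy : O.Ge y 0)
    (hdx : O.Gt (x' - x) 0) (hdy : O.Gt (y' - y) 0)
    (hns : O.IsU (2 * y + W.a₁ * x + W.a₃) ∨
      O.IsU (W.a₁ * y - (3 * x ^ 2 + 2 * W.a₂ * x + W.a₄))) :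
    loc_E1 O (Point.some x' y' h' - Point.some x y h) := by
  have hx' : O.Ge x' 0 := by
    have := hdx.ge.add hx
    simpa using this
  have hy' : O.Ge y' 0 := by
    have := hdy.ge.add hy
    simpa using this
  rw [sub_eq_add_neg, Point.neg_some]
  by_cases hxx : x' = x
  · subst hxx
    rcases Y_eq_of_X_eq h'.1 h.1 rfl with hyy | hyy
    · subst hyy
      left
      exact Point.add_of_Y_eq rfl (negY_negY _ _).symm
    · -- `P' = -P`
      by_cases hyy' : y' = y
      · subst hyy'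
        left
        exact Point.add_of_Y_eq rfl (negY_negY _ _).symm
      -- `F_Y` is not a unit
      have hFY : 2 * y + W.a₁ * x' + W.a₃ = -(y' - y) := by
        rw [hyy, negY]; ring
      have hFX : O.IsU (W.a₁ * y - (3 * x' ^ 2 + 2 * W.a₂ * x' + W.a₄)) := by
        rcases hns with hns | hns
        · exfalso
          rw [hFY] at hns
          exact hns.not_gt hdy.neg
        · exact hns
      have hd0 : y' - y ≠ 0 := sub_ne_zero.2 hyy'
      have hdpos : 0 < O.ord (y' - y) := hdy.lt_ord hd0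
      have hne : y' ≠ W.negY x' (W.negY x' y) := by
        rw [negY_negY]; exact hyy'
      have hadd := Point.add_of_Y_ne (h₁ := h') (h₂ := (nonsingular_neg x' y).mpr h) hne
      rw [hadd]
      right
      simp only [xc_some]
      rw [slope_of_Y_ne rfl hne]
      -- numerator is a unit
      have hnum : O.IsU (3 * x' ^ 2 + 2 * W.a₂ * x' + W.a₄ - W.a₁ * y') := by
        have e : 3 * x' ^ 2 + 2 * W.a₂ * x' + W.a₄ - W.a₁ * y' =
            -((W.a₁ * y - (3 * x' ^ 2 + 2 * W.a₂ * x' + W.a₄)) + W.a₁ * (y' - y)) := by ring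
        rw [e]
        exact (hFX.add_gt (I.ha₁.mul_gt0 hdy)).neg
      have hden : y' - W.negY x' y' = y' - y := by
        rw [hyy, negY_negY]
      rw [hden]
      have hlt : O.ord (3 * x' ^ 2 + 2 * W.a₂ * x' + W.a₄ - W.a₁ * y') < O.ord (y' - y) := by
        rw [hnum.2]; exact hdpos
      obtain ⟨hℓ0, hℓ⟩ := loc_div_ord hnum.1 hd0 hlt
      obtain ⟨hX0, hXord⟩ := loc_addX_ord I hx' hx' hℓ0 hℓ
      exact ⟨hX0, by rw [hXord]; linarith⟩
  · have hd0 : x' - x ≠ 0 := sub_ne_zero.2 hxx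
    have hdpos : 0 < O.ord (x' - x) := hdx.lt_ord hd0
    have hadd := Point.add_of_X_ne (h₁ := h') (h₂ := (nonsingular_neg x y).mpr h) hxx
    rw [hadd]
    right
    simp only [xc_some]
    rw [slope_of_X_ne hxx]
    have hn : y' - W.negY x y ≠ 0 ∧ O.ord (y' - W.negY x y) < O.ord (x' - x) := by
      rcases hns with hns | hns
      · have e : y' - W.negY x y = (2 * y + W.a₁ * x + W.a₃) + (y' - y) := by rw [negY]; ring
        have hU := hns.add_gt hdy
        rw [← e] at hU
        exact ⟨hU.1, by rw [hU.2]; exact hdpos⟩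
      · -- use the difference of the two curve equations
        have he := (equation_iff x y).1 h.1
        have he' := (equation_iff x' y').1 h'.1
        set m := W.a₁ * y - (x' ^ 2 + x' * x + x ^ 2) - W.a₂ * (x' + x) - W.a₄ with hm
        have hmU : O.IsU m := by
          have e : m = (W.a₁ * y - (3 * x ^ 2 + 2 * W.a₂ * x + W.a₄)) +
              (x' - x) * (-(x' + 2 * x) - W.a₂) := by rw [hm]; ring
          rw [e]
          refine hns.add_gt (hdx.mul_ge0 ?_)
          exact ((hx'.add (I.h2.mul0 hx)).neg).sub I.ha₂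
        have key : (y' - y) * ((y' - W.negY x y) + W.a₁ * (x' - x)) = -((x' - x) * m) := by
          rw [hm, negY]
          linear_combination he' - he
        have hrhs0 : -((x' - x) * m) ≠ 0 := neg_ne_zero.2 (mul_ne_zero hd0 hmU.1)
        have hdy0 : y' - y ≠ 0 := by
          intro h0; rw [h0, zero_mul] at key; exact hrhs0 key.symm
        have hN0 : (y' - W.negY x y) + W.a₁ * (x' - x) ≠ 0 := by
          intro h0; rw [h0, mul_zero] at key; exact hrhs0 key.symm
        have hord := congrArg O.ord key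
        rw [O.ord_mul hdy0 hN0, O.ord_neg, ord_mul_isU hd0 hmU] at hord
        have hdypos : 0 < O.ord (y' - y) := hdy.lt_ord hdy0
        have hNlt : O.ord ((y' - W.negY x y) + W.a₁ * (x' - x)) < O.ord (x' - x) := by linarith
        have hgt : O.Gt (W.a₁ * (x' - x)) (O.ord ((y' - W.negY x y) + W.a₁ * (x' - x))) := by
          have : O.Ge (W.a₁ * (x' - x)) (O.ord (x' - x)) :=
            loc_ge_mul I.ha₁ loc_ge_self (by linarith)
          exact this.gt_of_lt hNlt
        obtain ⟨h0, h1⟩ := ord_sub_eq_of_Gt hN0 hgt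
        have e : (y' - W.negY x y) + W.a₁ * (x' - x) - W.a₁ * (x' - x) = y' - W.negY x y := by
          ring
        rw [e] at h0 h1
        exact ⟨h0, by rw [h1]; exact hNlt⟩
    obtain ⟨hℓ0, hℓ⟩ := loc_div_ord hn.1 hd0 hn.2
    obtain ⟨hX0, hXord⟩ := loc_addX_ord I hx' hx hℓ0 hℓ
    exact ⟨hX0, by rw [hXord]; linarith⟩

/-- **(L1)** If `P`, `P'` are integral points which are congruent modulo the maximal ideal and
the reduction of `P` is nonsingular, then `P' - P` lies in the kernel of reduction. -/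
theorem loc_sub_mem_E1 (I : loc_Int W O) {P P' : W.Point} (hP : P ≠ 0) (hP' : P' ≠ 0)
    (hx : O.Ge (xc P) 0) (hdx : O.Gt (xc P' - xc P) 0) (hdy : O.Gt (yc P' - yc P) 0)
    (hns : O.IsU (psi P) ∨ O.IsU (loc_FX P)) :
    loc_E1 O (P' - P) := by
  cases P with
  | zero => exact absurd rfl hP
  | some x y h =>
    cases P' with
    | zero => exact absurd rfl hP'
    | some x' y' h' =>
      simp only [xc_some, yc_some, psi_some, loc_FX_some] at hx hdx hdy hns
      exact loc_sub_some I h h' hx (loc_y_int I h.1 hx) hdx hdy hns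

/-- An "inertia-like" automorphism acting on points (with `y`-coordinates). -/
structure loc_Inertial (W : WeierstrassCurve.Affine K) (O : OrdVal K) (φ : W.Point →+ W.Point)
    (σ : K →+* K) : Prop where
  ne_zero : ∀ P : W.Point, P ≠ 0 → φ P ≠ 0
  xc_eq : ∀ P : W.Point, P ≠ 0 → xc (φ P) = σ (xc P)
  yc_eq : ∀ P : W.Point, P ≠ 0 → yc (φ P) = σ (yc P)
  ord_eq : ∀ z : K, z ≠ 0 → O.ord (σ z) = O.ord z
  sub_gt : ∀ z : K, O.Ge z 0 → O.Gt (σ z - z) 0
  fix_a₁ : σ W.a₁ = W.a₁
  fix_a₂ : σ W.a₂ = W.a₂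

namespace loc_Inertial

variable {φ : W.Point →+ W.Point} {σ : K →+* K} (H : loc_Inertial W O φ σ)
include H

lemma map_ne_zero {z : K} (hz : z ≠ 0) : σ z ≠ 0 := by
  intro h
  exact hz ((map_eq_zero σ).1 h)

lemma ge_map {z : K} {r : ℚ} (hz : O.Ge z r) : O.Ge (σ z) r := by
  rcases hz with hz | hz
  · left; rw [hz, map_zero]
  · by_cases h0 : z = 0
    · left; rw [h0, map_zero]
    · right; rwa [H.ord_eq z h0]

lemma gt_map {z : K} {r : ℚ} (hz : O.Gt z r) : O.Gt (σ z) r := by
  rcases hz with hz | hz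
  · left; rw [hz, map_zero]
  · by_cases h0 : z = 0
    · left; rw [h0, map_zero]
    · right; rwa [H.ord_eq z h0]

lemma E1_map {P : W.Point} (hP : loc_E1 O P) : loc_E1 O (φ P) := by
  rcases hP with hP | ⟨h0, h1⟩
  · left; rw [hP, map_zero]
  · have hPne : P ≠ 0 := by rintro rfl; exact h0 rfl
    right
    rw [H.xc_eq P hPne]
    exact ⟨H.map_ne_zero h0, by rw [H.ord_eq _ h0]; exact h1⟩

/-- For an integral point with nonsingular reduction, `φ P - P` is in the kernel of reduction. -/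
theorem sub_mem_E1 (I : loc_Int W O) {P : W.Point} (hP : P ≠ 0) (hx : O.Ge (xc P) 0)
    (hns : O.IsU (psi P) ∨ O.IsU (loc_FX P)) : loc_E1 O (φ P - P) := by
  have hy : O.Ge (yc P) 0 := by
    cases P with
    | zero => exact absurd rfl hP
    | some x y h => exact loc_y_int I h.1 hx
  refine loc_sub_mem_E1 I hP (H.ne_zero P hP) hx ?_ ?_ hns
  · rw [H.xc_eq P hP]; exact H.sub_gt _ hx
  · rw [H.yc_eq P hP]; exact H.sub_gt _ hy

/-- For a point of the kernel of reduction, `φ P - P` is in the kernel of reduction. -/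
theorem sub_mem_E1_of_E1 (I : loc_Int W O) {P : W.Point} (hP : loc_E1 O P) :
    loc_E1 O (φ P - P) :=
  loc_E1_sub I (H.E1_map hP) hP

end loc_Inertial

end Fermat.Agent.M13
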