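import Mathlib

/-!
# S13, package [UNIP]: unipotent filtrations on a group of order `p ^ 2`

Pure group theory.  `V` is an additive group of order `p ^ 2`, `N0` is a line
(a subgroup which is neither `⊥` nor `⊤`), `V1 ≤ V0` are subgroups, and `φ i` is a family of
additive endomorphisms stabilising `N0` with `(φ i - 1) V ⊆ V0` and `(φ i - 1) V0 ⊆ V1`.
-/

set_option autoImplicit false
set_option linter.unusedSectionVars false
set_option linter.style.haveILetI false

namespace Fermat.Agent.M13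

variable {p : ℕ} {V : Type*} [AddCommGroup V]

/-- A subgroup of a group of order `p ^ 2` has order `1`, `p` or `p ^ 2`. -/
theorem unip_card_cases (hp : p.Prime) (hcard : Nat.card V = p ^ 2) (H : AddSubgroup V) :
    Nat.card H = 1 ∨ Nat.card H = p ∨ Nat.card H = p ^ 2 := by
  have hdvd : Nat.card H ∣ p ^ 2 := hcard ▸ AddSubgroup.card_addSubgroup_dvd_card H
  obtain ⟨k, hk, hkp⟩ := (Nat.dvd_prime_pow hp).1 hdvd
  interval_cases k
  · left; simpa using hkp
  · right; left; simpa using hkp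
  · right; right; exact hkp

theorem unip_finite (hp : p.Prime) (hcard : Nat.card V = p ^ 2) : Finite V :=
  Nat.finite_of_card_ne_zero (by rw [hcard]; exact pow_ne_zero 2 hp.ne_zero)

/-- A line has exactly `p` elements. -/
theorem unip_card_line (hp : p.Prime) (hcard : Nat.card V = p ^ 2) (H : AddSubgroup V)
    (h0 : H ≠ ⊥) (h1 : H ≠ ⊤) : Nat.card H = p := by
  haveI := unip_finite hp hcard
  rcases unip_card_cases hp hcard H with h | h | h
  · exact absurd (AddSubgroup.card_eq_one.1 h) h0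
  · exact h
  · exact absurd ((AddSubgroup.card_eq_iff_eq_top H).1 (h.trans hcard.symm)) h1

/-- Two subgroups `H ≤ H'` with `card H' ≤ card H` are equal. -/
theorem unip_eq_of_le_of_card (hp : p.Prime) (hcard : Nat.card V = p ^ 2) {H H' : AddSubgroup V}
    (hle : H ≤ H') (hc : Nat.card H' ≤ Nat.card H) : H = H' := by
  haveI := unip_finite hp hcard
  apply le_antisymm hle
  intro x hx
  have hinj : Function.Injective (AddSubgroup.inclusion hle) := AddSubgroup.inclusion_injective hle
  have hbij : Function.Bijective (AddSubgroup.inclusion hle) := by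
    rw [Nat.bijective_iff_injective_and_card]
    exact ⟨hinj, le_antisymm (Nat.card_le_card_of_injective _ hinj) hc⟩
  obtain ⟨y, hy⟩ := hbij.2 ⟨x, hx⟩
  have : (y : V) = x := congrArg Subtype.val hy
  rw [← this]
  exact y.2

/-- Two distinct lines meet trivially. -/
theorem unip_inf_eq_bot (hp : p.Prime) (hcard : Nat.card V = p ^ 2) {H H' : AddSubgroup V}
    (hH : Nat.card H = p) (hH' : Nat.card H' = p) (hne : H ≠ H') : H ⊓ H' = ⊥ := by
  haveI := unip_finite hp hcard
  by_contra h
  have hc : Nat.card (H ⊓ H' : AddSubgroup V) = p := by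
    rcases unip_card_cases hp hcard (H ⊓ H') with h1 | h1 | h1
    · exact absurd (AddSubgroup.card_eq_one.1 h1) h
    · exact h1
    · exfalso
      have hle : Nat.card (H ⊓ H' : AddSubgroup V) ≤ Nat.card H :=
        AddSubgroup.card_le_of_le inf_le_left
      rw [h1, hH] at hle
      have := hp.one_lt
      nlinarith
  have e1 : H ⊓ H' = H := unip_eq_of_le_of_card hp hcard inf_le_left (by rw [hc, hH])
  have e2 : H ⊓ H' = H' := unip_eq_of_le_of_card hp hcard inf_le_right (by rw [hc, hH'])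
  exact hne (e1.symm.trans e2)

/-- A subgroup strictly containing a line is everything. -/
theorem unip_eq_top_of_lt (hp : p.Prime) (hcard : Nat.card V = p ^ 2) {H H' : AddSubgroup V}
    (hH : Nat.card H = p) (hle : H ≤ H') (hne : H ≠ H') : H' = ⊤ := by
  haveI := unip_finite hp hcard
  rcases unip_card_cases hp hcard H' with h1 | h1 | h1
  · exfalso
    have hle' : Nat.card H ≤ Nat.card H' := AddSubgroup.card_le_of_le hle
    rw [h1, hH] at hle'
    have := hp.one_lt
    omega
  · exact absurd (unip_eq_of_le_of_card hp hcard hle (by rw [h1, hH])) hne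
  · exact (AddSubgroup.card_eq_iff_eq_top H').1 (h1.trans hcard.symm)

/-- A nilpotent (square zero) additive endomorphism of a group of order `p`, stabilising it,
is zero. Stated for `δ = φ - 1` on a line `N` inside `V`. -/
theorem unip_fix_line (hp : p.Prime) (hcard : Nat.card V = p ^ 2) {N : AddSubgroup V}
    (hN : Nat.card N = p) (φ : V →+ V) (hφN : ∀ x ∈ N, φ x ∈ N)
    (hsq : ∀ x ∈ N, φ (φ x - x) - (φ x - x) = 0) : ∀ x ∈ N, φ x = x := by
  haveI := unip_finite hp hcard
  haveI : Fact p.Prime := ⟨hp⟩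
  -- `N` is cyclic of prime order
  haveI hcyc : IsAddCyclic N := isAddCyclic_of_prime_card hN
  obtain ⟨g, hg⟩ := hcyc.exists_zsmul_surjective
  -- `φ g = k • g`
  obtain ⟨k, hk⟩ := hg ⟨φ g, hφN g g.2⟩
  have hk' : φ (g : V) = k • (g : V) := by
    have := congrArg Subtype.val hk
    simpa using this.symm
  have hφz : ∀ m : ℤ, φ (m • (g : V)) = m • φ (g : V) := fun m => map_zsmul φ m _
  -- `(k - 1)^2 • g = 0`
  have h1 : φ (g : V) - g = (k - 1) • (g : V) := by
    rw [hk', sub_smul, one_smul]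
  have h2 := hsq g g.2
  rw [h1, hφz, hk', ← mul_smul, ← sub_smul] at h2
  have h3 : ((k - 1) * (k - 1)) • (g : V) = 0 := by
    have : (k - 1) * k - (k - 1) = (k - 1) * (k - 1) := by ring
    rw [← this]; exact h2
  have hg0 : (g : V) ≠ 0 := by
    intro h0
    have hg0' : g = 0 := Subtype.ext h0
    have : ∀ y : N, y = 0 := fun y => by
      obtain ⟨m, hm⟩ := hg y
      rw [← hm, hg0']; simp
    have hc1 : Nat.card N = 1 := by
      rw [Nat.card_eq_one_iff_unique]
      exact ⟨⟨fun a b => (this a).trans (this b).symm⟩, ⟨0⟩⟩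
    rw [hN] at hc1
    exact hp.one_lt.ne' hc1
  have hord : addOrderOf (g : V) = p := by
    have hpg : p • (g : V) = 0 := by
      have : p • g = 0 := by
        rw [← hN]; exact card_nsmul_eq_zero'
      simpa using congrArg Subtype.val this
    have hdvd := addOrderOf_dvd_of_nsmul_eq_zero hpg
    rcases (Nat.dvd_prime hp).1 hdvd with h | h
    · exact absurd (AddMonoid.addOrderOf_eq_one_iff.1 h) hg0
    · exact h
  have hdiv : (p : ℤ) ∣ (k - 1) * (k - 1) := by
    rw [← hord]; exact (addOrderOf_dvd_iff_zsmul_eq_zero).2 h3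
  have hdiv1 : (p : ℤ) ∣ k - 1 := by
    rcases (Nat.prime_iff_prime_int.1 hp).dvd_or_dvd hdiv with h | h <;> exact h
  have hg1 : (k - 1) • (g : V) = 0 := by
    rw [← hord] at hdiv1; exact (addOrderOf_dvd_iff_zsmul_eq_zero).1 hdiv1
  have hφg : φ (g : V) = g := by
    rw [← sub_eq_zero, h1, hg1]
  intro x hx
  obtain ⟨m, hm⟩ := hg ⟨x, hx⟩
  have hx' : x = m • (g : V) := by
    have := congrArg Subtype.val hm
    simpa using this.symm
  rw [hx', hφz, hφg]

/-- The fixed subgroup of an additive endomorphism. -/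
def unip_fixed (φ : V →+ V) : AddSubgroup V where
  carrier := {y | φ y = y}
  zero_mem' := map_zero _
  add_mem' := fun {a b} ha hb => by
    change φ (a + b) = a + b
    rw [map_add, ha, hb]
  neg_mem' := fun {a} ha => by
    change φ (-a) = -a
    rw [map_neg, ha]

theorem unip_mem_fixed (φ : V →+ V) (y : V) : y ∈ unip_fixed φ ↔ φ y = y := Iff.rfl

/-- **[UNIP], one automorphism, square-zero case**: an additive endomorphism `φ` stabilising a
line `N0` with `(φ - 1) ^ 2 = 0` acts trivially on `N0` and on `V / N0`. -/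
theorem unip_single (hp : p.Prime) (hcard : Nat.card V = p ^ 2) (φ : V →+ V)
    (N0 : AddSubgroup V) (hN0 : N0 ≠ ⊥) (hN0' : N0 ≠ ⊤)
    (hN : ∀ x ∈ N0, φ x ∈ N0) (hsq : ∀ x, φ (φ x - x) - (φ x - x) = 0) :
    (∀ x ∈ N0, φ x = x) ∧ (∀ x, φ x - x ∈ N0) := by
  haveI := unip_finite hp hcard
  have hcN : Nat.card N0 = p := unip_card_line hp hcard N0 hN0 hN0'
  have hfix : ∀ x ∈ N0, φ x = x :=
    unip_fix_line hp hcard hcN φ hN (fun x _ => hsq x)
  refine ⟨hfix, fun x => ?_⟩
  have hNM : N0 ≤ unip_fixed φ := fun y hy => hfix y hy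
  have hyM : φ x - x ∈ unip_fixed φ := sub_eq_zero.1 (hsq x)
  by_cases hM : unip_fixed φ = ⊤
  · have hx : x ∈ unip_fixed φ := hM ▸ AddSubgroup.mem_top x
    have hx' : φ x = x := hx
    rw [hx', sub_self]
    exact N0.zero_mem
  · have hNM' : N0 = unip_fixed φ := by
      by_contra hne
      exact hM (unip_eq_top_of_lt hp hcard hcN hNM hne)
    rw [hNM']
    exact hyM

/-- **[UNIP], one automorphism, general case**: if `(φ - 1) ^ 2` takes values in a proper
subset `S` of `V`, then `φ` acts trivially on the stable line `N0` or on `V / N0`. -/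
theorem unip_single_or (hp : p.Prime) (hcard : Nat.card V = p ^ 2) (φ : V →+ V)
    (N0 : AddSubgroup V) (hN0 : N0 ≠ ⊥) (hN0' : N0 ≠ ⊤)
    (hN : ∀ x ∈ N0, φ x ∈ N0) (S : Set V) (hS : ∃ t, t ∉ S)
    (hsq : ∀ x, φ (φ x - x) - (φ x - x) ∈ S) :
    (∀ x ∈ N0, φ x = x) ∨ (∀ x, φ x - x ∈ N0) := by
  haveI := unip_finite hp hcard
  have hcN : Nat.card N0 = p := unip_card_line hp hcard N0 hN0 hN0'
  by_contra hcon
  rw [not_or] at hcon
  obtain ⟨hc1, hc2⟩ := hcon
  set M := unip_fixed φ with hM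
  -- `N0` is not contained in `M`
  have hNM : ¬ N0 ≤ M := fun h => hc1 (fun x hx => h hx)
  -- `M ⊓ N0 = ⊥`
  have hinf : M ⊓ N0 = ⊥ := by
    by_contra h
    have hc : Nat.card (M ⊓ N0 : AddSubgroup V) = p := by
      rcases unip_card_cases hp hcard (M ⊓ N0) with h1 | h1 | h1
      · exact absurd (AddSubgroup.card_eq_one.1 h1) h
      · exact h1
      · exfalso
        have hle : Nat.card (M ⊓ N0 : AddSubgroup V) ≤ Nat.card N0 :=
          AddSubgroup.card_le_of_le inf_le_right
        rw [h1, hcN] at hle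
        have := hp.one_lt
        nlinarith
    have e2 : M ⊓ N0 = N0 := unip_eq_of_le_of_card hp hcard inf_le_right (by rw [hc, hcN])
    exact hNM (e2 ▸ inf_le_left)
  -- `M = ⊥`
  have hMbot : M = ⊥ := by
    by_contra hMne
    have hMtop : M ≠ ⊤ := fun h => hNM (h ▸ le_top)
    have hcM : Nat.card M = p := unip_card_line hp hcard M hMne hMtop
    have hsup : N0 ⊔ M = ⊤ := by
      apply unip_eq_top_of_lt hp hcard hcN le_sup_left
      intro h
      have hMN : M ≤ N0 := h ▸ le_sup_right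
      have : M = N0 := unip_eq_of_le_of_card hp hcard hMN (by rw [hcM, hcN])
      exact hNM this.ge
    apply hc2
    intro x
    have hx : x ∈ N0 ⊔ M := hsup ▸ AddSubgroup.mem_top x
    obtain ⟨n, hn, m, hm, rfl⟩ := AddSubgroup.mem_sup.1 hx
    have hm' : φ m = m := hm
    rw [map_add, hm']
    have : φ n + m - (n + m) = φ n - n := by abel
    rw [this]
    exact N0.sub_mem (hN n hn) hn
  -- `δ = φ - 1` is injective, hence bijective
  let δ : V →+ V := φ - AddMonoidHom.id V
  have hδ : ∀ x, δ x = φ x - x := fun x => rfl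
  have hinj : Function.Injective δ := by
    rw [injective_iff_map_eq_zero]
    intro x hx
    rw [hδ, sub_eq_zero] at hx
    have : x ∈ M := hx
    rw [hMbot, AddSubgroup.mem_bot] at this
    exact this
  have hsurj : Function.Surjective δ := Finite.surjective_of_injective hinj
  obtain ⟨t, ht⟩ := hS
  obtain ⟨y, hy⟩ := hsurj t
  obtain ⟨x, hx⟩ := hsurj y
  apply ht
  rw [← hy, ← hx, hδ, hδ]
  exact hsq x

/-- **[UNIP], square-zero case for a group action** (used at `q = 2`): both characters are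
trivial on `I`. -/
theorem unip_both (hp : p.Prime) (hcard : Nat.card V = p ^ 2) {G : Type*} [Group G]
    [DistribMulAction G V] (I : Subgroup G)
    (N0 : AddSubgroup V) (hN0 : N0 ≠ ⊥) (hN0' : N0 ≠ ⊤)
    (hN : ∀ σ ∈ I, ∀ x ∈ N0, σ • x ∈ N0)
    (hsq : ∀ σ ∈ I, ∀ x : V, σ • (σ • x - x) - (σ • x - x) = 0) :
    (∀ σ ∈ I, ∀ x ∈ N0, σ • x = x) ∧ (∀ σ ∈ I, ∀ x : V, σ • x - x ∈ N0) := by
  have key := fun σ (hσ : σ ∈ I) =>
    unip_single hp hcard (DistribSMul.toAddMonoidHom V σ) N0 hN0 hN0'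
      (fun x hx => hN σ hσ x hx) (fun x => hsq σ hσ x)
  exact ⟨fun σ hσ => (key σ hσ).1, fun σ hσ => (key σ hσ).2⟩

/-- **[UNIP], the case analysis at `p`** for a group action: if `(σ - 1) ^ 2` takes values in a
proper subset `S` of `V` for every `σ ∈ I`, then `I` acts trivially on the stable line `N0` or
`I` acts trivially on `V / N0`. -/
theorem unip_main (hp : p.Prime) (hcard : Nat.card V = p ^ 2) {G : Type*} [Group G]
    [DistribMulAction G V] (I : Subgroup G)
    (N0 : AddSubgroup V) (hN0 : N0 ≠ ⊥) (hN0' : N0 ≠ ⊤)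
    (hN : ∀ σ ∈ I, ∀ x ∈ N0, σ • x ∈ N0) (S : Set V) (hS : ∃ t, t ∉ S)
    (hsq : ∀ σ ∈ I, ∀ x : V, σ • (σ • x - x) - (σ • x - x) ∈ S) :
    (∀ σ ∈ I, ∀ x ∈ N0, σ • x = x) ∨ (∀ σ ∈ I, ∀ x : V, σ • x - x ∈ N0) := by
  have key : ∀ σ ∈ I, (∀ x ∈ N0, σ • x = x) ∨ (∀ x : V, σ • x - x ∈ N0) := fun σ hσ =>
    unip_single_or hp hcard (DistribSMul.toAddMonoidHom V σ) N0 hN0 hN0'
      (fun x hx => hN σ hσ x hx) S hS (fun x => hsq σ hσ x)
  by_contra hcon
  rw [not_or] at hcon
  obtain ⟨h1, h2⟩ := hcon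
  push Not at h1 h2
  obtain ⟨σ, hσ, x, hx, hσx⟩ := h1
  obtain ⟨τ, hτ, y, hτy⟩ := h2
  -- `σ` is trivial on the quotient, `τ` is trivial on the line
  have hσ2 : ∀ z : V, σ • z - z ∈ N0 := (key σ hσ).resolve_left (fun h => hσx (h x hx))
  have hτ1 : ∀ z ∈ N0, τ • z = z := (key τ hτ).resolve_right (fun h => hτy (h y))
  rcases key (σ * τ) (I.mul_mem hσ hτ) with h | h
  · -- `σ τ` trivial on the line, so is `σ`
    apply hσx
    have := h x hx
    rwa [mul_smul, hτ1 x hx] at this
  · -- `σ τ` trivial on the quotient, so is `τ`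
    apply hτy
    have h3 := h y
    rw [mul_smul] at h3
    have h4 := hσ2 (τ • y)
    have : τ • y - y = (σ • τ • y - y) - (σ • τ • y - τ • y) := by abel
    rw [this]
    exact N0.sub_mem h3 h4

end Fermat.Agent.M13
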