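import Fermat.Agent.M13.Basic
import Fermat.Agent.M13.FreyLoc
import Fermat.Agent.M13.LocRed
import Fermat.Agent.M13.Unip
import Fermat.Agent.Frob.Exists

/-!
# M13 (S13), package [AT-2]: inertia at `2` acts unipotently on `E[p]`

`A` a valuation subring of `ℚ̄` over `2`, `σ ∈ I_A`.  The `p`-torsion of the Frey curve is
integral at `2`, so `E[p] ∩ E¹ = 0`; hence the local statement
`(σ - 1)² T ∈ E¹` (package [LOC]) gives `(σ - 1)² = 0` on `E[p]`, and [UNIP] shows that `I_A`
acts trivially on every Galois-stable line `N` and on `E[p] / N`.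
-/

set_option autoImplicit false
set_option linter.unusedSectionVars false
set_option linter.unusedVariables false

namespace Fermat.Agent.M13

open WeierstrassCurve WeierstrassCurve.Affine WeierstrassCurve.Affine.Point
open Fermat.Agent.S05 Fermat.Agent.S05.OrdVal

variable (P : FreyPackage)

/-- `p • x = 0` for `x ∈ E[p]`. -/
lemma at2_nsmul_eq_zero (x : VV P) : P.p • (x : (EC P).Point) = 0 := by
  have := x.2
  rw [Submodule.mem_torsionBy_iff] at this
  rw [← natCast_zsmul]
  exact this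

/-- At a place over `2` the `p`-torsion meets the kernel of reduction trivially. -/
theorem at2_E1_eq_zero {A : ValuationSubring QQb} {O : OrdVal QQb} (D : PlaceData A 2 O)
    {T : (EC P).Point} (hpT : P.p • T = 0) (hE1 : loc_E1 O T) : T = 0 := by
  by_contra hT
  have hint := (fa2_ctx P D).node2_xc_int hT hpT
  exact loc_not_E1_of_int hT hint hE1

/-- `(σ - 1)² = 0` on `E[p]` for `σ` in the inertia group at a place over `2`, given the local
statement `(σ - 1)² T ∈ E¹`. -/
theorem at2_sq {A : ValuationSubring QQb} {O : OrdVal QQb} (D : PlaceData A 2 O) (σ : GQ)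
    (hkey : ∀ T : (EC P).Point, loc_E1 O (σ • (σ • T - T) - (σ • T - T)))
    (x : VV P) : σ • (σ • x - x) - (σ • x - x) = 0 := by
  apply Subtype.ext
  have h1 : ((σ • (σ • x - x) - (σ • x - x) : VV P) : (EC P).Point) =
      σ • (σ • (x : (EC P).Point) - x) - (σ • (x : (EC P).Point) - x) := rfl
  rw [h1]
  have h2 := at2_nsmul_eq_zero P (σ • (σ • x - x) - (σ • x - x))
  rw [h1] at h2
  exact at2_E1_eq_zero P D h2 (hkey x)

/-- **[AT-2]**, with the local input as a hypothesis: for a place `A` over `2`, the inertia group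
`I_A` acts trivially on every Galois-stable line `N` and on `E[p] / N`. -/
theorem at2_of_key (hcard : Nat.card (VV P) = P.p ^ 2)
    {A : ValuationSubring QQb} {O : OrdVal QQb} (D : PlaceData A 2 O)
    (hkey : ∀ σ ∈ A.inertiaSubgroupIn ℚ, ∀ T : (EC P).Point,
      loc_E1 O (σ • (σ • T - T) - (σ • T - T)))
    (N : Submodule (ZMod P.p) (VV P)) (hN : IsGaloisStable ℚ N) (hbot : N ≠ ⊥) (htop : N ≠ ⊤) :
    (∀ σ ∈ A.inertiaSubgroupIn ℚ, ∀ x ∈ N, σ • x = x) ∧
      (∀ σ ∈ A.inertiaSubgroupIn ℚ, ∀ x : VV P, σ • x - x ∈ N) := by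
  have hN0 : N.toAddSubgroup ≠ ⊥ := by
    intro h
    apply hbot
    rw [eq_bot_iff]
    intro x hx
    have : x ∈ N.toAddSubgroup := hx
    rw [h] at this
    exact (Submodule.mem_bot _).2 (AddSubgroup.mem_bot.1 this)
  have hN0' : N.toAddSubgroup ≠ ⊤ := by
    intro h
    apply htop
    rw [eq_top_iff]
    intro x _
    have : x ∈ N.toAddSubgroup := by rw [h]; exact AddSubgroup.mem_top x
    exact this
  have := unip_both P.pp hcard (A.inertiaSubgroupIn ℚ) N.toAddSubgroup hN0 hN0'
    (fun σ _ x hx => hN σ x hx) (fun σ hσ x => at2_sq P D σ (hkey σ hσ) x)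
  exact this

/-- **[AT-2]** in the shape of `fin_main`, with the local input as a hypothesis. -/
theorem at2_main_of_key (hcard : Nat.card (VV P) = P.p ^ 2)
    (hkey : ∀ (A : ValuationSubring QQb) (O : OrdVal QQb), PlaceData A 2 O →
      ∀ σ ∈ A.inertiaSubgroupIn ℚ, ∀ T : (EC P).Point,
        loc_E1 O (σ • (σ • T - T) - (σ • T - T))) :
    ∀ N : Submodule (ZMod P.p) (VV P), IsGaloisStable ℚ N → N ≠ ⊥ → N ≠ ⊤ →
      ∃ A : ValuationSubring QQb, A.LiesOverPrime 2 ∧
        ((∀ σ ∈ A.inertiaSubgroupIn ℚ, ∀ x ∈ N, σ • x = x) ∧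
          (∀ σ ∈ A.inertiaSubgroupIn ℚ, ∀ x : VV P, σ • x - x ∈ N)) := by
  intro N hN hbot htop
  obtain ⟨A, hA⟩ := Fermat.Agent.Frob.exists_valuationSubring_over 2 Nat.prime_two
  obtain ⟨O, h1, h2, -⟩ := exists_ordVal_of_valuationSubring A 2 Nat.prime_two hA
  have D : PlaceData A 2 O := ⟨Nat.prime_two, hA, h1, h2⟩
  exact ⟨A, hA, at2_of_key P hcard D (hkey A O D) N hN hbot htop⟩

end Fermat.Agent.M13
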