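import Mathlib
import Fermat.Prelude.Def_FLTPrelim_FreyPackage
import Fermat.Prelude.Def_FLTPrelim_GaloisRep
import Fermat.Prelude.Def_FLTPrelim_Ramification
import Fermat.Prelude.Def_FLTPrelim_CofixedLine
import Fermat.Agent.S05.FreyMain

/-!
# M13 (project S13): shared notation

`QQb = ℚ̄`, `GQ = Gal(ℚ̄/ℚ)`, `EC P` = the Frey curve over `ℚ̄`, `VV P = E[p](ℚ̄)`,
`InE1 P A T` = "`T` lies in the kernel of reduction with respect to the valuation subring `A`",
i.e. `T = 0` or `x(T) ∉ A`.
-/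

set_option autoImplicit false

namespace Fermat.Agent.M13

open WeierstrassCurve WeierstrassCurve.Affine WeierstrassCurve.Affine.Point

/-- `ℚ̄` -/
noncomputable abbrev QQb : Type := AlgebraicClosure ℚ

/-- `Gal(ℚ̄/ℚ)` -/
noncomputable abbrev GQ : Type := QQb ≃ₐ[ℚ] QQb

/-- the Frey curve over `ℚ̄` -/
noncomputable abbrev EC (P : FreyPackage) : WeierstrassCurve.Affine QQb :=
  (P.freyCurve : WeierstrassCurve.Affine ℚ)⁄QQb

/-- `E[p](ℚ̄)` with the prelude's Galois action and `ZMod p`-module structure -/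
noncomputable abbrev VV (P : FreyPackage) : Submodule ℤ (EC P).Point :=
  Submodule.torsionBy ℤ (EC P).Point P.p

/-- `T` is in the kernel of reduction w.r.t. `A`: `T = 0` or `x(T) ∉ A`. -/
def InE1 (P : FreyPackage) (A : ValuationSubring QQb) (T : (EC P).Point) : Prop :=
  T = 0 ∨ Fermat.Agent.S05.xc T ∉ A

end Fermat.Agent.M13
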