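import Fermat.Agent.S05.Frey
import Fermat.Agent.M13.Basic

/-!
# M13 / FREYINT: the integral model of the Frey curve

* `fi_map_rat`, `fi_map` : the prelude's `freyCurveInt` maps to `freyCurve` over `ℚ` and to the
  Frey curve over `ℚ̄`;
* `fi_a₁ … fi_b₈` : the coefficients and `b`-invariants of the Frey curve over `ℚ̄` are images of
  integers; `fi_b₂_int … fi_b₈_int`, `fi_a₂_int`, `fi_a₄_int` : they are integral at every place;
* `fi_disc`, `fi_disc_ne` : the discriminant is `(a^p b^p c^p)^2 / 256 ≠ 0`;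
* `fi_xc_ne_zero` : a nonzero point of odd prime order has `x ≠ 0`.
-/

set_option autoImplicit false
set_option linter.unusedSectionVars false
set_option linter.unusedSimpArgs false

namespace Fermat.Agent.M13

open WeierstrassCurve WeierstrassCurve.Affine
open Fermat.Agent.S05 Fermat.Agent.S05.OrdVal

variable (P : FreyPackage)

/-- `16 ∣ b ^ p` -/
lemma fi_sixteen_dvd_bp : (16 : ℤ) ∣ P.b ^ P.p := by
  obtain ⟨k, hk⟩ := (ZMod.intCast_zmod_eq_zero_iff_dvd P.b 2).1 P.hb2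
  have h5 := P.hp5
  obtain ⟨m, hm⟩ : ∃ m, P.p = 4 + m := ⟨P.p - 4, by omega⟩
  rw [hk, hm, mul_pow, pow_add]
  refine ⟨2 ^ m * (k ^ 4 * k ^ m), ?_⟩
  push_cast
  ring

/-- `4 ∣ b ^ p - 1 - a ^ p` -/
lemma fi_four_dvd : (4 : ℤ) ∣ P.b ^ P.p - 1 - P.a ^ P.p := by
  have hb : (4 : ℤ) ∣ P.b ^ P.p := Dvd.dvd.trans (by norm_num) (fi_sixteen_dvd_bp P)
  have ha : (4 : ℤ) ∣ 1 + P.a ^ P.p := by
    have h4 : ((4 : ℕ) : ℤ) ∣ 1 + P.a ^ P.p := by
      rw [← ZMod.intCast_zmod_eq_zero_iff_dvd]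
      push_cast
      rw [P.ha4]
      obtain ⟨m, hm⟩ := P.hp_odd
      rw [hm, pow_succ, pow_mul]
      have h9 : (3 : ZMod 4) ^ 2 = 1 := by decide
      rw [h9, one_pow]
      decide
    exact_mod_cast h4
  have : P.b ^ P.p - 1 - P.a ^ P.p = P.b ^ P.p - (1 + P.a ^ P.p) := by ring
  rw [this]
  exact dvd_sub hb ha

/-- `16 ∣ a ^ p * b ^ p` -/
lemma fi_sixteen_dvd : (16 : ℤ) ∣ -(P.a ^ P.p) * (P.b ^ P.p) :=
  Dvd.dvd.mul_left (fi_sixteen_dvd_bp P) _

/-- The integral model maps to the Frey curve over `ℚ`. -/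
theorem fi_map_rat : P.freyCurveInt.map (Int.castRingHom ℚ) = P.freyCurve := by
  obtain ⟨k, hk⟩ := fi_four_dvd P
  obtain ⟨l, hl⟩ := fi_sixteen_dvd P
  have hk' : ((P.b : ℚ) ^ P.p - 1 - (P.a : ℚ) ^ P.p) = 4 * (k : ℚ) := by
    exact_mod_cast congrArg (fun n : ℤ => (n : ℚ)) hk
  have hl' : (-((P.a : ℚ) ^ P.p) * ((P.b : ℚ) ^ P.p)) = 16 * (l : ℚ) := by
    exact_mod_cast congrArg (fun n : ℤ => (n : ℚ)) hl
  ext
  · simp [FreyPackage.freyCurveInt, FreyPackage.freyCurve]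
  · simp only [FreyPackage.freyCurveInt, FreyPackage.freyCurve, WeierstrassCurve.map_a₂]
    rw [hk, hk']
    simp
  · simp [FreyPackage.freyCurveInt, FreyPackage.freyCurve]
  · simp only [FreyPackage.freyCurveInt, FreyPackage.freyCurve, WeierstrassCurve.map_a₄]
    rw [hl, hl']
    simp
  · simp [FreyPackage.freyCurveInt, FreyPackage.freyCurve]

/-- The integral model maps to the Frey curve over `ℚ̄`. -/
theorem fi_map : P.freyCurveInt.map (algebraMap ℤ QQb) = EC P := by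
  have h : (algebraMap ℤ QQb) = (algebraMap ℚ QQb).comp (Int.castRingHom ℚ) := by
    ext n
    simp
  rw [h, ← WeierstrassCurve.map_map, fi_map_rat]
  rfl

/-- `Int.castRingHom` version of `fi_map`. -/
theorem fi_map' : P.freyCurveInt.map (Int.castRingHom QQb) = EC P := by
  rw [← fi_map]
  rfl

lemma fi_a₁ : (EC P).a₁ = 1 := by
  simp only [WeierstrassCurve.Affine.baseChange, WeierstrassCurve.baseChange,
    FreyPackage.freyCurve, WeierstrassCurve.map_a₁, map_one]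

lemma fi_a₃ : (EC P).a₃ = 0 := by
  simp only [WeierstrassCurve.Affine.baseChange, WeierstrassCurve.baseChange,
    FreyPackage.freyCurve, WeierstrassCurve.map_a₃, map_zero]

lemma fi_a₆ : (EC P).a₆ = 0 := by
  simp only [WeierstrassCurve.Affine.baseChange, WeierstrassCurve.baseChange,
    FreyPackage.freyCurve, WeierstrassCurve.map_a₆, map_zero]

lemma fi_a₂ : (EC P).a₂ = ((P.freyCurveInt.a₂ : ℤ) : QQb) := by
  rw [← fi_map']; rfl

lemma fi_a₄ : (EC P).a₄ = ((P.freyCurveInt.a₄ : ℤ) : QQb) := by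
  rw [← fi_map']; rfl

lemma fi_b₂ : (EC P).b₂ = ((P.freyCurveInt.b₂ : ℤ) : QQb) := by
  rw [← fi_map', WeierstrassCurve.map_b₂]; rfl

lemma fi_b₄ : (EC P).b₄ = ((P.freyCurveInt.b₄ : ℤ) : QQb) := by
  rw [← fi_map', WeierstrassCurve.map_b₄]; rfl

lemma fi_b₆ : (EC P).b₆ = 0 := frey_b₆ P

lemma fi_b₈ : (EC P).b₈ = ((P.freyCurveInt.b₈ : ℤ) : QQb) := by
  rw [← fi_map', WeierstrassCurve.map_b₈]; rfl

section Place

variable {P} {A : ValuationSubring (AlgebraicClosure ℚ)} {q : ℕ}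
  {O : OrdVal (AlgebraicClosure ℚ)} (D : PlaceData A q O)
include D

lemma fi_a₂_int : O.Ge (EC P).a₂ 0 := by rw [fi_a₂]; exact D.int_ge _

lemma fi_a₄_int : O.Ge (EC P).a₄ 0 := by rw [fi_a₄]; exact D.int_ge _

lemma fi_b₂_int : O.Ge (EC P).b₂ 0 := by rw [fi_b₂]; exact D.int_ge _

lemma fi_b₄_int : O.Ge (EC P).b₄ 0 := by rw [fi_b₄]; exact D.int_ge _

lemma fi_b₆_int : O.Ge (EC P).b₆ 0 := by rw [fi_b₆]; exact Or.inl rfl

lemma fi_b₈_int : O.Ge (EC P).b₈ 0 := by rw [fi_b₈]; exact D.int_ge _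

end Place

/-- The discriminant of the Frey curve over `ℚ̄`. -/
theorem fi_disc : (EC P).Δ = (frAp P * frBp P * frCp P) ^ 2 / 256 := by
  have h2 := frey_b₂ P
  have h4 := frey_b₄ P
  have h6 := frey_b₆ P
  have h8 := frey_b₈ P
  have hΔ : (EC P).Δ = -(EC P).b₂ ^ 2 * (EC P).b₈ - 8 * (EC P).b₄ ^ 3 - 27 * (EC P).b₆ ^ 2
      + 9 * (EC P).b₂ * (EC P).b₄ * (EC P).b₆ := rfl
  rw [hΔ, h2, h4, h6, h8, ← frABC P]
  ring

theorem fi_disc_ne : (EC P).Δ ≠ 0 := by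
  rw [fi_disc]
  have ha : frAp P ≠ 0 := pow_ne_zero _ (Int.cast_ne_zero.2 P.ha0)
  have hb : frBp P ≠ 0 := pow_ne_zero _ (Int.cast_ne_zero.2 P.hb0)
  have hc : frCp P ≠ 0 := pow_ne_zero _ (Int.cast_ne_zero.2 P.hc0)
  exact div_ne_zero (pow_ne_zero _ (mul_ne_zero (mul_ne_zero ha hb) hc)) (by norm_num)

/-- A nonzero point of odd prime order on the Frey curve has nonzero `x`-coordinate. -/
theorem fi_xc_ne_zero {p : ℕ} (hp : p.Prime) (hp2 : p ≠ 2) {T : (EC P).Point} (hT : T ≠ 0)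
    (hpT : p • T = 0) : xc T ≠ 0 := by
  intro h
  have hψ : psi T ≠ 0 := by
    have := psi_nsmul_ne_zero hp hp2 hT hpT (k := 1) one_pos hp.one_lt
    rwa [one_smul] at this
  have h1 := psi_sq T hT
  rw [h] at h1
  have h6 : (EC P).b₆ = 0 := fi_b₆ P
  simp only [psiSq] at h1
  rw [h6] at h1
  have : psi T ^ 2 = 0 := by rw [h1]; ring
  exact hψ (pow_eq_zero_iff (two_ne_zero) |>.1 this)

end Fermat.Agent.M13
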