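import Mathlib
import Fermat.Agent.S05.AddFormulas

/-!
# S13, package [VC]: translation of a Weierstrass curve and the induced isomorphism on points

For `W : WeierstrassCurve.Affine K` and `r t : K`, `vc_curve W r t` is the curve obtained by the
substitution `(x, y) = (X + r, Y + t)`, and `vc_equiv W r t : W.Point ≃+ (vc_curve W r t).Point`
is the additive equivalence `(x, y) ↦ (x - r, y - t)`.
-/

set_option autoImplicit false
set_option linter.unusedSectionVars false

namespace Fermat.Agent.M13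

open WeierstrassCurve WeierstrassCurve.Affine Fermat.Agent.S05

variable {K : Type*} [Field K]

/-- The Weierstrass curve obtained from `W` by the translation `(x, y) = (X + r, Y + t)`. -/
def vc_curve (W : WeierstrassCurve.Affine K) (r t : K) : WeierstrassCurve.Affine K where
  a₁ := W.a₁
  a₂ := W.a₂ + 3 * r
  a₃ := W.a₃ + r * W.a₁ + 2 * t
  a₄ := W.a₄ + 2 * r * W.a₂ - t * W.a₁ + 3 * r ^ 2
  a₆ := W.a₆ + r * W.a₄ + r ^ 2 * W.a₂ + r ^ 3 - t * W.a₃ - t ^ 2 - r * t * W.a₁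

variable (W : WeierstrassCurve.Affine K) (r t : K)

@[simp] lemma vc_curve_a₁ : (vc_curve W r t).a₁ = W.a₁ := rfl
@[simp] lemma vc_curve_a₂ : (vc_curve W r t).a₂ = W.a₂ + 3 * r := rfl
@[simp] lemma vc_curve_a₃ : (vc_curve W r t).a₃ = W.a₃ + r * W.a₁ + 2 * t := rfl
@[simp] lemma vc_curve_a₄ :
    (vc_curve W r t).a₄ = W.a₄ + 2 * r * W.a₂ - t * W.a₁ + 3 * r ^ 2 := rfl
@[simp] lemma vc_curve_a₆ : (vc_curve W r t).a₆ =
    W.a₆ + r * W.a₄ + r ^ 2 * W.a₂ + r ^ 3 - t * W.a₃ - t ^ 2 - r * t * W.a₁ := rfl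

lemma vc_curve_b₂ : (vc_curve W r t).b₂ = W.b₂ + 12 * r := by
  simp only [WeierstrassCurve.b₂, vc_curve_a₁, vc_curve_a₂]; ring

lemma vc_curve_b₄ : (vc_curve W r t).b₄ = W.b₄ + r * W.b₂ + 6 * r ^ 2 := by
  simp only [WeierstrassCurve.b₄, WeierstrassCurve.b₂, vc_curve_a₁, vc_curve_a₃, vc_curve_a₄]; ring

lemma vc_curve_b₆ : (vc_curve W r t).b₆ = W.b₆ + 2 * r * W.b₄ + r ^ 2 * W.b₂ + 4 * r ^ 3 := by
  simp only [WeierstrassCurve.b₆, WeierstrassCurve.b₄, WeierstrassCurve.b₂, vc_curve_a₃,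
    vc_curve_a₆]; ring

lemma vc_curve_b₈ : (vc_curve W r t).b₈ =
    W.b₈ + 3 * r * W.b₆ + 3 * r ^ 2 * W.b₄ + r ^ 3 * W.b₂ + 3 * r ^ 4 := by
  simp only [WeierstrassCurve.b₈, WeierstrassCurve.b₆, WeierstrassCurve.b₄, WeierstrassCurve.b₂,
    vc_curve_a₁, vc_curve_a₂, vc_curve_a₃, vc_curve_a₄, vc_curve_a₆]; ring

lemma vc_curve_Δ : (vc_curve W r t).Δ = W.Δ := by
  simp only [WeierstrassCurve.Δ, vc_curve_b₂, vc_curve_b₄, vc_curve_b₆, vc_curve_b₈]
  simp only [WeierstrassCurve.b₈, WeierstrassCurve.b₆, WeierstrassCurve.b₄, WeierstrassCurve.b₂]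
  ring

lemma vc_curve_zero : vc_curve W 0 0 = W := by
  ext <;> simp [vc_curve]

lemma vc_curve_vc_curve (r' t' : K) :
    vc_curve (vc_curve W r t) r' t' = vc_curve W (r + r') (t + t') := by
  ext <;> simp only [vc_curve] <;> ring

lemma vc_equation (x y : K) :
    (vc_curve W r t).Equation (x - r) (y - t) ↔ W.Equation x y := by
  rw [equation_iff', equation_iff']
  simp only [vc_curve_a₁, vc_curve_a₂, vc_curve_a₃, vc_curve_a₄, vc_curve_a₆]
  constructor <;> intro h <;> linear_combination h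

lemma vc_polyX (x y : K) :
    (vc_curve W r t).a₁ * (y - t) - (3 * (x - r) ^ 2 + 2 * (vc_curve W r t).a₂ * (x - r)
      + (vc_curve W r t).a₄) = W.a₁ * y - (3 * x ^ 2 + 2 * W.a₂ * x + W.a₄) := by
  simp only [vc_curve_a₁, vc_curve_a₂, vc_curve_a₄]; ring

lemma vc_polyY (x y : K) :
    2 * (y - t) + (vc_curve W r t).a₁ * (x - r) + (vc_curve W r t).a₃
      = 2 * y + W.a₁ * x + W.a₃ := by
  simp only [vc_curve_a₁, vc_curve_a₃]; ring

lemma vc_nonsingular (x y : K) :
    (vc_curve W r t).Nonsingular (x - r) (y - t) ↔ W.Nonsingular x y := by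
  rw [nonsingular_iff', nonsingular_iff', vc_equation, vc_polyX, vc_polyY]

lemma vc_negY (x y : K) : (vc_curve W r t).negY (x - r) (y - t) = W.negY x y - t := by
  simp only [negY, vc_curve_a₁, vc_curve_a₃]; ring

lemma vc_addX (x₁ x₂ ℓ : K) :
    (vc_curve W r t).addX (x₁ - r) (x₂ - r) ℓ = W.addX x₁ x₂ ℓ - r := by
  simp only [addX, vc_curve_a₁, vc_curve_a₂]; ring

lemma vc_negAddY (x₁ x₂ y₁ ℓ : K) :
    (vc_curve W r t).negAddY (x₁ - r) (x₂ - r) (y₁ - t) ℓ = W.negAddY x₁ x₂ y₁ ℓ - t := by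
  simp only [negAddY, vc_addX]; ring

lemma vc_addY (x₁ x₂ y₁ ℓ : K) :
    (vc_curve W r t).addY (x₁ - r) (x₂ - r) (y₁ - t) ℓ = W.addY x₁ x₂ y₁ ℓ - t := by
  simp only [addY, vc_negAddY, vc_addX, vc_negY]

variable [DecidableEq K]

lemma vc_slope (x₁ x₂ y₁ y₂ : K) :
    (vc_curve W r t).slope (x₁ - r) (x₂ - r) (y₁ - t) (y₂ - t) = W.slope x₁ x₂ y₁ y₂ := by
  by_cases hx : x₁ = x₂
  · have hx' : x₁ - r = x₂ - r := by rw [hx]
    by_cases hy : y₁ = W.negY x₂ y₂
    · rw [slope_of_Y_eq hx hy, slope_of_Y_eq hx' (by rw [vc_negY, hy])]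
    · have hy' : y₁ - t ≠ (vc_curve W r t).negY (x₂ - r) (y₂ - t) := by
        rw [vc_negY]
        intro h
        exact hy (sub_left_injective h)
      rw [slope_of_Y_ne hx hy, slope_of_Y_ne hx' hy', vc_negY]
      have e1 : 3 * (x₁ - r) ^ 2 + 2 * (vc_curve W r t).a₂ * (x₁ - r) + (vc_curve W r t).a₄ -
          (vc_curve W r t).a₁ * (y₁ - t) = 3 * x₁ ^ 2 + 2 * W.a₂ * x₁ + W.a₄ - W.a₁ * y₁ := by
        simp only [vc_curve_a₁, vc_curve_a₂, vc_curve_a₄]; ring
      have e2 : y₁ - t - (W.negY x₁ y₁ - t) = y₁ - W.negY x₁ y₁ := by ring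
      rw [e1, e2]
  · have hx' : x₁ - r ≠ x₂ - r := fun h => hx (sub_left_injective h)
    rw [slope_of_X_ne hx, slope_of_X_ne hx']
    congr 1 <;> ring

/-- The translation map on points. -/
def vc_fun : W.Point → (vc_curve W r t).Point
  | .zero => .zero
  | .some x y h => .some (x - r) (y - t) ((vc_nonsingular W r t x y).2 h)

@[simp] lemma vc_fun_zero : vc_fun W r t 0 = 0 := rfl

@[simp] lemma vc_fun_some {x y : K} (h : W.Nonsingular x y) :
    vc_fun W r t (.some x y h) = .some (x - r) (y - t) ((vc_nonsingular W r t x y).2 h) := rfl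

lemma vc_fun_add (P Q : W.Point) : vc_fun W r t (P + Q) = vc_fun W r t P + vc_fun W r t Q := by
  rcases P with _ | ⟨x₁, y₁, h₁⟩
  · change vc_fun W r t (0 + Q) = 0 + vc_fun W r t Q
    rw [zero_add, zero_add]
  rcases Q with _ | ⟨x₂, y₂, h₂⟩
  · change vc_fun W r t (_ + 0) = _ + 0
    rw [add_zero, add_zero]
  by_cases hxy : x₁ = x₂ ∧ y₁ = W.negY x₂ y₂
  · rw [Point.add_of_Y_eq hxy.1 hxy.2, vc_fun_some, vc_fun_some,
      Point.add_of_Y_eq (by rw [hxy.1]) (by rw [vc_negY, hxy.2])]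
    rfl
  · have hxy' : ¬ (x₁ - r = x₂ - r ∧ y₁ - t = (vc_curve W r t).negY (x₂ - r) (y₂ - t)) := by
      rintro ⟨h1, h2⟩
      rw [vc_negY] at h2
      exact hxy ⟨sub_left_injective h1, sub_left_injective h2⟩
    rw [Point.add_some hxy, vc_fun_some, vc_fun_some, vc_fun_some, Point.add_some hxy']
    simp only [vc_slope, vc_addX, vc_addY]

/-- The translation as an additive homomorphism. -/
def vc_hom : W.Point →+ (vc_curve W r t).Point where
  toFun := vc_fun W r t
  map_zero' := rfl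
  map_add' := vc_fun_add W r t

@[simp] lemma vc_hom_apply (P : W.Point) : vc_hom W r t P = vc_fun W r t P := rfl

lemma vc_fun_injective : Function.Injective (vc_fun W r t) := by
  rintro (_ | ⟨x₁, y₁, h₁⟩) (_ | ⟨x₂, y₂, h₂⟩) h
  · rfl
  · exact absurd h (by simp [vc_fun])
  · exact absurd h (by simp [vc_fun])
  · simp only [vc_fun, Point.some.injEq] at h
    obtain ⟨h1, h2⟩ := h
    have e1 : x₁ = x₂ := sub_left_injective h1
    have e2 : y₁ = y₂ := sub_left_injective h2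
    subst e1 e2
    rfl

lemma vc_fun_surjective : Function.Surjective (vc_fun W r t) := by
  rintro (_ | ⟨x, y, h⟩)
  · exact ⟨0, rfl⟩
  · have h' : W.Nonsingular (x + r) (y + t) := by
      rw [← vc_nonsingular W r t]
      simpa using h
    refine ⟨.some (x + r) (y + t) h', ?_⟩
    simp only [vc_fun, Point.some.injEq]
    constructor <;> ring

/-- **[VC]** The translation `(x, y) ↦ (x - r, y - t)` as an additive equivalence of point
groups. -/
noncomputable def vc_equiv : W.Point ≃+ (vc_curve W r t).Point :=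
  AddEquiv.ofBijective (vc_hom W r t) ⟨vc_fun_injective W r t, vc_fun_surjective W r t⟩

lemma vc_equiv_apply (P : W.Point) : vc_equiv W r t P = vc_fun W r t P := rfl

lemma vc_equiv_eq_zero_iff (P : W.Point) : vc_equiv W r t P = 0 ↔ P = 0 :=
  (vc_equiv W r t).map_eq_zero_iff

lemma vc_xc (P : W.Point) (hP : P ≠ 0) : xc (vc_equiv W r t P) = xc P - r := by
  rcases P with _ | ⟨x, y, h⟩
  · exact absurd rfl hP
  · rfl

lemma vc_yc (P : W.Point) (hP : P ≠ 0) : yc (vc_equiv W r t P) = yc P - t := by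
  rcases P with _ | ⟨x, y, h⟩
  · exact absurd rfl hP
  · rfl

lemma vc_psi (P : W.Point) : psi (vc_equiv W r t P) = psi P := by
  rcases P with _ | ⟨x, y, h⟩
  · rfl
  · change 2 * (y - t) + (vc_curve W r t).a₁ * (x - r) + (vc_curve W r t).a₃ = _
    rw [vc_polyY]
    rfl

lemma vc_symm_xc (Q : (vc_curve W r t).Point) (hQ : Q ≠ 0) :
    xc ((vc_equiv W r t).symm Q) = xc Q + r := by
  have h0 : (vc_equiv W r t).symm Q ≠ 0 := by
    intro h
    apply hQ
    have := congrArg (vc_equiv W r t) h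
    simpa using this
  have := vc_xc W r t _ h0
  rw [AddEquiv.apply_symm_apply] at this
  rw [this]; ring

lemma vc_symm_yc (Q : (vc_curve W r t).Point) (hQ : Q ≠ 0) :
    yc ((vc_equiv W r t).symm Q) = yc Q + t := by
  have h0 : (vc_equiv W r t).symm Q ≠ 0 := by
    intro h
    apply hQ
    have := congrArg (vc_equiv W r t) h
    simpa using this
  have := vc_yc W r t _ h0
  rw [AddEquiv.apply_symm_apply] at this
  rw [this]; ring

/-- Transport of an additive endomorphism of `W.Point` to the translated curve. -/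
noncomputable def vc_conj (φ : W.Point →+ W.Point) :
    (vc_curve W r t).Point →+ (vc_curve W r t).Point :=
  ((vc_equiv W r t).toAddMonoidHom.comp φ).comp (vc_equiv W r t).symm.toAddMonoidHom

lemma vc_conj_apply (φ : W.Point →+ W.Point) (P : W.Point) :
    vc_conj W r t φ (vc_equiv W r t P) = vc_equiv W r t (φ P) := by
  change vc_equiv W r t (φ ((vc_equiv W r t).symm (vc_equiv W r t P))) = _
  rw [AddEquiv.symm_apply_apply]

lemma vc_conj_apply' (φ : W.Point →+ W.Point) (Q : (vc_curve W r t).Point) :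
    vc_conj W r t φ Q = vc_equiv W r t (φ ((vc_equiv W r t).symm Q)) := rfl

end Fermat.Agent.M13
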