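import Fermat.Agent.M13.Basic
import Fermat.Agent.M13.VC
import Fermat.Agent.M13.LocRed
import Fermat.Agent.M13.FreyLoc
import Fermat.Agent.M13.FreyInt

/-!
# S13, package [AT-P], local part (file AtPLoc): transfer along translations, the good case, the three reduction
types of the Frey curve at an odd prime

* `apl_vc_int`, `apl_vc_E1`, `apl_vc_inertial` : integrality of the model, the kernel of reduction
  and inertial actions are transported along the translation `vc_equiv` (integral `r`, `t`).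
* `apl_key_good` : on an integral model with unit discriminant, `(φ - 1)` maps every point into
  the kernel of reduction.
* `apl_Wc_eq` : helper3's translated Frey model `fl_Wc P` is `vc_curve (EC P) (fl_r P) (fl_t P)`.
* `apl_key` : for the Frey curve at an odd place, `(φ - 1)²` maps every point into the kernel of
  reduction, given the node statement (LOC's `loc_key`) as a hypothesis.
-/

set_option autoImplicit false
set_option linter.unusedSectionVars false
set_option linter.unusedSimpArgs false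
set_option linter.style.haveILetI false

namespace Fermat.Agent.M13

open WeierstrassCurve WeierstrassCurve.Affine
open Fermat.Agent.S05 Fermat.Agent.S05.OrdVal

section General

variable {K : Type*} [Field K] [DecidableEq K] {W : WeierstrassCurve.Affine K} {O : OrdVal K}
  {r t : K}

/-- Integrality of the translated model. -/
lemma apl_vc_int (I : loc_Int W O) (hr : O.Ge r 0) (ht : O.Ge t 0) :
    loc_Int (vc_curve W r t) O where
  two_ne := I.two_ne
  hnat := I.hnat
  ha₁ := I.ha₁
  ha₂ := by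
    rw [vc_curve_a₂]
    exact I.ha₂.add (I.h3.mul0 hr)
  ha₃ := by
    rw [vc_curve_a₃]
    exact (I.ha₃.add (hr.mul0 I.ha₁)).add (I.h2.mul0 ht)
  ha₄ := by
    rw [vc_curve_a₄]
    exact ((I.ha₄.add ((I.h2.mul0 hr).mul0 I.ha₂)).sub (ht.mul0 I.ha₁)).add
      (I.h3.mul0 (hr.pow0 2))
  ha₆ := by
    rw [vc_curve_a₆]
    exact ((((((I.ha₆.add (hr.mul0 I.ha₄)).add ((hr.pow0 2).mul0 I.ha₂)).add (hr.pow0 3)).sub
      (ht.mul0 I.ha₃)).sub (ht.pow0 2)).sub ((hr.mul0 ht).mul0 I.ha₁))

/-- Subtracting an integral element does not change a negative order. -/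
lemma apl_ord_sub_int {x r : K} (hr : O.Ge r 0) (hx0 : x ≠ 0) (hx : O.ord x < 0) :
    x - r ≠ 0 ∧ O.ord (x - r) < 0 := by
  have hgt : O.Gt r (O.ord x) := by
    rcases hr with hr | hr
    · exact Or.inl hr
    · exact Or.inr (lt_of_lt_of_le hx hr)
  obtain ⟨h1, h2⟩ := ord_sub_eq_of_Gt hx0 hgt
  exact ⟨h1, by rw [h2]; exact hx⟩

/-- The kernel of reduction is transported by an integral translation. -/
lemma apl_vc_E1 (hr : O.Ge r 0) (Q : W.Point) :
    loc_E1 O (vc_equiv W r t Q) ↔ loc_E1 O Q := by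
  by_cases hQ : Q = 0
  · subst hQ
    rw [map_zero]
    exact ⟨fun _ => loc_E1_zero, fun _ => loc_E1_zero⟩
  have hvQ : vc_equiv W r t Q ≠ 0 := fun h => hQ ((vc_equiv_eq_zero_iff W r t Q).1 h)
  constructor
  · rintro (h | ⟨h0, h1⟩)
    · exact absurd h hvQ
    · rw [vc_xc W r t Q hQ] at h0 h1
      right
      have := apl_ord_sub_int (O := O) (x := xc Q - r) (r := -r) hr.neg h0 h1
      simpa using this
  · rintro (h | ⟨h0, h1⟩)
    · exact absurd h hQ
    · right
      rw [vc_xc W r t Q hQ]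
      exact apl_ord_sub_int hr h0 h1

/-- Inertial actions are transported by a translation with fixed `r`, `t`. -/
lemma apl_vc_inertial {φ : W.Point →+ W.Point} {σ : K →+* K} (H : loc_Inertial W O φ σ)
    (hσr : σ r = r) (hσt : σ t = t) :
    loc_Inertial (vc_curve W r t) O (vc_conj W r t φ) σ where
  ne_zero := by
    intro Q hQ
    rw [vc_conj_apply']
    intro h
    have h1 := (vc_equiv_eq_zero_iff W r t _).1 h
    have h2 : (vc_equiv W r t).symm Q ≠ 0 := by
      intro h3
      apply hQ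
      have := congrArg (vc_equiv W r t) h3
      simpa using this
    exact H.ne_zero _ h2 h1
  xc_eq := by
    intro Q hQ
    have h2 : (vc_equiv W r t).symm Q ≠ 0 := by
      intro h3
      apply hQ
      have := congrArg (vc_equiv W r t) h3
      simpa using this
    rw [vc_conj_apply', vc_xc W r t _ (H.ne_zero _ h2), H.xc_eq _ h2, vc_symm_xc W r t Q hQ,
      map_add, hσr]
    ring
  yc_eq := by
    intro Q hQ
    have h2 : (vc_equiv W r t).symm Q ≠ 0 := by
      intro h3
      apply hQ
      have := congrArg (vc_equiv W r t) h3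
      simpa using this
    rw [vc_conj_apply', vc_yc W r t _ (H.ne_zero _ h2), H.yc_eq _ h2, vc_symm_yc W r t Q hQ,
      map_add, hσt]
    ring
  ord_eq := H.ord_eq
  sub_gt := H.sub_gt
  fix_a₁ := H.fix_a₁
  fix_a₂ := by
    rw [vc_curve_a₂, map_add, map_mul, H.fix_a₂, hσr, map_ofNat]

/-- Transport of the conclusion "`(φ - 1)² T` lies in the kernel of reduction" back from the
translated curve. -/
lemma apl_vc_key {φ : W.Point →+ W.Point} (hr : O.Ge r 0)
    (h : ∀ Q : (vc_curve W r t).Point,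
      loc_E1 O (vc_conj W r t φ (vc_conj W r t φ Q - Q) - (vc_conj W r t φ Q - Q)))
    (T : W.Point) : loc_E1 O (φ (φ T - T) - (φ T - T)) := by
  have h1 := h (vc_equiv W r t T)
  rw [vc_conj_apply, ← map_sub, vc_conj_apply, ← map_sub] at h1
  exact (apl_vc_E1 hr _).1 h1

/-- **Good reduction**: on an integral model with unit discriminant, `φ T - T` lies in the
kernel of reduction for every `T`, hence so does `(φ - 1)² T`. -/
theorem apl_key_good (I : loc_Int W O) (hΔ : O.IsU W.Δ) {φ : W.Point →+ W.Point} {σ : K →+* K}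
    (H : loc_Inertial W O φ σ) (T : W.Point) :
    loc_E1 O (φ T - T) ∧ loc_E1 O (φ (φ T - T) - (φ T - T)) := by
  have h1 : loc_E1 O (φ T - T) := by
    rcases loc_E1_or_int (O := O) T with h | ⟨hT, hx⟩
    · exact H.sub_mem_E1_of_E1 I h
    · refine H.sub_mem_E1 I hT hx ?_
      cases T with
      | zero => exact absurd rfl hT
      | some x y hxy =>
        have := fl_good_nonsing I.hnat I.ha₁ I.ha₂ I.ha₃ I.ha₄ I.ha₆ hΔ hxy.1 hx
        rcases this with h | h
        · exact Or.inr h
        · exact Or.inl h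
  exact ⟨h1, H.sub_mem_E1_of_E1 I h1⟩

end General

section Frey

variable (P : FreyPackage)

/-- helper3's translated model is the explicit translate `vc_curve`. -/
theorem apl_Wc_eq : fl_Wc P = vc_curve (EC P) (fl_r P) (fl_t P) := by
  unfold fl_Wc
  ext
  · simp [WeierstrassCurve.variableChange_a₁]
  · simp only [WeierstrassCurve.variableChange_a₂, vc_curve_a₂]
    simp
  · simp only [WeierstrassCurve.variableChange_a₃, vc_curve_a₃]
    simp
  · simp only [WeierstrassCurve.variableChange_a₄, vc_curve_a₄]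
    simp
  · simp only [WeierstrassCurve.variableChange_a₆, vc_curve_a₆]
    simp

variable {A : ValuationSubring QQb} {q : ℕ} {O : OrdVal QQb} (D : PlaceData A q O)
include D

/-- The Frey model is integral at every place. -/
lemma apl_int : loc_Int (EC P) O where
  two_ne := two_ne_zero
  hnat := D.nat_ge
  ha₁ := fl_a₁_ge P D
  ha₂ := fl_a₂_ge P D
  ha₃ := fl_a₃_ge P D
  ha₄ := fl_a₄_ge P D
  ha₆ := fl_a₆_ge P D

/-- The statement of LOC's `loc_key` on node models, as a hypothesis. -/
def apl_KeyNode (O : OrdVal QQb) : Prop :=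
  ∀ (W : WeierstrassCurve.Affine QQb) (φ : W.Point →+ W.Point) (σ : QQb →+* QQb),
    loc_Int W O → W.a₃ = 0 → W.a₆ = 0 → O.IsU W.b₂ → W.a₄ ≠ 0 → 0 < O.ord W.a₄ →
    loc_Inertial W O φ σ → ∀ T : W.Point, loc_E1 O (φ (φ T - T) - (φ T - T))

/-- **[AT-P], local key**: for the Frey curve at an odd place, `(φ - 1)²` maps every point into
the kernel of reduction. -/
theorem apl_key (hq2 : q ≠ 2) (hkey : apl_KeyNode O)
    {φ : (EC P).Point →+ (EC P).Point} {σ : QQb →+* QQb} (H : loc_Inertial (EC P) O φ σ)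
    (hσr : σ (fl_r P) = fl_r P) (hσt : σ (fl_t P) = fl_t P) (T : (EC P).Point) :
    loc_E1 O (φ (φ T - T) - (φ T - T)) := by
  have I := apl_int P D
  by_cases ha : (q : ℤ) ∣ P.a
  · obtain ⟨hb₂, ha₄0, ha₄, -⟩ := fl_node_a P D ha
    exact hkey (EC P) φ σ I (fa2_a₃ P) (fa2_a₆ P) hb₂ ha₄0 ha₄ H T
  by_cases hb : (q : ℤ) ∣ P.b
  · obtain ⟨hb₂, ha₄0, ha₄, -⟩ := fl_node_b P D hq2 hb
    exact hkey (EC P) φ σ I (fa2_a₃ P) (fa2_a₆ P) hb₂ ha₄0 ha₄ H T
  by_cases hc : (q : ℤ) ∣ P.c
  · obtain ⟨hb₂, ha₄0, ha₄, -⟩ := fl_node_c P D hc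
    have hr := fl_r_ge P D hq2
    have ht := fl_t_ge P D hq2
    refine apl_vc_key (r := fl_r P) (t := fl_t P) hr (fun Q => ?_) T
    have I' := apl_vc_int (r := fl_r P) (t := fl_t P) I hr ht
    have H' := apl_vc_inertial (r := fl_r P) (t := fl_t P) H hσr hσt
    have e := apl_Wc_eq P
    have ha₃ : (vc_curve (EC P) (fl_r P) (fl_t P)).a₃ = 0 := by rw [← e]; exact fl_Wc_a₃ P
    have ha₆ : (vc_curve (EC P) (fl_r P) (fl_t P)).a₆ = 0 := by rw [← e]; exact fl_Wc_a₆ P
    rw [e] at hb₂ ha₄0 ha₄
    exact hkey _ _ σ I' ha₃ ha₆ hb₂ ha₄0 ha₄ H' Q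
  · exact (apl_key_good I (fl_Δ_isU P D hq2 ha hb hc) H T).2

end Frey

end Fermat.Agent.M13
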