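import Fermat.Agent.M13.AtMain
import Fermat.Agent.M13.AtPLoc

/-!
# M13 (S13), package [AT-P]: the end theorem

`atp_main` : the hypothesis `hATP` of `fin_main` (inertia at a place over `p` acts trivially on a
Galois-stable line `N` or on `E[p] / N`), given `Nat.card E[p] = p ^ 2` and the product formula
of the Wronskian package.  All three reduction types (`p ∤ abc`, `p ∣ ab`, `p ∣ c`).
-/

set_option autoImplicit false
set_option linter.unusedSectionVars false
set_option linter.unusedVariables false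

namespace Fermat.Agent.M13

open WeierstrassCurve WeierstrassCurve.Affine WeierstrassCurve.Affine.Point
open Fermat.Agent.S05 Fermat.Agent.S05.OrdVal Polynomial

/-- LOC's node key statement, in the shape used by `apl_key`. -/
theorem at_keyNode (O : OrdVal QQb) : apl_KeyNode O := by
  intro W φ σ I h₃ h₆ hb₂ ha₄0 ha₄ H T
  obtain ⟨l₁, l₂, hsum, hprod⟩ := at_exists_roots W.a₁ W.a₂
  exact H.key_node ⟨I, h₃, h₆, hb₂, ha₄0, ha₄⟩ hsum hprod T

variable (P : FreyPackage)

/-- An element of `Gal(ℚ̄/ℚ)` fixes `a^p`. -/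
lemma at_fix_frAp (σ : GQ) : σ (frAp P) = frAp P := by
  simp only [frAp, map_pow, map_intCast]

/-- The local key statement at every odd place, in all reduction types. -/
theorem at_smul_key_odd {A : ValuationSubring QQb} {q : ℕ} {O : OrdVal QQb}
    (D : PlaceData A q O) (hq2 : q ≠ 2) {σ : GQ} (hσ : σ ∈ A.inertiaSubgroupIn ℚ)
    (T : (EC P).Point) : loc_E1 O (σ • (σ • T - T) - (σ • T - T)) := by
  have H := at_inertial D (P.freyCurve : WeierstrassCurve.Affine ℚ) hσ
  refine apl_key P D hq2 (at_keyNode O) H ?_ ?_ T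
  · change σ (fl_r P) = fl_r P
    simp only [fl_r, map_div₀, at_fix_frAp, map_ofNat]
  · change σ (fl_t P) = fl_t P
    simp only [fl_t, map_div₀, map_neg, at_fix_frAp, map_ofNat]

/-- **[AT-P]** = hypothesis `hATP` of `fin_main`, given the cardinality and the product formula
of the Wronskian package. -/
theorem atp_main (hcard : Nat.card (VV P) = P.p ^ 2)
    (hWR : ∃ S : Finset QQb,
      (∀ ξ, ξ ∈ S ↔ ∃ T : (EC P).Point, T ≠ 0 ∧ P.p • T = 0 ∧ xc T = ξ) ∧
      (wrPoly P.freyCurveInt P.p).map (Int.castRingHom QQb)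
        = C ((wrV P.p : ℤ) : QQb) * ∏ ξ ∈ S, (X - C ξ)) :
    ∀ N : Submodule (ZMod P.p) (VV P), IsGaloisStable ℚ N → N ≠ ⊥ → N ≠ ⊤ →
      ∃ A : ValuationSubring QQb, A.LiesOverPrime P.p ∧
        ((∀ σ ∈ A.inertiaSubgroupIn ℚ, ∀ x ∈ N, σ • x = x) ∨
          (∀ σ ∈ A.inertiaSubgroupIn ℚ, ∀ x : VV P, σ • x - x ∈ N)) :=
  atp_main_of P hcard hWR (fun _ A O D σ hσ T =>
    at_smul_key_odd P D (by have := P.hp5; omega) hσ T)

end Fermat.Agent.M13
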