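import Fermat.Agent.M13.AtP

/-!
# M13 (S13): the Galois action of an inertia element is `loc_Inertial`

For a valuation subring `A` of `ℚ̄` over a prime `q` with its `ℚ`-valued valuation `O`
(`PlaceData A q O`) and `σ` in the inertia group of `A`:

* `at_ord_eq` : `ord (σ z) = ord z`;
* `at_inertial` : `loc_Inertial (E⁄ℚ̄) O (Point.map σ) σ` for every Weierstrass curve `E` over `ℚ`;
* `at_smul_key_good`, `at_smul_key_of_E0` : the local key statements for the action `σ • T`.
-/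

set_option autoImplicit false
set_option linter.unusedSectionVars false
set_option linter.unusedVariables false

namespace Fermat.Agent.M13

open WeierstrassCurve WeierstrassCurve.Affine WeierstrassCurve.Affine.Point
open Fermat.Agent.S05 Fermat.Agent.S05.OrdVal

variable {A : ValuationSubring QQb} {q : ℕ} {O : OrdVal QQb} (D : PlaceData A q O)
include D

/-- An inertia element maps `A` into `A`. -/
lemma at_map_mem {σ : GQ} (hσ : σ ∈ A.inertiaSubgroupIn ℚ) {x : QQb} (hx : x ∈ A) : σ x ∈ A :=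
  (inertia_mem_and_sub A σ hσ).1 x hx

/-- An inertia element maps units to units. -/
lemma at_ord_unit {σ : GQ} (hσ : σ ∈ A.inertiaSubgroupIn ℚ) {u : QQb} (hu0 : u ≠ 0)
    (hu : O.ord u = 0) : O.ord (σ u) = 0 := by
  have hσu0 : σ u ≠ 0 := by
    intro h
    exact hu0 ((map_eq_zero σ).1 h)
  have h1 : u ∈ A := (D.mem_iff u hu0).2 hu.ge
  have h2 : u⁻¹ ∈ A := (D.mem_iff _ (inv_ne_zero hu0)).2 (by rw [O.ord_inv hu0, hu, _root_.neg_zero])
  have h3 := (D.mem_iff _ hσu0).1 (at_map_mem D hσ h1)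
  have h4 := (D.mem_iff _ (by rw [map_inv₀]; exact inv_ne_zero hσu0)).1 (at_map_mem D hσ h2)
  rw [map_inv₀, O.ord_inv hσu0] at h4
  linarith

/-- An inertia element preserves the valuation. -/
theorem at_ord_eq {σ : GQ} (hσ : σ ∈ A.inertiaSubgroupIn ℚ) {z : QQb} (hz : z ≠ 0) :
    O.ord (σ z) = O.ord z := by
  have hq0 : ((q : ℕ) : QQb) ≠ 0 := fa2_q_ne D
  have he : 0 < O.ord ((q : ℕ) : QQb) := fa2_ord_q_pos D
  have hσz : σ z ≠ 0 := by
    intro h
    exact hz ((map_eq_zero σ).1 h)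
  set e := O.ord ((q : ℕ) : QQb) with he'
  set r := O.ord z with hr'
  -- `b * r = a * e` with `b > 0`
  set a : ℤ := (r / e).num with ha
  set b : ℕ := (r / e).den with hb
  have hbpos : (0 : ℚ) < b := by exact_mod_cast (r / e).den_pos
  have hab : (b : ℚ) * r = a * e := by
    have h1 : r / e = (a : ℚ) / b := (Rat.num_div_den (r / e)).symm
    have h2 : r = (a : ℚ) / b * e := by
      rw [← h1]; field_simp
    rw [h2]; field_simp
  have hu0 : z ^ b * (((q : ℕ) : QQb) ^ a)⁻¹ ≠ 0 :=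
    mul_ne_zero (pow_ne_zero _ hz) (inv_ne_zero (zpow_ne_zero _ hq0))
  have hu : O.ord (z ^ b * (((q : ℕ) : QQb) ^ a)⁻¹) = 0 := by
    rw [O.ord_mul (pow_ne_zero _ hz) (inv_ne_zero (zpow_ne_zero _ hq0)), O.ord_pow hz,
      O.ord_inv (zpow_ne_zero _ hq0), O.ord_zpow hq0, ← hr', ← he', hab]
    ring
  have h := at_ord_unit D hσ hu0 hu
  rw [map_mul, map_pow, map_inv₀, map_zpow₀, map_natCast,
    O.ord_mul (pow_ne_zero _ hσz) (inv_ne_zero (zpow_ne_zero _ hq0)), O.ord_pow hσz,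
    O.ord_inv (zpow_ne_zero _ hq0), O.ord_zpow hq0, ← he'] at h
  have h5 : (b : ℚ) * O.ord (σ z) = b * r := by
    rw [hab]; linarith
  exact mul_left_cancel₀ hbpos.ne' h5

/-- The Galois action of an inertia element on the points of `E⁄ℚ̄` is `loc_Inertial`. -/
theorem at_inertial (E : WeierstrassCurve.Affine ℚ) {σ : GQ}
    (hσ : σ ∈ A.inertiaSubgroupIn ℚ) :
    loc_Inertial (E⁄QQb) O (Point.map (W' := E) σ.toAlgHom) (σ : QQb →+* QQb) where
  ne_zero := by
    intro P hP
    cases P with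
    | zero => exact absurd rfl hP
    | some x y h => exact Point.some_ne_zero _
  xc_eq := by
    intro P hP
    cases P with
    | zero => exact absurd rfl hP
    | some x y h => rfl
  yc_eq := by
    intro P hP
    cases P with
    | zero => exact absurd rfl hP
    | some x y h => rfl
  ord_eq := fun z hz => at_ord_eq D hσ hz
  sub_gt := fun x hx => D.sub_gt_of_inertia hσ x hx
  fix_a₁ := by
    change σ (algebraMap ℚ QQb E.a₁) = algebraMap ℚ QQb E.a₁
    exact σ.commutes _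
  fix_a₂ := by
    change σ (algebraMap ℚ QQb E.a₂) = algebraMap ℚ QQb E.a₂
    exact σ.commutes _

variable (P : FreyPackage)

/-- The integral-model structure of the Frey curve at any place. -/
theorem at_int : loc_Int (EC P) O where
  two_ne := two_ne_zero
  hnat := D.nat_ge
  ha₁ := fl_a₁_ge P D
  ha₂ := fl_a₂_ge P D
  ha₃ := fl_a₃_ge P D
  ha₄ := fl_a₄_ge P D
  ha₆ := fl_a₆_ge P D

/-- Good reduction (`q ∤ 2abc`): `(σ - 1)² T ∈ E¹` for every point `T` of the Frey curve and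
every inertia element `σ`. -/
theorem at_smul_key_good (hq2 : q ≠ 2) (ha : ¬ (q : ℤ) ∣ P.a) (hb : ¬ (q : ℤ) ∣ P.b)
    (hc : ¬ (q : ℤ) ∣ P.c) {σ : GQ} (hσ : σ ∈ A.inertiaSubgroupIn ℚ) (T : (EC P).Point) :
    loc_E1 O (σ • (σ • T - T) - (σ • T - T)) :=
  atp_key_good (at_int D P) (fl_Δ_isU P D hq2 ha hb hc)
    (at_inertial D (P.freyCurve : WeierstrassCurve.Affine ℚ) hσ) T

/-- Node at the origin (`q ∣ ab`, including `q = 2`): `(σ - 1)² T ∈ E¹` for every point `T` of
the Frey curve and every inertia element `σ`, given `(σ - 1) T ∈ E⁰`. -/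
theorem at_smul_key_of_E0 (hb₂ : O.IsU (EC P).b₂) (ha₄ : 0 < O.ord (EC P).a₄)
    {σ : GQ} (hσ : σ ∈ A.inertiaSubgroupIn ℚ)
    (hE0 : ∀ T : (EC P).Point, loc_E0 O (σ • T - T)) (T : (EC P).Point) :
    loc_E1 O (σ • (σ • T - T) - (σ • T - T)) :=
  atp_key_of_E0 (at_int D P) (fa2_a₃ P) (fa2_a₆ P) (Or.inr ha₄) hb₂
    (at_inertial D (P.freyCurve : WeierstrassCurve.Affine ℚ) hσ) hE0 T

end Fermat.Agent.M13
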