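import Fermat.Agent.M13.LocNode

/-!
# M13 / LOC (L2, L3): the square of `φ - 1` maps into the kernel of reduction

For an inertia-like automorphism `φ` (structure `loc_Inertial`):

* node model (`loc_NodeCtx`, tangent slopes `l₁`, `l₂` at the node):
  `loc_node_sub_E0 : ∀ P, loc_E0 O (φ P - P)` and
  `loc_key_node : ∀ P, loc_E1 O (φ (φ P - P) - (φ P - P))`;
* good model (every integral point has nonsingular reduction):
  `loc_sub_E1_good : ∀ P, loc_E1 O (φ P - P)` and `loc_key_good`.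

Valid in every residue characteristic.
-/

set_option autoImplicit false
set_option linter.unusedSectionVars false
set_option linter.unusedVariables false

namespace Fermat.Agent.M13

open WeierstrassCurve WeierstrassCurve.Affine Fermat.Agent.S05 Fermat.Agent.S05.OrdVal

variable {K : Type*} [Field K] [DecidableEq K]
variable {W : WeierstrassCurve.Affine K} {O : OrdVal K}

/-- a nonzero point is determined by its coordinates -/
lemma loc_point_ext {P Q : W.Point} (hP : P ≠ 0) (hQ : Q ≠ 0) (hx : xc P = xc Q)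
    (hy : yc P = yc Q) : P = Q := by
  cases P with
  | zero => exact absurd rfl hP
  | some x y h =>
    cases Q with
    | zero => exact absurd rfl hQ
    | some x' y' h' =>
      simp only [xc_some, yc_some] at hx hy
      subst hx
      subst hy
      rfl

lemma loc_exists_some {P : W.Point} (hP : P ≠ 0) :
    ∃ (x y : K) (h : W.Nonsingular x y), P = Point.some x y h := by
  cases P with
  | zero => exact absurd rfl hP
  | some x y h => exact ⟨x, y, h, rfl⟩

namespace loc_NodeCtx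

variable (C : loc_NodeCtx W O)
include C

/-- the point `T = (0,0)` is a nonsingular point of the node model -/
lemma nonsingular_T : W.Nonsingular 0 0 :=
  nonsingular_zero.2 ⟨C.ha₆, Or.inr C.ha₄0⟩

/-- `x(P + T) = a₄ / x(P)` for `T = (0,0)` -/
lemma add_T {x y : K} (h : W.Nonsingular x y) (hx0 : x ≠ 0) :
    Point.some x y h + Point.some 0 0 C.nonsingular_T ≠ 0 ∧
      xc (Point.some x y h + Point.some 0 0 C.nonsingular_T) = W.a₄ / x := by
  have hadd := Point.add_of_X_ne (h₁ := h) (h₂ := C.nonsingular_T) hx0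
  rw [hadd]
  refine ⟨Point.some_ne_zero _, ?_⟩
  simp only [xc_some]
  rw [slope_of_X_ne hx0, addX]
  have he := (equation_iff x y).1 h.1
  field_simp
  linear_combination x * he - x * y * C.ha₃ + x * C.ha₆

/-- a point with `x = 0` is `T` -/
lemma eq_T_of_xc_zero {P : W.Point} (hP : P ≠ 0) (hx : xc P = 0) :
    P = Point.some 0 0 C.nonsingular_T := by
  apply loc_point_ext hP (Point.some_ne_zero _)
  · rw [hx]; rfl
  · cases P with
    | zero => exact absurd rfl hP
    | some x y h =>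
      simp only [xc_some] at hx
      subst hx
      have he := (equation_iff 0 y).1 h.1
      have : y ^ 2 = 0 := by
        linear_combination he - y * C.ha₃ + C.ha₆
      simpa using this

end loc_NodeCtx

namespace loc_Inertial

variable {φ : W.Point →+ W.Point} {σ : K →+* K} (H : loc_Inertial W O φ σ)
include H

/-- an inertial automorphism fixes the tangent slopes at the node -/
lemma fix_root (C : loc_NodeCtx W O) {l₁ l₂ : K} (hsum : l₁ + l₂ = -W.a₁)
    (hprod : l₁ * l₂ = -W.a₂) : σ l₁ = l₁ := by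
  have hroot := C.root_eq hsum hprod
  have h1 : σ l₁ ^ 2 + W.a₁ * σ l₁ - W.a₂ = 0 := by
    have := congrArg σ hroot
    rw [map_sub, map_add, map_mul, map_pow, H.fix_a₁, H.fix_a₂, map_zero] at this
    exact this
  have h2 : (σ l₁ - l₁) * (σ l₁ - l₂) = 0 := by
    linear_combination h1 - σ l₁ * hsum + hprod
  rcases mul_eq_zero.1 h2 with h3 | h3
  · exact sub_eq_zero.1 h3
  · exfalso
    have h4 : σ l₁ = l₂ := sub_eq_zero.1 h3
    have hgt := H.sub_gt l₁ (C.root_int hsum hprod)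
    rw [h4] at hgt
    have hU := C.root_sub_isU hsum hprod
    have e : l₂ - l₁ = -(l₁ - l₂) := by ring
    rw [e] at hgt
    exact hU.neg.not_gt hgt

/-- `φ` fixes `T = (0,0)` -/
lemma fix_T (C : loc_NodeCtx W O) :
    φ (Point.some 0 0 C.nonsingular_T) = Point.some 0 0 C.nonsingular_T := by
  have hT : Point.some 0 0 C.nonsingular_T ≠ 0 := Point.some_ne_zero _
  apply loc_point_ext (H.ne_zero _ hT) hT
  · rw [H.xc_eq _ hT]; simp
  · rw [H.yc_eq _ hT]; simp

/-- same branch, inertial image: `φ P - P` does not reduce to the node -/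
lemma type_sub_map (C : loc_NodeCtx W O) {l₁ l₂ : K} (hsum : l₁ + l₂ = -W.a₁)
    (hprod : l₁ * l₂ = -W.a₂) (hσ₁ : σ l₁ = l₁) (hσ₂ : σ l₂ = l₂)
    {x y : K} (h : W.Nonsingular x y) (hx0 : x ≠ 0) (hpos : 0 < O.ord x)
    (hs : O.Gt (y - l₁ * x) (O.ord x)) (ht0 : y - l₂ * x ≠ 0)
    (ht : O.ord (y - l₂ * x) = O.ord x) :
    loc_E0 O (φ (Point.some x y h) - Point.some x y h) := by
  have hP : Point.some x y h ≠ 0 := Point.some_ne_zero _
  obtain ⟨x', y', h', hφ⟩ := loc_exists_some (H.ne_zero _ hP)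
  have hx' : x' = σ x := by
    have := H.xc_eq _ hP
    rw [hφ] at this
    simpa using this
  have hy' : y' = σ y := by
    have := H.yc_eq _ hP
    rw [hφ] at this
    simpa using this
  rw [hφ]
  have es : y' - l₁ * x' = σ (y - l₁ * x) := by
    rw [map_sub, map_mul, hσ₁, hx', hy']
  have et : y' - l₂ * x' = σ (y - l₂ * x) := by
    rw [map_sub, map_mul, hσ₂, hx', hy']
  refine C.type_sub hsum hprod h h' hx0 ?_ hpos ?_ hs ?_ ht0 ht ?_ ?_
  · rw [hx']; exact H.map_ne_zero hx0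
  · rw [hx']; exact H.ord_eq _ hx0
  · rw [es]; exact H.gt_map hs
  · rw [et]; exact H.map_ne_zero ht0
  · rw [et, H.ord_eq _ ht0]; exact ht

/-- **(L2)** On the node model, `φ P - P` never reduces to the node. -/
theorem node_sub_E0 (C : loc_NodeCtx W O) {l₁ l₂ : K} (hsum : l₁ + l₂ = -W.a₁)
    (hprod : l₁ * l₂ = -W.a₂) (P : W.Point) : loc_E0 O (φ P - P) := by
  have I := C.int
  have hsum' : l₂ + l₁ = -W.a₁ := by rw [add_comm]; exact hsum
  have hprod' : l₂ * l₁ = -W.a₂ := by rw [mul_comm]; exact hprod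
  have hσ₁ := H.fix_root C hsum hprod
  have hσ₂ := H.fix_root C hsum' hprod'
  rcases loc_E1_or_int (O := O) P with hE1 | ⟨hP, hx⟩
  · exact loc_E0_of_E1 (H.sub_mem_E1_of_E1 I hE1)
  by_cases hxu : O.Gt (xc P) 0
  swap
  · exact loc_E0_of_E1 (H.sub_mem_E1 I hP hx (C.ns_of_not_gt hP hx hxu))
  by_cases hx0 : xc P = 0
  · left
    rw [C.eq_T_of_xc_zero hP hx0, H.fix_T C, sub_self]
  have hpos : 0 < O.ord (xc P) := hxu.lt_ord hx0
  obtain ⟨x, y, h, rfl⟩ := loc_exists_some hP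
  simp only [xc_some] at hx hxu hx0 hpos
  by_cases hlt : O.ord x < O.ord W.a₄
  · rcases C.type_cases hsum hprod h.1 hx0 hpos hlt with ⟨hs, ht0, ht⟩ | ⟨hs, ht0, ht⟩
    · exact H.type_sub_map C hsum hprod hσ₁ hσ₂ h hx0 hpos hs ht0 ht
    · exact H.type_sub_map C hsum' hprod' hσ₂ hσ₁ h hx0 hpos hs ht0 ht
  · rw [not_lt] at hlt
    obtain ⟨hR0, hRx⟩ := C.add_T h hx0
    set R := Point.some x y h + Point.some 0 0 C.nonsingular_T with hR
    have hφR : φ R - R = φ (Point.some x y h) - Point.some x y h := by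
      rw [hR, map_add, H.fix_T C]
      abel
    rw [← hφR]
    have hRx0 : xc R ≠ 0 := by
      rw [hRx]; exact div_ne_zero C.ha₄0 hx0
    have hRord : O.ord (xc R) = O.ord W.a₄ - O.ord x := by
      rw [hRx, O.ord_div C.ha₄0 hx0]
    by_cases hneg : O.ord (xc R) < 0
    · exact loc_E0_of_E1 (H.sub_mem_E1_of_E1 I (Or.inr ⟨hRx0, hneg⟩))
    · have hRU : O.IsU (xc R) := ⟨hRx0, by linarith⟩
      exact loc_E0_of_E1 (H.sub_mem_E1 I hR0 hRU.ge (C.ns_of_not_gt hR0 hRU.ge hRU.not_gt))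

/-- **(L3)** On the node model, `(φ - 1)²` maps every point into the kernel of reduction. -/
theorem key_node (C : loc_NodeCtx W O) {l₁ l₂ : K} (hsum : l₁ + l₂ = -W.a₁)
    (hprod : l₁ * l₂ = -W.a₂) (P : W.Point) :
    loc_E1 O (φ (φ P - P) - (φ P - P)) := by
  have I := C.int
  rcases H.node_sub_E0 C hsum hprod P with h0 | hnot
  · left; rw [h0, map_zero, sub_zero]
  rcases loc_E1_or_int (O := O) (φ P - P) with hE1 | ⟨hQ, hx⟩
  · exact H.sub_mem_E1_of_E1 I hE1
  · exact H.sub_mem_E1 I hQ hx (C.ns_of_not_gt hQ hx hnot)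

/-- On a good model, `φ P - P` lies in the kernel of reduction for every `P`. -/
theorem sub_E1_good (I : loc_Int W O)
    (hgood : ∀ P : W.Point, P ≠ 0 → O.Ge (xc P) 0 → O.IsU (psi P) ∨ O.IsU (loc_FX P))
    (P : W.Point) : loc_E1 O (φ P - P) := by
  rcases loc_E1_or_int (O := O) P with hE1 | ⟨hP, hx⟩
  · exact H.sub_mem_E1_of_E1 I hE1
  · exact H.sub_mem_E1 I hP hx (hgood P hP hx)

/-- **(L3)** On a good model, `(φ - 1)²` maps every point into the kernel of reduction. -/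
theorem key_good (I : loc_Int W O)
    (hgood : ∀ P : W.Point, P ≠ 0 → O.Ge (xc P) 0 → O.IsU (psi P) ∨ O.IsU (loc_FX P))
    (P : W.Point) : loc_E1 O (φ (φ P - P) - (φ P - P)) :=
  H.sub_mem_E1_of_E1 I (H.sub_E1_good I hgood P)

end loc_Inertial

/-- Criterion for a good model (`a₃ = a₆ = 0`, residue characteristic `≠ 2`): if `a₄` and
`b₂² - 64 a₄` are units then every integral point has nonsingular reduction. -/
theorem loc_good_of_units (I : loc_Int W O) (ha₃ : W.a₃ = 0) (ha₆ : W.a₆ = 0)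
    (h2U : O.IsU (2 : K)) (ha₄U : O.IsU W.a₄) (hdisc : O.IsU (W.b₂ ^ 2 - 64 * W.a₄))
    (P : W.Point) (hP : P ≠ 0) (hx : O.Ge (xc P) 0) : O.IsU (psi P) ∨ O.IsU (loc_FX P) := by
  obtain ⟨x, y, h, rfl⟩ := loc_exists_some hP
  simp only [xc_some, psi_some, loc_FX_some] at hx ⊢
  have hy := loc_y_int I h.1 hx
  have hFYge : O.Ge (2 * y + W.a₁ * x + W.a₃) 0 :=
    ((I.h2.mul0 hy).add (I.ha₁.mul0 hx)).add I.ha₃
  have hFXge : O.Ge (W.a₁ * y - (3 * x ^ 2 + 2 * W.a₂ * x + W.a₄)) 0 :=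
    (I.ha₁.mul0 hy).sub (((I.h3.mul0 (hx.pow0 2)).add ((I.h2.mul0 I.ha₂).mul0 hx)).add I.ha₄)
  by_contra hcon
  rw [not_or] at hcon
  have hFY := loc_gt_of_ge_of_not_isU hFYge hcon.1
  have hFX := loc_gt_of_ge_of_not_isU hFXge hcon.2
  have he := (equation_iff x y).1 h.1
  have h4U : O.IsU (4 : K) := by
    have : (4 : K) = 2 ^ 2 := by norm_num
    rw [this]; exact h2U.pow 2
  have hb₂ := I.hb₂
  -- `G'(x) ∈ 𝔪`
  have hG' : O.Gt (12 * x ^ 2 + 2 * W.b₂ * x + 4 * W.a₄) 0 := by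
    have e : 12 * x ^ 2 + 2 * W.b₂ * x + 4 * W.a₄ =
        (2 * W.a₁) * (2 * y + W.a₁ * x + W.a₃) -
          4 * (W.a₁ * y - (3 * x ^ 2 + 2 * W.a₂ * x + W.a₄)) := by
      rw [WeierstrassCurve.b₂]
      linear_combination (-2 * W.a₁) * ha₃
    rw [e]
    exact ((I.h2.mul0 I.ha₁).mul_gt0 hFY).sub (I.h4.mul_gt0 hFX)
  -- `x q(x) ∈ 𝔪`
  have hG : O.Gt (x * (4 * x ^ 2 + W.b₂ * x + 4 * W.a₄)) 0 := by
    have e : x * (4 * x ^ 2 + W.b₂ * x + 4 * W.a₄) =
        (2 * y + W.a₁ * x + W.a₃) * (2 * y + W.a₁ * x + W.a₃) := by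
      rw [WeierstrassCurve.b₂]
      linear_combination (-4 : K) * he - (2 * W.a₁ * x + W.a₃) * ha₃ - 4 * ha₆
    rw [e]
    exact hFY.mul_ge0 hFYge
  by_cases hxu : O.Gt x 0
  · have h1 : O.Gt (4 * W.a₄) 0 := by
      have e : 4 * W.a₄ = (12 * x ^ 2 + 2 * W.b₂ * x + 4 * W.a₄) -
          x * (12 * x + 2 * W.b₂) := by ring
      rw [e]
      refine hG'.sub (hxu.mul_ge0 ?_)
      have h12 : O.Ge (12 : K) 0 := by simpa using I.hnat 12
      exact (h12.mul0 hx).add (I.h2.mul0 hb₂)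
    exact (h4U.mul ha₄U).not_gt h1
  · have hxU := isU_of_ge_of_not_gt hx hxu
    have hq : O.Gt (4 * x ^ 2 + W.b₂ * x + 4 * W.a₄) 0 := loc_gt_of_isU_mul hxU hG
    have hq' : O.Gt (8 * x + W.b₂) 0 := by
      apply loc_gt_of_isU_mul hxU
      have e : x * (8 * x + W.b₂) = (12 * x ^ 2 + 2 * W.b₂ * x + 4 * W.a₄) -
          (4 * x ^ 2 + W.b₂ * x + 4 * W.a₄) := by ring
      rw [e]
      exact hG'.sub hq
    have hq'ge : O.Ge (8 * x + W.b₂) 0 := hq'.ge
    have h1 : O.Gt (W.b₂ ^ 2 - 64 * W.a₄) 0 := by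
      have e : W.b₂ ^ 2 - 64 * W.a₄ = (8 * x + W.b₂) * (8 * x + W.b₂) -
          16 * (4 * x ^ 2 + W.b₂ * x + 4 * W.a₄) := by ring
      rw [e]
      refine (hq'.mul_ge0 hq'ge).sub (Ge.mul_gt0 ?_ hq)
      simpa using I.hnat 16
    exact hdisc.not_gt h1

end Fermat.Agent.M13
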