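import Fermat.Agent.M13.WrBasic

/-!
# Pole order and leading coefficient of the Wronskian

The pole-order filtration of the coordinate ring of a Weierstrass curve (weights `x ↦ 2`,
`y ↦ 3`) via the leading-form map `wrPhi (p + qY) = p(X²) + X³ q(X²)`, its compatibility with
products and with the invariant derivation, and the computation of the leading coefficient of the
Wronskian as a Vandermonde determinant.
-/

set_option autoImplicit false

namespace Fermat.Agent.M13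

open Polynomial WeierstrassCurve WeierstrassCurve.Affine

noncomputable section

variable {R : Type*} [CommRing R] (W : WeierstrassCurve.Affine R)

/-! ### Polynomial preliminaries -/

lemma wr_natDegree_of_pad (k n : ℕ) (A : R[X]) (h : (X ^ k * A).natDegree ≤ n + k) :
    A.natDegree ≤ n := by
  rw [natDegree_le_iff_coeff_eq_zero]
  intro j hj
  have h1 : (X ^ k * A).coeff (j + k) = 0 :=
    coeff_eq_zero_of_natDegree_lt (lt_of_le_of_lt h (by omega))
  rwa [coeff_X_pow_mul] at h1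

lemma wr_split (p q : R[X]) (n : ℕ)
    (h : (expand R 2 p + X ^ 3 * expand R 2 q).natDegree ≤ n) :
    (expand R 2 p).natDegree ≤ n ∧ (X ^ 3 * expand R 2 q).natDegree ≤ n := by
  rw [natDegree_le_iff_coeff_eq_zero] at h
  constructor
  · rw [natDegree_le_iff_coeff_eq_zero]
    intro j hj
    have h1 := h j hj
    rw [coeff_add, coeff_X_pow_mul', coeff_expand (by norm_num), coeff_expand (by norm_num)] at h1
    rw [coeff_expand (by norm_num)]
    by_cases h2 : 2 ∣ j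
    · have h3 : ¬ 2 ∣ j - 3 ∨ ¬ 3 ≤ j := by omega
      rcases h3 with h3 | h3
      · simpa [h2, h3] using h1
      · simpa [h2, h3] using h1
    · simp [h2]
  · rw [natDegree_le_iff_coeff_eq_zero]
    intro j hj
    have h1 := h j hj
    rw [coeff_add, coeff_X_pow_mul', coeff_expand (by norm_num), coeff_expand (by norm_num)] at h1
    rw [coeff_X_pow_mul', coeff_expand (by norm_num)]
    by_cases h2 : 2 ∣ j
    · have h3 : ¬ 2 ∣ j - 3 ∨ ¬ 3 ≤ j := by omega
      rcases h3 with h3 | h3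
      · simp [h3]
      · simp [h3]
    · simpa [h2] using h1

lemma wr_pad_deriv (p : R[X]) (k n : ℕ) (h : (X ^ k * expand R 2 p).natDegree ≤ n) :
    (X ^ (k + 2) * expand R 2 (derivative p)).natDegree ≤ n := by
  rw [natDegree_le_iff_coeff_eq_zero] at h ⊢
  intro j hj
  have h1 := h j hj
  rw [coeff_X_pow_mul', coeff_expand (by norm_num)] at h1
  rw [coeff_X_pow_mul', coeff_expand (by norm_num), coeff_derivative]
  by_cases h2 : k + 2 ≤ j
  · by_cases h3 : 2 ∣ j - (k + 2)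
    · have h4 : k ≤ j := by omega
      have h5 : 2 ∣ j - k := by omega
      have h6 : (j - (k + 2)) / 2 + 1 = (j - k) / 2 := by omega
      rw [if_pos h4, if_pos h5] at h1
      rw [if_pos h2, if_pos h3, h6, h1, zero_mul]
    · rw [if_pos h2, if_neg h3]
  · rw [if_neg h2]

/-! ### The leading-form map -/

/-- The leading-form map `p + qY ↦ p(X²) + X³ q(X²)`. -/
def wrPhi (f : W.CoordinateRing) : R[X] :=
  expand R 2 (wrP W f) + X ^ 3 * expand R 2 (wrQ W f)

lemma wrPhi_wrMk (p q : R[X]) :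
    wrPhi W (wrMk W p q) = expand R 2 p + X ^ 3 * expand R 2 q := by
  rw [wrPhi, wrP_wrMk, wrQ_wrMk]

lemma wrPhi_add (f g : W.CoordinateRing) : wrPhi W (f + g) = wrPhi W f + wrPhi W g := by
  simp only [wrPhi, wrP_add, wrQ_add, map_add]
  ring

lemma wrPhi_zero : wrPhi W 0 = 0 := by
  rw [← wrMk_zero W, wrPhi_wrMk]
  simp

/-- `a₁X² + a₃`. -/
def wrL2 : R[X] := C W.a₁ * X ^ 2 + C W.a₃

/-- `a₂X⁴ + a₄X² + a₆`. -/
def wrC6 : R[X] := C W.a₂ * X ^ 4 + C W.a₄ * X ^ 2 + C W.a₆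

/-- `2a₂X² + a₄`. -/
def wrC4 : R[X] := 2 * C W.a₂ * X ^ 2 + C W.a₄

lemma wr_expand_wrL : expand R 2 (wrL W) = wrL2 W := by
  simp only [wrL, wrL2, map_add, map_mul, expand_X, expand_C]

lemma wr_expand_wrC : expand R 2 (wrC W) = X ^ 6 + wrC6 W := by
  simp only [wrC, wrC6, map_add, map_mul, map_pow, expand_X, expand_C]
  ring

lemma wr_expand_wrC' : expand R 2 (wrC' W) = 3 * X ^ 4 + wrC4 W := by
  simp only [wrC', wrC4, map_add, map_mul, map_pow, expand_X, expand_C, map_ofNat]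
  ring

lemma wr_natDegree_wrL2 : (wrL2 W).natDegree ≤ 2 := by
  unfold wrL2
  compute_degree

lemma wr_natDegree_wrC6 : (wrC6 W).natDegree ≤ 4 := by
  unfold wrC6
  compute_degree

lemma wr_natDegree_wrC4 : (wrC4 W).natDegree ≤ 2 := by
  unfold wrC4
  compute_degree

lemma wrPhi_mul (f g : W.CoordinateRing) :
    wrPhi W (f * g) = wrPhi W f * wrPhi W g +
      expand R 2 (wrQ W f) * expand R 2 (wrQ W g) * (wrC6 W - X ^ 3 * wrL2 W) := by
  simp only [wrPhi, wrP_mul, wrQ_mul, map_add, map_sub, map_mul, wr_expand_wrL, wr_expand_wrC]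
  ring

/-- Pole order at most `n`. -/
def wrLe (n : ℕ) (f : W.CoordinateRing) : Prop := (wrPhi W f).natDegree ≤ n

/-- The coefficient of pole order `n`. -/
def wrSym (n : ℕ) (f : W.CoordinateRing) : R := (wrPhi W f).coeff n

variable {W}

lemma wrLe_mono {m n : ℕ} {f : W.CoordinateRing} (h : wrLe W m f) (hmn : m ≤ n) : wrLe W n f :=
  le_trans h hmn

lemma wrSym_eq_zero {m n : ℕ} {f : W.CoordinateRing} (h : wrLe W m f) (hmn : m < n) :
    wrSym W n f = 0 :=
  coeff_eq_zero_of_natDegree_lt (lt_of_le_of_lt h hmn)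

lemma wrLe_add {n : ℕ} {f g : W.CoordinateRing} (hf : wrLe W n f) (hg : wrLe W n g) :
    wrLe W n (f + g) := by
  unfold wrLe
  rw [wrPhi_add]
  exact natDegree_add_le_of_degree_le hf hg

lemma wrSym_add (n : ℕ) (f g : W.CoordinateRing) :
    wrSym W n (f + g) = wrSym W n f + wrSym W n g := by
  unfold wrSym
  rw [wrPhi_add, coeff_add]

lemma wrLe_zero (n : ℕ) : wrLe W n 0 := by
  unfold wrLe
  rw [wrPhi_zero, natDegree_zero]
  exact Nat.zero_le n

lemma wrSym_zero (n : ℕ) : wrSym W n 0 = 0 := by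
  unfold wrSym
  rw [wrPhi_zero, coeff_zero]

lemma wr_err {m n : ℕ} {f g : W.CoordinateRing} (hf : wrLe W m f) (hg : wrLe W n g) (j : ℕ)
    (hj : m + n ≤ j) :
    (expand R 2 (wrQ W f) * expand R 2 (wrQ W g) * (wrC6 W - X ^ 3 * wrL2 W)).coeff j = 0 := by
  have h1 := (wr_split _ _ _ hf).2
  have h2 := (wr_split _ _ _ hg).2
  have h3 : (X ^ 6 * (expand R 2 (wrQ W f) * expand R 2 (wrQ W g) *
      (wrC6 W - X ^ 3 * wrL2 W))).natDegree ≤ m + n + 5 := by
    have h4 : X ^ 6 * (expand R 2 (wrQ W f) * expand R 2 (wrQ W g) *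
        (wrC6 W - X ^ 3 * wrL2 W)) = (X ^ 3 * expand R 2 (wrQ W f)) *
        (X ^ 3 * expand R 2 (wrQ W g)) * (wrC6 W - X ^ 3 * wrL2 W) := by ring
    rw [h4]
    refine natDegree_mul_le_of_le (natDegree_mul_le_of_le h1 h2) ?_
    refine natDegree_sub_le_of_le (m := 5) (n := 5)
      ((wr_natDegree_wrC6 W).trans (by norm_num)) ?_
    exact natDegree_mul_le_of_le (natDegree_X_pow_le 3) (wr_natDegree_wrL2 W)
  have h5 := coeff_eq_zero_of_natDegree_lt (lt_of_le_of_lt h3 (by omega : m + n + 5 < j + 6))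
  rwa [coeff_X_pow_mul] at h5

lemma wrLe_mul {m n : ℕ} {f g : W.CoordinateRing} (hf : wrLe W m f) (hg : wrLe W n g) :
    wrLe W (m + n) (f * g) := by
  unfold wrLe
  rw [natDegree_le_iff_coeff_eq_zero]
  intro j hj
  rw [wrPhi_mul, coeff_add, wr_err hf hg j hj.le, add_zero]
  exact coeff_eq_zero_of_natDegree_lt (lt_of_le_of_lt (natDegree_mul_le_of_le hf hg) hj)

lemma wrSym_mul {m n : ℕ} {f g : W.CoordinateRing} (hf : wrLe W m f) (hg : wrLe W n g) :
    wrSym W (m + n) (f * g) = wrSym W m f * wrSym W n g := by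
  unfold wrSym
  rw [wrPhi_mul, coeff_add, wr_err hf hg _ le_rfl, add_zero]
  exact coeff_mul_add_eq_of_natDegree_le hf hg

/-! ### The derivation and the filtration -/

variable (W)

/-- The lower-order part of `wrPhi (D f)`. -/
def wrRem (f : W.CoordinateRing) : R[X] :=
  expand R 2 (derivative (wrP W f)) * wrL2 W + 2 * expand R 2 (derivative (wrQ W f)) * wrC6 W +
    expand R 2 (wrQ W f) * wrC4 W - X ^ 3 * expand R 2 (derivative (wrQ W f)) * wrL2 W -
    C W.a₁ * X ^ 3 * expand R 2 (wrQ W f)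

lemma wrPhi_wrD (f : W.CoordinateRing) :
    wrPhi W (wrD W f) = X ^ 2 * derivative (wrPhi W f) + wrRem W f := by
  simp only [wrPhi, wrRem, wrP_wrD, wrQ_wrD, wrDP, wrDQ, map_add, map_sub, map_mul,
    wr_expand_wrL, wr_expand_wrC, wr_expand_wrC', derivative_mul,
    derivative_expand, derivative_X_pow, expand_C, map_ofNat]
  have h3 : (C (3 : R) : R[X]) = 3 := map_ofNat C 3
  norm_num
  rw [h3]
  ring

variable {W}

lemma wr_rem {n : ℕ} {f : W.CoordinateRing} (hf : wrLe W n f) : (wrRem W f).natDegree ≤ n := by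
  obtain ⟨hP, hQ⟩ := wr_split _ _ _ hf
  have hA : (X ^ 2 * expand R 2 (derivative (wrP W f))).natDegree ≤ n := by
    have h := wr_pad_deriv (wrP W f) 0 n (by simpa using hP)
    simpa using h
  have hB : (X ^ 5 * expand R 2 (derivative (wrQ W f))).natDegree ≤ n :=
    wr_pad_deriv (wrQ W f) 3 n hQ
  apply wr_natDegree_of_pad 5
  have h1 : X ^ 5 * wrRem W f
      = X ^ 3 * (X ^ 2 * expand R 2 (derivative (wrP W f))) * wrL2 W
        + C 2 * (X ^ 5 * expand R 2 (derivative (wrQ W f))) * wrC6 W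
        + X ^ 2 * (X ^ 3 * expand R 2 (wrQ W f)) * wrC4 W
        - X ^ 3 * (X ^ 5 * expand R 2 (derivative (wrQ W f))) * wrL2 W
        - C W.a₁ * X ^ 5 * (X ^ 3 * expand R 2 (wrQ W f)) := by
    have h2 : (C (2 : R) : R[X]) = 2 := map_ofNat C 2
    rw [h2]
    unfold wrRem
    ring
  rw [h1]
  have hX : ∀ k : ℕ, (X ^ k : R[X]).natDegree ≤ k := fun k => natDegree_X_pow_le k
  have t1 : (X ^ 3 * (X ^ 2 * expand R 2 (derivative (wrP W f))) * wrL2 W).natDegree ≤ n + 5 :=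
    (natDegree_mul_le_of_le (natDegree_mul_le_of_le (hX 3) hA) (wr_natDegree_wrL2 W)).trans
      (by omega)
  have t2 : (C 2 * (X ^ 5 * expand R 2 (derivative (wrQ W f))) * wrC6 W).natDegree ≤ n + 5 :=
    (natDegree_mul_le_of_le ((natDegree_C_mul_le _ _).trans hB) (wr_natDegree_wrC6 W)).trans
      (by omega)
  have t3 : (X ^ 2 * (X ^ 3 * expand R 2 (wrQ W f)) * wrC4 W).natDegree ≤ n + 5 :=
    (natDegree_mul_le_of_le (natDegree_mul_le_of_le (hX 2) hQ) (wr_natDegree_wrC4 W)).trans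
      (by omega)
  have t4 : (X ^ 3 * (X ^ 5 * expand R 2 (derivative (wrQ W f))) * wrL2 W).natDegree ≤ n + 5 :=
    (natDegree_mul_le_of_le (natDegree_mul_le_of_le (hX 3) hB) (wr_natDegree_wrL2 W)).trans
      (by omega)
  have t5 : (C W.a₁ * X ^ 5 * (X ^ 3 * expand R 2 (wrQ W f))).natDegree ≤ n + 5 :=
    (natDegree_mul_le_of_le ((natDegree_C_mul_le _ _).trans (hX 5)) hQ).trans (by omega)
  exact (natDegree_sub_le_of_le (natDegree_sub_le_of_le (natDegree_add_le_of_degree_le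
    (natDegree_add_le_of_degree_le t1 t2) t3) t4) t5).trans (by simp)

lemma wrLe_wrD {n : ℕ} {f : W.CoordinateRing} (hf : wrLe W n f) : wrLe W (n + 1) (wrD W f) := by
  unfold wrLe
  rw [wrPhi_wrD]
  refine natDegree_add_le_of_degree_le ?_ ((wr_rem hf).trans (Nat.le_succ n))
  rw [natDegree_le_iff_coeff_eq_zero]
  intro j hj
  rw [coeff_X_pow_mul']
  split_ifs with h2
  · rw [coeff_derivative]
    have h3 : (wrPhi W f).coeff (j - 2 + 1) = 0 :=
      coeff_eq_zero_of_natDegree_lt (lt_of_le_of_lt hf (by omega))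
    rw [h3, zero_mul]
  · rfl

lemma wrSym_wrD {n : ℕ} {f : W.CoordinateRing} (hf : wrLe W n f) :
    wrSym W (n + 1) (wrD W f) = (n : R) * wrSym W n f := by
  unfold wrSym
  rw [wrPhi_wrD, coeff_add,
    coeff_eq_zero_of_natDegree_lt (lt_of_le_of_lt (wr_rem hf) (Nat.lt_succ_self n)), add_zero,
    coeff_X_pow_mul']
  rcases Nat.eq_zero_or_pos n with h0 | h0
  · subst h0
    simp
  · obtain ⟨k, rfl⟩ : ∃ k, n = k + 1 := ⟨n - 1, by omega⟩
    rw [if_pos (by omega), coeff_derivative]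
    have h1 : k + 1 + 1 - 2 = k := by omega
    rw [h1]
    push_cast
    ring

lemma wrLe_iterate {m : ℕ} {f : W.CoordinateRing} (hf : wrLe W m f) (i : ℕ) :
    wrLe W (m + i) ((wrD W)^[i] f) := by
  induction i with
  | zero => simpa using hf
  | succ i ih =>
    rw [Function.iterate_succ_apply', ← add_assoc]
    exact wrLe_wrD ih

lemma wrSym_iterate {m : ℕ} {f : W.CoordinateRing} (hf : wrLe W m f) (i : ℕ) :
    wrSym W (m + i) ((wrD W)^[i] f)
      = (((ascPochhammer ℤ i).eval (m : ℤ) : ℤ) : R) * wrSym W m f := by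
  induction i with
  | zero => simp
  | succ i ih =>
    rw [Function.iterate_succ_apply', ← add_assoc, wrSym_wrD (wrLe_iterate hf i), ih,
      ascPochhammer_succ_eval]
    push_cast
    ring

/-! ### Monomials -/

lemma wrPhi_wrMono (m : ℕ) (hm : m ≠ 1) : wrPhi W (wrMono W m) = X ^ m := by
  unfold wrMono
  split_ifs with h
  · rw [wrPhi_wrMk, map_zero, mul_zero, add_zero, map_pow, expand_X, ← pow_mul]
    congr 1
    omega
  · rw [wrPhi_wrMk, map_zero, zero_add, map_pow, expand_X, ← pow_mul, ← pow_add]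
    congr 1
    omega

lemma wrLe_wrMono (m : ℕ) (hm : m ≠ 1) : wrLe W m (wrMono W m) := by
  unfold wrLe
  rw [wrPhi_wrMono m hm]
  exact natDegree_X_pow_le m

lemma wrSym_wrMono (m : ℕ) (hm : m ≠ 1) : wrSym W m (wrMono W m) = 1 := by
  unfold wrSym
  rw [wrPhi_wrMono m hm, coeff_X_pow_self]

lemma wrOrd_ne_one (j : ℕ) : wrOrd j ≠ 1 := by
  unfold wrOrd
  split_ifs <;> omega

/-! ### Constants, sums, products, determinants -/

lemma wrMk_intCast (z : ℤ) : wrMk W (z : R[X]) 0 = (z : W.CoordinateRing) := by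
  unfold wrMk
  rw [zero_smul, add_zero, ← Algebra.algebraMap_eq_smul_one, map_intCast]

lemma wrPhi_intCast (z : ℤ) : wrPhi W (z : W.CoordinateRing) = (z : R[X]) := by
  rw [← wrMk_intCast, wrPhi_wrMk, map_zero, mul_zero, add_zero, map_intCast]

lemma wrLe_intCast (z : ℤ) : wrLe W 0 (z : W.CoordinateRing) := by
  unfold wrLe
  rw [wrPhi_intCast, natDegree_intCast]

lemma wrSym_intCast (z : ℤ) : wrSym W 0 (z : W.CoordinateRing) = (z : R) := by
  unfold wrSym
  rw [wrPhi_intCast, ← C_eq_intCast, coeff_C_zero]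

lemma wrLe_one : wrLe W 0 (1 : W.CoordinateRing) := by
  have h := wrLe_intCast (W := W) 1
  rwa [Int.cast_one] at h

lemma wrSym_one : wrSym W 0 (1 : W.CoordinateRing) = 1 := by
  have h := wrSym_intCast (W := W) 1
  rwa [Int.cast_one, Int.cast_one] at h

lemma wrLe_sum {ι : Type*} (s : Finset ι) (f : ι → W.CoordinateRing) (n : ℕ)
    (h : ∀ i ∈ s, wrLe W n (f i)) : wrLe W n (∑ i ∈ s, f i) := by
  classical
  induction s using Finset.induction_on with
  | empty => simpa using wrLe_zero n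
  | insert a s ha ih =>
    rw [Finset.sum_insert ha]
    exact wrLe_add (h a (Finset.mem_insert_self a s))
      (ih fun i hi => h i (Finset.mem_insert_of_mem hi))

lemma wrSym_sum {ι : Type*} (s : Finset ι) (f : ι → W.CoordinateRing) (n : ℕ) :
    wrSym W n (∑ i ∈ s, f i) = ∑ i ∈ s, wrSym W n (f i) := by
  classical
  induction s using Finset.induction_on with
  | empty => simpa using wrSym_zero n
  | insert a s ha ih =>
    rw [Finset.sum_insert ha, Finset.sum_insert ha, wrSym_add, ih]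

lemma wr_prod {ι : Type*} (s : Finset ι) (f : ι → W.CoordinateRing) (a : ι → ℕ)
    (h : ∀ i ∈ s, wrLe W (a i) (f i)) :
    wrLe W (∑ i ∈ s, a i) (∏ i ∈ s, f i) ∧
      wrSym W (∑ i ∈ s, a i) (∏ i ∈ s, f i) = ∏ i ∈ s, wrSym W (a i) (f i) := by
  classical
  induction s using Finset.induction_on with
  | empty => simpa using ⟨wrLe_one, wrSym_one⟩
  | insert b s hb ih =>
    obtain ⟨h1, h2⟩ := ih fun i hi => h i (Finset.mem_insert_of_mem hi)
    have h3 := h b (Finset.mem_insert_self b s)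
    rw [Finset.sum_insert hb, Finset.prod_insert hb, Finset.prod_insert hb]
    exact ⟨wrLe_mul h3 h1, by rw [wrSym_mul h3 h1, h2]⟩

lemma wr_det {n : ℕ} (M : Matrix (Fin n) (Fin n) W.CoordinateRing) (a b : Fin n → ℕ)
    (h : ∀ i j, wrLe W (a i + b j) (M i j)) :
    wrLe W (∑ i, a i + ∑ j, b j) M.det ∧
      wrSym W (∑ i, a i + ∑ j, b j) M.det
        = (Matrix.of fun i j => wrSym W (a i + b j) (M i j)).det := by
  have hsum : ∀ σ : Equiv.Perm (Fin n), ∑ i, (a (σ i) + b i) = ∑ i, a i + ∑ j, b j := by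
    intro σ
    rw [Finset.sum_add_distrib, Equiv.sum_comp σ a]
  have hterm : ∀ σ : Equiv.Perm (Fin n),
      wrLe W (∑ i, a i + ∑ j, b j)
          (((Equiv.Perm.sign σ : ℤ) : W.CoordinateRing) * ∏ i, M (σ i) i) ∧
        wrSym W (∑ i, a i + ∑ j, b j)
          (((Equiv.Perm.sign σ : ℤ) : W.CoordinateRing) * ∏ i, M (σ i) i)
          = ((Equiv.Perm.sign σ : ℤ) : R) * ∏ i, wrSym W (a (σ i) + b i) (M (σ i) i) := by
    intro σ
    obtain ⟨h1, h2⟩ := wr_prod Finset.univ (fun i => M (σ i) i) (fun i => a (σ i) + b i)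
      (fun i _ => h (σ i) i)
    rw [hsum σ] at h1 h2
    have h3 := wrLe_mul (wrLe_intCast (W := W) (Equiv.Perm.sign σ : ℤ)) h1
    have h4 := wrSym_mul (wrLe_intCast (W := W) (Equiv.Perm.sign σ : ℤ)) h1
    rw [zero_add] at h3 h4
    exact ⟨h3, by rw [h4, wrSym_intCast, h2]⟩
  rw [Matrix.det_apply', Matrix.det_apply']
  refine ⟨wrLe_sum _ _ _ fun σ _ => (hterm σ).1, ?_⟩
  rw [wrSym_sum]
  refine Finset.sum_congr rfl fun σ _ => ?_
  rw [(hterm σ).2]
  rfl

/-! ### The Vandermonde constant -/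

/-- The Vandermonde determinant of the pole orders `0, 2, 3, …, n`. -/
def wrV (n : ℕ) : ℤ := ∏ i : Fin n, ∏ j ∈ Finset.Ioi i, ((wrOrd j : ℤ) - (wrOrd i : ℤ))

lemma wr_vandermonde (n : ℕ) :
    (Matrix.of fun (i j : Fin n) => (ascPochhammer ℤ i).eval (wrOrd j : ℤ)).det = wrV n := by
  have h := Matrix.det_eval_matrixOfPolynomials_eq_det_vandermonde
    (fun j : Fin n => (wrOrd j : ℤ)) (fun i : Fin n => ascPochhammer ℤ i)
    (fun i => ascPochhammer_natDegree ℤ i) (fun i => monic_ascPochhammer ℤ i)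
  rw [Matrix.det_vandermonde] at h
  rw [wrV, h, ← Matrix.det_transpose]
  rfl

variable (W)

theorem wrLe_wrW (n : ℕ) :
    wrLe W (∑ i : Fin n, (i : ℕ) + ∑ j : Fin n, wrOrd j) (wrW W n) :=
  (wr_det (wrMat W n) (fun i => (i : ℕ)) (fun j => wrOrd j) fun i j => by
    have h := wrLe_iterate (wrLe_wrMono (W := W) (wrOrd j) (wrOrd_ne_one j)) i
    rw [add_comm] at h
    exact h).1

theorem wrSym_wrW (n : ℕ) :
    wrSym W (∑ i : Fin n, (i : ℕ) + ∑ j : Fin n, wrOrd j) (wrW W n) = ((wrV n : ℤ) : R) := by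
  have h := (wr_det (wrMat W n) (fun i => (i : ℕ)) (fun j => wrOrd j) fun i j => by
    have h := wrLe_iterate (wrLe_wrMono (W := W) (wrOrd j) (wrOrd_ne_one j)) i
    rw [add_comm] at h
    exact h).2
  have h2 := RingHom.map_det (Int.castRingHom R)
    (Matrix.of fun (i j : Fin n) => (ascPochhammer ℤ i).eval (wrOrd j : ℤ))
  rw [eq_intCast] at h2
  rw [wrW, h, ← wr_vandermonde, h2]
  congr 1
  ext i j
  simp only [Matrix.of_apply, RingHom.mapMatrix_apply, Matrix.map_apply, wrMat, wrF]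
  rw [add_comm, wrSym_iterate (wrLe_wrMono (W := W) (wrOrd j) (wrOrd_ne_one j)) i,
    wrSym_wrMono _ (wrOrd_ne_one j), mul_one]
  rfl

lemma wr_sum_ord (n : ℕ) (hn : 1 ≤ n) :
    ∑ i : Fin n, (i : ℕ) + ∑ j : Fin n, wrOrd j = n ^ 2 - 1 := by
  rw [Fin.sum_univ_eq_sum_range (fun i => i) n, Fin.sum_univ_eq_sum_range (fun j => wrOrd j) n]
  have h : ∀ m : ℕ, ∑ i ∈ Finset.range (m + 1), i + ∑ j ∈ Finset.range (m + 1), wrOrd j + 1
      = (m + 1) ^ 2 := by
    intro m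
    induction m with
    | zero => simp [wrOrd]
    | succ m ih =>
      rw [Finset.sum_range_succ, Finset.sum_range_succ (fun j => wrOrd j)]
      have h1 : wrOrd (m + 1) = m + 2 := by simp [wrOrd]
      rw [h1]
      nlinarith [ih]
  obtain ⟨m, rfl⟩ : ∃ m, n = m + 1 := ⟨n - 1, by omega⟩
  have := h m
  omega

/-! ### The torsion polynomial for odd `n` -/

lemma wr_coeff_wrPhi_even (f : W.CoordinateRing) (k : ℕ) :
    (wrPhi W f).coeff (2 * k) = (wrP W f).coeff k := by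
  unfold wrPhi
  rw [coeff_add, coeff_X_pow_mul', coeff_expand (by norm_num), coeff_expand (by norm_num)]
  have h1 : 2 ∣ 2 * k := dvd_mul_right 2 k
  have h2 : 2 * k / 2 = k := by omega
  rw [if_pos h1, h2]
  by_cases h3 : 3 ≤ 2 * k
  · have h4 : ¬ 2 ∣ 2 * k - 3 := by omega
    rw [if_pos h3, if_neg h4, add_zero]
  · rw [if_neg h3, add_zero]

lemma wr_odd_sq (n : ℕ) (hn : Odd n) : 1 ≤ n ∧ 2 * ((n ^ 2 - 1) / 2) = n ^ 2 - 1 := by
  obtain ⟨k, rfl⟩ := hn
  refine ⟨by omega, ?_⟩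
  have h : (2 * k + 1) ^ 2 - 1 = 2 * (2 * k ^ 2 + 2 * k) := by
    have : (2 * k + 1) ^ 2 = 2 * (2 * k ^ 2 + 2 * k) + 1 := by ring
    omega
  rw [h]
  omega

theorem wr_natDegree_wrPoly_le (n : ℕ) (hn : Odd n) :
    (wrPoly W n).natDegree ≤ (n ^ 2 - 1) / 2 := by
  obtain ⟨h1, h2⟩ := wr_odd_sq n hn
  have h3 := wrLe_wrW W n
  rw [wr_sum_ord n h1] at h3
  have h4 := (wr_split _ _ _ h3).1
  rw [natDegree_expand] at h4
  unfold wrPoly
  omega

theorem wr_coeff_wrPoly (n : ℕ) (hn : Odd n) :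
    (wrPoly W n).coeff ((n ^ 2 - 1) / 2) = ((wrV n : ℤ) : R) := by
  obtain ⟨h1, h2⟩ := wr_odd_sq n hn
  have h3 := wrSym_wrW W n
  rw [wr_sum_ord n h1, ← h2] at h3
  unfold wrSym at h3
  rw [wr_coeff_wrPhi_even] at h3
  exact h3

theorem wr_natDegree_wrPolyQ (n : ℕ) (hn : Odd n) (hn3 : 3 ≤ n) :
    (wrPolyQ W n).natDegree + 2 ≤ (n ^ 2 - 1) / 2 := by
  obtain ⟨h1, h2⟩ := wr_odd_sq n hn
  have h3 := wrLe_wrW W n
  rw [wr_sum_ord n h1] at h3
  have h4 := (wr_split _ _ _ h3).2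
  have h5 : 8 ≤ n ^ 2 - 1 := by
    have : 9 ≤ n ^ 2 := by nlinarith
    omega
  have h6 : (wrPolyQ W n).natDegree ≤ (n ^ 2 - 1) / 2 - 2 := by
    rw [natDegree_le_iff_coeff_eq_zero]
    intro k hk
    have h7 : (X ^ 3 * expand R 2 (wrQ W (wrW W n))).coeff (2 * k + 3) = 0 :=
      coeff_eq_zero_of_natDegree_lt (lt_of_le_of_lt h4 (by omega))
    rw [coeff_X_pow_mul, coeff_expand (by norm_num), if_pos (dvd_mul_right 2 k)] at h7
    have h8 : 2 * k / 2 = k := by omega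
    rw [h8] at h7
    exact h7
  omega

/-! ### Arithmetic of the Vandermonde constant -/

lemma wrOrd_lt {i j : ℕ} (h : i < j) : wrOrd i < wrOrd j := by
  unfold wrOrd
  split_ifs <;> omega

lemma wrV_ne_zero (n : ℕ) : wrV n ≠ 0 := by
  unfold wrV
  refine Finset.prod_ne_zero_iff.2 fun i _ => Finset.prod_ne_zero_iff.2 fun j hj => ?_
  have h1 : (i : ℕ) < (j : ℕ) := Fin.lt_def.1 (Finset.mem_Ioi.1 hj)
  have h2 := wrOrd_lt h1
  have h3 : ((wrOrd i : ℕ) : ℤ) < ((wrOrd j : ℕ) : ℤ) := by exact_mod_cast h2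
  omega

lemma wrV_prime_dvd (p : ℕ) (hp : p.Prime) : (p : ℤ) ∣ wrV p := by
  have hp2 := hp.two_le
  let i₀ : Fin p := ⟨0, by omega⟩
  let j₀ : Fin p := ⟨p - 1, by omega⟩
  have hj : j₀ ∈ Finset.Ioi i₀ := by
    rw [Finset.mem_Ioi, Fin.lt_def]
    show 0 < p - 1
    omega
  have h1 : ((wrOrd (j₀ : ℕ) : ℕ) : ℤ) - ((wrOrd (i₀ : ℕ) : ℕ) : ℤ) = (p : ℤ) := by
    have h2 : wrOrd (p - 1) = p := by
      unfold wrOrd
      rw [if_neg (by omega)]
      omega
    have h3 : wrOrd 0 = 0 := by simp [wrOrd]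
    show ((wrOrd (p - 1) : ℕ) : ℤ) - ((wrOrd 0 : ℕ) : ℤ) = (p : ℤ)
    rw [h2, h3]
    simp
  unfold wrV
  calc (p : ℤ) = ((wrOrd (j₀ : ℕ) : ℕ) : ℤ) - ((wrOrd (i₀ : ℕ) : ℕ) : ℤ) := h1.symm
    _ ∣ ∏ j ∈ Finset.Ioi i₀, (((wrOrd (j : ℕ) : ℕ) : ℤ) - ((wrOrd (i₀ : ℕ) : ℕ) : ℤ)) :=
        Finset.dvd_prod_of_mem _ hj
    _ ∣ _ := Finset.dvd_prod_of_mem
        (fun i : Fin p => ∏ j ∈ Finset.Ioi i, (((wrOrd (j : ℕ) : ℕ) : ℤ) - ((wrOrd (i : ℕ) : ℕ) : ℤ)))
        (Finset.mem_univ i₀)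

lemma wrV_prime_sq_not_dvd (p : ℕ) (hp : p.Prime) : ¬ (p : ℤ) ^ 2 ∣ wrV p := by
  classical
  have hp2 := hp.two_le
  have hpi : Prime (p : ℤ) := Nat.prime_iff_prime_int.1 hp
  let i₀ : Fin p := ⟨0, by omega⟩
  let j₀ : Fin p := ⟨p - 1, by omega⟩
  have hj : j₀ ∈ Finset.Ioi i₀ := by
    rw [Finset.mem_Ioi, Fin.lt_def]
    show 0 < p - 1
    omega
  have h1 : ((wrOrd (j₀ : ℕ) : ℕ) : ℤ) - ((wrOrd (i₀ : ℕ) : ℕ) : ℤ) = (p : ℤ) := by
    have h2 : wrOrd (p - 1) = p := by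
      unfold wrOrd
      rw [if_neg (by omega)]
      omega
    have h3 : wrOrd 0 = 0 := by simp [wrOrd]
    show ((wrOrd (p - 1) : ℕ) : ℤ) - ((wrOrd 0 : ℕ) : ℤ) = (p : ℤ)
    rw [h2, h3]
    simp
  -- no other factor is divisible by `p`
  have hsmall : ∀ i j : Fin p, i < j → (i, j) ≠ (i₀, j₀) →
      ¬ (p : ℤ) ∣ ((wrOrd (j : ℕ) : ℕ) : ℤ) - ((wrOrd (i : ℕ) : ℕ) : ℤ) := by
    intro i j hij hne hdvd
    have h2 : (i : ℕ) < (j : ℕ) := Fin.lt_def.1 hij
    have h3 := wrOrd_lt h2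
    have h4 : (0 : ℤ) < ((wrOrd (j : ℕ) : ℕ) : ℤ) - ((wrOrd (i : ℕ) : ℕ) : ℤ) := by
      have : ((wrOrd (i : ℕ) : ℕ) : ℤ) < ((wrOrd (j : ℕ) : ℕ) : ℤ) := by exact_mod_cast h3
      omega
    have h5 := Int.le_of_dvd h4 hdvd
    have h6 : (j : ℕ) < p := j.2
    have h7 : wrOrd (j : ℕ) = (j : ℕ) + 1 := by
      unfold wrOrd
      rw [if_neg (by omega)]
    by_cases hi0 : (i : ℕ) = 0
    · have h8 : wrOrd (i : ℕ) = 0 := by rw [hi0]; simp [wrOrd]
      rw [h7, h8] at h5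
      have h9 : (j : ℕ) = p - 1 := by
        push_cast at h5
        omega
      exact hne (Prod.ext (Fin.ext hi0) (Fin.ext h9))
    · have h8 : wrOrd (i : ℕ) = (i : ℕ) + 1 := by
        unfold wrOrd
        rw [if_neg hi0]
      rw [h7, h8] at h5
      push_cast at h5
      omega
  intro hdvd
  unfold wrV at hdvd
  rw [← Finset.mul_prod_erase Finset.univ _ (Finset.mem_univ i₀),
    ← Finset.mul_prod_erase (Finset.Ioi i₀) _ hj, h1, mul_assoc, pow_two] at hdvd
  have h2 := (mul_dvd_mul_iff_left (Nat.cast_ne_zero.2 hp.ne_zero : (p : ℤ) ≠ 0)).1 hdvd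
  rcases hpi.dvd_or_dvd h2 with h3 | h3
  · obtain ⟨j, hj1, hj2⟩ := (Prime.dvd_finsetProd_iff hpi _).1 h3
    rw [Finset.mem_erase, Finset.mem_Ioi] at hj1
    exact hsmall i₀ j hj1.2 (fun h => hj1.1 (Prod.ext_iff.1 h).2) hj2
  · obtain ⟨i, hi1, hi2⟩ := (Prime.dvd_finsetProd_iff hpi _).1 h3
    obtain ⟨j, hj1, hj2⟩ := (Prime.dvd_finsetProd_iff hpi _).1 hi2
    rw [Finset.mem_erase] at hi1
    rw [Finset.mem_Ioi] at hj1
    exact hsmall i j hj1 (fun h => hi1.1 (Prod.ext_iff.1 h).1) hj2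

/-! ### Base change -/

section BaseChange

variable {S : Type*} [CommRing S] (f : R →+* S)

lemma wr_map_wrMk (p q : R[X]) :
    CoordinateRing.map W f (wrMk W p q) = wrMk (W.map f) (p.map f) (q.map f) := by
  simp only [wrMk, map_add, CoordinateRing.map_smul, map_one, CoordinateRing.map_mk,
    Polynomial.map_X]

lemma wr_map_wrL : (wrL W).map f = wrL (W.map f) := by
  simp [wrL]

lemma wr_map_wrC : (wrC W).map f = wrC (W.map f) := by
  simp [wrC]

lemma wr_map_wrC' : (wrC' W).map f = wrC' (W.map f) := by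
  simp [wrC']

lemma wr_map_wrDP (p q : R[X]) :
    (wrDP W p q).map f = wrDP (W.map f) (p.map f) (q.map f) := by
  simp only [wrDP, Polynomial.map_add, Polynomial.map_mul, derivative_map, wr_map_wrL,
    wr_map_wrC, wr_map_wrC', Polynomial.map_ofNat]

lemma wr_map_wrDQ (p q : R[X]) :
    (wrDQ W p q).map f = wrDQ (W.map f) (p.map f) (q.map f) := by
  simp only [wrDQ, Polynomial.map_sub, Polynomial.map_mul, derivative_map, wr_map_wrL,
    Polynomial.map_ofNat, Polynomial.map_C, WeierstrassCurve.map_a₁]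

lemma wr_map_wrD (g : W.CoordinateRing) :
    CoordinateRing.map W f (wrD W g) = wrD (W.map f) (CoordinateRing.map W f g) := by
  conv_rhs => rw [← wrMk_wrP_wrQ W g, wr_map_wrMk, wrD_wrMk]
  rw [wrD_apply, wr_map_wrMk, wr_map_wrDP, wr_map_wrDQ]

lemma wr_map_iterate (i : ℕ) (g : W.CoordinateRing) :
    CoordinateRing.map W f ((wrD W)^[i] g)
      = (wrD (W.map f))^[i] (CoordinateRing.map W f g) := by
  induction i with
  | zero => rfl
  | succ i ih => rw [Function.iterate_succ_apply', Function.iterate_succ_apply', wr_map_wrD, ih]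

lemma wr_map_wrMono (m : ℕ) :
    CoordinateRing.map W f (wrMono W m) = wrMono (W.map f) m := by
  unfold wrMono
  split_ifs <;> simp [wr_map_wrMk]

lemma wr_map_wrW (n : ℕ) : CoordinateRing.map W f (wrW W n) = wrW (W.map f) n := by
  unfold wrW
  rw [RingHom.map_det]
  congr 1
  ext i j
  simp only [RingHom.mapMatrix_apply, Matrix.map_apply, wrMat, Matrix.of_apply, wrF,
    wr_map_iterate, wr_map_wrMono]

lemma wr_map_wrP (g : W.CoordinateRing) :
    (wrP W g).map f = wrP (W.map f) (CoordinateRing.map W f g) := by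
  conv_rhs => rw [← wrMk_wrP_wrQ W g, wr_map_wrMk, wrP_wrMk]

lemma wr_map_wrQ (g : W.CoordinateRing) :
    (wrQ W g).map f = wrQ (W.map f) (CoordinateRing.map W f g) := by
  conv_rhs => rw [← wrMk_wrP_wrQ W g, wr_map_wrMk, wrQ_wrMk]

theorem wr_wrPoly_map (n : ℕ) : (wrPoly W n).map f = wrPoly (W.map f) n := by
  unfold wrPoly
  rw [wr_map_wrP, wr_map_wrW]

theorem wr_wrPolyQ_map (n : ℕ) : (wrPolyQ W n).map f = wrPolyQ (W.map f) n := by
  unfold wrPolyQ
  rw [wr_map_wrQ, wr_map_wrW]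

end BaseChange

end

end Fermat.Agent.M13
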