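import Fermat.Agent.M13.SSLine
import Fermat.Agent.M13.FreyInt
import Fermat.Agent.M13.WrDeg

/-!
# The dichotomy at `p` for the Frey curve (package [SS], wiring for AT-P)

`np_frey_dichotomy` : instantiation of `np_line_dichotomy` for the Frey curve, consuming the
product formula for the torsion polynomial (`wrPoly` of the integral model) in the shape
delivered by the Wronskian package.

`np_frey_hS` : the same statement as hypothesis `(hS)` of `unip_sets`, for the set
`S1 = {T | T = 0 ∨ ord x(T) < 0}` (kernel of reduction).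
-/

set_option autoImplicit false

namespace Fermat.Agent.M13

open Fermat.Agent.S05 Polynomial
open WeierstrassCurve WeierstrassCurve.Affine WeierstrassCurve.Affine.Point

variable {A : ValuationSubring QQb} {O : OrdVal QQb}

/-- **The dichotomy at `p` for the Frey curve.**  `hprod` is the product formula of the
Wronskian package (available when `Nat.card (VV P) = p ^ 2`). -/
theorem np_frey_dichotomy (P : FreyPackage) (D : PlaceData A P.p O)
    (hOp : O.ord ((P.p : ℕ) : QQb) = 1)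
    (S : Finset QQb)
    (hS : ∀ ξ, ξ ∈ S ↔ ∃ T : (EC P).Point, T ≠ 0 ∧ P.p • T = 0 ∧ xc T = ξ)
    (hprod : (wrPoly P.freyCurveInt P.p).map (Int.castRingHom QQb)
      = C ((wrV P.p : ℤ) : QQb) * ∏ ξ ∈ S, (X - C ξ))
    (N : Submodule (ZMod P.p) (VV P)) (hN : IsGaloisStable ℚ N) (hcard : Nat.card N = P.p) :
    (∀ T ∈ N, T ≠ 0 → 0 ≤ O.ord (xc (T : (EC P).Point))) ∨
    (∀ T : VV P, T ∉ N → 0 ≤ O.ord (xc (T : (EC P).Point))) := by
  have hp2 : P.p ≠ 2 := by
    have := P.hp5
    omega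
  refine np_line_dichotomy (P.freyCurve : WeierstrassCurve.Affine ℚ) P.pp hp2 D hOp
    (fi_b₂_int (P := P) D) (fi_b₄_int (P := P) D) (fi_b₆_int (P := P) D) (fi_b₈_int (P := P) D) S hS (fun ξ hξ => ?_)
    (wrPoly P.freyCurveInt P.p) (wrV P.p) (wrV_prime_dvd P.p P.pp)
    (wrV_prime_sq_not_dvd P.p P.pp) hprod N hN hcard
  obtain ⟨T, hT0, hpT, rfl⟩ := (hS ξ).1 hξ
  exact fi_xc_ne_zero P P.pp hp2 hT0 hpT

/-- The kernel of reduction inside `V`, as a set (in `OrdVal` language). -/
def npE1 (P : FreyPackage) (O : OrdVal QQb) : Set (VV P) :=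
  {T | T = 0 ∨ O.ord (xc (T : (EC P).Point)) < 0}

/-- **Hypothesis (hS) of `unip_sets` at `p`** for the Frey curve. -/
theorem np_frey_hS (P : FreyPackage) (D : PlaceData A P.p O)
    (hOp : O.ord ((P.p : ℕ) : QQb) = 1)
    (S : Finset QQb)
    (hS : ∀ ξ, ξ ∈ S ↔ ∃ T : (EC P).Point, T ≠ 0 ∧ P.p • T = 0 ∧ xc T = ξ)
    (hprod : (wrPoly P.freyCurveInt P.p).map (Int.castRingHom QQb)
      = C ((wrV P.p : ℤ) : QQb) * ∏ ξ ∈ S, (X - C ξ))
    (N : Submodule (ZMod P.p) (VV P)) (hN : IsGaloisStable ℚ N) (hcard : Nat.card N = P.p) :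
    (∀ x ∈ npE1 P O, x ∈ N → x = 0) ∨ (∀ x, x ∈ npE1 P O → x ∈ N) := by
  rcases np_frey_dichotomy P D hOp S hS hprod N hN hcard with h | h
  · left
    intro x hx hxN
    by_contra hx0
    rcases hx with hx | hx
    · exact hx0 hx
    · exact absurd (h x hxN hx0) (not_le.2 hx)
  · right
    intro x hx
    by_contra hxN
    rcases hx with hx | hx
    · exact hxN (hx ▸ N.zero_mem)
    · exact absurd (h x hxN) (not_le.2 hx)

end Fermat.Agent.M13
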