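import Fermat.Agent.M13.AtInst
import Fermat.Agent.M13.LocKey
import Fermat.Agent.M13.SSFrey

/-!
# M13 (S13), packages [AT-2] and [AT-P]: the end theorems

* `at2_main` : the hypothesis `hAT2` of `fin_main` (inertia at a place over `2` acts trivially on
  every Galois-stable line `N` and on `E[p] / N`), given `Nat.card E[p] = p ^ 2`.
* `atp_main_of` : the hypothesis `hATP` of `fin_main` (inertia at a place over `p` acts trivially
  on `N` or on `E[p] / N`), given `Nat.card E[p] = p ^ 2`, the product formula of the Wronskian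
  package and the local key statement in the case `p ∣ c` (translated model).
-/

set_option autoImplicit false
set_option linter.unusedSectionVars false
set_option linter.unusedVariables false

namespace Fermat.Agent.M13

open WeierstrassCurve WeierstrassCurve.Affine WeierstrassCurve.Affine.Point
open Fermat.Agent.S05 Fermat.Agent.S05.OrdVal Polynomial

/-- The tangent slopes at the node exist in `ℚ̄`. -/
lemma at_exists_roots (a₁ a₂ : QQb) : ∃ l₁ l₂ : QQb, l₁ + l₂ = -a₁ ∧ l₁ * l₂ = -a₂ := by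
  obtain ⟨d, hd⟩ := IsAlgClosed.exists_pow_nat_eq (a₁ ^ 2 + 4 * a₂) (n := 2) (by norm_num)
  refine ⟨(-a₁ + d) / 2, (-a₁ - d) / 2, by ring, ?_⟩
  have : (-a₁ + d) / 2 * ((-a₁ - d) / 2) = (a₁ ^ 2 - d ^ 2) / 4 := by ring
  rw [this, hd]
  ring

variable (P : FreyPackage)

section Key

variable {A : ValuationSubring QQb} {q : ℕ} {O : OrdVal QQb} (D : PlaceData A q O)
include D

/-- The node context of the Frey model (node at the origin). -/
lemma at_nodeCtx (hb₂ : O.IsU (EC P).b₂) (ha₄0 : (EC P).a₄ ≠ 0) (ha₄ : 0 < O.ord (EC P).a₄) :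
    loc_NodeCtx (EC P) O where
  int := at_int D P
  ha₃ := fa2_a₃ P
  ha₆ := fa2_a₆ P
  hb₂ := hb₂
  ha₄0 := ha₄0
  ha₄ := ha₄

/-- Node at the origin: `(σ - 1)² T ∈ E¹` for every point `T` of the Frey curve and every
inertia element `σ`. -/
theorem at_smul_key_node (hb₂ : O.IsU (EC P).b₂) (ha₄0 : (EC P).a₄ ≠ 0)
    (ha₄ : 0 < O.ord (EC P).a₄) {σ : GQ} (hσ : σ ∈ A.inertiaSubgroupIn ℚ) (T : (EC P).Point) :
    loc_E1 O (σ • (σ • T - T) - (σ • T - T)) := by
  obtain ⟨l₁, l₂, hsum, hprod⟩ := at_exists_roots (EC P).a₁ (EC P).a₂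
  exact (at_inertial D (P.freyCurve : WeierstrassCurve.Affine ℚ) hσ).key_node
    (at_nodeCtx P D hb₂ ha₄0 ha₄) hsum hprod T

end Key

/-- **[AT-2]** = hypothesis `hAT2` of `fin_main`. -/
theorem at2_main (hcard : Nat.card (VV P) = P.p ^ 2) :
    ∀ N : Submodule (ZMod P.p) (VV P), IsGaloisStable ℚ N → N ≠ ⊥ → N ≠ ⊤ →
      ∃ A : ValuationSubring QQb, A.LiesOverPrime 2 ∧
        ((∀ σ ∈ A.inertiaSubgroupIn ℚ, ∀ x ∈ N, σ • x = x) ∧
          (∀ σ ∈ A.inertiaSubgroupIn ℚ, ∀ x : VV P, σ • x - x ∈ N)) :=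
  at2_main_of_key P hcard (fun A O D σ hσ T =>
    at_smul_key_node P D (fa2_b₂_isU P D) (fa2_a₄_ne P D) (fa2_a₄_pos P D) hσ T)

/-- A line in a group of order `p ^ 2` has `p` elements (submodule version). -/
lemma at_card_line (hcard : Nat.card (VV P) = P.p ^ 2) (N : Submodule (ZMod P.p) (VV P))
    (hbot : N ≠ ⊥) (htop : N ≠ ⊤) : Nat.card N = P.p := by
  have hN0 : N.toAddSubgroup ≠ ⊥ := by
    intro h
    apply hbot
    rw [eq_bot_iff]
    intro x hx
    have : x ∈ N.toAddSubgroup := hx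
    rw [h] at this
    exact (Submodule.mem_bot _).2 (AddSubgroup.mem_bot.1 this)
  have hN0' : N.toAddSubgroup ≠ ⊤ := by
    intro h
    apply htop
    rw [eq_top_iff]
    intro x _
    have : x ∈ N.toAddSubgroup := by rw [h]; exact AddSubgroup.mem_top x
    exact this
  exact unip_card_line P.pp hcard N.toAddSubgroup hN0 hN0'

/-- Some nonzero `p`-torsion point is integral at `p` (from the dichotomy of package [SS]). -/
theorem atp_exists_int (hcard : Nat.card (VV P) = P.p ^ 2)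
    {A : ValuationSubring QQb} {O : OrdVal QQb} (D : PlaceData A P.p O)
    (hOp : O.ord ((P.p : ℕ) : QQb) = 1)
    (S : Finset QQb)
    (hS : ∀ ξ, ξ ∈ S ↔ ∃ T : (EC P).Point, T ≠ 0 ∧ P.p • T = 0 ∧ xc T = ξ)
    (hprod : (wrPoly P.freyCurveInt P.p).map (Int.castRingHom QQb)
      = C ((wrV P.p : ℤ) : QQb) * ∏ ξ ∈ S, (X - C ξ))
    (N : Submodule (ZMod P.p) (VV P)) (hN : IsGaloisStable ℚ N) (hbot : N ≠ ⊥) (htop : N ≠ ⊤) :
    ∃ T : (EC P).Point, T ≠ 0 ∧ P.p • T = 0 ∧ 0 ≤ O.ord (xc T) := by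
  have hcN := at_card_line P hcard N hbot htop
  rcases np_frey_dichotomy P D hOp S hS hprod N hN hcN with h | h
  · obtain ⟨x, hxN, hx0⟩ := Submodule.exists_mem_ne_zero_of_ne_bot hbot
    exact ⟨x.1, fun h0 => hx0 (Subtype.ext h0), at2_nsmul_eq_zero P x, h x hxN hx0⟩
  · have : ∃ x, x ∉ N := by
      by_contra hcon
      simp only [not_exists, not_not] at hcon
      exact htop (eq_top_iff.2 fun x _ => hcon x)
    obtain ⟨x, hx⟩ := this
    refine ⟨x.1, fun h0 => hx ?_, at2_nsmul_eq_zero P x, h x hx⟩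
    have : x = 0 := Subtype.ext h0
    rw [this]
    exact N.zero_mem

/-- **[AT-P]** = hypothesis `hATP` of `fin_main`, given the cardinality, the product formula of
the Wronskian package, and the local key statement in the case `p ∣ c`. -/
theorem atp_main_of (hcard : Nat.card (VV P) = P.p ^ 2)
    (hWR : ∃ S : Finset QQb,
      (∀ ξ, ξ ∈ S ↔ ∃ T : (EC P).Point, T ≠ 0 ∧ P.p • T = 0 ∧ xc T = ξ) ∧
      (wrPoly P.freyCurveInt P.p).map (Int.castRingHom QQb)
        = C ((wrV P.p : ℤ) : QQb) * ∏ ξ ∈ S, (X - C ξ))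
    (hkeyC : (P.p : ℤ) ∣ P.c → ∀ (A : ValuationSubring QQb) (O : OrdVal QQb),
      PlaceData A P.p O → ∀ σ ∈ A.inertiaSubgroupIn ℚ, ∀ T : (EC P).Point,
        loc_E1 O (σ • (σ • T - T) - (σ • T - T))) :
    ∀ N : Submodule (ZMod P.p) (VV P), IsGaloisStable ℚ N → N ≠ ⊥ → N ≠ ⊤ →
      ∃ A : ValuationSubring QQb, A.LiesOverPrime P.p ∧
        ((∀ σ ∈ A.inertiaSubgroupIn ℚ, ∀ x ∈ N, σ • x = x) ∨
          (∀ σ ∈ A.inertiaSubgroupIn ℚ, ∀ x : VV P, σ • x - x ∈ N)) := by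
  intro N hN hbot htop
  obtain ⟨S, hS, hprod⟩ := hWR
  obtain ⟨A, hA⟩ := Fermat.Agent.Frob.exists_valuationSubring_over P.p P.pp
  obtain ⟨O, h1, h2, hOp⟩ := exists_ordVal_of_valuationSubring A P.p P.pp hA
  have D : PlaceData A P.p O := ⟨P.pp, hA, h1, h2⟩
  have hp2 : P.p ≠ 2 := by have := P.hp5; omega
  refine ⟨A, hA, atp_of_key P hcard ?_ (atp_exists_int P hcard D hOp S hS hprod N hN hbot htop)
    N hN hbot htop⟩
  intro σ hσ T
  by_cases ha : ((P.p : ℕ) : ℤ) ∣ P.a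
  · obtain ⟨hb₂, ha₄0, ha₄, -⟩ := fl_node_a P D ha
    exact at_smul_key_node P D hb₂ ha₄0 ha₄ hσ T
  by_cases hb : ((P.p : ℕ) : ℤ) ∣ P.b
  · obtain ⟨hb₂, ha₄0, ha₄, -⟩ := fl_node_b P D hp2 hb
    exact at_smul_key_node P D hb₂ ha₄0 ha₄ hσ T
  by_cases hc : ((P.p : ℕ) : ℤ) ∣ P.c
  · exact hkeyC hc A O D σ hσ T
  · exact at_smul_key_good D P hp2 ha hb hc hσ T

end Fermat.Agent.M13
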