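import Fermat.Agent.M13.At2

/-!
# M13 (S13), package [AT-P], generic part and the good-reduction case

`A` a valuation subring of `ℚ̄` over a prime `q` (in the application `q = p`), `σ ∈ I_A`.

* `atp_of_key` : if `(σ - 1)² T ∈ E¹` for all `T` and `σ ∈ I_A` (package [LOC]) and some
  nonzero `p`-torsion point is integral (package [SS]), then `I_A` acts trivially on a
  Galois-stable line `N` or on `E[p] / N` ([UNIP]).
* `atp_key_good` : the local statement `(σ - 1)² T ∈ E¹` (in fact `(σ - 1) T ∈ E¹`) for a model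
  with good reduction.
* `atp_key_of_E0` : the local statement on a node model, from `(σ - 1) T ∈ E⁰`.
-/

set_option autoImplicit false
set_option linter.unusedSectionVars false
set_option linter.unusedVariables false

namespace Fermat.Agent.M13

open WeierstrassCurve WeierstrassCurve.Affine WeierstrassCurve.Affine.Point
open Fermat.Agent.S05 Fermat.Agent.S05.OrdVal

section Local

variable {K : Type*} [Field K] [DecidableEq K] {W : WeierstrassCurve.Affine K} {O : OrdVal K}
  {φ : W.Point →+ W.Point} {σ : K →+* K}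

/-- Good reduction: `φ T - T` lies in the kernel of reduction for every `T`. -/
theorem atp_sub_good (I : loc_Int W O) (hΔ : O.IsU W.Δ) (H : loc_Inertial W O φ σ)
    (T : W.Point) : loc_E1 O (φ T - T) := by
  rcases loc_E1_or_int (O := O) T with h | ⟨hT, hx⟩
  · exact H.sub_mem_E1_of_E1 I h
  · refine H.sub_mem_E1 I hT hx ?_
    cases T with
    | zero => exact absurd rfl hT
    | some x y h =>
      simp only [xc_some] at hx
      rcases fl_good_nonsing I.hnat I.ha₁ I.ha₂ I.ha₃ I.ha₄ I.ha₆ hΔ h.1 hx with h1 | h1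
      · right; exact h1
      · left; exact h1

/-- Good reduction: `(φ - 1)² T` lies in the kernel of reduction for every `T`. -/
theorem atp_key_good (I : loc_Int W O) (hΔ : O.IsU W.Δ) (H : loc_Inertial W O φ σ)
    (T : W.Point) : loc_E1 O (φ (φ T - T) - (φ T - T)) :=
  H.sub_mem_E1_of_E1 I (atp_sub_good I hΔ H T)

/-- Node model: if `φ T - T` never reduces to the node, then `(φ - 1)² T` lies in the kernel of
reduction for every `T`. -/
theorem atp_key_of_E0 (I : loc_Int W O) (ha₃ : W.a₃ = 0) (ha₆ : W.a₆ = 0)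
    (h₄ : O.Gt W.a₄ 0) (hb₂ : O.IsU W.b₂) (H : loc_Inertial W O φ σ)
    (hE0 : ∀ T : W.Point, loc_E0 O (φ T - T)) (T : W.Point) :
    loc_E1 O (φ (φ T - T) - (φ T - T)) := by
  rcases loc_E1_or_int (O := O) (φ T - T) with h | ⟨hQ, hx⟩
  · exact H.sub_mem_E1_of_E1 I h
  · refine H.sub_mem_E1 I hQ hx ?_
    have hng : ¬ O.Gt (xc (φ T - T)) 0 := by
      rcases hE0 T with h0 | h0
      · exact absurd h0 hQ
      · exact h0
    have hU : O.IsU (xc (φ T - T)) := isU_of_ge_of_not_gt hx hng
    generalize φ T - T = Q at hQ hU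
    cases Q with
    | zero => exact absurd rfl hQ
    | some x y h =>
      simp only [xc_some] at hU
      rcases fl_node_nonsing I.hnat ha₃ ha₆ I.ha₁ I.ha₂ h₄ hb₂ h.1 hU with h1 | h1
      · right; exact h1
      · left; exact h1

end Local

variable (P : FreyPackage)

/-- **[AT-P], generic part.** For a place `A` over a prime, if `(σ - 1)² T ∈ E¹` for all `T` and
all `σ ∈ I_A`, and some nonzero `p`-torsion point is integral, then `I_A` acts trivially on
the Galois-stable line `N` or on `E[p] / N`. -/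
theorem atp_of_key (hcard : Nat.card (VV P) = P.p ^ 2)
    {A : ValuationSubring QQb} {O : OrdVal QQb}
    (hkey : ∀ σ ∈ A.inertiaSubgroupIn ℚ, ∀ T : (EC P).Point,
      loc_E1 O (σ • (σ • T - T) - (σ • T - T)))
    (hS : ∃ T : (EC P).Point, T ≠ 0 ∧ P.p • T = 0 ∧ 0 ≤ O.ord (xc T))
    (N : Submodule (ZMod P.p) (VV P)) (hN : IsGaloisStable ℚ N) (hbot : N ≠ ⊥) (htop : N ≠ ⊤) :
    (∀ σ ∈ A.inertiaSubgroupIn ℚ, ∀ x ∈ N, σ • x = x) ∨
      (∀ σ ∈ A.inertiaSubgroupIn ℚ, ∀ x : VV P, σ • x - x ∈ N) := by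
  have hN0 : N.toAddSubgroup ≠ ⊥ := by
    intro h
    apply hbot
    rw [eq_bot_iff]
    intro x hx
    have : x ∈ N.toAddSubgroup := hx
    rw [h] at this
    exact (Submodule.mem_bot _).2 (AddSubgroup.mem_bot.1 this)
  have hN0' : N.toAddSubgroup ≠ ⊤ := by
    intro h
    apply htop
    rw [eq_top_iff]
    intro x _
    have : x ∈ N.toAddSubgroup := by rw [h]; exact AddSubgroup.mem_top x
    exact this
  obtain ⟨T, hT, hpT, hord⟩ := hS
  have hTmem : T ∈ VV P := by
    rw [Submodule.mem_torsionBy_iff, natCast_zsmul]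
    exact hpT
  have := unip_main P.pp hcard (A.inertiaSubgroupIn ℚ) N.toAddSubgroup hN0 hN0'
    (fun σ _ x hx => hN σ x hx) {x : VV P | loc_E1 O (x : (EC P).Point)}
    ⟨⟨T, hTmem⟩, fun h => loc_not_E1_of_int hT (Or.inr hord) h⟩
    (fun σ hσ x => hkey σ hσ x)
  exact this

end Fermat.Agent.M13
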