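import Fermat.Agent.S05.Torsion

/-!
# M13 / E1ADD: the kernel of reduction is a subgroup

For a Weierstrass curve with integral `b`-invariants over a valued field (`OrdVal` framework of
S05, any residue characteristic, only `(2 : K) ≠ 0` is needed), the set
`E¹ = {P | P = 0 ∨ ord x(P) < 0}` is closed under negation, addition and subtraction.
No power series: the `x`-only sum and product formulas suffice.
-/

set_option autoImplicit false

namespace Fermat.Agent.M13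

open WeierstrassCurve WeierstrassCurve.Affine Fermat.Agent.S05 Fermat.Agent.S05.OrdVal

variable {K : Type*} [Field K] [DecidableEq K] {W : WeierstrassCurve.Affine K}

/-- membership in the kernel of reduction -/
def e1_mem (O : OrdVal K) (P : W.Point) : Prop :=
  P = 0 ∨ (xc P ≠ 0 ∧ O.ord (xc P) < 0)

omit [DecidableEq K] in
lemma e1_zero (O : OrdVal K) : e1_mem O (0 : W.Point) := Or.inl rfl

lemma e1_neg (O : OrdVal K) {P : W.Point} (h : e1_mem O P) : e1_mem O (-P) := by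
  rcases h with h | h
  · left; rw [h]; exact neg_zero
  · right; rwa [xc_neg]

/-- the valuation-theoretic core: from the sum and product relations -/
theorem e1_core (O : OrdVal K) (b₂ b₄ b₆ b₈ : K)
    (hb₂ : O.Ge b₂ 0) (hb₄ : O.Ge b₄ 0) (hb₆ : O.Ge b₆ 0) (hb₈ : O.Ge b₈ 0)
    (h2 : O.Ge (2 : K) 0) (X Y a b : K) (hX : X ≠ 0) (hY : Y ≠ 0)
    (hu : O.ord X < 0) (hv : O.ord Y < 0) (hXY : X ≠ Y)
    (hP : a * b * (X - Y) ^ 2 = X ^ 2 * Y ^ 2 - b₄ * X * Y - b₆ * (X + Y) - b₈)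
    (hS : (a + b) * (X - Y) ^ 2 = 2 * X * Y * (X + Y) + b₂ * X * Y + b₄ * (X + Y) + b₆) :
    a ≠ 0 ∧ O.ord a < 0 := by
  set u := O.ord X with hudef
  set v := O.ord Y with hvdef
  have hx : O.Gt X⁻¹ 0 := seqInt_gt_inv hX hu
  have hy : O.Gt Y⁻¹ 0 := seqInt_gt_inv hY hv
  have hd0 : X - Y ≠ 0 := sub_ne_zero.2 hXY
  have hD0 : (X - Y) ^ 2 ≠ 0 := pow_ne_zero 2 hd0
  have hmin : min u v ≤ O.ord (X - Y) := by
    have := O.ord_sub hX hY hd0
    exact this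
  have hordD : O.ord ((X - Y) ^ 2) = 2 * O.ord (X - Y) := ord_sq hd0
  -- the product numerator
  have hxy : O.Gt (X⁻¹ * Y⁻¹) 0 := seqInt_gt_mul_gt hx hy
  have hE : O.Gt (b₄ * (X⁻¹ * Y⁻¹) + b₆ * ((X⁻¹ + Y⁻¹) * (X⁻¹ * Y⁻¹))
      + b₈ * ((X⁻¹ * Y⁻¹) ^ 2)) 0 := by
    refine ((seqInt_ge_mul_gt hb₄ hxy).add (seqInt_ge_mul_gt hb₆ ?_)).add
      (seqInt_ge_mul_gt hb₈ (seqInt_gt_pow hxy (by norm_num)))
    exact seqInt_ge_mul_gt (hx.add hy).ge hxy
  have hU : O.IsU (1 - (b₄ * (X⁻¹ * Y⁻¹) + b₆ * ((X⁻¹ + Y⁻¹) * (X⁻¹ * Y⁻¹))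
      + b₈ * ((X⁻¹ * Y⁻¹) ^ 2))) := isU_one.sub_gt hE
  have hM : X ^ 2 * Y ^ 2 - b₄ * X * Y - b₆ * (X + Y) - b₈ =
      (X ^ 2 * Y ^ 2) * (1 - (b₄ * (X⁻¹ * Y⁻¹) + b₆ * ((X⁻¹ + Y⁻¹) * (X⁻¹ * Y⁻¹))
      + b₈ * ((X⁻¹ * Y⁻¹) ^ 2))) := by
    field_simp
    ring
  have hXY2 : X ^ 2 * Y ^ 2 ≠ 0 := mul_ne_zero (pow_ne_zero 2 hX) (pow_ne_zero 2 hY)
  have hM0 : X ^ 2 * Y ^ 2 - b₄ * X * Y - b₆ * (X + Y) - b₈ ≠ 0 := by
    rw [hM]; exact mul_ne_zero hXY2 hU.1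
  have hordM : O.ord (X ^ 2 * Y ^ 2 - b₄ * X * Y - b₆ * (X + Y) - b₈) = 2 * u + 2 * v := by
    rw [hM, ord_mul_isU hXY2 hU, O.ord_mul (pow_ne_zero 2 hX) (pow_ne_zero 2 hY),
      ord_sq hX, ord_sq hY]
  -- consequences for a, b
  have hab0 : a * b ≠ 0 := by
    intro h
    rw [h, zero_mul] at hP
    exact hM0 hP.symm
  have ha0 : a ≠ 0 := left_ne_zero_of_mul hab0
  have hb0 : b ≠ 0 := right_ne_zero_of_mul hab0
  have hordab : O.ord a + O.ord b + 2 * O.ord (X - Y) = 2 * u + 2 * v := by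
    have := congrArg O.ord hP
    rw [O.ord_mul hab0 hD0, O.ord_mul ha0 hb0, hordD, hordM] at this
    exact this
  refine ⟨ha0, ?_⟩
  by_contra hnn
  rw [not_lt] at hnn
  -- `ord b ≤ R < 0`
  have hmax : max u v < 0 := max_lt hu hv
  have hmm : min u v + max u v = u + v := min_add_max u v
  have hbR : O.ord b ≤ 2 * u + 2 * v - 2 * O.ord (X - Y) := by linarith
  have hR : 2 * u + 2 * v - 2 * O.ord (X - Y) < 0 := by linarith
  -- the sum numerator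
  have hGeX : O.Ge X (min u v) := Or.inr (min_le_left _ _)
  have hGeY : O.Ge Y (min u v) := Or.inr (min_le_right _ _)
  have hmin0 : min u v ≤ 0 := le_of_lt (lt_of_le_of_lt (min_le_left _ _) hu)
  have hB : O.Ge (2 * (X + Y) + b₂ + b₄ * (X⁻¹ + Y⁻¹) + b₆ * (X⁻¹ * Y⁻¹)) (min u v) := by
    have t1 : O.Ge (2 * (X + Y)) (min u v) := by
      have := h2.mul (hGeX.add hGeY)
      rwa [zero_add] at this
    have t2 : O.Ge b₂ (min u v) := hb₂.mono hmin0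
    have t3 : O.Ge (b₄ * (X⁻¹ + Y⁻¹)) (min u v) :=
      (seqInt_ge_mul_ge hb₄ (hx.add hy).ge).mono hmin0
    have t4 : O.Ge (b₆ * (X⁻¹ * Y⁻¹)) (min u v) :=
      (seqInt_ge_mul_ge hb₆ hxy.ge).mono hmin0
    exact ((t1.add t2).add t3).add t4
  have hN : 2 * X * Y * (X + Y) + b₂ * X * Y + b₄ * (X + Y) + b₆ =
      (X * Y) * (2 * (X + Y) + b₂ + b₄ * (X⁻¹ + Y⁻¹) + b₆ * (X⁻¹ * Y⁻¹)) := by
    field_simp
    ring
  have hGeN : O.Ge (2 * X * Y * (X + Y) + b₂ * X * Y + b₄ * (X + Y) + b₆)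
      (u + v + min u v) := by
    rw [hN]
    have hXYge : O.Ge (X * Y) (u + v) := Or.inr (by rw [O.ord_mul hX hY])
    exact hXYge.mul hB
  -- `a + b`
  by_cases hs0 : a + b = 0
  · have : O.ord a = O.ord b := O.ord_eq_of_add_eq_zero hs0
    linarith
  · have hN0 : 2 * X * Y * (X + Y) + b₂ * X * Y + b₄ * (X + Y) + b₆ ≠ 0 := by
      rw [← hS]; exact mul_ne_zero hs0 hD0
    have hordS : O.ord (a + b) + 2 * O.ord (X - Y) =
        O.ord (2 * X * Y * (X + Y) + b₂ * X * Y + b₄ * (X + Y) + b₆) := by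
      have := congrArg O.ord hS
      rw [O.ord_mul hs0 hD0, hordD] at this
      exact this
    have hNle := hGeN.le_ord hN0
    -- `b = (a + b) - a`
    have hbeq : b = (a + b) - a := by ring
    have hsub : (a + b) - a ≠ 0 := by rw [← hbeq]; exact hb0
    have := O.ord_sub hs0 ha0 hsub
    rw [← hbeq] at this
    rcases min_le_iff.1 this with h | h
    · linarith
    · linarith

/-- `E¹` is closed under addition. -/
theorem e1_add (O : OrdVal K) (hb₂ : O.Ge W.b₂ 0) (hb₄ : O.Ge W.b₄ 0) (hb₆ : O.Ge W.b₆ 0)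
    (hb₈ : O.Ge W.b₈ 0) (h2i : O.Ge (2 : K) 0) (h2 : (2 : K) ≠ 0)
    {P Q : W.Point} (hP : e1_mem O P) (hQ : e1_mem O Q) : e1_mem O (P + Q) := by
  rcases hP with hP | ⟨hxP, hnP⟩
  · rw [hP, zero_add]; exact hQ
  rcases hQ with hQ | ⟨hxQ, hnQ⟩
  · rw [hQ, add_zero]; exact Or.inr ⟨hxP, hnP⟩
  have hP0 : P ≠ 0 := fun h => hxP (by rw [h]; rfl)
  have hQ0 : Q ≠ 0 := fun h => hxQ (by rw [h]; rfl)
  by_cases hne : xc P = xc Q
  · rcases (xc_eq_iff P Q hP0 hQ0).1 hne with h | h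
    · -- doubling
      subst h
      by_cases hψ : psi P = 0
      · left
        have := (psi_eq_zero_iff P hP0).1 hψ
        nth_rewrite 2 [this]
        exact add_neg_cancel P
      · right
        obtain ⟨-, hd⟩ := xc_double P hP0 hψ
        rw [psi_sq P hP0] at hd
        -- `x(2P) ψ² = dNum`
        set X := xc P
        set u := O.ord X
        have hx : O.Gt X⁻¹ 0 := seqInt_gt_inv hxP hnP
        have hψ2 : psiSq W X ≠ 0 := by
          rw [← psi_sq P hP0]; exact pow_ne_zero 2 hψ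
        -- numerator
        have hE : O.Gt (W.b₄ * X⁻¹ ^ 2 + 2 * W.b₆ * X⁻¹ ^ 3 + W.b₈ * X⁻¹ ^ 4) 0 := by
          refine ((seqInt_ge_mul_gt hb₄ (seqInt_gt_pow hx (by norm_num))).add
            (seqInt_ge_mul_gt (seqInt_ge_mul_ge h2i hb₆) (seqInt_gt_pow hx (by norm_num)))).add
            (seqInt_ge_mul_gt hb₈ (seqInt_gt_pow hx (by norm_num)))
        have hU : O.IsU (1 - (W.b₄ * X⁻¹ ^ 2 + 2 * W.b₆ * X⁻¹ ^ 3 + W.b₈ * X⁻¹ ^ 4)) :=
          isU_one.sub_gt hE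
        have hM : dNum W X = X ^ 4 * (1 - (W.b₄ * X⁻¹ ^ 2 + 2 * W.b₆ * X⁻¹ ^ 3
            + W.b₈ * X⁻¹ ^ 4)) := by
          simp only [dNum]
          field_simp
          ring
        have hX4 : X ^ 4 ≠ 0 := pow_ne_zero 4 hxP
        have hM0 : dNum W X ≠ 0 := by rw [hM]; exact mul_ne_zero hX4 hU.1
        have hordM : O.ord (dNum W X) = 4 * u := by
          rw [hM, ord_mul_isU hX4 hU, O.ord_pow hxP]; push_cast; ring
        -- denominator
        have h4 : O.Ge (4 : K) 0 := by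
          have : (4 : K) = 2 * 2 := by norm_num
          rw [this]; exact seqInt_ge_mul_ge h2i h2i
        have hB : O.Ge (4 + W.b₂ * X⁻¹ + 2 * W.b₄ * X⁻¹ ^ 2 + W.b₆ * X⁻¹ ^ 3) 0 := by
          refine ((h4.add (seqInt_ge_mul_ge hb₂ hx.ge)).add
            (seqInt_ge_mul_ge (seqInt_ge_mul_ge h2i hb₄) (seqInt_ge_pow hx.ge 2))).add
            (seqInt_ge_mul_ge hb₆ (seqInt_ge_pow hx.ge 3))
        have hN : psiSq W X = X ^ 3 * (4 + W.b₂ * X⁻¹ + 2 * W.b₄ * X⁻¹ ^ 2 + W.b₆ * X⁻¹ ^ 3) := by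
          simp only [psiSq]
          field_simp
          try ring
        have hGeN : O.Ge (psiSq W X) (3 * u) := by
          rw [hN]
          have hX3 : O.Ge (X ^ 3) (3 * u) := Or.inr (by rw [O.ord_pow hxP]; push_cast; rfl)
          have := hX3.mul hB
          rwa [add_zero] at this
        have ha0 : xc (P + P) ≠ 0 := by
          intro h
          rw [h, zero_mul] at hd
          exact hM0 hd.symm
        refine ⟨ha0, ?_⟩
        have := congrArg O.ord hd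
        rw [O.ord_mul ha0 hψ2, hordM] at this
        have hle := hGeN.le_ord hψ2
        linarith
    · left
      rw [h]
      exact neg_add_cancel Q
  · right
    have hs := xc_sum h2 P Q hP0 hQ0 hne
    have hp := xc_prod h2 P Q hP0 hQ0 hne
    exact e1_core O W.b₂ W.b₄ W.b₆ W.b₈ hb₂ hb₄ hb₆ hb₈ h2i (xc P) (xc Q) (xc (P + Q))
      (xc (P - Q)) hxP hxQ hnP hnQ hne (by simpa [pNum] using hp) (by simpa [sNum] using hs)

/-- `E¹` is closed under subtraction. -/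
theorem e1_sub (O : OrdVal K) (hb₂ : O.Ge W.b₂ 0) (hb₄ : O.Ge W.b₄ 0) (hb₆ : O.Ge W.b₆ 0)
    (hb₈ : O.Ge W.b₈ 0) (h2i : O.Ge (2 : K) 0) (h2 : (2 : K) ≠ 0)
    {P Q : W.Point} (hP : e1_mem O P) (hQ : e1_mem O Q) : e1_mem O (P - Q) := by
  rw [sub_eq_add_neg]
  exact e1_add O hb₂ hb₄ hb₆ hb₈ h2i h2 hP (e1_neg O hQ)

/-- `E¹` is closed under multiples. -/
theorem e1_nsmul (O : OrdVal K) (hb₂ : O.Ge W.b₂ 0) (hb₄ : O.Ge W.b₄ 0) (hb₆ : O.Ge W.b₆ 0)
    (hb₈ : O.Ge W.b₈ 0) (h2i : O.Ge (2 : K) 0) (h2 : (2 : K) ≠ 0)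
    {P : W.Point} (hP : e1_mem O P) (n : ℕ) : e1_mem O (n • P) := by
  induction n with
  | zero => rw [zero_smul]; exact e1_zero O
  | succ n ih => rw [succ_nsmul]; exact e1_add O hb₂ hb₄ hb₆ hb₈ h2i h2 ih hP

end Fermat.Agent.M13
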