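import Fermat.Agent.M13.E1Add
import Fermat.Agent.M13.FreyInt

/-!
# M13 / E1FREY: the kernel of reduction of the Frey curve at an arbitrary place

`InE1 P A T` (`T = 0 ∨ x(T) ∉ A`) for a valuation subring `A` of `ℚ̄` over any prime `q`
(including `q = 2` and `q = p`) is closed under `+`, `-`, multiples, and stable under the
inertia group of `A`.
-/

set_option autoImplicit false
set_option linter.unusedSectionVars false

namespace Fermat.Agent.M13

open WeierstrassCurve WeierstrassCurve.Affine WeierstrassCurve.Affine.Point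
open Fermat.Agent.S05 Fermat.Agent.S05.OrdVal

variable {P : FreyPackage} {A : ValuationSubring (AlgebraicClosure ℚ)} {q : ℕ}
  {O : OrdVal (AlgebraicClosure ℚ)}

/-- `InE1` in `OrdVal` language. -/
theorem e1f_iff (D : PlaceData A q O) (T : (EC P).Point) : InE1 P A T ↔ e1_mem O T := by
  unfold InE1 e1_mem
  constructor
  · rintro (h | h)
    · exact Or.inl h
    · right
      have h0 : xc T ≠ 0 := fun h0 => h (by rw [h0]; exact A.zero_mem)
      refine ⟨h0, ?_⟩
      by_contra hge
      rw [not_lt] at hge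
      exact h ((D.mem_iff _ h0).2 hge)
  · rintro (h | ⟨h0, hlt⟩)
    · exact Or.inl h
    · right
      intro hmem
      have := (D.mem_iff _ h0).1 hmem
      linarith

theorem e1f_two_ne : (2 : AlgebraicClosure ℚ) ≠ 0 := two_ne_zero

theorem e1f_two_ge (D : PlaceData A q O) : O.Ge (2 : AlgebraicClosure ℚ) 0 := by
  simpa using D.nat_ge 2

/-- closure under addition -/
theorem e1f_add (D : PlaceData A q O) {T T' : (EC P).Point} (hT : InE1 P A T)
    (hT' : InE1 P A T') : InE1 P A (T + T') := by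
  rw [e1f_iff D] at hT hT' ⊢
  exact e1_add O (fi_b₂_int D) (fi_b₄_int D) (fi_b₆_int D) (fi_b₈_int D) (e1f_two_ge D)
    e1f_two_ne hT hT'

/-- closure under negation -/
theorem e1f_neg {T : (EC P).Point} (hT : InE1 P A T) : InE1 P A (-T) := by
  rcases hT with h | h
  · left; rw [h]; exact _root_.neg_zero
  · right; rwa [xc_neg]

/-- closure under subtraction -/
theorem e1f_sub (D : PlaceData A q O) {T T' : (EC P).Point} (hT : InE1 P A T)
    (hT' : InE1 P A T') : InE1 P A (T - T') := by
  rw [sub_eq_add_neg]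
  exact e1f_add D hT (e1f_neg hT')

/-- closure under multiples -/
theorem e1f_nsmul (D : PlaceData A q O) {T : (EC P).Point} (hT : InE1 P A T) (n : ℕ) :
    InE1 P A (n • T) := by
  rw [e1f_iff D] at hT ⊢
  exact e1_nsmul O (fi_b₂_int D) (fi_b₄_int D) (fi_b₆_int D) (fi_b₈_int D) (e1f_two_ge D)
    e1f_two_ne hT n

/-- the `x`-coordinate of `σ • T` -/
theorem e1f_xc_smul (σ : AlgebraicClosure ℚ ≃ₐ[ℚ] AlgebraicClosure ℚ) (T : (EC P).Point) :
    xc (σ • T) = σ (xc T) := by
  cases T with
  | zero => simp [algEquiv_smul_def, ← Point.zero_def]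
  | some x y h => rfl

/-- stability under the inertia group (indeed under every `σ` with `σ⁻¹ A ⊆ A`) -/
theorem e1f_smul {σ : AlgebraicClosure ℚ ≃ₐ[ℚ] AlgebraicClosure ℚ}
    (hσ : σ ∈ A.inertiaSubgroupIn ℚ) {T : (EC P).Point} (hT : InE1 P A T) :
    InE1 P A (σ • T) := by
  rcases hT with h | h
  · left; rw [h]; exact smul_zero (A := (EC P).Point) σ
  · right
    rw [e1f_xc_smul]
    intro hmem
    apply h
    have hinv : σ⁻¹ ∈ A.inertiaSubgroupIn ℚ := Subgroup.inv_mem _ hσ
    have := (inertia_mem_and_sub A σ⁻¹ hinv).1 _ hmem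
    have e : σ⁻¹ (σ (xc T)) = xc T := by
      change σ.symm (σ (xc T)) = xc T
      exact σ.symm_apply_apply _
    rwa [e] at this

/-- For `T` in the kernel of reduction and `σ` in inertia, `σ • T - T` is in the kernel of
reduction. -/
theorem e1f_smul_sub (D : PlaceData A q O) {σ : AlgebraicClosure ℚ ≃ₐ[ℚ] AlgebraicClosure ℚ}
    (hσ : σ ∈ A.inertiaSubgroupIn ℚ) {T : (EC P).Point} (hT : InE1 P A T) :
    InE1 P A (σ • T - T) :=
  e1f_sub D (e1f_smul hσ hT) hT

end Fermat.Agent.M13
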