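import Mathlib
import Fermat.Prelude.Def_FLTPrelim_FreyPackage
import Fermat.Prelude.Def_FLTPrelim_GaloisRep
import Fermat.Prelude.Def_FLTPrelim_Ramification
import Fermat.Prelude.Def_FLTPrelim_CofixedLine
import Fermat.Agent.M13.Basic
import Fermat.Agent.Frob.Exists
import Fermat.Agent.S05.FreyMain

/-!
# S13, package [FINAL]: the global wiring

`V = E[p](ℚ̄)` for the Frey curve, `N` a Galois-stable line.  We define the two normal subgroups
`fin_H1 N = {σ | σ = 1 on N}` and `fin_H2 N = {σ | σ = 1 on V / N}` of `Gal(ℚ̄/ℚ)`, show that they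
contain the fixing subgroup of a finite extension and all inertia groups at `q ∉ {2, p}` (S05),
and assemble the final statement from the other packages (taken as hypotheses in `fin_main`).
-/

set_option autoImplicit false
set_option linter.unusedSectionVars false
set_option linter.style.haveILetI false

namespace Fermat.Agent.M13

open WeierstrassCurve WeierstrassCurve.Affine WeierstrassCurve.Affine.Point Fermat.Agent.S05

variable (P : FreyPackage)

/-- The action of `Gal(ℚ̄/ℚ)` on a torsion point, on the underlying point. -/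
lemma fin_coe_smul (σ : GQ) (x : VV P) :
    ((σ • x : VV P) : (EC P).Point) = σ • (x : (EC P).Point) := rfl

/-- Stability gives stability under inverses. -/
lemma fin_stable_iff {N : Submodule (ZMod P.p) (VV P)} (hN : IsGaloisStable ℚ N) (σ : GQ)
    (x : VV P) : σ • x ∈ N ↔ x ∈ N := by
  constructor
  · intro h
    have := hN σ⁻¹ _ h
    rwa [inv_smul_smul] at this
  · exact hN σ x

/-- `fin_H1 N`: the elements of `Gal(ℚ̄/ℚ)` acting trivially on `N`. -/
def fin_H1 (N : Submodule (ZMod P.p) (VV P)) : Subgroup GQ where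
  carrier := {σ | ∀ x ∈ N, σ • x = x}
  one_mem' := fun x _ => one_smul _ x
  mul_mem' := fun {a b} ha hb x hx => by
    rw [mul_smul, hb x hx, ha x hx]
  inv_mem' := fun {a} ha x hx => by
    rw [inv_smul_eq_iff]
    exact (ha x hx).symm

lemma fin_mem_H1 (N : Submodule (ZMod P.p) (VV P)) (σ : GQ) :
    σ ∈ fin_H1 P N ↔ ∀ x ∈ N, σ • x = x := Iff.rfl

/-- `fin_H2 N`: the elements of `Gal(ℚ̄/ℚ)` acting trivially on `V / N`. -/
def fin_H2 (N : Submodule (ZMod P.p) (VV P)) : Subgroup GQ where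
  carrier := {σ | ∀ x : VV P, σ • x - x ∈ N}
  one_mem' := fun x => by
    rw [one_smul, sub_self]
    exact N.zero_mem
  mul_mem' := fun {a b} ha hb x => by
    have h1 := ha (b • x)
    have h2 := hb x
    have e : (a * b) • x - x = (a • (b • x) - b • x) + (b • x - x) := by
      rw [mul_smul]; abel
    rw [e]
    exact N.add_mem h1 h2
  inv_mem' := fun {a} ha x => by
    have h1 := ha (a⁻¹ • x)
    rw [smul_inv_smul] at h1
    have e : a⁻¹ • x - x = -(x - a⁻¹ • x) := by abel
    rw [e]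
    exact N.neg_mem h1

lemma fin_mem_H2 (N : Submodule (ZMod P.p) (VV P)) (σ : GQ) :
    σ ∈ fin_H2 P N ↔ ∀ x : VV P, σ • x - x ∈ N := Iff.rfl

lemma fin_H1_normal {N : Submodule (ZMod P.p) (VV P)} (hN : IsGaloisStable ℚ N) :
    (fin_H1 P N).Normal := by
  refine ⟨fun σ hσ τ x hx => ?_⟩
  have h1 : τ⁻¹ • x ∈ N := hN τ⁻¹ x hx
  have h2 := hσ _ h1
  rw [mul_smul, mul_smul, h2, smul_inv_smul]

lemma fin_H2_normal {N : Submodule (ZMod P.p) (VV P)} (hN : IsGaloisStable ℚ N) :
    (fin_H2 P N).Normal := by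
  refine ⟨fun σ hσ τ x => ?_⟩
  have h1 := hσ (τ⁻¹ • x)
  have h2 := hN τ _ h1
  have e : (τ * σ * τ⁻¹) • x - x = τ • (σ • τ⁻¹ • x - τ⁻¹ • x) := by
    rw [smul_sub, mul_smul, mul_smul, smul_inv_smul]
  rw [e]
  exact h2

/-- An automorphism fixing both coordinates of a point fixes the point. -/
lemma fin_smul_eq_of_coord (σ : GQ) (T : (EC P).Point) (hx : σ (xc T) = xc T)
    (hy : σ (yc T) = yc T) : σ • T = T := by
  rcases T with _ | ⟨x, y, h⟩
  · rfl
  · change Point.map (W' := (P.freyCurve : WeierstrassCurve.Affine ℚ)) σ.toAlgHom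
      (Point.some x y h) = _
    rw [Point.map_some]
    have hx' : σ x = x := hx
    have hy' : σ y = y := hy
    simp only [Point.some.injEq]
    exact ⟨hx', hy'⟩

/-- The coordinates of a point fixed by an automorphism are fixed. -/
lemma fin_coord_of_smul_eq (σ : GQ) (T : (EC P).Point) (h : σ • T = T) :
    σ (xc T) = xc T ∧ σ (yc T) = yc T := by
  rcases T with _ | ⟨x, y, hxy⟩
  · exact ⟨map_zero σ, map_zero σ⟩
  · change Point.map (W' := (P.freyCurve : WeierstrassCurve.Affine ℚ)) σ.toAlgHom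
      (Point.some x y hxy) = _ at h
    rw [Point.map_some] at h
    simp only [Point.some.injEq] at h
    exact h

/-- The set of coordinates of the points of `V`. -/
def fin_coords : Set QQb :=
  (Set.range fun x : VV P => xc (x : (EC P).Point)) ∪
    (Set.range fun x : VV P => yc (x : (EC P).Point))

/-- The field generated by the coordinates of the points of `V`. -/
noncomputable def fin_L : IntermediateField ℚ QQb :=
  IntermediateField.adjoin ℚ (fin_coords P)

lemma fin_L_finiteDimensional [Finite (VV P)] : FiniteDimensional ℚ (fin_L P) := by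
  haveI : Finite (fin_coords P) := by
    unfold fin_coords
    exact Set.finite_coe_iff.2 ((Set.finite_range _).union (Set.finite_range _))
  haveI := Fermat.Agent.Frob.isAlgebraic_Qb
  exact IntermediateField.finiteDimensional_adjoin
    (fun x _ => (Algebra.IsAlgebraic.isAlgebraic (R := ℚ) x).isIntegral)

lemma fin_fixing_smul (σ : GQ) (hσ : σ ∈ (fin_L P).fixingSubgroup) (x : VV P) : σ • x = x := by
  rw [IntermediateField.mem_fixingSubgroup_iff] at hσ
  apply Subtype.ext
  rw [fin_coe_smul]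
  apply fin_smul_eq_of_coord
  · exact hσ _ (IntermediateField.subset_adjoin ℚ _ (Or.inl ⟨x, rfl⟩))
  · exact hσ _ (IntermediateField.subset_adjoin ℚ _ (Or.inr ⟨x, rfl⟩))

lemma fin_fixing_le_H1 (N : Submodule (ZMod P.p) (VV P)) :
    (fin_L P).fixingSubgroup ≤ fin_H1 P N :=
  fun σ hσ x _ => fin_fixing_smul P σ hσ x

lemma fin_fixing_le_H2 (N : Submodule (ZMod P.p) (VV P)) :
    (fin_L P).fixingSubgroup ≤ fin_H2 P N := fun σ hσ x => by
  rw [fin_fixing_smul P σ hσ x, sub_self]
  exact N.zero_mem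

/-- S05: inertia at `q ∉ {2, p}` acts trivially on `V`. -/
theorem fin_unram {q : ℕ} (hq : q.Prime) (hq2 : q ≠ 2) (hqp : q ≠ P.p)
    (A : ValuationSubring QQb) (hA : A.LiesOverPrime q) (σ : GQ)
    (hσ : σ ∈ A.inertiaSubgroupIn ℚ) (x : VV P) : σ • x = x := by
  obtain ⟨O, h1, h2, -⟩ := exists_ordVal_of_valuationSubring A q hq hA
  have D : PlaceData A q O := ⟨hq, hA, h1, h2⟩
  have hpP : P.p • x.1 = 0 := by
    have := x.2
    rw [Submodule.mem_torsionBy_iff] at this
    rw [← natCast_zsmul]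
    exact this
  apply Subtype.ext
  change Point.map (W' := (P.freyCurve : WeierstrassCurve.Affine ℚ)) σ.toAlgHom x.val = x.val
  by_cases ha : (q : ℤ) ∣ P.a
  · exact frey_fix_a P D hq2 hqp ha hσ hpP
  by_cases hb : (q : ℤ) ∣ P.b
  · exact frey_fix_b P D hq2 hqp hb hσ hpP
  by_cases hc : (q : ℤ) ∣ P.c
  · exact frey_fix_c P D hq2 hqp hc hσ hpP
  exact frey_fix_good P D hq2 hqp ha hb hc hσ hpP

/-- At every prime `q ∉ {2, p}` there is a place whose inertia group lies in `H1 ⊓ H2`. -/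
lemma fin_exists_place {q : ℕ} (hq : q.Prime) (hq2 : q ≠ 2) (hqp : q ≠ P.p)
    (N : Submodule (ZMod P.p) (VV P)) :
    ∃ A : ValuationSubring QQb, A.LiesOverPrime q ∧
      A.inertiaSubgroupIn ℚ ≤ fin_H1 P N ∧ A.inertiaSubgroupIn ℚ ≤ fin_H2 P N := by
  obtain ⟨A, hA⟩ := Fermat.Agent.Frob.exists_valuationSubring_over q hq
  refine ⟨A, hA, fun σ hσ x _ => fin_unram P hq hq2 hqp A hA σ hσ x, fun σ hσ x => ?_⟩
  rw [fin_unram P hq hq2 hqp A hA σ hσ x, sub_self]
  exact N.zero_mem

/-- A nonzero `p`-torsion point makes `V` nontrivial. -/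
lemma fin_nontrivial (hWR : ∃ T : (EC P).Point, T ≠ 0 ∧ P.p • T = 0) : Nontrivial (VV P) := by
  obtain ⟨T, hT, hpT⟩ := hWR
  have hmem : T ∈ VV P := by
    rw [Submodule.mem_torsionBy_iff, natCast_zsmul]
    exact hpT
  refine ⟨⟨⟨T, hmem⟩, 0, ?_⟩⟩
  intro h
  exact hT (congrArg Subtype.val h)

/-- From reducibility and `V ≠ 0`: a Galois-stable line. -/
lemma fin_exists_line (hWR : ∃ T : (EC P).Point, T ≠ 0 ∧ P.p • T = 0)
    (hred : ¬ GaloisRepIsIrreducible (K := QQb) ℚ P.freyCurve P.p) :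
    ∃ N : Submodule (ZMod P.p) (VV P), IsGaloisStable ℚ N ∧ N ≠ ⊥ ∧ N ≠ ⊤ := by
  by_contra hcon
  apply hred
  refine ⟨fin_nontrivial P hWR, fun N hN => ?_⟩
  by_contra h
  rw [not_or] at h
  exact hcon ⟨N, hN, h.1, h.2⟩

/-- **[FINAL]** The global assembly, with the other packages as hypotheses. -/
theorem fin_main
    (hWR : ∃ T : (EC P).Point, T ≠ 0 ∧ P.p • T = 0)
    (hfin : Finite (VV P))
    (hAT2 : ∀ N : Submodule (ZMod P.p) (VV P), IsGaloisStable ℚ N → N ≠ ⊥ → N ≠ ⊤ →
      ∃ A : ValuationSubring QQb, A.LiesOverPrime 2 ∧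
        ((∀ σ ∈ A.inertiaSubgroupIn ℚ, ∀ x ∈ N, σ • x = x) ∧
          (∀ σ ∈ A.inertiaSubgroupIn ℚ, ∀ x : VV P, σ • x - x ∈ N)))
    (hATP : ∀ N : Submodule (ZMod P.p) (VV P), IsGaloisStable ℚ N → N ≠ ⊥ → N ≠ ⊤ →
      ∃ A : ValuationSubring QQb, A.LiesOverPrime P.p ∧
        ((∀ σ ∈ A.inertiaSubgroupIn ℚ, ∀ x ∈ N, σ • x = x) ∨
          (∀ σ ∈ A.inertiaSubgroupIn ℚ, ∀ x : VV P, σ • x - x ∈ N)))
    (hMINK : ∀ (H : Subgroup GQ), H.Normal → ∀ (L : IntermediateField ℚ QQb),
      FiniteDimensional ℚ L → L.fixingSubgroup ≤ H →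
      (∀ q : ℕ, q.Prime → ∃ A : ValuationSubring QQb, A.LiesOverPrime q ∧
        A.inertiaSubgroupIn ℚ ≤ H) → H = ⊤)
    (hRAT : ∀ T : (EC P).Point, T ≠ 0 → P.p • T = 0 → (∀ σ : GQ, σ • T = T) → False)
    (hred : ¬ GaloisRepIsIrreducible (K := QQb) ℚ P.freyCurve P.p) :
    HasGaloisStableCofixedLine (K := QQb) ℚ P.freyCurve P.p := by
  obtain ⟨N, hN, hbot, htop⟩ := fin_exists_line P hWR hred
  obtain ⟨A2, hA2, h21, h22⟩ := hAT2 N hN hbot htop
  obtain ⟨Ap, hAp, hp12⟩ := hATP N hN hbot htop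
  haveI := hfin
  have hLfd : FiniteDimensional ℚ (fin_L P) := fin_L_finiteDimensional P
  rcases hp12 with hp1 | hp2
  · -- `χ₁` is unramified everywhere, hence trivial: a rational point of order `p`
    exfalso
    have htop1 : fin_H1 P N = ⊤ := by
      refine hMINK _ (fin_H1_normal P hN) (fin_L P) hLfd (fin_fixing_le_H1 P N) ?_
      intro q hq
      by_cases hq2 : q = 2
      · subst hq2
        exact ⟨A2, hA2, fun σ hσ => h21 σ hσ⟩
      by_cases hqp : q = P.p
      · subst hqp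
        exact ⟨Ap, hAp, fun σ hσ => hp1 σ hσ⟩
      obtain ⟨A, hA, h1, -⟩ := fin_exists_place P hq hq2 hqp N
      exact ⟨A, hA, h1⟩
    obtain ⟨x, hxN, hx0⟩ := (Submodule.ne_bot_iff N).1 hbot
    have hfix : ∀ σ : GQ, σ • x = x := fun σ => by
      have : σ ∈ fin_H1 P N := by rw [htop1]; exact Subgroup.mem_top σ
      exact this x hxN
    have hpx : P.p • (x : (EC P).Point) = 0 := by
      have := x.2
      rw [Submodule.mem_torsionBy_iff] at this
      rw [← natCast_zsmul]
      exact this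
    refine hRAT x.1 (fun h => hx0 (Subtype.ext h)) hpx (fun σ => ?_)
    have := congrArg Subtype.val (hfix σ)
    exact this
  · -- `χ₂` is unramified everywhere, hence trivial: `N` is cofixed
    have htop2 : fin_H2 P N = ⊤ := by
      refine hMINK _ (fin_H2_normal P hN) (fin_L P) hLfd (fin_fixing_le_H2 P N) ?_
      intro q hq
      by_cases hq2 : q = 2
      · subst hq2
        exact ⟨A2, hA2, fun σ hσ => h22 σ hσ⟩
      by_cases hqp : q = P.p
      · subst hqp
        exact ⟨Ap, hAp, fun σ hσ => hp2 σ hσ⟩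
      obtain ⟨A, hA, -, h2⟩ := fin_exists_place P hq hq2 hqp N
      exact ⟨A, hA, h2⟩
    refine ⟨N, hN, hbot, htop, fun σ x => ?_⟩
    have : σ ∈ fin_H2 P N := by rw [htop2]; exact Subgroup.mem_top σ
    exact this x

end Fermat.Agent.M13
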