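import Mathlib
import Fermat.Prelude.Def_FLTPrelim_Ramification
import Fermat.Agent.Frob.Exists

set_option autoImplicit false
set_option linter.style.haveILetI false

open scoped Pointwise NumberField

namespace Fermat.Agent.M13

open Fermat.Agent.Frob

noncomputable section

attribute [local instance] isAlgebraic_Qb isAlgClosure_Qb isAlgebraic_int_Qb isFractionRing_Zb
  galAction

variable (K : IntermediateField ℚ Qb)

theorem mink_numberField [h : FiniteDimensional ℚ K] : NumberField K :=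
  { to_charZero := inferInstance, to_finiteDimensional := h }

attribute [local instance] mink_numberField

/-- the inclusion of the ring of integers of `K` into `Zb` -/
def mink_toZb [FiniteDimensional ℚ K] : 𝓞 K →+* Zb where
  toFun x := ⟨((x : K) : Qb), by
    have h := x.2
    exact (NumberField.RingOfIntegers.isIntegral_coe x).map (IsScalarTower.toAlgHom ℤ K Qb)⟩
  map_one' := by ext; simp
  map_mul' x y := by ext; simp
  map_zero' := by ext; simp
  map_add' x y := by ext; simp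

@[instance_reducible]
def mink_algebra [FiniteDimensional ℚ K] : Algebra (𝓞 K) Zb := (mink_toZb K).toAlgebra

attribute [local instance] mink_algebra

theorem mink_algebraMap_coe [FiniteDimensional ℚ K] (x : 𝓞 K) :
    ((algebraMap (𝓞 K) Zb x : Zb) : Qb) = ((x : K) : Qb) := rfl

instance mink_smulCommClass [FiniteDimensional ℚ K] :
    SMulCommClass K.fixingSubgroup (𝓞 K) Zb where
  smul_comm h a b := by
    apply Subtype.ext
    change ((h : Qb ≃ₐ[ℚ] Qb) • (algebraMap (𝓞 K) Zb a * b) : Zb).1 =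
      (algebraMap (𝓞 K) Zb a * ((h : Qb ≃ₐ[ℚ] Qb) • b : Zb) : Zb).1
    rw [coe_smul_Zb]
    push_cast
    rw [map_mul, coe_smul_Zb, mink_algebraMap_coe]
    congr 1
    exact h.2 ⟨_, (a : K).2⟩

theorem mink_isInvariant [FiniteDimensional ℚ K] :
    Algebra.IsInvariant (𝓞 K) Zb K.fixingSubgroup := by
  refine ⟨fun b hb => ?_⟩
  have hfix : (b : Qb) ∈ IntermediateField.fixedField K.fixingSubgroup := by
    intro h
    have h1 : (((h : Qb ≃ₐ[ℚ] Qb) • b : Zb) : Qb) = (b : Qb) := congrArg Subtype.val (hb h)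
    rw [coe_smul_Zb] at h1
    exact h1
  rw [InfiniteGalois.fixedField_fixingSubgroup] at hfix
  have hint : IsIntegral ℤ (⟨(b : Qb), hfix⟩ : K) := by
    have := b.2
    exact (isIntegral_algebraMap_iff (algebraMap K Qb).injective).mp this
  refine ⟨⟨⟨(b : Qb), hfix⟩, hint⟩, ?_⟩
  apply Subtype.ext
  rfl

theorem mink_mem_decomposition {K L : Type*} [Field K] [Field L] [Algebra K L]
    (A : ValuationSubring L) (σ : L ≃ₐ[K] L)
    (h1 : ∀ x ∈ A, σ x ∈ A) (h2 : ∀ x ∈ A, σ x - x ∈ A.nonunits) :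
    σ ∈ A.decompositionSubgroup K := by
  rw [MulAction.mem_stabilizer_iff]
  apply le_antisymm
  · rintro _ ⟨x, hx, rfl⟩
    exact h1 x hx
  · intro x hx
    refine ⟨σ.symm x, ?_, by simp⟩
    by_contra hy
    set y := σ.symm x with hydef
    have hy0 : y ≠ 0 := fun h0 => hy (h0 ▸ A.zero_mem)
    have hinv : y⁻¹ ∈ A.nonunits := by
      rw [A.mem_nonunits_iff, map_inv₀]
      have : 1 < A.valuation y := by
        rw [← not_le, A.valuation_le_one_iff]; exact hy
      exact (inv_lt_one₀ (lt_trans zero_lt_one this)).mpr this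
    have hinvA : y⁻¹ ∈ A := A.nonunits_le hinv
    have h3 := h2 _ hinvA
    have h4 : σ y⁻¹ ∈ A.nonunits := by
      have := A.nonunits.add_mem h3 hinv
      simpa using this
    have h5 : σ y⁻¹ = x⁻¹ := by
      rw [map_inv₀, hydef]; simp
    rw [h5, A.mem_nonunits_iff, map_inv₀] at h4
    have hx1 : A.valuation x ≤ 1 := (A.valuation_le_one_iff _).mpr hx
    by_cases hx0 : A.valuation x = 0
    · rw [hx0, inv_zero] at h4
      have : x = 0 := by simpa using hx0
      apply hy0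
      rw [hydef, this, map_zero]
    · have hpos : 0 < A.valuation x := lt_of_le_of_ne zero_le (Ne.symm hx0)
      have := (inv_lt_one₀ hpos).mp h4
      exact absurd hx1 (not_le.mpr this)

theorem mink_mem_inertia {K L : Type*} [Field K] [Field L] [Algebra K L]
    (A : ValuationSubring L) (σ : L ≃ₐ[K] L)
    (h1 : ∀ x ∈ A, σ x ∈ A) (h2 : ∀ x ∈ A, σ x - x ∈ A.nonunits) :
    σ ∈ A.inertiaSubgroupIn K := by
  have hd := mink_mem_decomposition A σ h1 h2
  refine ⟨⟨σ, hd⟩, ?_, rfl⟩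
  change MulSemiringAction.toRingAut (A.decompositionSubgroup K)
      (IsLocalRing.ResidueField A) ⟨σ, hd⟩ = 1
  ext r
  obtain ⟨x, rfl⟩ := IsLocalRing.residue_surjective r
  change (⟨σ, hd⟩ : A.decompositionSubgroup K) • (IsLocalRing.residue A x) = IsLocalRing.residue A x
  rw [← IsLocalRing.ResidueField.residue_smul, ← sub_eq_zero, ← map_sub,
    IsLocalRing.residue_eq_zero_iff]
  have h3 := h2 x x.2
  rw [ValuationSubring.mem_nonunits_iff_exists_mem_maximalIdeal] at h3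
  obtain ⟨hmem, hmax⟩ := h3
  have e : (⟨σ, hd⟩ : A.decompositionSubgroup K) • x - x = ⟨σ ↑x - ↑x, hmem⟩ := by
    apply Subtype.ext
    rfl
  rw [e]
  exact hmax

/-- nonunits is stable under adding a nonunit -/
theorem mink_nonunits_iff (A : ValuationSubring Qb) {x y : Qb} (h : y - x ∈ A.nonunits) :
    x ∈ A.nonunits ↔ y ∈ A.nonunits := by
  constructor
  · intro hx
    have := A.nonunits.add_mem h hx
    simpa using this
  · intro hy
    have h' : x - y ∈ A.nonunits := by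
      rw [A.mem_nonunits_iff] at h ⊢
      rwa [← neg_sub, Valuation.map_neg]
    have := A.nonunits.add_mem h' hy
    simpa using this

/-- elements of the fixing subgroup restrict to the identity -/
theorem mink_restrict_eq_one [Normal ℚ K] (h : K.fixingSubgroup) :
    AlgEquiv.restrictNormalHom K (h : Qb ≃ₐ[ℚ] Qb) = 1 := by
  ext x
  have := AlgEquiv.restrictNormal_commutes (h : Qb ≃ₐ[ℚ] Qb) K x
  change ((AlgEquiv.restrictNormalHom K (h : Qb ≃ₐ[ℚ] Qb) x : K) : Qb) = _ at this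
  rw [this]
  exact h.2 ⟨_, x.2⟩

theorem mink_restrict_coe [Normal ℚ K] (σ : Qb ≃ₐ[ℚ] Qb) (x : K) :
    ((AlgEquiv.restrictNormalHom K σ x : K) : Qb) = σ (x : Qb) :=
  AlgEquiv.restrictNormal_commutes σ K x

/-- the integral element `τ x` -/
def mink_galInt [FiniteDimensional ℚ K] (τ : K ≃ₐ[ℚ] K) (x : 𝓞 K) : 𝓞 K :=
  ⟨τ (x : K), map_isIntegral_int (τ : K →+* K) (NumberField.RingOfIntegers.isIntegral_coe x)⟩

/-- a nontrivial element of the inertia group at a ramified prime -/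
theorem mink_exists_inertia_ne_one (K : Type*) [Field K] [NumberField K] [IsGalois ℚ K]
    (P : Ideal (𝓞 K)) [P.IsPrime] (hP : ¬ Algebra.IsUnramifiedAt ℤ P) :
    ∃ τ : K ≃ₐ[ℚ] K, τ ≠ 1 ∧ ∀ x : 𝓞 K, ∃ y ∈ P, (y : K) = τ (x : K) - (x : K) := by
  classical
  let _ : MulSemiringAction Gal(K/ℚ) (𝓞 K) := IsIntegralClosure.MulSemiringAction ℤ ℚ K (𝓞 K)
  have := IsGaloisGroup.of_isFractionRing Gal(K/ℚ) ℤ (𝓞 K) ℚ K
  have h1 : P.ramificationIdx ℤ ≠ 1 := by
    rwa [Ne, Ideal.ramificationIdx_eq_one_iff]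
  have h2 : Nat.card (P.inertia Gal(K/ℚ)) ≠ 1 := by
    rw [Ideal.card_inertia_eq_ramificationIdxIn (P.under ℤ) P,
      Ideal.ramificationIdxIn_eq_ramificationIdx (P.under ℤ) P Gal(K/ℚ)]
    exact h1
  have h3 : ∃ τ ∈ P.inertia Gal(K/ℚ), τ ≠ 1 := by
    by_contra hcon
    push Not at hcon
    apply h2
    rw [Nat.card_eq_one_iff_unique]
    exact ⟨⟨fun a b => Subtype.ext ((hcon a a.2).trans (hcon b b.2).symm)⟩, ⟨1⟩⟩
  obtain ⟨τ, hτ, hτ1⟩ := h3
  refine ⟨τ, hτ1, fun x => ⟨τ • x - x, hτ x, ?_⟩⟩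
  push_cast
  rfl


theorem mink_exists_lift [FiniteDimensional ℚ K] [Normal ℚ K]
    (A : ValuationSubring Qb) {q : ℕ} (hq : q.Prime) (hA : (q : Qb) ∈ A.nonunits)
    (τ : K ≃ₐ[ℚ] K) (hτ : ∀ x : 𝓞 K, (((τ (x : K) - (x : K)) : K) : Qb) ∈ A.nonunits) :
    ∃ σ : Qb ≃ₐ[ℚ] Qb, σ ∈ A.inertiaSubgroupIn ℚ ∧ AlgEquiv.restrictNormalHom K σ = τ := by
  classical
  letI : TopologicalSpace Zb := ⊥
  haveI : DiscreteTopology Zb := ⟨rfl⟩
  haveI hcont : ContinuousSMul (Qb ≃ₐ[ℚ] Qb) Zb := continuousSMul_Zb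
  haveI : ContinuousSMul K.fixingSubgroup Zb := inferInstance
  haveI : CompactSpace K.fixingSubgroup :=
    isCompact_iff_compactSpace.mp (IntermediateField.fixingSubgroup_isClosed K).isCompact
  haveI := mink_isInvariant K
  let Q := center A
  haveI hQ : Q.IsPrime := center_isPrime A
  let P := Q.under (𝓞 K)
  haveI : Q.LiesOver P := Ideal.over_under Q
  obtain ⟨σ₀, hσ₀⟩ := AlgEquiv.restrictNormalHom_surjective (F := ℚ) (K₁ := K) Qb τ
  -- the key property of `τ` in terms of membership in `Q`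
  have hmemQ : ∀ b : Zb, b ∈ Q ↔ (b : Qb) ∈ A.nonunits := fun b => Iff.rfl
  have hσ₀K : ∀ x : 𝓞 K, ((σ₀ • (algebraMap (𝓞 K) Zb x) : Zb) : Qb) = ((τ (x : K) : K) : Qb) := by
    intro x
    rw [coe_smul_Zb, mink_algebraMap_coe, ← hσ₀, mink_restrict_coe]
  have hPQ : (σ₀ • Q).under (𝓞 K) = Q.under (𝓞 K) := by
    ext x
    rw [Ideal.mem_comap, Ideal.mem_comap, Ideal.mem_pointwise_smul_iff_inv_smul_mem, hmemQ, hmemQ,
      coe_smul_Zb, mink_algebraMap_coe]
    -- σ₀⁻¹ x = τ⁻¹ x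
    have h1 : (σ₀⁻¹ : Qb ≃ₐ[ℚ] Qb) ((x : K) : Qb) = ((τ.symm (x : K) : K) : Qb) := by
      have := mink_restrict_coe K σ₀⁻¹ (x : K)
      rw [map_inv, hσ₀] at this
      exact this.symm
    rw [h1]
    have h2 := hτ (mink_galInt K τ.symm x)
    have h3 : τ ((mink_galInt K τ.symm x : 𝓞 K) : K) = (x : K) := by
      change τ (τ.symm (x : K)) = _
      simp
    rw [h3] at h2
    have h4 : ((((x : K) - ((mink_galInt K τ.symm x : 𝓞 K) : K) : K)) : Qb)
        = ((x : K) : Qb) - ((τ.symm (x : K) : K) : Qb) := by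
      push_cast
      rfl
    rw [h4] at h2
    exact mink_nonunits_iff A h2
  obtain ⟨g, hg⟩ := Algebra.IsInvariant.exists_smul_of_under_eq_of_profinite
    (A := 𝓞 K) (G := K.fixingSubgroup) (σ₀ • Q) Q hPQ
  set σ₁ : Qb ≃ₐ[ℚ] Qb := (g : Qb ≃ₐ[ℚ] Qb) * σ₀ with hσ₁
  have hσ₁Q : σ₁ • Q = Q := by
    rw [hσ₁, mul_smul]; exact hg.symm
  have hσ₁K : AlgEquiv.restrictNormalHom K σ₁ = τ := by
    rw [hσ₁, map_mul, mink_restrict_eq_one, one_mul, hσ₀]
  let s₁ : MulAction.stabilizer (Qb ≃ₐ[ℚ] Qb) Q := ⟨σ₁, hσ₁Q⟩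
  let e₀ := Ideal.Quotient.stabilizerHom Q (Q.under ℤ) (Qb ≃ₐ[ℚ] Qb) s₁
  have he₀ : ∀ b : Zb, e₀ (Ideal.Quotient.mk Q b) = Ideal.Quotient.mk Q (σ₁ • b) := fun b =>
    Ideal.Quotient.stabilizerHom_apply Q (Q.under ℤ) (Qb ≃ₐ[ℚ] Qb) s₁ b
  let α : (Zb ⧸ Q) ≃ₐ[𝓞 K ⧸ P] (Zb ⧸ Q) := AlgEquiv.ofRingEquiv (f := e₀.toRingEquiv) (by
    intro r
    obtain ⟨x, rfl⟩ := Ideal.Quotient.mk_surjective r
    rw [Ideal.Quotient.algebraMap_mk_of_liesOver]
    change e₀ (Ideal.Quotient.mk Q (algebraMap (𝓞 K) Zb x)) = _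
    rw [he₀, Ideal.Quotient.eq, hmemQ]
    have h1 : (((σ₁ • (algebraMap (𝓞 K) Zb x) - algebraMap (𝓞 K) Zb x : Zb)) : Qb)
        = (((τ (x : K) - (x : K)) : K) : Qb) := by
      push_cast
      rw [coe_smul_Zb, mink_algebraMap_coe, ← hσ₁K, mink_restrict_coe]
    rw [h1]
    exact hτ x)
  have hα : ∀ b : Zb, α (Ideal.Quotient.mk Q b) = Ideal.Quotient.mk Q (σ₁ • b) := he₀
  obtain ⟨ρ, hρ⟩ := Ideal.Quotient.stabilizerHom_surjective_of_profinite
    (G := K.fixingSubgroup) P Q α.symm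
  set σ : Qb ≃ₐ[ℚ] Qb := ((ρ : K.fixingSubgroup) : Qb ≃ₐ[ℚ] Qb) * σ₁ with hσ
  have hσK : AlgEquiv.restrictNormalHom K σ = τ := by
    rw [hσ, map_mul, mink_restrict_eq_one, one_mul, hσ₁K]
  have hkey : ∀ b : Zb, ((σ • b : Zb) : Qb) - (b : Qb) ∈ A.nonunits := by
    intro b
    have h1 : Ideal.Quotient.mk Q (σ • b) = Ideal.Quotient.mk Q b := by
      have h2 := Ideal.Quotient.stabilizerHom_apply Q P K.fixingSubgroup ρ (σ₁ • b)
      rw [hρ, ← hα, AlgEquiv.symm_apply_apply] at h2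
      rw [h2, hσ, mul_smul]
      rfl
    rw [Ideal.Quotient.eq, hmemQ] at h1
    simpa using h1
  -- valuations
  have hval : ∀ x ∈ A, σ x ∈ A ∧ σ x - x ∈ A.nonunits := by
    intro x hx
    obtain ⟨a, b, ha, hb, hvb, hxb⟩ := exists_integral_fraction A hq hA hx
      (isAlgebraic_int_Qb.isAlgebraic x)
    have hka := hkey ⟨a, ha⟩
    have hkb := hkey ⟨b, hb⟩
    rw [coe_smul_Zb] at hka hkb
    change σ a - a ∈ A.nonunits at hka
    change σ b - b ∈ A.nonunits at hkb
    rw [A.mem_nonunits_iff] at hka hkb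
    have hva : A.valuation a ≤ 1 := valuation_le_one_of_isIntegral A ha
    have hvσb : A.valuation (σ b) = 1 := by
      have h1 : σ b = b + (σ b - b) := by ring
      rw [h1, Valuation.map_add_eq_of_lt_left _ (by rw [hvb]; exact hkb), hvb]
    have hb0 : b ≠ 0 := by
      intro h0
      rw [h0, map_zero] at hvb
      exact zero_ne_one hvb
    have hσb0 : σ b ≠ 0 := by
      intro h0
      rw [h0, map_zero] at hvσb
      exact zero_ne_one hvσb
    have hxeq : x = a / b := by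
      rw [eq_div_iff hb0]; exact hxb
    have hσx : σ x = σ a / σ b := by
      rw [hxeq, map_div₀]
    have hvσa : A.valuation (σ a) ≤ 1 :=
      valuation_le_one_of_isIntegral A (map_isIntegral_int (σ : Qb →+* Qb) ha)
    constructor
    · rw [← A.valuation_le_one_iff, hσx, map_div₀, hvσb, div_one]
      exact hvσa
    · rw [A.mem_nonunits_iff]
      have h2 : σ x - x = ((σ a - a) * b - a * (σ b - b)) / (b * σ b) := by
        rw [hσx, hxeq]
        field_simp
        ring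
      rw [h2, map_div₀, map_mul, hvb, hvσb, one_mul, div_one]
      refine lt_of_le_of_lt (Valuation.map_sub _ _ _) (max_lt ?_ ?_)
      · rw [map_mul, hvb, mul_one]
        exact hka
      · rw [map_mul]
        calc A.valuation a * A.valuation (σ b - b) ≤ 1 * A.valuation (σ b - b) := by gcongr
          _ = A.valuation (σ b - b) := one_mul _
          _ < 1 := hkb
  exact ⟨σ, mink_mem_inertia A σ (fun x hx => (hval x hx).1) (fun x hx => (hval x hx).2), hσK⟩

/-- **Minkowski** (exists-variant): a normal open subgroup of `G_ℚ` that contains, for every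
prime `q`, the inertia group of SOME place over `q`, is everything. -/
theorem mink_eq_top' (H : Subgroup (Qb ≃ₐ[ℚ] Qb)) [hn : H.Normal]
    (L : IntermediateField ℚ Qb) [FiniteDimensional ℚ L] (hL : L.fixingSubgroup ≤ H)
    (hI : ∀ q : ℕ, q.Prime → ∃ A : ValuationSubring Qb,
      A.LiesOverPrime q ∧ A.inertiaSubgroupIn ℚ ≤ H) : H = ⊤ := by
  classical
  set K : IntermediateField ℚ Qb := IntermediateField.fixedField H with hK
  have hKL : K ≤ L := by
    have h1 := IntermediateField.fixedField_le hL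
    rwa [InfiniteGalois.fixedField_fixingSubgroup] at h1
  haveI : FiniteDimensional ℚ K := by
    let _ : Algebra K L := RingHom.toAlgebra (IntermediateField.inclusion hKL)
    haveI : IsScalarTower ℚ K L := IsScalarTower.of_algebraMap_eq (fun x => rfl)
    exact FiniteDimensional.left ℚ K L
  have hopen : IsOpen (H : Set (Qb ≃ₐ[ℚ] Qb)) :=
    Subgroup.isOpen_mono hL (IntermediateField.fixingSubgroup_isOpen L)
  have hclosed : IsClosed (H : Set (Qb ≃ₐ[ℚ] Qb)) := Subgroup.isClosed_of_isOpen H hopen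
  have hfix : K.fixingSubgroup = H :=
    InfiniteGalois.fixingSubgroup_fixedField ⟨H, hclosed⟩
  haveI hgal : IsGalois ℚ K := by
    have hn' : K.fixingSubgroup.Normal := by rw [hfix]; exact hn
    exact (InfiniteGalois.normal_iff_isGalois K).mp hn'
  haveI : Normal ℚ K := hgal.to_normal
  by_contra hne
  have hrank : 1 < Module.finrank ℚ K := by
    by_contra hle
    have h1 : Module.finrank ℚ K = 1 := by
      have := Module.finrank_pos (R := ℚ) (M := K)
      omega
    have h2 : K = ⊥ := IntermediateField.finrank_eq_one_iff.mp h1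
    apply hne
    rw [← hfix, h2, IntermediateField.fixingSubgroup_bot]
  obtain ⟨q, hq, hram⟩ := NumberField.exists_not_isUnramifiedAt_int_of_isGalois
    (K := K) (𝒪 := 𝓞 K) hrank
  obtain ⟨A, hA, hIA⟩ := hI q hq
  have hA' : (q : Qb) ∈ A.nonunits := hA
  let P : Ideal (𝓞 K) := (center A).comap (mink_toZb K)
  haveI hQ : (center A).IsPrime := center_isPrime A
  haveI hP : P.IsPrime := Ideal.comap_isPrime _ _
  have hqP : (q : 𝓞 K) ∈ P := by
    change mink_toZb K (q : 𝓞 K) ∈ center A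
    rw [map_natCast, mem_center]
    simpa using hA'
  obtain ⟨τ, hτ1, hτ⟩ := mink_exists_inertia_ne_one K P (hram P hP hqP)
  obtain ⟨σ, hσI, hσK⟩ := mink_exists_lift K A hq hA' τ (fun x => by
    obtain ⟨y, hy, hyx⟩ := hτ x
    rw [← hyx]
    exact hy)
  have hσH : σ ∈ K.fixingSubgroup := by
    rw [hfix]; exact hIA hσI
  apply hτ1
  rw [← hσK]
  exact mink_restrict_eq_one K ⟨σ, hσH⟩

/-- **Minkowski**: a normal open subgroup of `G_ℚ` containing all inertia groups is everything. -/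
theorem mink_eq_top (H : Subgroup (Qb ≃ₐ[ℚ] Qb)) [H.Normal]
    (L : IntermediateField ℚ Qb) [FiniteDimensional ℚ L] (hL : L.fixingSubgroup ≤ H)
    (hI : ∀ q : ℕ, q.Prime → ∀ A : ValuationSubring Qb,
      A.LiesOverPrime q → A.inertiaSubgroupIn ℚ ≤ H) : H = ⊤ := by
  refine mink_eq_top' H L hL (fun q hq => ?_)
  obtain ⟨A, hA⟩ := exists_valuationSubring_over q hq
  exact ⟨A, hA, hI q hq A hA⟩

/-- a finite set of algebraic numbers is fixed by the fixing subgroup of a number field -/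
theorem mink_exists_field (S : Set Qb) (hS : S.Finite) :
    ∃ L : IntermediateField ℚ Qb, FiniteDimensional ℚ L ∧ S ⊆ L ∧
      ∀ σ ∈ L.fixingSubgroup, ∀ x ∈ S, σ x = x := by
  haveI : Finite S := hS
  refine ⟨IntermediateField.adjoin ℚ S,
    IntermediateField.finiteDimensional_adjoin (fun x _ =>
      (isAlgebraic_Qb.isAlgebraic x).isIntegral),
    IntermediateField.subset_adjoin ℚ S, fun σ hσ x hx => ?_⟩
  exact hσ ⟨x, IntermediateField.subset_adjoin ℚ S hx⟩

/-- **Minkowski** for a finite `G_ℚ`-set with open stabilisers: if for every prime `q` the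
inertia group of some place over `q` acts trivially, then `G_ℚ` acts trivially. -/
theorem mink_smul_eq {X : Type*} [MulAction (Qb ≃ₐ[ℚ] Qb) X] [Finite X]
    (hopen : ∀ x : X, ∃ L : IntermediateField ℚ Qb, FiniteDimensional ℚ L ∧
      L.fixingSubgroup ≤ MulAction.stabilizer (Qb ≃ₐ[ℚ] Qb) x)
    (hI : ∀ q : ℕ, q.Prime → ∃ A : ValuationSubring Qb, A.LiesOverPrime q ∧
      ∀ σ ∈ A.inertiaSubgroupIn ℚ, ∀ x : X, σ • x = x)
    (σ : Qb ≃ₐ[ℚ] Qb) (x : X) : σ • x = x := by
  classical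
  let H : Subgroup (Qb ≃ₐ[ℚ] Qb) := (MulAction.toPermHom (Qb ≃ₐ[ℚ] Qb) X).ker
  haveI : H.Normal := MonoidHom.normal_ker _
  have hmem : ∀ τ : Qb ≃ₐ[ℚ] Qb, τ ∈ H ↔ ∀ y : X, τ • y = y := by
    intro τ
    rw [MonoidHom.mem_ker]
    constructor
    · intro h y
      have := congrArg (fun e : Equiv.Perm X => e y) h
      simpa using this
    · intro h
      ext y
      simpa using h y
  choose Lx hLfin hLx using hopen
  haveI : ∀ y, FiniteDimensional ℚ (Lx y) := hLfin
  let L : IntermediateField ℚ Qb := ⨆ y, Lx y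
  haveI : FiniteDimensional ℚ L := IntermediateField.finiteDimensional_iSup_of_finite
  have hL : L.fixingSubgroup ≤ H := by
    intro τ hτ
    rw [hmem]
    intro y
    have h1 : Lx y ≤ L := le_iSup Lx y
    have h2 : τ ∈ (Lx y).fixingSubgroup := fun z => hτ ⟨z.1, h1 z.2⟩
    exact hLx y h2
  have htop : H = ⊤ := mink_eq_top' H L hL (fun q hq => by
    obtain ⟨A, hA, hAI⟩ := hI q hq
    exact ⟨A, hA, fun τ hτ => (hmem τ).mpr (hAI τ hτ)⟩)
  have : σ ∈ H := by rw [htop]; trivial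
  exact (hmem σ).mp this x

end

end Fermat.Agent.M13
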