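import Fermat.Agent.S05.SeqNode

/-!
# M13 (S13), package [NODE2]: tropical induction at a node, without `2` being a unit

Pure valued-field statement about a finite sequence `x 1, …, x m` (think `x k = X(kP)`,
`P` a point of odd order `p = 2m - 1` on `Y² + a₁ X Y = X³ + a₂ X² + a₄ X` with
`b₂ = a₁² + 4 a₂` a unit and `ord a₄ > 0`, all `x k` integral, nonzero, with
`ord (x k) ≤ ord a₄`, and `P` reducing to the node, i.e. `ord (x 1) > 0`).
Conclusion: `p * ord (x 1) ∈ 2 * ord a₄ * ℤ`.

This generalises `Fermat.Agent.S05.node_torsion_seq` (where `2` is a unit, `b₂ = 4 a₂`) to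
arbitrary residue characteristic: only `0 ≤ ord 2` is used.
-/

set_option autoImplicit false

namespace Fermat.Agent.M13

open Fermat.Agent.S05 Fermat.Agent.S05.OrdVal

section NodeStep

variable {K : Type*} [Field K] (O : OrdVal K)

/-- The valuation-theoretic heart of the induction step. -/
lemma node2Aux_step (b₂ a₄ : K) (h2 : O.Ge (2 : K) 0) (hb₂ : O.IsU b₂) (ha₄0 : a₄ ≠ 0)
    (ha₄ : 0 < O.ord a₄) (t u v w : K)
    (ht0 : t ≠ 0) (hu0 : u ≠ 0) (hv0 : v ≠ 0) (hw0 : w ≠ 0)
    (hb : 0 < O.ord t) (hbν : O.ord t ≤ O.ord a₄)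
    (ha : 0 ≤ O.ord v) (haν : O.ord v ≤ O.ord a₄)
    (hc : 0 ≤ O.ord u) (hcν : O.ord u ≤ O.ord a₄)
    (hz : 0 ≤ O.ord w) (hzν : O.ord w ≤ O.ord a₄)
    (hvt : v ≠ t)
    (hP : w * u * (v - t) ^ 2 = (v * t - a₄) ^ 2)
    (hS : (w + u) * (v - t) ^ 2 = 2 * (v * t + a₄) * (v + t) + b₂ * v * t)
    (hcM : O.ord u = min (O.ord v + O.ord t) (2 * O.ord a₄ - O.ord v - O.ord t) ∨
      O.ord u = |O.ord v - O.ord t|) :
    O.ord w = min (O.ord v + O.ord t) (2 * O.ord a₄ - O.ord v - O.ord t)
      + |O.ord v - O.ord t| - O.ord u := by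
  set ν := O.ord a₄ with hν
  set a := O.ord v with hadef
  set b := O.ord t with hbdef
  set c := O.ord u with hcdef
  set z := O.ord w with hzdef
  have hd0 : v - t ≠ 0 := sub_ne_zero.mpr hvt
  have hvt0 : v * t ≠ 0 := mul_ne_zero hv0 ht0
  have hvt_ord : O.ord (v * t) = a + b := O.ord_mul hv0 ht0
  have hd_ge : min a b ≤ O.ord (v - t) := O.ord_sub hv0 ht0 hd0
  have hd_eq : a ≠ b → O.ord (v - t) = min a b := fun h =>
    (nodeAux_ord_sub_of_ne O hv0 ht0 h).2
  have hlhs0 : w * u * (v - t) ^ 2 ≠ 0 :=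
    mul_ne_zero (mul_ne_zero hw0 hu0) (pow_ne_zero 2 hd0)
  have he0 : v * t - a₄ ≠ 0 := by
    intro h0
    rw [hP, h0] at hlhs0
    simp at hlhs0
  have he_ge : min (a + b) ν ≤ O.ord (v * t - a₄) := by
    have := O.ord_sub hvt0 ha₄0 he0
    rwa [hvt_ord] at this
  have he_eq : a + b ≠ ν → O.ord (v * t - a₄) = min (a + b) ν := fun h => by
    have := (nodeAux_ord_sub_of_ne O hvt0 ha₄0 (by rw [hvt_ord]; exact h)).2
    rwa [hvt_ord] at this
  -- orders in hP
  have hPord : z + c + 2 * O.ord (v - t) = 2 * O.ord (v * t - a₄) := by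
    have h1 := congrArg O.ord hP
    rw [O.ord_mul (mul_ne_zero hw0 hu0) (pow_ne_zero 2 hd0), O.ord_mul hw0 hu0,
      O.ord_pow hd0, O.ord_pow he0] at h1
    push_cast at h1
    linarith
  set d := O.ord (v - t) with hddef
  set e := O.ord (v * t - a₄) with hedef
  -- the consequence of hS
  have hSord : 0 < a → (a + b ≤ ν ∨ (a < ν ∧ b < ν)) →
      w + u ≠ 0 ∧ O.ord (w + u) + 2 * d = a + b := by
    intro ha0 hcond
    have hmain0 : b₂ * v * t ≠ 0 := mul_ne_zero (mul_ne_zero hb₂.1 hv0) ht0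
    have hmain_ord : O.ord (b₂ * v * t) = a + b := by
      have e1 : b₂ * v * t = b₂ * (v * t) := by ring
      rw [e1, O.ord_mul hb₂.1 hvt0, hb₂.2, hvt_ord]
      ring
    -- the other term has larger order
    have hG1 : O.Ge (v * t + a₄) (min (a + b) ν) := by
      have h1 : O.Ge (v * t) (min (a + b) ν) :=
        Or.inr (by rw [hvt_ord]; exact min_le_left _ _)
      have h2' : O.Ge a₄ (min (a + b) ν) := Or.inr (min_le_right _ _)
      exact h1.add h2'
    have hG2 : O.Ge (v + t) (min a b) := by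
      have h1 : O.Ge v (min a b) := Or.inr (min_le_left _ _)
      have h2' : O.Ge t (min a b) := Or.inr (min_le_right _ _)
      exact h1.add h2'
    have hG3 : O.Ge ((v * t + a₄) * (v + t)) (min (a + b) ν + min a b) := hG1.mul hG2
    have hlt : a + b < min (a + b) ν + min a b := by
      rcases hcond with h | ⟨h1, h2'⟩
      · rw [min_eq_left h]
        have : 0 < min a b := lt_min ha0 hb
        linarith
      · rcases le_total (a + b) ν with h | h
        · rw [min_eq_left h]
          have : 0 < min a b := lt_min ha0 hb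
          linarith
        · rw [min_eq_right h]
          rcases le_total a b with hab | hab
          · rw [min_eq_left hab]; linarith
          · rw [min_eq_right hab]; linarith
    have hG4 : O.Gt (2 * (v * t + a₄) * (v + t)) (a + b) := by
      have := (h2.mul hG3)
      have h' : O.Ge (2 * ((v * t + a₄) * (v + t))) (min (a + b) ν + min a b) :=
        this.mono (by linarith)
      have e2 : 2 * (v * t + a₄) * (v + t) = 2 * ((v * t + a₄) * (v + t)) := by ring
      rw [e2]
      exact h'.gt_of_lt hlt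
    have hRHS : 2 * (v * t + a₄) * (v + t) + b₂ * v * t
        = b₂ * v * t + 2 * (v * t + a₄) * (v + t) := by ring
    have hR := ord_add_eq_of_Gt (O := O) hmain0 (by rw [hmain_ord]; exact hG4)
    rw [← hRHS, hmain_ord] at hR
    rw [← hS] at hR
    have hwu : w + u ≠ 0 := fun h0 => hR.1 (by rw [h0, zero_mul])
    refine ⟨hwu, ?_⟩
    have := hR.2
    rw [O.ord_mul hwu (pow_ne_zero 2 hd0), O.ord_pow hd0] at this
    push_cast at this
    linarith
  -- lower bound for ord (w + u)
  have hsum_ge : w + u ≠ 0 → min z c ≤ O.ord (w + u) := fun h => O.ord_add hw0 hu0 h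
  -- case analysis
  rcases lt_trichotomy a b with hab | hab | hab
  · -- a < b
    have hd : d = a := by rw [hd_eq hab.ne, min_eq_left hab.le]
    have habs : |a - b| = b - a := by rw [abs_of_neg (by linarith)]; ring
    rw [habs] at hcM ⊢
    rcases lt_trichotomy (a + b) ν with hs | hs | hs
    · have he : e = a + b := by rw [he_eq hs.ne, min_eq_left hs.le]
      have hM : min (a + b) (2 * ν - a - b) = a + b := min_eq_left (by linarith)
      rw [hM] at hcM ⊢
      linarith
    · -- a + b = ν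
      have hM : min (a + b) (2 * ν - a - b) = ν := by
        rw [hs]; exact min_eq_left (by linarith)
      rw [hM] at hcM ⊢
      have he' : ν ≤ e := by
        have := he_ge; rwa [hs, min_self] at this
      rcases hcM with hcM | hcM
      · -- c = ν
        rcases eq_or_lt_of_le ha with ha0 | ha0
        · -- a = 0, so b = ν
          have : b = ν := by linarith
          linarith
        · obtain ⟨hwu, hSo⟩ := hSord ha0 (Or.inl hs.le)
          have h1 := hsum_ge hwu
          -- ord (w+u) = b - a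
          have h2' : O.ord (w + u) = b - a := by linarith
          rcases le_total z c with hzc | hzc
          · rw [min_eq_left hzc] at h1
            linarith
          · rw [min_eq_right hzc] at h1
            linarith
      · -- c = b - a
        linarith
    · have he : e = ν := by rw [he_eq hs.ne', min_eq_right hs.le]
      have hM : min (a + b) (2 * ν - a - b) = 2 * ν - a - b := min_eq_right (by linarith)
      rw [hM] at hcM ⊢
      linarith
  · -- a = b
    have habs : |a - b| = 0 := by rw [hab]; simp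
    rw [habs] at hcM ⊢
    have ha0 : 0 < a := by rw [hab]; exact hb
    rcases eq_or_lt_of_le haν with haν' | haν'
    · -- a = b = ν
      have hs : ν < a + b := by linarith
      have he : e = ν := by rw [he_eq hs.ne', min_eq_right hs.le]
      have hM : min (a + b) (2 * ν - a - b) = 2 * ν - a - b := min_eq_right (by linarith)
      rw [hM] at hcM ⊢
      have hd' : a ≤ d := by
        have := hd_ge; rwa [hab, min_self, ← hab] at this
      rcases hcM with hcM | hcM <;> linarith
    · -- a = b < ν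
      have hbν' : b < ν := by rw [← hab]; exact haν'
      obtain ⟨hwu, hSo⟩ := hSord ha0 (Or.inr ⟨haν', hbν'⟩)
      have h1 := hsum_ge hwu
      have hd' : a ≤ d := by
        have := hd_ge; rwa [hab, min_self, ← hab] at this
      have hmin0 : min z c ≤ 0 := by
        have : O.ord (w + u) ≤ 0 := by linarith
        linarith
      have hmin0' : z = 0 ∨ c = 0 := by
        rcases le_total z c with hzc | hzc
        · rw [min_eq_left hzc] at hmin0; left; linarith
        · rw [min_eq_right hzc] at hmin0; right; linarith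
      have hd : d = a := by
        have : 0 ≤ O.ord (w + u) := le_trans (le_min hz hc) h1
        linarith
      rcases lt_trichotomy (a + b) ν with hs | hs | hs
      · have he : e = a + b := by rw [he_eq hs.ne, min_eq_left hs.le]
        have hM : min (a + b) (2 * ν - a - b) = a + b := min_eq_left (by linarith)
        rw [hM] at hcM ⊢
        linarith
      · have hM : min (a + b) (2 * ν - a - b) = ν := by
          rw [hs]; exact min_eq_left (by linarith)
        rw [hM] at hcM ⊢
        have he' : ν ≤ e := by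
          have := he_ge; rwa [hs, min_self] at this
        rcases hmin0' with h0 | h0
        · rcases hcM with hcM | hcM
          · linarith
          · linarith
        · rcases hcM with hcM | hcM
          · linarith
          · linarith
      · have he : e = ν := by rw [he_eq hs.ne', min_eq_right hs.le]
        have hM : min (a + b) (2 * ν - a - b) = 2 * ν - a - b := min_eq_right (by linarith)
        rw [hM] at hcM ⊢
        linarith
  · -- b < a
    have hd : d = b := by rw [hd_eq hab.ne', min_eq_right hab.le]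
    have habs : |a - b| = a - b := abs_of_pos (by linarith)
    rw [habs] at hcM ⊢
    have ha0 : 0 < a := by linarith
    rcases lt_trichotomy (a + b) ν with hs | hs | hs
    · have he : e = a + b := by rw [he_eq hs.ne, min_eq_left hs.le]
      have hM : min (a + b) (2 * ν - a - b) = a + b := min_eq_left (by linarith)
      rw [hM] at hcM ⊢
      linarith
    · have hM : min (a + b) (2 * ν - a - b) = ν := by
        rw [hs]; exact min_eq_left (by linarith)
      rw [hM] at hcM ⊢
      have he' : ν ≤ e := by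
        have := he_ge; rwa [hs, min_self] at this
      rcases hcM with hcM | hcM
      · obtain ⟨hwu, hSo⟩ := hSord ha0 (Or.inl hs.le)
        have h1 := hsum_ge hwu
        rcases le_total z c with hzc | hzc
        · rw [min_eq_left hzc] at h1
          linarith
        · rw [min_eq_right hzc] at h1
          linarith
      · linarith
    · have he : e = ν := by rw [he_eq hs.ne', min_eq_right hs.le]
      have hM : min (a + b) (2 * ν - a - b) = 2 * ν - a - b := min_eq_right (by linarith)
      rw [hM] at hcM ⊢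
      linarith

end NodeStep

section NodeBase

variable {K : Type*} [Field K] (O : OrdVal K)

/-- The base case `k = 2` of the induction, from the duplication formula. -/
lemma node2Aux_base (b₂ a₄ : K) (h2 : O.Ge (2 : K) 0) (hb₂ : O.IsU b₂) (ha₄0 : a₄ ≠ 0)
    (ha₄ : 0 < O.ord a₄) (t w : K) (ht0 : t ≠ 0) (hw0 : w ≠ 0)
    (hb : 0 < O.ord t) (hbν : O.ord t ≤ O.ord a₄)
    (hz : 0 ≤ O.ord w) (hzν : O.ord w ≤ O.ord a₄)
    (hD : w * (t * (4 * t ^ 2 + b₂ * t + 4 * a₄)) = (t ^ 2 - a₄) ^ 2) :
    ∃ j : ℤ, O.ord w = 2 * O.ord t - j * (2 * O.ord a₄) ∨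
      O.ord w = j * (2 * O.ord a₄) - 2 * O.ord t := by
  set ν := O.ord a₄ with hν
  set b := O.ord t with hbdef
  set z := O.ord w with hzdef
  have h4 : O.Ge (4 : K) 0 := by
    have e : (4 : K) = 2 * 2 := by norm_num
    rw [e]
    exact (h2.mul h2).mono (by norm_num)
  have ht2 : O.ord (t ^ 2) = 2 * b := by rw [O.ord_pow ht0]; push_cast; ring
  have ht20 : t ^ 2 ≠ 0 := pow_ne_zero 2 ht0
  have hb₂t0 : b₂ * t ≠ 0 := mul_ne_zero hb₂.1 ht0
  have hb₂t : O.ord (b₂ * t) = b := by rw [O.ord_mul hb₂.1 ht0, hb₂.2, zero_add]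
  have h4t2 : O.Ge (4 * t ^ 2) (2 * b) := by
    have : O.Ge (t ^ 2) (2 * b) := Or.inr (by rw [ht2])
    exact (h4.mul this).mono (by linarith)
  have h4a₄ : O.Ge (4 * a₄) ν := by
    have : O.Ge a₄ ν := Or.inr le_rfl
    exact (h4.mul this).mono (by linarith)
  -- the order of the cubic factor
  have hQlt : b < ν → 4 * t ^ 2 + b₂ * t + 4 * a₄ ≠ 0 ∧
      O.ord (4 * t ^ 2 + b₂ * t + 4 * a₄) = b := by
    intro hbν'
    have e1 : 4 * t ^ 2 + b₂ * t + 4 * a₄ = b₂ * t + (4 * t ^ 2 + 4 * a₄) := by ring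
    have hG : O.Gt (4 * t ^ 2 + 4 * a₄) (O.ord (b₂ * t)) := by
      rw [hb₂t]
      have h1 : O.Gt (4 * t ^ 2) b := h4t2.gt_of_lt (by linarith)
      have h3 : O.Gt (4 * a₄) b := h4a₄.gt_of_lt hbν'
      exact h1.add h3
    have := ord_add_eq_of_Gt (O := O) hb₂t0 hG
    rw [e1]
    exact ⟨this.1, by rw [this.2, hb₂t]⟩
  -- E ≠ 0
  have hE0 : t ^ 2 - a₄ ≠ 0 := by
    intro hE
    have h2b : 2 * b = ν := by
      have : t ^ 2 = a₄ := sub_eq_zero.mp hE
      rw [← ht2, this]
    have hQ0 := (hQlt (by linarith)).1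
    have : w * (t * (4 * t ^ 2 + b₂ * t + 4 * a₄)) ≠ 0 :=
      mul_ne_zero hw0 (mul_ne_zero ht0 hQ0)
    rw [hD, hE] at this
    simp at this
  have hQ0 : 4 * t ^ 2 + b₂ * t + 4 * a₄ ≠ 0 := by
    intro hQ
    rw [hQ] at hD
    have : (t ^ 2 - a₄) ^ 2 = 0 := by rw [← hD]; ring
    exact hE0 (by simpa using this)
  have hord : z + b + O.ord (4 * t ^ 2 + b₂ * t + 4 * a₄) = 2 * O.ord (t ^ 2 - a₄) := by
    have h1 := congrArg O.ord hD
    rw [O.ord_mul hw0 (mul_ne_zero ht0 hQ0), O.ord_mul ht0 hQ0, O.ord_pow hE0] at h1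
    push_cast at h1
    linarith
  have hE_ge : min (2 * b) ν ≤ O.ord (t ^ 2 - a₄) := by
    have := O.ord_sub ht20 ha₄0 hE0
    rwa [ht2] at this
  have hE_eq : 2 * b ≠ ν → O.ord (t ^ 2 - a₄) = min (2 * b) ν := fun h => by
    have := (nodeAux_ord_sub_of_ne O ht20 ha₄0 (by rw [ht2]; exact h)).2
    rwa [ht2] at this
  rcases eq_or_lt_of_le hbν with hbν' | hbν'
  · -- b = ν
    have hE : O.ord (t ^ 2 - a₄) = ν := by
      rw [hE_eq (by linarith), min_eq_right (by linarith)]
    have hQge : O.Ge (4 * t ^ 2 + b₂ * t + 4 * a₄) ν := by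
      have h1 : O.Ge (4 * t ^ 2) ν := h4t2.mono (by linarith)
      have h2' : O.Ge (b₂ * t) ν := Or.inr (by rw [hb₂t]; linarith)
      exact (h1.add h2').add h4a₄
    have hQ := hQge.le_ord hQ0
    refine ⟨1, Or.inr ?_⟩
    push_cast
    linarith
  · -- b < ν
    have hQ : O.ord (4 * t ^ 2 + b₂ * t + 4 * a₄) = b := (hQlt hbν').2
    rcases lt_trichotomy (2 * b) ν with h | h | h
    · have hE : O.ord (t ^ 2 - a₄) = 2 * b := by rw [hE_eq h.ne, min_eq_left h.le]
      refine ⟨0, Or.inl ?_⟩
      push_cast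
      linarith
    · have hE : ν ≤ O.ord (t ^ 2 - a₄) := by
        have := hE_ge; rwa [h, min_self] at this
      refine ⟨0, Or.inl ?_⟩
      push_cast
      linarith
    · have hE : O.ord (t ^ 2 - a₄) = ν := by rw [hE_eq h.ne', min_eq_right h.le]
      refine ⟨1, Or.inr ?_⟩
      push_cast
      linarith

end NodeBase

theorem node2_torsion_seq {K : Type*} [Field K] (O : OrdVal K)
    (b₂ a₄ : K) (h2 : O.Ge (2 : K) 0) (hb₂ : O.IsU b₂) (ha₄0 : a₄ ≠ 0) (ha₄ : 0 < O.ord a₄)
    (p m : ℕ) (hpm : p + 1 = 2 * m) (hm : 3 ≤ m)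
    (x : ℕ → K)
    (hx0 : ∀ k, 1 ≤ k → k ≤ m → x k ≠ 0)
    (hxint : ∀ k, 1 ≤ k → k ≤ m → 0 ≤ O.ord (x k))
    (hxC0 : ∀ k, 1 ≤ k → k ≤ m → O.ord (x k) ≤ O.ord a₄)
    (hx1 : 0 < O.ord (x 1))
    (hD : x 2 * (x 1 * (4 * x 1 ^ 2 + b₂ * x 1 + 4 * a₄)) = (x 1 ^ 2 - a₄) ^ 2)
    (hP : ∀ k, 2 ≤ k → k < m → x (k + 1) * x (k - 1) * (x k - x 1) ^ 2
        = (x k * x 1 - a₄) ^ 2)
    (hS : ∀ k, 2 ≤ k → k < m → (x (k + 1) + x (k - 1)) * (x k - x 1) ^ 2
        = 2 * (x k * x 1 + a₄) * (x k + x 1) + b₂ * x k * x 1)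
    (hne : ∀ k, 2 ≤ k → k < m → x k ≠ x 1)
    (hend : x m = x (m - 1)) :
    ∃ j : ℤ, (p : ℚ) * O.ord (x 1) = 2 * j * O.ord a₄ := by
  set ν := O.ord a₄ with hν
  set b := O.ord (x 1) with hb
  have hm1 : 1 ≤ m := by omega
  have hbν : b ≤ ν := hxC0 1 le_rfl hm1
  -- the tropical statement
  have T1 : ∃ j : ℤ, O.ord (x 1) = ((1 : ℕ) : ℚ) * b - j * (2 * ν) ∨
      O.ord (x 1) = j * (2 * ν) - ((1 : ℕ) : ℚ) * b :=
    ⟨0, Or.inl (by push_cast; ring)⟩
  have T2 : ∃ j : ℤ, O.ord (x 2) = ((2 : ℕ) : ℚ) * b - j * (2 * ν) ∨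
      O.ord (x 2) = j * (2 * ν) - ((2 : ℕ) : ℚ) * b := by
    have := node2Aux_base O b₂ a₄ h2 hb₂ ha₄0 ha₄ (x 1) (x 2) (hx0 1 le_rfl hm1)
      (hx0 2 (by omega) (by omega)) hx1 hbν (hxint 2 (by omega) (by omega))
      (hxC0 2 (by omega) (by omega)) hD
    simpa using this
  have Tall : ∀ k : ℕ, 1 ≤ k → k + 1 ≤ m →
      (∃ j : ℤ, O.ord (x k) = (k : ℚ) * b - j * (2 * ν) ∨
        O.ord (x k) = j * (2 * ν) - (k : ℚ) * b) ∧
      (∃ j : ℤ, O.ord (x (k + 1)) = ((k + 1 : ℕ) : ℚ) * b - j * (2 * ν) ∨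
        O.ord (x (k + 1)) = j * (2 * ν) - ((k + 1 : ℕ) : ℚ) * b) := by
    intro k
    induction k with
    | zero => intro h; omega
    | succ k ih =>
      intro _ hk
      rcases Nat.eq_zero_or_pos k with hk0 | hkpos
      · subst hk0
        exact ⟨T1, T2⟩
      · obtain ⟨ihk, ihk1⟩ := ih hkpos (by omega)
        refine ⟨ihk1, ?_⟩
        -- step with u = x k, v = x (k+1), w = x (k+2)
        have hk2 : 2 ≤ k + 1 := by omega
        have hklt : k + 1 < m := by omega
        have hPk := hP (k + 1) hk2 hklt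
        have hSk := hS (k + 1) hk2 hklt
        have hnek := hne (k + 1) hk2 hklt
        simp only [Nat.add_sub_cancel] at hPk hSk
        have hu0 := hx0 k hkpos (by omega)
        have hv0 := hx0 (k + 1) (by omega) (by omega)
        have hw0 := hx0 (k + 1 + 1) (by omega) (by omega)
        have harith := nodeAux_arith (O.ord (x (k + 1))) b (O.ord (x k)) ν ((k + 1 : ℕ) : ℚ)
          ha₄ (hxint (k + 1) (by omega) (by omega)) (hxC0 (k + 1) (by omega) (by omega))
          hx1 hbν (hxint k hkpos (by omega)) (hxC0 k hkpos (by omega)) ihk1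
          (by
            obtain ⟨j, hj⟩ := ihk
            refine ⟨j, ?_⟩
            push_cast
            rcases hj with hj | hj
            · left; linarith
            · right; linarith)
        have hstep := node2Aux_step O b₂ a₄ h2 hb₂ ha₄0 ha₄ (x 1) (x k) (x (k + 1))
          (x (k + 1 + 1)) (hx0 1 le_rfl hm1) hu0 hv0 hw0 hx1 hbν
          (hxint (k + 1) (by omega) (by omega)) (hxC0 (k + 1) (by omega) (by omega))
          (hxint k hkpos (by omega)) (hxC0 k hkpos (by omega))
          (hxint (k + 1 + 1) (by omega) (by omega)) (hxC0 (k + 1 + 1) (by omega) (by omega))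
          hnek hPk hSk harith.1
        obtain ⟨j, hj⟩ := harith.2 _ hstep
        refine ⟨j, ?_⟩
        push_cast at hj ⊢
        rcases hj with hj | hj
        · left; linarith
        · right; linarith
  -- conclusion
  obtain ⟨hTm1, hTm⟩ := Tall (m - 1) (by omega) (by omega)
  have hmm : m - 1 + 1 = m := by omega
  rw [hmm] at hTm
  have hcast : ((m - 1 : ℕ) : ℚ) = (m : ℚ) - 1 := by
    rw [Nat.cast_sub hm1]; simp
  rw [hcast] at hTm1
  have hpq : (p : ℚ) = 2 * (m : ℚ) - 1 := by
    have : ((p + 1 : ℕ) : ℚ) = ((2 * m : ℕ) : ℚ) := by rw [hpm]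
    push_cast at this
    linarith
  have hr : O.ord (x m) = O.ord (x (m - 1)) := by rw [hend]
  obtain ⟨j, hj⟩ := hTm
  obtain ⟨j', hj'⟩ := hTm1
  rcases hj with hj | hj <;> rcases hj' with hj' | hj'
  · -- b = (j - j') n
    have hbn : b = ((j : ℚ) - j') * (2 * ν) := by linarith
    refine ⟨(p : ℤ) * (j - j'), ?_⟩
    push_cast
    rw [hpq]
    linear_combination (2 * (m : ℚ) - 1) * hbn
  · refine ⟨j + j', ?_⟩
    push_cast
    rw [hpq]
    linear_combination hj' - hj + hr
  · refine ⟨j + j', ?_⟩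
    push_cast
    rw [hpq]
    linear_combination hj - hj' - hr
  · have hbn : b = ((j : ℚ) - j') * (2 * ν) := by linarith
    refine ⟨(p : ℤ) * (j - j'), ?_⟩
    push_cast
    rw [hpq]
    linear_combination (2 * (m : ℚ) - 1) * hbn

end Fermat.Agent.M13
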