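import Fermat.Agent.S05.Torsion
import Fermat.Agent.M13.Node2

/-!
# M13 (S13), package [NODE2], curve level: torsion points at a node in any residue characteristic

`W : Y² + a₁ X Y = X³ + a₂ X² + a₄ X` (`a₃ = a₆ = 0`) over a field `K` of characteristic `≠ 2`
with a `ℚ`-valued valuation `O`, `b₂ = a₁² + 4 a₂` a unit, `ord a₄ > 0` (so the reduction has a
node at `(0, 0)`), `p ≥ 5` a prime which is a unit, `P ≠ 0` with `p • P = 0`.

* `node2_xc_int`  : `x(P)` is integral;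
* `node2_xc_ne`   : `x(P) ≠ 0`;
* `node2_ord_le`  : `ord x(P) ≤ ord a₄`;
* `node2_ord`     : if `0 < ord x(P)` then `p * ord x(P) = 2 j ord a₄` for some `j : ℤ`;
* `node2_ord_pos_lt` : in that case `0 < j` and `2 j ≤ p`;
* `node2_not_mem` : consequently `ord x(P)` is not in a subgroup `Γ ∋ ord a₄` of `ℚ` unless
  `p ∣`-type divisibility holds (stated as: if `ord x(P) = c * ord a₄` then `p * c = 2 * j`).
-/

set_option autoImplicit false
set_option linter.unusedSectionVars false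

namespace Fermat.Agent.M13

open WeierstrassCurve WeierstrassCurve.Affine
open Fermat.Agent.S05 Fermat.Agent.S05.OrdVal

variable {K : Type*} [Field K] [DecidableEq K]

/-- The standing assumptions of [NODE2]. -/
structure Node2Ctx (W : WeierstrassCurve.Affine K) (O : OrdVal K) (p : ℕ) : Prop where
  ha₃ : W.a₃ = 0
  ha₆ : W.a₆ = 0
  two_ne : (2 : K) ≠ 0
  hnat : ∀ n : ℕ, O.Ge (n : K) 0
  hb₂ : O.IsU W.b₂
  ha₄0 : W.a₄ ≠ 0
  ha₄ : 0 < O.ord W.a₄
  hp : p.Prime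
  hp5 : 5 ≤ p
  hpU : O.IsU (p : K)

namespace Node2Ctx

variable {W : WeierstrassCurve.Affine K} {O : OrdVal K} {p : ℕ} (C : Node2Ctx W O p)
include C

lemma hp2 : p ≠ 2 := by have := C.hp5; omega

lemma h2 : O.Ge (2 : K) 0 := by simpa using C.hnat 2

lemma b₄_eq : W.b₄ = 2 * W.a₄ := by
  simp only [WeierstrassCurve.b₄]
  rw [C.ha₃]
  ring

lemma b₆_eq : W.b₆ = 0 := by
  simp only [WeierstrassCurve.b₆]
  rw [C.ha₃, C.ha₆]
  ring

lemma b₈_eq : W.b₈ = -W.a₄ ^ 2 := by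
  simp only [WeierstrassCurve.b₈]
  rw [C.ha₃, C.ha₆]
  ring

lemma a₄_ge : O.Ge W.a₄ 0 := Or.inr C.ha₄.le

lemma psiSq_eq (x : K) : psiSq W x = x * (4 * x ^ 2 + W.b₂ * x + 4 * W.a₄) := by
  simp only [psiSq]
  rw [C.b₄_eq, C.b₆_eq]
  ring

lemma dNum_eq (x : K) : dNum W x = (x ^ 2 - W.a₄) ^ 2 := by
  simp only [dNum]
  rw [C.b₄_eq, C.b₆_eq, C.b₈_eq]
  ring

lemma pNum_eq (x₁ x₂ : K) : pNum W x₁ x₂ = (x₁ * x₂ - W.a₄) ^ 2 := by
  simp only [pNum]
  rw [C.b₄_eq, C.b₆_eq, C.b₈_eq]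
  ring

lemma sNum_eq (x₁ x₂ : K) :
    sNum W x₁ x₂ = 2 * (x₁ * x₂ + W.a₄) * (x₁ + x₂) + W.b₂ * x₁ * x₂ := by
  simp only [sNum]
  rw [C.b₄_eq, C.b₆_eq]
  ring

/-- `p`-torsion points have integral `x`-coordinates. -/
theorem node2_xc_int {P : W.Point} (hP : P ≠ 0) (hpP : p • P = 0) : O.Ge (xc P) 0 := by
  have hb₄ : O.Ge W.b₄ 0 := by
    rw [C.b₄_eq]
    simpa using C.h2.mul C.a₄_ge
  have hb₆ : O.Ge W.b₆ 0 := by
    rw [C.b₆_eq]
    exact Or.inl rfl
  have hb₈ : O.Ge W.b₈ 0 := by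
    rw [C.b₈_eq]
    have := (C.a₄_ge.pow 2).neg
    simpa using this
  exact xc_integral O C.hb₂.ge hb₄ hb₆ hb₈ C.hnat C.two_ne C.hp C.hp2 C.hpU hP hpP

lemma psi_ne {P : W.Point} (hP : P ≠ 0) (hpP : p • P = 0) : psi P ≠ 0 := by
  have := psi_nsmul_ne_zero C.hp C.hp2 hP hpP (k := 1) one_pos C.hp.one_lt
  rwa [one_smul] at this

/-- `p`-torsion points have nonzero `x`-coordinate (the point `(0,0)` has order `2`). -/
theorem node2_xc_ne {P : W.Point} (hP : P ≠ 0) (hpP : p • P = 0) : xc P ≠ 0 := by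
  intro h
  have h1 := psi_sq P hP
  rw [C.psiSq_eq, h, zero_mul] at h1
  exact C.psi_ne hP hpP (pow_eq_zero_iff (two_ne_zero) |>.1 h1)

lemma nsmul_tors {P : W.Point} (hpP : p • P = 0) (k : ℕ) : p • (k • P) = 0 :=
  nsmul_mem_torsion hpP k

lemma two_nsmul_ne {P : W.Point} (hP : P ≠ 0) (hpP : p • P = 0) : 2 • P ≠ 0 :=
  nsmul_ne_zero_of_lt C.hp hP hpP (by norm_num) (by have := C.hp5; omega)

/-- the duplication formula -/
lemma double {P : W.Point} (hP : P ≠ 0) (hpP : p • P = 0) :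
    xc (2 • P) * (xc P * (4 * xc P ^ 2 + W.b₂ * xc P + 4 * W.a₄)) = (xc P ^ 2 - W.a₄) ^ 2 := by
  have := seq_double C.hp C.hp2 hP hpP
  rwa [C.psiSq_eq, C.dNum_eq] at this

/-- **C0**: a nonzero `p`-torsion point has `ord x ≤ ord a₄`. -/
theorem node2_ord_le {P : W.Point} (hP : P ≠ 0) (hpP : p • P = 0) :
    O.ord (xc P) ≤ O.ord W.a₄ := by
  by_contra hlt
  rw [not_le] at hlt
  set ξ := xc P with hξdef
  set ν := O.ord W.a₄ with hν
  have hξ0 : ξ ≠ 0 := C.node2_xc_ne hP hpP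
  have hd := C.double hP hpP
  rw [← hξdef] at hd
  have hνpos : 0 < ν := C.ha₄
  -- `ord (ξ² - a₄) = ord a₄`
  have hξsq : O.Gt (ξ ^ 2) ν := by
    right
    rw [ord_sq hξ0]
    linarith
  have h1 : ξ ^ 2 - W.a₄ ≠ 0 ∧ O.ord (ξ ^ 2 - W.a₄) = ν := by
    have := ord_sub_eq_of_Gt C.ha₄0 hξsq
    have e : ξ ^ 2 - W.a₄ = -(W.a₄ - ξ ^ 2) := by ring
    rw [e, O.ord_neg]
    exact ⟨neg_ne_zero.2 this.1, this.2⟩
  -- the cubic factor has order `≥ ν`
  have h4 : O.Ge (4 : K) 0 := by simpa using C.hnat 4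
  have hQge : O.Ge (4 * ξ ^ 2 + W.b₂ * ξ + 4 * W.a₄) ν := by
    have t1 : O.Ge (4 * ξ ^ 2) ν := by
      have := h4.mul hξsq.ge
      simpa using this
    have t2 : O.Ge (W.b₂ * ξ) ν := by
      right
      rw [ord_isU_mul C.hb₂ hξ0]
      exact hlt.le
    have t3 : O.Ge (4 * W.a₄) ν := by
      have : O.Ge W.a₄ ν := Or.inr le_rfl
      have := h4.mul this
      simpa using this
    exact (t1.add t2).add t3
  have h2P := C.two_nsmul_ne hP hpP
  have hξ2 := C.node2_xc_int h2P (C.nsmul_tors hpP 2)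
  have hrhs : (ξ ^ 2 - W.a₄) ^ 2 ≠ 0 := pow_ne_zero 2 h1.1
  have hξ2ne : xc (2 • P) ≠ 0 := by
    intro h
    rw [h, zero_mul] at hd
    exact hrhs hd.symm
  have hQ0 : 4 * ξ ^ 2 + W.b₂ * ξ + 4 * W.a₄ ≠ 0 := by
    intro h
    rw [h, mul_zero, mul_zero] at hd
    exact hrhs hd.symm
  have hord := congrArg O.ord hd
  rw [O.ord_mul hξ2ne (mul_ne_zero hξ0 hQ0), O.ord_mul hξ0 hQ0, ord_sq h1.1, h1.2] at hord
  have e1 := hξ2.le_ord hξ2ne
  have e2 := hQge.le_ord hQ0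
  linarith

/-- **the tropical formula**: the order of `x(P)` for a `p`-torsion point reducing to the
node. -/
theorem node2_ord {P : W.Point} (hP : P ≠ 0) (hpP : p • P = 0) (hpos : 0 < O.ord (xc P)) :
    ∃ j : ℤ, (p : ℚ) * O.ord (xc P) = 2 * j * O.ord W.a₄ := by
  obtain ⟨m, hm⟩ : ∃ m, p + 1 = 2 * m := by
    rcases C.hp.eq_two_or_odd with h | h
    · exact absurd h C.hp2
    · exact ⟨(p + 1) / 2, by omega⟩
  have hp5 := C.hp5
  have hk : ∀ k, 1 ≤ k → k ≤ m → k • P ≠ 0 := fun k h1 h2 =>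
    nsmul_ne_zero_of_lt C.hp hP hpP (by omega) (by omega)
  have key := node2_torsion_seq O W.b₂ W.a₄ C.h2 C.hb₂ C.ha₄0 C.ha₄ p m hm (by omega)
    (fun k => xc (k • P))
    (fun k h1 h2 => C.node2_xc_ne (hk k h1 h2) (C.nsmul_tors hpP k))
    (fun k h1 h2 => (C.node2_xc_int (hk k h1 h2) (C.nsmul_tors hpP k)).le_ord
      (C.node2_xc_ne (hk k h1 h2) (C.nsmul_tors hpP k)))
    (fun k h1 h2 => C.node2_ord_le (hk k h1 h2) (C.nsmul_tors hpP k))
    (by simpa using hpos)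
    (by
      have := C.double hP hpP
      simpa using this)
    (by
      intro k hk2 hkm
      have := seq_prod C.two_ne C.hp hP hpP hk2 (by omega : k + 1 < p)
      rw [C.pNum_eq] at this
      simpa using this)
    (by
      intro k hk2 hkm
      have := seq_sum C.two_ne C.hp hP hpP hk2 (by omega : k + 1 < p)
      rw [C.sNum_eq] at this
      simpa using this)
    (by
      intro k hk2 hkm
      have := xc_nsmul_ne C.hp hP hpP hk2 (by omega : k + 1 < p)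
      simpa using this)
    (by
      have := seq_end hm hpP
      simpa using this)
  simpa using key

/-- In the tropical formula, `0 < j` and `2 j ≤ p`. -/
theorem node2_ord_bounds {P : W.Point} (hP : P ≠ 0) (hpP : p • P = 0)
    (hpos : 0 < O.ord (xc P)) :
    ∃ j : ℤ, 0 < j ∧ 2 * j ≤ (p : ℤ) ∧ (p : ℚ) * O.ord (xc P) = 2 * j * O.ord W.a₄ := by
  obtain ⟨j, hj⟩ := C.node2_ord hP hpP hpos
  have hle := C.node2_ord_le hP hpP
  have hν : 0 < O.ord W.a₄ := C.ha₄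
  have hp0 : (0 : ℚ) < p := by exact_mod_cast C.hp.pos
  refine ⟨j, ?_, ?_, hj⟩
  · have h1 : (0 : ℚ) < 2 * j * O.ord W.a₄ := by rw [← hj]; exact mul_pos hp0 hpos
    have h2 : (0 : ℚ) < 2 * j := by
      by_contra h
      rw [not_lt] at h
      have := mul_nonpos_of_nonpos_of_nonneg h hν.le
      linarith
    have h3 : (0 : ℚ) < j := by linarith
    exact_mod_cast h3
  · have h1 : (2 * j : ℚ) * O.ord W.a₄ ≤ p * O.ord W.a₄ := by
      rw [← hj]
      exact mul_le_mul_of_nonneg_left hle hp0.le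
    have h2 : (2 * j : ℚ) ≤ p := le_of_mul_le_mul_right h1 hν
    exact_mod_cast h2

/-- **No rational point at the node**: if `ord x(P)` and `ord a₄` are both integer multiples of
some `e > 0` (e.g. `P` is rational over a discretely valued subfield), say `ord x(P) = s e` and
`ord a₄ = n e` with `p ∤ n`, then `P` does not reduce to the node. -/
theorem node2_not_pos {P : W.Point} (hP : P ≠ 0) (hpP : p • P = 0) (e : ℚ) (he : 0 < e)
    (s n : ℤ) (hs : O.ord (xc P) = s * e) (hn : O.ord W.a₄ = n * e) (hpn : ¬ (p : ℤ) ∣ n) :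
    ¬ 0 < O.ord (xc P) := by
  intro hpos
  obtain ⟨j, hj0, hjp, hj⟩ := C.node2_ord_bounds hP hpP hpos
  rw [hs, hn] at hj
  have h1 : ((p : ℤ) * s : ℚ) = ((2 * j * n : ℤ) : ℚ) := by
    push_cast
    have : (p : ℚ) * (s * e) = 2 * j * (n * e) := hj
    have he' : e ≠ 0 := he.ne'
    field_simp at this
    linarith
  have h2 : (p : ℤ) * s = 2 * j * n := by exact_mod_cast h1
  have hpp : Prime (p : ℤ) := Nat.prime_iff_prime_int.mp C.hp
  have hdvd : (p : ℤ) ∣ 2 * j * n := ⟨s, h2.symm⟩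
  rcases hpp.dvd_or_dvd hdvd with h | h
  · rcases hpp.dvd_or_dvd h with h' | h'
    · have : (p : ℤ) ≤ 2 := Int.le_of_dvd (by norm_num) h'
      have := C.hp5
      omega
    · have : (p : ℤ) ≤ j := Int.le_of_dvd hj0 h'
      omega
  · exact hpn h

end Node2Ctx

end Fermat.Agent.M13
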