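import Fermat.Agent.S05.Frey
import Fermat.Agent.M13.Node2Curve

/-!
# M13 (S13), package [GLUE-2]: the prelude Frey model at a place over `2`

`W := (P.freyCurve : Affine ℚ)⁄ℚ̄` is `Y² + XY = X³ + a₂ X² + a₄ X` with
`b₂ = b^p - a^p` (odd) and `a₄ = -(a^p b^p)/16`, `ord₂ a₄ = p v₂(b) - 4 > 0`, prime to `p`.

* `fa2_a₁ … fa2_a₆` : the coefficients of the base-changed Frey curve;
* `fa2_ord_int`, `fa2_ord_rat`, `fa2_ord_fixed` : the valuation of a nonzero rational number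
  (or of a Galois-fixed element of `ℚ̄`) is an integer multiple of `ord q`;
* `fa2_ctx` : the `Node2Ctx` at a place over `2`;
* `fa2_ord_a₄` : `ord a₄ = n * ord 2` with `p ∤ n`;
* `fa2_not_node`, `fa2_not_node_of_fixed` : a nonzero `p`-torsion point with rational
  `x`-coordinate does not reduce to the node at `2`.
-/

set_option autoImplicit false
set_option linter.unusedSectionVars false
set_option linter.unusedSimpArgs false

namespace Fermat.Agent.M13

open WeierstrassCurve WeierstrassCurve.Affine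
open Fermat.Agent.S05 Fermat.Agent.S05.OrdVal

section Coeffs

variable (P : FreyPackage)

lemma fa2_a₁ : ((P.freyCurve : WeierstrassCurve.Affine ℚ)⁄(AlgebraicClosure ℚ)).a₁ = 1 := by
  simp only [WeierstrassCurve.Affine.baseChange, WeierstrassCurve.baseChange,
    FreyPackage.freyCurve, WeierstrassCurve.map_a₁, map_one]

lemma fa2_a₂ : ((P.freyCurve : WeierstrassCurve.Affine ℚ)⁄(AlgebraicClosure ℚ)).a₂ =
    (frBp P - 1 - frAp P) / 4 := by
  simp only [WeierstrassCurve.Affine.baseChange, WeierstrassCurve.baseChange,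
    FreyPackage.freyCurve, WeierstrassCurve.map_a₂, frAp, frBp]
  simp only [map_add, map_mul, map_pow, map_one, map_div₀, map_sub, map_intCast, map_ofNat,
    map_neg, map_zero]

lemma fa2_a₃ : ((P.freyCurve : WeierstrassCurve.Affine ℚ)⁄(AlgebraicClosure ℚ)).a₃ = 0 := by
  simp only [WeierstrassCurve.Affine.baseChange, WeierstrassCurve.baseChange,
    FreyPackage.freyCurve, WeierstrassCurve.map_a₃, map_zero]

lemma fa2_a₄ : ((P.freyCurve : WeierstrassCurve.Affine ℚ)⁄(AlgebraicClosure ℚ)).a₄ =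
    -(frAp P * frBp P) / 16 := by
  simp only [WeierstrassCurve.Affine.baseChange, WeierstrassCurve.baseChange,
    FreyPackage.freyCurve, WeierstrassCurve.map_a₄, frAp, frBp]
  simp only [map_add, map_mul, map_pow, map_one, map_div₀, map_sub, map_intCast, map_ofNat,
    map_neg, map_zero]
  ring

lemma fa2_a₆ : ((P.freyCurve : WeierstrassCurve.Affine ℚ)⁄(AlgebraicClosure ℚ)).a₆ = 0 := by
  simp only [WeierstrassCurve.Affine.baseChange, WeierstrassCurve.baseChange,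
    FreyPackage.freyCurve, WeierstrassCurve.map_a₆, map_zero]

end Coeffs

section Ord

variable {A : ValuationSubring (AlgebraicClosure ℚ)} {q : ℕ}
  {O : OrdVal (AlgebraicClosure ℚ)} (D : PlaceData A q O)
include D

lemma fa2_q_ne : ((q : ℕ) : AlgebraicClosure ℚ) ≠ 0 := by
  exact_mod_cast D.hq.ne_zero

/-- `0 < ord q`. -/
lemma fa2_ord_q_pos : 0 < O.ord ((q : ℕ) : AlgebraicClosure ℚ) :=
  (D.nonunit_iff _ (fa2_q_ne D)).1 D.hA

/-- The valuation of a nonzero integer is a natural multiple of `ord q`. -/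
lemma fa2_ord_int (n : ℤ) (hn : n ≠ 0) :
    ∃ k : ℕ, O.ord ((n : ℤ) : AlgebraicClosure ℚ) = k * O.ord ((q : ℕ) : AlgebraicClosure ℚ) := by
  have hfin : FiniteMultiplicity (q : ℤ) n :=
    Int.finiteMultiplicity_iff.mpr ⟨by simpa using D.hq.ne_one, hn⟩
  obtain ⟨c', hc', hndvd⟩ := hfin.exists_eq_pow_mul_and_not_dvd
  refine ⟨multiplicity (q : ℤ) n, ?_⟩
  have h1 : ((n : ℤ) : AlgebraicClosure ℚ) =
      ((q : ℕ) : AlgebraicClosure ℚ) ^ (multiplicity (q : ℤ) n) * ((c' : ℤ) : AlgebraicClosure ℚ) := by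
    conv_lhs => rw [hc']
    push_cast
    rfl
  have hU := D.int_isU hndvd
  rw [h1, O.ord_mul (pow_ne_zero _ (fa2_q_ne D)) hU.1, O.ord_pow (fa2_q_ne D), hU.2, add_zero]

/-- The valuation of a nonzero rational number is an integer multiple of `ord q`. -/
lemma fa2_ord_rat (x : ℚ) (hx : x ≠ 0) :
    ∃ s : ℤ, O.ord (algebraMap ℚ (AlgebraicClosure ℚ) x) =
      s * O.ord ((q : ℕ) : AlgebraicClosure ℚ) := by
  have hnum : x.num ≠ 0 := Rat.num_ne_zero.2 hx
  have hden : (x.den : ℤ) ≠ 0 := by exact_mod_cast x.den_ne_zero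
  obtain ⟨k, hk⟩ := fa2_ord_int D x.num hnum
  obtain ⟨l, hl⟩ := fa2_ord_int D (x.den : ℤ) hden
  refine ⟨(k : ℤ) - l, ?_⟩
  have e : algebraMap ℚ (AlgebraicClosure ℚ) x =
      ((x.num : ℤ) : AlgebraicClosure ℚ) / (((x.den : ℤ) : ℤ) : AlgebraicClosure ℚ) := by
    conv_lhs => rw [← Rat.num_div_den x]
    rw [map_div₀, map_intCast, map_natCast]
    push_cast
    rfl
  rw [e, O.ord_div (Int.cast_ne_zero.2 hnum) (Int.cast_ne_zero.2 hden), hk, hl]
  push_cast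
  ring

/-- The valuation of a nonzero Galois-fixed element of `ℚ̄` is an integer multiple of `ord q`. -/
lemma fa2_ord_fixed (z : AlgebraicClosure ℚ) (hz : z ≠ 0)
    (hfix : ∀ σ : AlgebraicClosure ℚ ≃ₐ[ℚ] AlgebraicClosure ℚ, σ z = z) :
    ∃ s : ℤ, O.ord z = s * O.ord ((q : ℕ) : AlgebraicClosure ℚ) := by
  have := Fermat.Agent.Frob.isAlgebraic_Qb
  have := Fermat.Agent.Frob.isAlgClosure_Qb
  obtain ⟨x, rfl⟩ :=
    (InfiniteGalois.mem_range_algebraMap_iff_fixed (k := ℚ) (K := AlgebraicClosure ℚ) z).mpr hfix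
  have hx : x ≠ 0 := by
    rintro rfl
    exact hz (map_zero _)
  exact fa2_ord_rat D x hx

end Ord

section At2

variable (P : FreyPackage) {A : ValuationSubring (AlgebraicClosure ℚ)}
  {O : OrdVal (AlgebraicClosure ℚ)} (D : PlaceData A 2 O)
include D

omit D in
lemma fa2_two_dvd_b : (2 : ℤ) ∣ P.b := (ZMod.intCast_zmod_eq_zero_iff_dvd P.b 2).1 P.hb2

omit D in
lemma fa2_two_not_dvd_a : ¬ (2 : ℤ) ∣ P.a := by
  intro h
  have hb := fa2_two_dvd_b P
  have := dvd_gcd h hb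
  rw [P.hgcdab] at this
  have h1 : (2 : ℕ) ∣ 1 := by exact_mod_cast this
  omega

lemma fa2_frAp_isU : O.IsU (frAp P) := by
  have h : ¬ ((2 : ℕ) : ℤ) ∣ P.a := by simpa using fa2_two_not_dvd_a P
  exact pow_isU D h _

lemma fa2_frBp_gt : O.Gt (frBp P) 0 := by
  have h : ((2 : ℕ) : ℤ) ∣ P.b := by simpa using fa2_two_dvd_b P
  exact pow_gt D h P.hp0

lemma fa2_b₂_isU : O.IsU ((P.freyCurve : WeierstrassCurve.Affine ℚ)⁄(AlgebraicClosure ℚ)).b₂ := by
  rw [frey_b₂]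
  have e : frBp P - frAp P = -(frAp P - frBp P) := by ring
  rw [e]
  exact ((fa2_frAp_isU P D).sub_gt (fa2_frBp_gt P D)).neg

lemma fa2_a₄_ne : ((P.freyCurve : WeierstrassCurve.Affine ℚ)⁄(AlgebraicClosure ℚ)).a₄ ≠ 0 := by
  rw [fa2_a₄]
  exact div_ne_zero (neg_ne_zero.2 (mul_ne_zero (int_pow_ne P.ha0 _) (int_pow_ne P.hb0 _)))
    (by norm_num)

/-- `ord a₄ = (p k - 4) ord 2` with `k = v₂(b) ≥ 1`. -/
lemma fa2_ord_a₄_aux : ∃ k : ℕ, 1 ≤ k ∧
    O.ord ((P.freyCurve : WeierstrassCurve.Affine ℚ)⁄(AlgebraicClosure ℚ)).a₄ =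
      ((P.p : ℤ) * k - 4 : ℤ) * O.ord ((2 : ℕ) : AlgebraicClosure ℚ) := by
  obtain ⟨k, hk⟩ := fa2_ord_int D P.b P.hb0
  have h2pos := fa2_ord_q_pos D
  have hb0 : ((P.b : ℤ) : AlgebraicClosure ℚ) ≠ 0 := Int.cast_ne_zero.2 P.hb0
  have hbgt : 0 < O.ord ((P.b : ℤ) : AlgebraicClosure ℚ) := by
    have h : ((2 : ℕ) : ℤ) ∣ P.b := by simpa using fa2_two_dvd_b P
    exact (D.int_gt h).lt_ord hb0
  have hk1 : 1 ≤ k := by
    rcases Nat.eq_zero_or_pos k with h0 | h0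
    · rw [h0] at hk
      simp at hk
      rw [hk] at hbgt
      exact absurd hbgt (lt_irrefl _)
    · exact h0
  refine ⟨k, hk1, ?_⟩
  have hA := fa2_frAp_isU P D
  have hB0 : frBp P ≠ 0 := int_pow_ne P.hb0 _
  have h16 : (16 : AlgebraicClosure ℚ) = ((2 : ℕ) : AlgebraicClosure ℚ) ^ 4 := by norm_num
  have h16ne : (16 : AlgebraicClosure ℚ) ≠ 0 := by norm_num
  rw [fa2_a₄, O.ord_div (neg_ne_zero.2 (mul_ne_zero hA.1 hB0)) h16ne, O.ord_neg,
    O.ord_mul hA.1 hB0, hA.2, h16, O.ord_pow (fa2_q_ne D), frBp, O.ord_pow hb0, hk]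
  push_cast
  ring

/-- `ord a₄ = n * ord 2` with `p ∤ n` (and `0 < n`). -/
theorem fa2_ord_a₄ : ∃ n : ℤ, 0 < n ∧ ¬ (P.p : ℤ) ∣ n ∧
    O.ord ((P.freyCurve : WeierstrassCurve.Affine ℚ)⁄(AlgebraicClosure ℚ)).a₄ =
      n * O.ord ((2 : ℕ) : AlgebraicClosure ℚ) := by
  obtain ⟨k, hk1, hk⟩ := fa2_ord_a₄_aux P D
  refine ⟨(P.p : ℤ) * k - 4, ?_, ?_, hk⟩
  · have h5 : (5 : ℤ) ≤ P.p := by exact_mod_cast P.hp5
    have hk' : (1 : ℤ) ≤ k := by exact_mod_cast hk1
    nlinarith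
  · intro hdvd
    have h4 : (P.p : ℤ) ∣ 4 := by
      have h1 : (P.p : ℤ) ∣ (P.p : ℤ) * k := dvd_mul_right _ _
      have := dvd_sub h1 hdvd
      simpa using this
    have h4' : P.p ∣ 4 := by exact_mod_cast h4
    have := Nat.le_of_dvd (by norm_num) h4'
    have := P.hp5
    omega

lemma fa2_a₄_pos :
    0 < O.ord ((P.freyCurve : WeierstrassCurve.Affine ℚ)⁄(AlgebraicClosure ℚ)).a₄ := by
  obtain ⟨n, hn, -, h⟩ := fa2_ord_a₄ P D
  rw [h]
  have h2pos := fa2_ord_q_pos D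
  have : (0 : ℚ) < n := by exact_mod_cast hn
  positivity

/-- The [NODE2] context of the prelude Frey model at a place over `2`. -/
theorem fa2_ctx :
    Node2Ctx ((P.freyCurve : WeierstrassCurve.Affine ℚ)⁄(AlgebraicClosure ℚ)) O P.p where
  ha₃ := fa2_a₃ P
  ha₆ := fa2_a₆ P
  two_ne := two_ne_zero
  hnat := D.nat_ge
  hb₂ := fa2_b₂_isU P D
  ha₄0 := fa2_a₄_ne P D
  ha₄ := fa2_a₄_pos P D
  hp := P.pp
  hp5 := P.hp5
  hpU := D.nat_isU (fun h => by
    have h2 := (Nat.prime_dvd_prime_iff_eq Nat.prime_two P.pp).1 h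
    have := P.hp5
    omega)

/-- A nonzero `p`-torsion point of the Frey curve whose `x`-coordinate has valuation in
`ℤ · ord 2` does not reduce to the node at `2`. -/
theorem fa2_not_node_of_ord
    {T : ((P.freyCurve : WeierstrassCurve.Affine ℚ)⁄(AlgebraicClosure ℚ)).Point}
    (hT : T ≠ 0) (hpT : P.p • T = 0)
    (hs : ∃ s : ℤ, O.ord (xc T) = s * O.ord ((2 : ℕ) : AlgebraicClosure ℚ)) :
    ¬ 0 < O.ord (xc T) := by
  obtain ⟨s, hs⟩ := hs
  obtain ⟨n, -, hpn, hn⟩ := fa2_ord_a₄ P D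
  exact (fa2_ctx P D).node2_not_pos hT hpT _ (fa2_ord_q_pos D) s n hs hn hpn

/-- A nonzero `p`-torsion point of the Frey curve with rational `x`-coordinate does not reduce to
the node at `2`. -/
theorem fa2_not_node
    {T : ((P.freyCurve : WeierstrassCurve.Affine ℚ)⁄(AlgebraicClosure ℚ)).Point}
    (hT : T ≠ 0) (hpT : P.p • T = 0)
    (hfix : ∀ σ : AlgebraicClosure ℚ ≃ₐ[ℚ] AlgebraicClosure ℚ, σ (xc T) = xc T) :
    ¬ 0 < O.ord (xc T) :=
  fa2_not_node_of_ord P D hT hpT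
    (fa2_ord_fixed D _ ((fa2_ctx P D).node2_xc_ne hT hpT) hfix)

omit D in
/-- The `x`-coordinate of a Galois-fixed point is Galois-fixed. -/
lemma fa2_xc_fixed
    {T : ((P.freyCurve : WeierstrassCurve.Affine ℚ)⁄(AlgebraicClosure ℚ)).Point}
    (σ : AlgebraicClosure ℚ ≃ₐ[ℚ] AlgebraicClosure ℚ) (hfix : σ • T = T) :
    σ (xc T) = xc T := by
  cases T with
  | zero => simp [xc]
  | some x y h =>
    have h1 : Point.map (W' := (P.freyCurve : WeierstrassCurve.Affine ℚ)) σ.toAlgHom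
        (Point.some x y h) = Point.some x y h := hfix
    rw [Point.map_some] at h1
    have h2 := congrArg xc h1
    exact h2

/-- A nonzero Galois-fixed `p`-torsion point of the Frey curve does not reduce to the node
at `2`. -/
theorem fa2_not_node_of_fixed
    {T : ((P.freyCurve : WeierstrassCurve.Affine ℚ)⁄(AlgebraicClosure ℚ)).Point}
    (hT : T ≠ 0) (hpT : P.p • T = 0)
    (hfix : ∀ σ : AlgebraicClosure ℚ ≃ₐ[ℚ] AlgebraicClosure ℚ, σ • T = T) :
    ¬ 0 < O.ord (xc T) :=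
  fa2_not_node P D hT hpT (fun σ => fa2_xc_fixed P σ (hfix σ))

end At2

end Fermat.Agent.M13
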