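import Fermat.Agent.M13.RatPtFrey
import Fermat.Agent.M13.FreyAt2
import Fermat.Agent.M13.Basic

/-!
# S13, package [RATPT]: the Frey curve has no Galois-fixed point of order `p`
-/

set_option autoImplicit false
set_option linter.unusedSectionVars false

namespace Fermat.Agent.M13

open WeierstrassCurve WeierstrassCurve.Affine WeierstrassCurve.Affine.Point
open Fermat.Agent.S05 Fermat.Agent.S05.OrdVal

/-- **[RATPT]**: the Frey curve has no nonzero point of order `p` over `ℚ̄` fixed by the
absolute Galois group (in particular no rational point of order `p`). -/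
theorem ratpt_false (P : FreyPackage) (T : (EC P).Point) (hT : T ≠ 0) (hpT : P.p • T = 0)
    (hfix : ∀ σ : GQ, σ • T = T) : False := by
  obtain ⟨A, hA⟩ := Fermat.Agent.Frob.exists_valuationSubring_over 2 Nat.prime_two
  obtain ⟨O, h1, h2, -⟩ := exists_ordVal_of_valuationSubring A 2 Nat.prime_two hA
  have D : PlaceData A 2 O := ⟨Nat.prime_two, hA, h1, h2⟩
  exact ratpt_false_of D (fa2_ctx P D)
    (fun Q hQ hpQ hσ => fa2_not_node P D hQ hpQ hσ) T hT hpT (fun σ => hfix σ)

end Fermat.Agent.M13
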