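import Fermat.Agent.M13.Fin
import Fermat.Agent.M13.AtInst
import Fermat.Agent.M13.AtPLoc
import Fermat.Agent.M13.LocKey
import Fermat.Agent.M13.Mink
import Fermat.Agent.M13.RatPtMain
import Fermat.Agent.M13.SSFrey

/-!
# S13, package [FINAL], part 2: assembly of all local and global packages

`fin_asm` proves the statement of S13 from the four outputs of the Wronskian package [WR]
(existence of a nonzero `p`-torsion point, finiteness and the bound `#E[p] ≤ p²`, and the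
product formula for the torsion polynomial); everything else is discharged here:

* `fin_keyNode` : LOC's `key_node` in the shape `apl_KeyNode` (the tangent slopes at the node
  exist in `ℚ̄`);
* `fin_card_eq` : `#E[p] = p²` as soon as there is a line;
* `fin_key_two`, `fin_key_p` : `(σ - 1)² T ∈ E¹` for inertia elements at `2` and at `p`;
* `fin_hS` : some nonzero `p`-torsion point is integral at `p` ([NP]/[SS]);
* `fin_AT2`, `fin_ATP`, and `fin_asm`.
-/

set_option autoImplicit false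
set_option linter.unusedSectionVars false
set_option linter.unusedVariables false
set_option linter.style.haveILetI false

namespace Fermat.Agent.M13

open WeierstrassCurve WeierstrassCurve.Affine WeierstrassCurve.Affine.Point
open Fermat.Agent.S05 Fermat.Agent.S05.OrdVal Polynomial

/-- The tangent slopes at the node exist in `ℚ̄`. -/
lemma fin_exists_roots (a₁ a₂ : QQb) : ∃ l₁ l₂ : QQb, l₁ + l₂ = -a₁ ∧ l₁ * l₂ = -a₂ := by
  have hdeg : (X ^ 2 + C a₁ * X - C a₂ : QQb[X]).degree ≠ 0 := by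
    have : (X ^ 2 + C a₁ * X - C a₂ : QQb[X]).degree = 2 := by compute_degree!
    rw [this]; norm_num
  obtain ⟨l₁, h⟩ := IsAlgClosed.exists_root (X ^ 2 + C a₁ * X - C a₂ : QQb[X]) hdeg
  simp only [IsRoot.def, eval_sub, eval_add, eval_pow, eval_X, eval_mul, eval_C] at h
  refine ⟨l₁, -a₁ - l₁, by ring, ?_⟩
  linear_combination -h

/-- LOC's node statement in the shape used by `apl_key`. -/
theorem fin_keyNode (O : OrdVal QQb) : apl_KeyNode O := by
  intro W φ σ I ha₃ ha₆ hb₂ ha₄0 ha₄ H T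
  obtain ⟨l₁, l₂, hs, hp⟩ := fin_exists_roots W.a₁ W.a₂
  exact H.key_node ⟨I, ha₃, ha₆, hb₂, ha₄0, ha₄⟩ hs hp T

variable (P : FreyPackage)

/-- `#E[p] = p²` as soon as `E[p]` is finite of order `≤ p²` and contains a line. -/
theorem fin_card_eq (hfin : Finite (VV P)) (hle : Nat.card (VV P) ≤ P.p ^ 2)
    (N : Submodule (ZMod P.p) (VV P)) (hbot : N ≠ ⊥) (htop : N ≠ ⊤) :
    Nat.card (VV P) = P.p ^ 2 := by
  haveI : Fact P.p.Prime := ⟨P.pp⟩
  haveI := hfin
  haveI : Module.Finite (ZMod P.p) (VV P) := Module.Finite.of_finite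
  have h1 : Nat.card (VV P) = P.p ^ Module.finrank (ZMod P.p) (VV P) := by
    have := Module.natCard_eq_pow_finrank (K := ZMod P.p) (V := VV P)
    rwa [Nat.card_zmod] at this
  have h2 : Module.finrank (ZMod P.p) N < Module.finrank (ZMod P.p) (VV P) :=
    Submodule.finrank_lt htop
  have h3 : 0 < Module.finrank (ZMod P.p) N := by
    rw [Module.finrank_pos_iff (R := ZMod P.p)]
    exact (Submodule.nontrivial_iff_ne_bot).2 hbot
  have h4 : Module.finrank (ZMod P.p) (VV P) ≤ 2 := by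
    by_contra hcon
    rw [not_le] at hcon
    have h5 : P.p ^ 3 ≤ P.p ^ Module.finrank (ZMod P.p) (VV P) :=
      Nat.pow_le_pow_right P.pp.pos hcon
    have h6 : P.p ^ 2 < P.p ^ 3 := Nat.pow_lt_pow_right P.pp.one_lt (by norm_num)
    rw [← h1] at h5
    omega
  have h7 : Module.finrank (ZMod P.p) (VV P) = 2 := by omega
  rw [h1, h7]

/-- A line has `p` elements. -/
theorem fin_card_line (hcard : Nat.card (VV P) = P.p ^ 2)
    (N : Submodule (ZMod P.p) (VV P)) (hbot : N ≠ ⊥) (htop : N ≠ ⊤) : Nat.card N = P.p := by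
  have hN0 : N.toAddSubgroup ≠ ⊥ := by
    intro h
    apply hbot
    rw [eq_bot_iff]
    intro x hx
    have : x ∈ N.toAddSubgroup := hx
    rw [h] at this
    exact (Submodule.mem_bot _).2 (AddSubgroup.mem_bot.1 this)
  have hN0' : N.toAddSubgroup ≠ ⊤ := by
    intro h
    apply htop
    rw [eq_top_iff]
    intro x _
    have : x ∈ N.toAddSubgroup := by rw [h]; exact AddSubgroup.mem_top x
    exact this
  exact unip_card_line P.pp hcard N.toAddSubgroup hN0 hN0'

section place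

variable {A : ValuationSubring QQb} {O : OrdVal QQb}

/-- `(σ - 1)² T ∈ E¹` for inertia elements at a place over `2`. -/
theorem fin_key_two (D : PlaceData A 2 O) (σ : GQ) (hσ : σ ∈ A.inertiaSubgroupIn ℚ)
    (T : (EC P).Point) : loc_E1 O (σ • (σ • T - T) - (σ • T - T)) := by
  have H := at_inertial D (P.freyCurve : WeierstrassCurve.Affine ℚ) hσ
  obtain ⟨l₁, l₂, hs, hp⟩ := fin_exists_roots (EC P).a₁ (EC P).a₂
  exact H.key_node ⟨at_int D P, fa2_a₃ P, fa2_a₆ P, fa2_b₂_isU P D, fa2_a₄_ne P D,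
    fa2_a₄_pos P D⟩ hs hp T

/-- Rational constants are fixed by the Galois group. -/
lemma fin_fix_r (σ : GQ) : (σ : QQb →+* QQb) (fl_r P) = fl_r P := by
  change σ (fl_r P) = fl_r P
  simp only [fl_r, frAp, map_div₀, map_pow, map_intCast, map_ofNat]

lemma fin_fix_t (σ : GQ) : (σ : QQb →+* QQb) (fl_t P) = fl_t P := by
  change σ (fl_t P) = fl_t P
  simp only [fl_t, frAp, map_div₀, map_neg, map_pow, map_intCast, map_ofNat]

/-- `(σ - 1)² T ∈ E¹` for inertia elements at a place over `p`. -/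
theorem fin_key_p (D : PlaceData A P.p O) (σ : GQ) (hσ : σ ∈ A.inertiaSubgroupIn ℚ)
    (T : (EC P).Point) : loc_E1 O (σ • (σ • T - T) - (σ • T - T)) := by
  have hp2 : P.p ≠ 2 := by
    have := P.hp5
    omega
  have H := at_inertial D (P.freyCurve : WeierstrassCurve.Affine ℚ) hσ
  exact apl_key P D hp2 (fin_keyNode O) H (fin_fix_r P σ) (fin_fix_t P σ) T

/-- Some nonzero `p`-torsion point is integral at a place over `p`. -/
theorem fin_hS (D : PlaceData A P.p O) (hOp : O.ord ((P.p : ℕ) : QQb) = 1)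
    (hcard : Nat.card (VV P) = P.p ^ 2)
    (hprod : ∃ S : Finset QQb, S.card = (P.p ^ 2 - 1) / 2 ∧
      (∀ ξ, ξ ∈ S ↔ ∃ T : (EC P).Point, T ≠ 0 ∧ P.p • T = 0 ∧ xc T = ξ) ∧
      (wrPoly P.freyCurveInt P.p).map (Int.castRingHom QQb)
        = C ((wrV P.p : ℤ) : QQb) * ∏ ξ ∈ S, (X - C ξ))
    (N : Submodule (ZMod P.p) (VV P)) (hN : IsGaloisStable ℚ N) (hbot : N ≠ ⊥) (htop : N ≠ ⊤) :
    ∃ T : (EC P).Point, T ≠ 0 ∧ P.p • T = 0 ∧ 0 ≤ O.ord (xc T) := by
  obtain ⟨S, -, hS, hpr⟩ := hprod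
  have hcN := fin_card_line P hcard N hbot htop
  rcases np_frey_dichotomy P D hOp S hS hpr N hN hcN with h | h
  · obtain ⟨x, hxN, hx0⟩ := (Submodule.ne_bot_iff N).1 hbot
    exact ⟨x.1, fun h0 => hx0 (Subtype.ext h0), at2_nsmul_eq_zero P x, h x hxN hx0⟩
  · have : ∃ x : VV P, x ∉ N := by
      by_contra hcon
      apply htop
      rw [eq_top_iff]
      intro x _
      by_contra hx
      exact hcon ⟨x, hx⟩
    obtain ⟨x, hx⟩ := this
    have hx0 : x ≠ 0 := by
      rintro rfl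
      exact hx N.zero_mem
    exact ⟨x.1, fun h0 => hx0 (Subtype.ext h0), at2_nsmul_eq_zero P x, h x hx⟩

end place

/-- **[AT-2]** in the shape of `fin_main`. -/
theorem fin_AT2 (hfin : Finite (VV P)) (hle : Nat.card (VV P) ≤ P.p ^ 2) :
    ∀ N : Submodule (ZMod P.p) (VV P), IsGaloisStable ℚ N → N ≠ ⊥ → N ≠ ⊤ →
      ∃ A : ValuationSubring QQb, A.LiesOverPrime 2 ∧
        ((∀ σ ∈ A.inertiaSubgroupIn ℚ, ∀ x ∈ N, σ • x = x) ∧
          (∀ σ ∈ A.inertiaSubgroupIn ℚ, ∀ x : VV P, σ • x - x ∈ N)) := by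
  intro N hN hbot htop
  have hcard := fin_card_eq P hfin hle N hbot htop
  exact at2_main_of_key P hcard (fun A O D σ hσ T => fin_key_two P D σ hσ T) N hN hbot htop

/-- **[AT-P]** in the shape of `fin_main`. -/
theorem fin_ATP (hfin : Finite (VV P)) (hle : Nat.card (VV P) ≤ P.p ^ 2)
    (hprod : Nat.card (VV P) = P.p ^ 2 → ∃ S : Finset QQb, S.card = (P.p ^ 2 - 1) / 2 ∧
      (∀ ξ, ξ ∈ S ↔ ∃ T : (EC P).Point, T ≠ 0 ∧ P.p • T = 0 ∧ xc T = ξ) ∧
      (wrPoly P.freyCurveInt P.p).map (Int.castRingHom QQb)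
        = C ((wrV P.p : ℤ) : QQb) * ∏ ξ ∈ S, (X - C ξ)) :
    ∀ N : Submodule (ZMod P.p) (VV P), IsGaloisStable ℚ N → N ≠ ⊥ → N ≠ ⊤ →
      ∃ A : ValuationSubring QQb, A.LiesOverPrime P.p ∧
        ((∀ σ ∈ A.inertiaSubgroupIn ℚ, ∀ x ∈ N, σ • x = x) ∨
          (∀ σ ∈ A.inertiaSubgroupIn ℚ, ∀ x : VV P, σ • x - x ∈ N)) := by
  intro N hN hbot htop
  have hcard := fin_card_eq P hfin hle N hbot htop
  obtain ⟨A, hA⟩ := Fermat.Agent.Frob.exists_valuationSubring_over P.p P.pp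
  obtain ⟨O, h1, h2, hOp⟩ := exists_ordVal_of_valuationSubring A P.p P.pp hA
  have D : PlaceData A P.p O := ⟨P.pp, hA, h1, h2⟩
  refine ⟨A, hA, atp_of_key P hcard (fun σ hσ T => fin_key_p P D σ hσ T)
    (fin_hS P D hOp hcard (hprod hcard) N hN hbot htop) N hN hbot htop⟩

/-- **[FINAL]** The statement of S13 from the outputs of the Wronskian package. -/
theorem fin_asm
    (hWR : ∃ T : (EC P).Point, T ≠ 0 ∧ P.p • T = 0)
    (hfin : Finite (VV P)) (hle : Nat.card (VV P) ≤ P.p ^ 2)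
    (hprod : Nat.card (VV P) = P.p ^ 2 → ∃ S : Finset QQb, S.card = (P.p ^ 2 - 1) / 2 ∧
      (∀ ξ, ξ ∈ S ↔ ∃ T : (EC P).Point, T ≠ 0 ∧ P.p • T = 0 ∧ xc T = ξ) ∧
      (wrPoly P.freyCurveInt P.p).map (Int.castRingHom QQb)
        = C ((wrV P.p : ℤ) : QQb) * ∏ ξ ∈ S, (X - C ξ))
    (hred : ¬ GaloisRepIsIrreducible (K := QQb) ℚ P.freyCurve P.p) :
    HasGaloisStableCofixedLine (K := QQb) ℚ P.freyCurve P.p :=
  fin_main P hWR hfin (fin_AT2 P hfin hle) (fin_ATP P hfin hle hprod)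
    (fun H hn L hfd hL hI => @mink_eq_top' H hn L hfd hL hI)
    (ratpt_false P) hred

end Fermat.Agent.M13
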