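import Mathlib

/-!
# The invariant derivation on the affine coordinate ring of a Weierstrass curve

For a Weierstrass curve `W` over a commutative ring `R` with equation
`F = Y² + a₁XY + a₃Y - (X³ + a₂X² + a₄X + a₆)` we construct the `R`-derivation `D` of the
coordinate ring `R[W]` with `D x = F_Y = 2y + a₁x + a₃` and `D y = -F_X = 3x² + 2a₂x + a₄ - a₁y`.
Everything is done in the "pair model" `p + q·Y` (`p q : R[X]`).
-/

set_option autoImplicit false

namespace Fermat.Agent.M13

open Polynomial WeierstrassCurve WeierstrassCurve.Affine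

open scoped Polynomial.Bivariate

noncomputable section

variable {R : Type*} [CommRing R] (W : WeierstrassCurve.Affine R)

/-- `ℓ = a₁ X + a₃`. -/
def wrL : R[X] := C W.a₁ * X + C W.a₃

/-- `c = X³ + a₂X² + a₄X + a₆`. -/
def wrC : R[X] := X ^ 3 + C W.a₂ * X ^ 2 + C W.a₄ * X + C W.a₆

/-- `c' = 3X² + 2a₂X + a₄`. -/
def wrC' : R[X] := 3 * X ^ 2 + 2 * C W.a₂ * X + C W.a₄

lemma wr_derivative_wrL : derivative (wrL W) = C W.a₁ := by
  simp [wrL]

lemma wr_derivative_wrC : derivative (wrC W) = wrC' W := by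
  simp only [wrC, wrC', derivative_add, derivative_mul, derivative_C, derivative_X_pow,
    derivative_X]
  have h3 : (C (3 : R) : R[X]) = 3 := map_ofNat C 3
  have h2 : (C (2 : R) : R[X]) = 2 := map_ofNat C 2
  simp [h3, h2]
  ring

/-- The element `p + q·Y` of the coordinate ring. -/
def wrMk (p q : R[X]) : W.CoordinateRing :=
  p • (1 : W.CoordinateRing) + q • CoordinateRing.mk W Y

/-- The `1`-coordinate of an element of the coordinate ring. -/
def wrP (f : W.CoordinateRing) : R[X] := (CoordinateRing.basis W).repr f 0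

/-- The `Y`-coordinate of an element of the coordinate ring. -/
def wrQ (f : W.CoordinateRing) : R[X] := (CoordinateRing.basis W).repr f 1

lemma wrMk_wrP_wrQ (f : W.CoordinateRing) : wrMk W (wrP W f) (wrQ W f) = f := by
  have h := (CoordinateRing.basis W).sum_repr f
  rw [Fin.sum_univ_two, CoordinateRing.basis_zero, CoordinateRing.basis_one] at h
  exact h

lemma wrP_wrMk (p q : R[X]) : wrP W (wrMk W p q) = p := by
  have h : wrMk W p q = p • CoordinateRing.basis W 0 + q • CoordinateRing.basis W 1 := by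
    rw [CoordinateRing.basis_zero, CoordinateRing.basis_one]; rfl
  rw [wrP, h, map_add, map_smul, map_smul, Module.Basis.repr_self, Module.Basis.repr_self]
  simp

lemma wrQ_wrMk (p q : R[X]) : wrQ W (wrMk W p q) = q := by
  have h : wrMk W p q = p • CoordinateRing.basis W 0 + q • CoordinateRing.basis W 1 := by
    rw [CoordinateRing.basis_zero, CoordinateRing.basis_one]; rfl
  rw [wrQ, h, map_add, map_smul, map_smul, Module.Basis.repr_self, Module.Basis.repr_self]
  simp

lemma wrMk_injective {p q p' q' : R[X]} (h : wrMk W p q = wrMk W p' q') : p = p' ∧ q = q' := by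
  have h1 := congrArg (wrP W) h
  have h2 := congrArg (wrQ W) h
  rw [wrP_wrMk, wrP_wrMk] at h1
  rw [wrQ_wrMk, wrQ_wrMk] at h2
  exact ⟨h1, h2⟩

lemma wrMk_add (p q p' q' : R[X]) : wrMk W p q + wrMk W p' q' = wrMk W (p + p') (q + q') := by
  simp only [wrMk, add_smul]; abel

lemma wrMk_zero : wrMk W 0 0 = 0 := by simp [wrMk]

lemma wrMk_one : wrMk W 1 0 = 1 := by simp [wrMk]

lemma wrMk_smul (r : R) (p q : R[X]) : r • wrMk W p q = wrMk W (r • p) (r • q) := by
  simp only [wrMk, smul_add, smul_assoc]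

lemma wrMk_mul (p q p' q' : R[X]) :
    wrMk W p q * wrMk W p' q' =
      wrMk W (p * p' + q * q' * wrC W) (p * q' + p' * q - q * q' * wrL W) := by
  have h1 : wrMk W p' q' = CoordinateRing.mk W (C p') + CoordinateRing.mk W (C q') *
      CoordinateRing.mk W Y := by
    simp only [wrMk, CoordinateRing.smul, mul_one]
  rw [h1, mul_add, ← mul_assoc]
  have h2 := CoordinateRing.smul_basis_mul_C (W' := W) p' p q
  have h3 := CoordinateRing.smul_basis_mul_C (W' := W) q' p q
  have h4 := CoordinateRing.smul_basis_mul_Y (W' := W) (p * q') (q * q')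
  rw [show wrMk W p q = p • (1 : W.CoordinateRing) + q • CoordinateRing.mk W Y from rfl, h2, h3, h4]
  simp only [wrMk, wrC, wrL, add_smul, sub_smul]
  rw [show p' * q = q * p' by ring]
  abel

/-- The `1`-coordinate of `D (p + qY)`. -/
def wrDP (p q : R[X]) : R[X] :=
  derivative p * wrL W + 2 * derivative q * wrC W + q * wrC' W

/-- The `Y`-coordinate of `D (p + qY)`. -/
def wrDQ (p q : R[X]) : R[X] :=
  2 * derivative p - derivative q * wrL W - C W.a₁ * q

lemma wrP_add (f g : W.CoordinateRing) : wrP W (f + g) = wrP W f + wrP W g := by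
  simp [wrP]

lemma wrQ_add (f g : W.CoordinateRing) : wrQ W (f + g) = wrQ W f + wrQ W g := by
  simp [wrQ]

lemma wrP_smul (r : R) (f : W.CoordinateRing) : wrP W (r • f) = r • wrP W f := by
  conv_lhs => rw [← wrMk_wrP_wrQ W f, wrMk_smul, wrP_wrMk]

lemma wrQ_smul (r : R) (f : W.CoordinateRing) : wrQ W (r • f) = r • wrQ W f := by
  conv_lhs => rw [← wrMk_wrP_wrQ W f, wrMk_smul, wrQ_wrMk]

lemma wrP_one : wrP W 1 = 1 := by rw [← wrMk_one W, wrP_wrMk]

lemma wrQ_one : wrQ W 1 = 0 := by rw [← wrMk_one W, wrQ_wrMk]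

lemma wrP_mul (f g : W.CoordinateRing) :
    wrP W (f * g) = wrP W f * wrP W g + wrQ W f * wrQ W g * wrC W := by
  conv_lhs => rw [← wrMk_wrP_wrQ W f, ← wrMk_wrP_wrQ W g, wrMk_mul, wrP_wrMk]

lemma wrQ_mul (f g : W.CoordinateRing) :
    wrQ W (f * g) = wrP W f * wrQ W g + wrP W g * wrQ W f - wrQ W f * wrQ W g * wrL W := by
  conv_lhs => rw [← wrMk_wrP_wrQ W f, ← wrMk_wrP_wrQ W g, wrMk_mul, wrQ_wrMk]

/-- The invariant derivation as a linear map. -/
def wrDlin : W.CoordinateRing →ₗ[R] W.CoordinateRing where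
  toFun f := wrMk W (wrDP W (wrP W f) (wrQ W f)) (wrDQ W (wrP W f) (wrQ W f))
  map_add' f g := by
    rw [wrMk_add, wrP_add, wrQ_add]
    congr 1 <;> simp only [wrDP, wrDQ, derivative_add] <;> ring
  map_smul' r f := by
    simp only [RingHom.id_apply]
    rw [wrMk_smul, wrP_smul, wrQ_smul]
    congr 1 <;> simp only [wrDP, wrDQ, smul_eq_C_mul, derivative_C_mul] <;> ring

lemma wrDlin_apply (f : W.CoordinateRing) :
    wrDlin W f = wrMk W (wrDP W (wrP W f) (wrQ W f)) (wrDQ W (wrP W f) (wrQ W f)) := rfl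

lemma wrDlin_one : wrDlin W 1 = 0 := by
  rw [wrDlin_apply, wrP_one, wrQ_one]
  simp [wrDP, wrDQ, wrMk_zero]

lemma wrDP_mul (p q r s : R[X]) :
    wrDP W (p * r + q * s * wrC W) (p * s + r * q - q * s * wrL W) =
      (p * wrDP W r s + q * wrDQ W r s * wrC W) + (r * wrDP W p q + s * wrDQ W p q * wrC W) := by
  simp only [wrDP, wrDQ, derivative_add, derivative_sub, derivative_mul, wr_derivative_wrL,
    wr_derivative_wrC]
  generalize derivative p = dp
  generalize derivative q = dq
  generalize derivative r = dr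
  generalize derivative s = ds
  generalize wrC W = c
  generalize wrC' W = c'
  generalize wrL W = l
  generalize C W.a₁ = a
  ring

lemma wrDQ_mul (p q r s : R[X]) :
    wrDQ W (p * r + q * s * wrC W) (p * s + r * q - q * s * wrL W) =
      (p * wrDQ W r s + wrDP W r s * q - q * wrDQ W r s * wrL W) +
        (r * wrDQ W p q + wrDP W p q * s - s * wrDQ W p q * wrL W) := by
  simp only [wrDP, wrDQ, derivative_add, derivative_sub, derivative_mul, wr_derivative_wrL,
    wr_derivative_wrC]
  generalize derivative p = dp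
  generalize derivative q = dq
  generalize derivative r = dr
  generalize derivative s = ds
  generalize wrC W = c
  generalize wrC' W = c'
  generalize wrL W = l
  generalize C W.a₁ = a
  ring

lemma wrDlin_mul (f g : W.CoordinateRing) :
    wrDlin W (f * g) = f * wrDlin W g + g * wrDlin W f := by
  obtain ⟨p, q, rfl⟩ : ∃ p q, f = wrMk W p q := ⟨_, _, (wrMk_wrP_wrQ W f).symm⟩
  obtain ⟨r, s, rfl⟩ : ∃ r s, g = wrMk W r s := ⟨_, _, (wrMk_wrP_wrQ W g).symm⟩
  rw [wrDlin_apply, wrDlin_apply, wrDlin_apply, wrMk_mul]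
  simp only [wrP_wrMk, wrQ_wrMk]
  rw [wrMk_mul, wrMk_mul, wrMk_add, wrDP_mul, wrDQ_mul]

/-- The invariant derivation of the coordinate ring: `D x = 2y + a₁x + a₃`,
`D y = 3x² + 2a₂x + a₄ - a₁y`. -/
def wrD : Derivation R W.CoordinateRing W.CoordinateRing where
  toLinearMap := wrDlin W
  map_one_eq_zero' := wrDlin_one W
  leibniz' f g := by
    rw [smul_eq_mul, smul_eq_mul]
    exact wrDlin_mul W f g

lemma wrD_apply (f : W.CoordinateRing) :
    wrD W f = wrMk W (wrDP W (wrP W f) (wrQ W f)) (wrDQ W (wrP W f) (wrQ W f)) := rfl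

lemma wrD_wrMk (p q : R[X]) : wrD W (wrMk W p q) = wrMk W (wrDP W p q) (wrDQ W p q) := by
  rw [wrD_apply, wrP_wrMk, wrQ_wrMk]

lemma wrP_wrD (f : W.CoordinateRing) : wrP W (wrD W f) = wrDP W (wrP W f) (wrQ W f) := by
  conv_lhs => rw [← wrMk_wrP_wrQ W f, wrD_wrMk, wrP_wrMk]

lemma wrQ_wrD (f : W.CoordinateRing) : wrQ W (wrD W f) = wrDQ W (wrP W f) (wrQ W f) := by
  conv_lhs => rw [← wrMk_wrP_wrQ W f, wrD_wrMk, wrQ_wrMk]

/-! ### The monomial basis of `L(nO)` and the Wronskian -/

/-- The monomial of pole order `m` at infinity: `x^(m/2)` for even `m`, `x^((m-3)/2) y` for odd `m`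
(junk for `m = 1`). -/
def wrMono (m : ℕ) : W.CoordinateRing :=
  if m % 2 = 0 then wrMk W (X ^ (m / 2)) 0 else wrMk W 0 (X ^ ((m - 3) / 2))

/-- The pole orders `0, 2, 3, …, n` of the monomial basis of `L(nO)`. -/
def wrOrd (j : ℕ) : ℕ := if j = 0 then 0 else j + 1

/-- The monomial basis `1, x, y, x², xy, …` of `L(nO)`, indexed by `Fin n`. -/
def wrF (n : ℕ) (j : Fin n) : W.CoordinateRing := wrMono W (wrOrd j)

/-- The Wronskian matrix `(D^i f_j)`. -/
def wrMat (n : ℕ) : Matrix (Fin n) (Fin n) W.CoordinateRing :=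
  Matrix.of fun i j => (wrD W)^[i] (wrF W n j)

/-- The Wronskian of the monomial basis of `L(nO)` with respect to the invariant derivation. -/
def wrW (n : ℕ) : W.CoordinateRing := (wrMat W n).det

/-- The polynomial `a(x)`: the `1`-coordinate of the Wronskian. For odd `n` and an elliptic curve
over a field of characteristic zero the Wronskian equals `a(x)`. -/
def wrPoly (n : ℕ) : R[X] := wrP W (wrW W n)

/-- The `Y`-coordinate of the Wronskian. -/
def wrPolyQ (n : ℕ) : R[X] := wrQ W (wrW W n)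

lemma wrMk_wrPoly (n : ℕ) : wrMk W (wrPoly W n) (wrPolyQ W n) = wrW W n :=
  wrMk_wrP_wrQ W _

end

end Fermat.Agent.M13
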