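import Mathlib
import Fermat.Agent.M13.WrBasic

/-!
# M13 / WR part III: consequences of the Wronskian criterion

Setting: `K` an algebraically closed field, `W` a Weierstrass curve over `K` with `Δ ≠ 0`, `p` an
odd prime, and polynomials `a b : K[X]` (in the application `a = wrPoly W p`, `b = wrPolyQ W p`)
such that a nonsingular point `(x, y)` is killed by `p` iff `a(x) + b(x) y = 0`, with
`natDegree a ≤ M`, `a.coeff M = v ≠ 0`, `natDegree b + 2 ≤ M`, where `M = (p² - 1) / 2`.
Then
* there is a nonzero point killed by `p`;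
* the `p`-torsion is finite of cardinality at most `p²`;
* if its cardinality is `p²` then `b = 0` and `a = v ∏_{x ∈ S} (X - x)`, `S` the set of
  `x`-coordinates of the nonzero `p`-torsion points, `#S = M`.
-/

set_option autoImplicit false
set_option linter.deprecated false
set_option linter.unusedSectionVars false
set_option linter.unusedVariables false
set_option linter.style.haveILetI false

namespace Fermat.Agent.M13

open Polynomial WeierstrassCurve WeierstrassCurve.Affine

noncomputable section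

variable {K : Type*} [Field K] [DecidableEq K] (W : WeierstrassCurve.Affine K)

/-- The norm form `a² - a b ℓ - b² c` of `a + b Y`. -/
def wrMainN (a b : K[X]) : K[X] := a ^ 2 - a * b * wrL W - b ^ 2 * wrC W

lemma wr_main_eval_wrL (x : K) : (wrL W).eval x = W.a₁ * x + W.a₃ := by
  simp [wrL]

lemma wr_main_eval_wrC (x : K) :
    (wrC W).eval x = x ^ 3 + W.a₂ * x ^ 2 + W.a₄ * x + W.a₆ := by
  simp [wrC]

lemma wr_main_natDegree_wrL : (wrL W).natDegree ≤ 1 := by
  unfold wrL
  compute_degree

lemma wr_main_natDegree_wrC : (wrC W).natDegree ≤ 3 := by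
  unfold wrC
  compute_degree

/-- On the curve, the norm form is the product of the values at `(x, y)` and at `-(x, y)`. -/
lemma wr_main_N_eval (a b : K[X]) {x y : K} (h : W.Equation x y) :
    (wrMainN W a b).eval x =
      (a.eval x + b.eval x * y) * (a.eval x + b.eval x * W.negY x y) := by
  rw [equation_iff] at h
  simp only [wrMainN, eval_sub, eval_mul, eval_pow, wr_main_eval_wrL, wr_main_eval_wrC, negY]
  linear_combination (b.eval x) ^ 2 * h

/-- The top coefficient of the norm form. -/
lemma wr_main_N_coeff (a b : K[X]) (M : ℕ) (hdeg : a.natDegree ≤ M)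
    (hQ : b.natDegree + 2 ≤ M) : (wrMainN W a b).coeff (2 * M) = a.coeff M ^ 2 := by
  have h1 : (a ^ 2).coeff (2 * M) = a.coeff M ^ 2 := by
    rw [pow_two, two_mul, coeff_mul_add_eq_of_natDegree_le hdeg hdeg, pow_two]
  have h2 : (a * b * wrL W).coeff (2 * M) = 0 := by
    apply coeff_eq_zero_of_natDegree_lt
    have := wr_main_natDegree_wrL W
    have h3 : (a * b * wrL W).natDegree ≤ a.natDegree + b.natDegree + (wrL W).natDegree :=
      natDegree_mul_le.trans (add_le_add_left natDegree_mul_le _)
    omega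
  have h3 : (b ^ 2 * wrC W).coeff (2 * M) = 0 := by
    apply coeff_eq_zero_of_natDegree_lt
    have := wr_main_natDegree_wrC W
    have h4 : (b ^ 2 * wrC W).natDegree ≤ 2 * b.natDegree + (wrC W).natDegree :=
      natDegree_mul_le.trans (add_le_add_left (natDegree_pow_le) _)
    omega
  rw [wrMainN, coeff_sub, coeff_sub, h1, h2, h3, sub_zero, sub_zero]

/-! ### Existence of a nonzero torsion point -/

section Exists

variable [IsAlgClosed K]

/-- Over an algebraically closed field every `x` is the `x`-coordinate of a point of the affine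
curve. -/
lemma wr_main_exists_y (x : K) : ∃ y : K, W.Equation x y := by
  have hdeg : (X ^ 2 + C (W.a₁ * x + W.a₃) * X -
      C (x ^ 3 + W.a₂ * x ^ 2 + W.a₄ * x + W.a₆) : K[X]).degree ≠ 0 := by
    have h2 : (X ^ 2 + C (W.a₁ * x + W.a₃) * X -
        C (x ^ 3 + W.a₂ * x ^ 2 + W.a₄ * x + W.a₆) : K[X]).natDegree = 2 := by
      compute_degree!
    intro h0
    have := natDegree_eq_zero_iff_degree_le_zero.2 (le_of_eq h0)
    omega
  obtain ⟨y, hy⟩ := IsAlgClosed.exists_root _ hdeg
  refine ⟨y, ?_⟩
  rw [equation_iff]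
  simp only [IsRoot.def, eval_sub, eval_add, eval_pow, eval_X, eval_mul, eval_C] at hy
  linear_combination hy

theorem wr_main_gen_exists (hΔ : W.Δ ≠ 0) (p : ℕ) (a b : K[X]) (M : ℕ) (hM : 0 < M)
    (hdeg : a.natDegree ≤ M) (hlc : a.coeff M ≠ 0) (hQ : b.natDegree + 2 ≤ M)
    (htors : ∀ (x y : K) (h : W.Nonsingular x y),
      p • Point.some x y h = 0 ↔ a.eval x + b.eval x * y = 0) :
    ∃ P : W.Point, P ≠ 0 ∧ p • P = 0 := by
  have hN : (wrMainN W a b).degree ≠ 0 := by
    intro h0
    have h1 := natDegree_eq_zero_iff_degree_le_zero.2 (le_of_eq h0)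
    have h2 : (wrMainN W a b).coeff (2 * M) ≠ 0 := by
      rw [wr_main_N_coeff W a b M hdeg hQ]
      exact pow_ne_zero 2 hlc
    have h3 := le_natDegree_of_ne_zero h2
    omega
  obtain ⟨x, hx⟩ := IsAlgClosed.exists_root _ hN
  obtain ⟨y, hy⟩ := wr_main_exists_y W x
  have hns : W.Nonsingular x y := (equation_iff_nonsingular_of_Δ_ne_zero hΔ).1 hy
  have hns' : W.Nonsingular x (W.negY x y) := (nonsingular_neg x y).2 hns
  rw [IsRoot.def, wr_main_N_eval W a b hy] at hx
  rcases mul_eq_zero.1 hx with h | h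
  · exact ⟨Point.some x y hns, Point.some_ne_zero hns, (htors x y hns).2 h⟩
  · exact ⟨Point.some x _ hns', Point.some_ne_zero hns', (htors x _ hns').2 h⟩

end Exists

/-! ### The `x`-coordinates of torsion points are roots -/

/-- A point of odd order is not its own negative. -/
lemma wr_main_ne_neg {p : ℕ} (hp : Odd p) {T : W.Point} (hT : T ≠ 0) (hpT : p • T = 0) :
    T ≠ -T := by
  intro h
  have h2 : 2 • T = 0 := by
    rw [two_nsmul]
    nth_rewrite 1 [h]
    exact neg_add_cancel T
  have hd2 : addOrderOf T ∣ 2 := addOrderOf_dvd_of_nsmul_eq_zero h2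
  have hdp : addOrderOf T ∣ p := addOrderOf_dvd_of_nsmul_eq_zero hpT
  have h1 : addOrderOf T ∣ 1 := by
    have hcop : Nat.Coprime 2 p := Nat.coprime_two_left.2 hp
    have := Nat.dvd_gcd hd2 hdp
    rwa [Nat.Coprime.gcd_eq_one hcop] at this
  have h0 : addOrderOf T = 1 := Nat.dvd_one.1 h1
  exact hT (AddMonoid.addOrderOf_eq_one_iff.1 h0)

theorem wr_main_gen_root {p : ℕ} (hp : Odd p) (a b : K[X])
    (htors : ∀ (x y : K) (h : W.Nonsingular x y),
      p • Point.some x y h = 0 ↔ a.eval x + b.eval x * y = 0)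
    {x y : K} (h : W.Nonsingular x y) (hpT : p • Point.some x y h = 0) :
    a.eval x = 0 ∧ b.eval x = 0 := by
  have h' : W.Nonsingular x (W.negY x y) := (nonsingular_neg x y).2 h
  have hneg : p • Point.some x _ h' = 0 := by
    have : Point.some x _ h' = -Point.some x y h := (Point.neg_some h).symm
    rw [this, smul_neg, hpT, neg_zero]
  have e1 := (htors x y h).1 hpT
  have e2 := (htors x _ h').1 hneg
  have hne : y ≠ W.negY x y := by
    intro hy
    apply wr_main_ne_neg W hp (Point.some_ne_zero h) hpT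
    rw [Point.neg_some]
    congr 1
  have hb : b.eval x = 0 := by
    have e3 : b.eval x * (y - W.negY x y) = 0 := by linear_combination e1 - e2
    rcases mul_eq_zero.1 e3 with h0 | h0
    · exact h0
    · exact absurd (sub_eq_zero.1 h0) hne
  refine ⟨?_, hb⟩
  rw [hb] at e1
  simpa using e1

/-! ### Counting points with `x`-coordinate in a finite set -/

/-- The coordinates of a point. -/
def wrMainCoord : W.Point → Option (K × K)
  | .zero => none
  | .some x y _ => some (x, y)

lemma wrMainCoord_injective : Function.Injective (wrMainCoord W) := by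
  intro P Q h
  cases P with
  | zero =>
    cases Q with
    | zero => rfl
    | some x y h' => simp [wrMainCoord] at h
  | some x y h' =>
    cases Q with
    | zero => simp [wrMainCoord] at h
    | some x' y' h'' =>
      simp only [wrMainCoord, Option.some.injEq, Prod.mk.injEq] at h
      obtain ⟨rfl, rfl⟩ := h
      rfl

/-- The quadratic polynomial whose roots are the `y`-coordinates of the points above `x`. -/
def wrMainYPoly (x : K) : K[X] :=
  X ^ 2 + C (W.a₁ * x + W.a₃) * X - C (x ^ 3 + W.a₂ * x ^ 2 + W.a₄ * x + W.a₆)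

lemma wrMainYPoly_natDegree (x : K) : (wrMainYPoly W x).natDegree = 2 := by
  unfold wrMainYPoly
  compute_degree!

lemma wrMainYPoly_ne_zero (x : K) : wrMainYPoly W x ≠ 0 := by
  intro h
  have := wrMainYPoly_natDegree W x
  rw [h, natDegree_zero] at this
  omega

lemma wrMainYPoly_isRoot {x y : K} (h : W.Equation x y) : (wrMainYPoly W x).IsRoot y := by
  rw [equation_iff] at h
  simp only [wrMainYPoly, IsRoot.def, eval_sub, eval_add, eval_pow, eval_X, eval_mul, eval_C]
  linear_combination h

/-- The finite set of `y` above `x`. -/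
def wrMainYs (x : K) : Finset K := (wrMainYPoly W x).roots.toFinset

lemma wrMainYs_card (x : K) : (wrMainYs W x).card ≤ 2 := by
  have h1 := Multiset.toFinset_card_le (wrMainYPoly W x).roots
  have h2 := card_roots' (wrMainYPoly W x)
  rw [wrMainYPoly_natDegree] at h2
  exact h1.trans h2

lemma wrMainYs_mem {x y : K} (h : W.Equation x y) : y ∈ wrMainYs W x := by
  rw [wrMainYs, Multiset.mem_toFinset, mem_roots (wrMainYPoly_ne_zero W x)]
  exact wrMainYPoly_isRoot W h

/-- The finite set of pairs `(x, y)` on the curve with `x ∈ S0`. -/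
def wrMainPts (S0 : Finset K) : Finset (K × K) :=
  S0.biUnion fun x => (wrMainYs W x).image (Prod.mk x)

lemma wrMainPts_card (S0 : Finset K) : (wrMainPts W S0).card ≤ 2 * S0.card := by
  rw [mul_comm]
  apply Finset.card_biUnion_le_card_mul
  intro x _
  exact Finset.card_image_le.trans (wrMainYs_card W x)

lemma wrMainPts_mem {S0 : Finset K} {x y : K} (hx : x ∈ S0) (h : W.Equation x y) :
    (x, y) ∈ wrMainPts W S0 := by
  rw [wrMainPts, Finset.mem_biUnion]
  exact ⟨x, hx, Finset.mem_image.2 ⟨y, wrMainYs_mem W h, rfl⟩⟩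

/-- If all nonzero points of a set have `x`-coordinate in the finite set `S0` then the set is
finite with at most `2 #S0 + 1` elements. -/
theorem wr_main_count (Tset : Set W.Point) (S0 : Finset K)
    (hS0 : ∀ (x y : K) (h : W.Nonsingular x y), Point.some x y h ∈ Tset → x ∈ S0) :
    Tset.Finite ∧ Tset.ncard ≤ 2 * S0.card + 1 := by
  classical
  set F : Finset (Option (K × K)) := insert none ((wrMainPts W S0).image some) with hF
  have hsub : wrMainCoord W '' Tset ⊆ (F : Set (Option (K × K))) := by
    rintro _ ⟨T, hT, rfl⟩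
    cases T with
    | zero => simp [hF, wrMainCoord]
    | some x y h =>
      have hx := hS0 x y h hT
      have := wrMainPts_mem W hx h.1
      simp only [hF, wrMainCoord, Finset.coe_insert, Finset.coe_image, Set.mem_insert_iff,
        Set.mem_image, Finset.mem_coe, reduceCtorEq, false_or]
      exact ⟨(x, y), this, rfl⟩
  have hfin : (wrMainCoord W '' Tset).Finite := (Finset.finite_toSet F).subset hsub
  refine ⟨hfin.of_finite_image (wrMainCoord_injective W).injOn, ?_⟩
  rw [← Set.ncard_image_of_injective Tset (wrMainCoord_injective W)]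
  have h1 := Set.ncard_le_ncard hsub (Finset.finite_toSet F)
  rw [Set.ncard_coe_finset] at h1
  have h2 : F.card ≤ (wrMainPts W S0).card + 1 := by
    rw [hF]
    exact (Finset.card_insert_le _ _).trans (add_le_add_left Finset.card_image_le 1)
  have h3 := wrMainPts_card W S0
  omega

/-! ### The torsion submodule -/

lemma wr_main_mem_torsionBy {p : ℕ} {T : W.Point} :
    T ∈ Submodule.torsionBy ℤ W.Point (p : ℤ) ↔ p • T = 0 := by
  rw [Submodule.mem_torsionBy_iff, natCast_zsmul]

lemma wr_main_two_mul_add_one {p : ℕ} (hp : Odd p) : 2 * ((p ^ 2 - 1) / 2) + 1 = p ^ 2 := by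
  obtain ⟨k, rfl⟩ := hp
  have h : (2 * k + 1) ^ 2 = 2 * (2 * (k * k + k)) + 1 := by ring
  rw [h]
  omega

/-- **Cardinality bound**, generic form. -/
theorem wr_main_gen_card_le {p : ℕ} (hp : Odd p) (a b : K[X]) (M : ℕ)
    (hdeg : a.natDegree ≤ M) (ha : a ≠ 0)
    (htors : ∀ (x y : K) (h : W.Nonsingular x y),
      p • Point.some x y h = 0 ↔ a.eval x + b.eval x * y = 0) :
    Finite (Submodule.torsionBy ℤ W.Point (p : ℤ)) ∧
      Nat.card (Submodule.torsionBy ℤ W.Point (p : ℤ)) ≤ 2 * M + 1 := by
  classical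
  have hcount := wr_main_count W (Submodule.torsionBy ℤ W.Point (p : ℤ) : Set W.Point)
    a.roots.toFinset (by
      intro x y h hT
      have hpT : p • Point.some x y h = 0 := (wr_main_mem_torsionBy W).1 hT
      have := (wr_main_gen_root W hp a b htors h hpT).1
      rw [Multiset.mem_toFinset, mem_roots ha]
      exact this)
  have hS : a.roots.toFinset.card ≤ M :=
    (Multiset.toFinset_card_le _).trans ((card_roots' a).trans hdeg)
  refine ⟨hcount.1.to_subtype, ?_⟩
  have h1 : Nat.card (Submodule.torsionBy ℤ W.Point (p : ℤ)) =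
      (Submodule.torsionBy ℤ W.Point (p : ℤ) : Set W.Point).ncard :=
    Nat.card_coe_set_eq _
  rw [h1]
  have := hcount.2
  omega

/-- **Product formula**, generic form: if the `p`-torsion has `2 M + 1` elements then `a` is the
product over the `x`-coordinates of the nonzero torsion points, and `b = 0`. -/
theorem wr_main_gen_prod {p : ℕ} (hp : Odd p) (a b : K[X]) (M : ℕ)
    (hdeg : a.natDegree ≤ M) (ha : a ≠ 0) (hQ : b.natDegree < M)
    (htors : ∀ (x y : K) (h : W.Nonsingular x y),
      p • Point.some x y h = 0 ↔ a.eval x + b.eval x * y = 0)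
    (hcard : Nat.card (Submodule.torsionBy ℤ W.Point (p : ℤ)) = 2 * M + 1) :
    ∃ S : Finset K, S.card = M ∧
      (∀ x, x ∈ S ↔ ∃ y, ∃ h : W.Nonsingular x y, p • Point.some x y h = 0) ∧
      a = C (a.coeff M) * ∏ x ∈ S, (X - C x) ∧ b = 0 := by
  classical
  set S : Finset K :=
    a.roots.toFinset.filter (fun x => ∃ y, ∃ h : W.Nonsingular x y, p • Point.some x y h = 0)
    with hSdef
  have hmemS : ∀ x, x ∈ S ↔ ∃ y, ∃ h : W.Nonsingular x y, p • Point.some x y h = 0 := by
    intro x
    rw [hSdef, Finset.mem_filter, Multiset.mem_toFinset, mem_roots ha]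
    constructor
    · exact fun h => h.2
    · rintro ⟨y, h, hpT⟩
      exact ⟨(wr_main_gen_root W hp a b htors h hpT).1, y, h, hpT⟩
  have hcount := wr_main_count W (Submodule.torsionBy ℤ W.Point (p : ℤ) : Set W.Point) S (by
      intro x y h hT
      have hpT : p • Point.some x y h = 0 := (wr_main_mem_torsionBy W).1 hT
      exact (hmemS x).2 ⟨y, h, hpT⟩)
  have h1 : Nat.card (Submodule.torsionBy ℤ W.Point (p : ℤ)) =
      (Submodule.torsionBy ℤ W.Point (p : ℤ) : Set W.Point).ncard :=
    Nat.card_coe_set_eq _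
  have hSge : M ≤ S.card := by
    have := hcount.2
    rw [← h1, hcard] at this
    omega
  have hsub : S ⊆ a.roots.toFinset := Finset.filter_subset _ _
  have hle1 : S.card ≤ a.roots.toFinset.card := Finset.card_le_card hsub
  have hle2 : a.roots.toFinset.card ≤ Multiset.card a.roots := Multiset.toFinset_card_le _
  have hle3 : Multiset.card a.roots ≤ a.natDegree := card_roots' a
  have hScard : S.card = M := by omega
  have hSeq : S = a.roots.toFinset := Finset.eq_of_subset_of_card_le hsub (by omega)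
  have hnodup : a.roots.Nodup := by
    rw [← Multiset.toFinset_card_eq_card_iff_nodup]
    omega
  have hroots : Multiset.card a.roots = a.natDegree := by omega
  have hnat : a.natDegree = M := by omega
  have hval : S.val = a.roots := by
    rw [hSeq, Multiset.toFinset_val, Multiset.dedup_eq_self.2 hnodup]
  refine ⟨S, hScard, hmemS, ?_, ?_⟩
  · have h := C_leadingCoeff_mul_prod_multiset_X_sub_C hroots
    have hlc : a.leadingCoeff = a.coeff M := by rw [leadingCoeff, hnat]
    rw [hlc, ← hval] at h
    exact h.symm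
  · apply eq_zero_of_natDegree_lt_card_of_eval_eq_zero' b S
    · intro x hx
      obtain ⟨y, h, hpT⟩ := (hmemS x).1 hx
      exact (wr_main_gen_root W hp a b htors h hpT).2
    · omega

/-! ### The statements for the Wronskian polynomial -/

section Main

variable (p : ℕ) (v : K)

/-- **(A)** existence of a nonzero point killed by `p`. -/
theorem wr_main_exists [IsAlgClosed K] (hΔ : W.Δ ≠ 0) (hp : p.Prime) (hp2 : p ≠ 2)
    (hv : v ≠ 0) (hdeg : (wrPoly W p).natDegree ≤ (p ^ 2 - 1) / 2)
    (hlc : (wrPoly W p).coeff ((p ^ 2 - 1) / 2) = v)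
    (hQ : (wrPolyQ W p).natDegree + 2 ≤ (p ^ 2 - 1) / 2)
    (htors : ∀ (x y : K) (h : W.Nonsingular x y), p • Point.some x y h = 0 ↔
      (wrPoly W p).eval x + (wrPolyQ W p).eval x * y = 0) :
    ∃ P : W.Point, P ≠ 0 ∧ p • P = 0 := by
  refine wr_main_gen_exists W hΔ p _ _ ((p ^ 2 - 1) / 2) (by omega) hdeg (hlc ▸ hv) hQ htors

/-- **(B')** the `x`-coordinate of a nonzero point killed by `p` is a common root of `wrPoly`
and `wrPolyQ`. -/
theorem wr_main_root (hp : p.Prime) (hp2 : p ≠ 2)
    (htors : ∀ (x y : K) (h : W.Nonsingular x y), p • Point.some x y h = 0 ↔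
      (wrPoly W p).eval x + (wrPolyQ W p).eval x * y = 0)
    {x y : K} (h : W.Nonsingular x y) (hpT : p • Point.some x y h = 0) :
    (wrPoly W p).eval x = 0 ∧ (wrPolyQ W p).eval x = 0 :=
  wr_main_gen_root W (hp.odd_of_ne_two hp2) _ _ htors h hpT

/-- **(B)** the `p`-torsion is finite with at most `p²` elements. -/
theorem wr_main_card_le (hp : p.Prime) (hp2 : p ≠ 2)
    (hv : v ≠ 0) (hdeg : (wrPoly W p).natDegree ≤ (p ^ 2 - 1) / 2)
    (hlc : (wrPoly W p).coeff ((p ^ 2 - 1) / 2) = v)
    (htors : ∀ (x y : K) (h : W.Nonsingular x y), p • Point.some x y h = 0 ↔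
      (wrPoly W p).eval x + (wrPolyQ W p).eval x * y = 0) :
    Finite (Submodule.torsionBy ℤ W.Point p) ∧
      Nat.card (Submodule.torsionBy ℤ W.Point p) ≤ p ^ 2 := by
  have hodd := hp.odd_of_ne_two hp2
  have ha : wrPoly W p ≠ 0 := by
    intro h0
    rw [h0, coeff_zero] at hlc
    exact hv hlc.symm
  have := wr_main_gen_card_le W hodd _ _ ((p ^ 2 - 1) / 2) hdeg ha htors
  rwa [wr_main_two_mul_add_one hodd] at this

/-- **(C)** the product formula when the `p`-torsion has `p²` elements. -/
theorem wr_main_prod (hp : p.Prime) (hp2 : p ≠ 2)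
    (hv : v ≠ 0) (hdeg : (wrPoly W p).natDegree ≤ (p ^ 2 - 1) / 2)
    (hlc : (wrPoly W p).coeff ((p ^ 2 - 1) / 2) = v)
    (hQ : (wrPolyQ W p).natDegree + 2 ≤ (p ^ 2 - 1) / 2)
    (htors : ∀ (x y : K) (h : W.Nonsingular x y), p • Point.some x y h = 0 ↔
      (wrPoly W p).eval x + (wrPolyQ W p).eval x * y = 0)
    (hcard : Nat.card (Submodule.torsionBy ℤ W.Point p) = p ^ 2) :
    ∃ S : Finset K, S.card = (p ^ 2 - 1) / 2 ∧
      (∀ x, x ∈ S ↔ ∃ y, ∃ h : W.Nonsingular x y, p • Point.some x y h = 0) ∧
      wrPoly W p = C v * ∏ x ∈ S, (X - C x) := by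
  have hodd := hp.odd_of_ne_two hp2
  have ha : wrPoly W p ≠ 0 := by
    intro h0
    rw [h0, coeff_zero] at hlc
    exact hv hlc.symm
  rw [← wr_main_two_mul_add_one hodd] at hcard
  obtain ⟨S, h1, h2, h3, -⟩ :=
    wr_main_gen_prod W hodd _ _ ((p ^ 2 - 1) / 2) hdeg ha (by omega) htors hcard
  rw [hlc] at h3
  exact ⟨S, h1, h2, h3⟩

/-- **(C')** `wrPolyQ = 0` when the `p`-torsion has `p²` elements. -/
theorem wr_main_polyQ_eq_zero (hp : p.Prime) (hp2 : p ≠ 2)
    (hv : v ≠ 0) (hdeg : (wrPoly W p).natDegree ≤ (p ^ 2 - 1) / 2)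
    (hlc : (wrPoly W p).coeff ((p ^ 2 - 1) / 2) = v)
    (hQ : (wrPolyQ W p).natDegree + 2 ≤ (p ^ 2 - 1) / 2)
    (htors : ∀ (x y : K) (h : W.Nonsingular x y), p • Point.some x y h = 0 ↔
      (wrPoly W p).eval x + (wrPolyQ W p).eval x * y = 0)
    (hcard : Nat.card (Submodule.torsionBy ℤ W.Point p) = p ^ 2) :
    wrPolyQ W p = 0 := by
  have hodd := hp.odd_of_ne_two hp2
  have ha : wrPoly W p ≠ 0 := by
    intro h0
    rw [h0, coeff_zero] at hlc
    exact hv hlc.symm
  rw [← wr_main_two_mul_add_one hodd] at hcard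
  obtain ⟨S, -, -, -, h4⟩ :=
    wr_main_gen_prod W hodd _ _ ((p ^ 2 - 1) / 2) hdeg ha (by omega) htors hcard
  exact h4

end Main

end

end Fermat.Agent.M13
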