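import Mathlib
import Fermat.Agent.M13.WrBasic

/-!
# Taylor criterion for the invariant derivation at a nonsingular point

For a nonsingular point `P = (x, y)` of a Weierstrass curve `W` over a field `K` of characteristic
zero, with maximal ideal `m = XYIdeal W x (C y)` of the coordinate ring and evaluation
`wrEv W h : W.CoordinateRing →ₐ[K] K`:

* `wr_ker_ev` : the kernel of `wrEv` is `m`;
* `wr_taylor` : `f ∈ m ^ k ↔ ∀ i < k, wrEv W h ((wrD W)^[i] f) = 0`;
* `wr_finrank_quot_pow` : `finrank K (A ⧸ m ^ k) = k`.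
-/

set_option autoImplicit false

namespace Fermat.Agent.M13

open Polynomial WeierstrassCurve WeierstrassCurve.Affine

open scoped Polynomial.Bivariate

noncomputable section

section abstractTaylor

variable {K A : Type*} [Field K] [CommRing A] [Algebra K A]
  (D : Derivation K A A) (ev : A →ₐ[K] K)

/-- A derivation lowers the order of vanishing along an ideal by at most one. -/
lemma wr_abs_D_mem_pow (I : Ideal A) (k : ℕ) {f : A} (hf : f ∈ I ^ (k + 1)) : D f ∈ I ^ k := by
  induction k generalizing f with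
  | zero => simp
  | succ k ih =>
    rw [pow_succ] at hf
    refine Submodule.mul_induction_on hf ?_ ?_
    · intro a ha b hb
      rw [Derivation.leibniz]
      refine Ideal.add_mem _ ?_ ?_
      · rw [smul_eq_mul]
        exact Ideal.mul_mem_right _ _ ha
      · rw [smul_eq_mul, pow_succ, mul_comm b]
        exact Ideal.mul_mem_mul (ih ha) hb
    · intro a b ha hb
      rw [map_add]
      exact Ideal.add_mem _ ha hb

lemma wr_abs_iter_mem_pow (I : Ideal A) (i k : ℕ) {f : A} (hf : f ∈ I ^ (k + i)) :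
    (⇑D)^[i] f ∈ I ^ k := by
  induction i generalizing f k with
  | zero => simpa using hf
  | succ i ih =>
    rw [Function.iterate_succ_apply']
    apply wr_abs_D_mem_pow D I k
    apply ih (k + 1)
    rw [show k + 1 + i = k + (i + 1) by ring]
    exact hf

lemma wr_abs_jet_zero_of_mem {f : A} {k : ℕ} (hf : f ∈ (RingHom.ker ev) ^ k) {i : ℕ}
    (hi : i < k) : ev ((⇑D)^[i] f) = 0 := by
  have h1 : f ∈ (RingHom.ker ev) ^ (1 + i) := Ideal.pow_le_pow_right (by omega) hf
  have h2 := wr_abs_iter_mem_pow D (RingHom.ker ev) i 1 h1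
  rw [pow_one] at h2
  exact h2

lemma wr_abs_jet_pow {t : A} (ht : ev t = 0) (j : ℕ) (g : A) :
    ev ((⇑D)^[j] (t ^ j * g)) = (j.factorial : K) * ev (D t) ^ j * ev g := by
  induction j generalizing g with
  | zero => simp
  | succ j ih =>
    rw [Function.iterate_succ_apply]
    have h1 : D (t ^ (j + 1) * g) = t ^ j * (((j + 1 : ℕ) : A) * D t * g) + t ^ (j + 1) * D g := by
      rw [Derivation.leibniz, Derivation.leibniz_pow]
      simp only [smul_eq_mul, nsmul_eq_mul, Nat.add_sub_cancel]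
      ring
    rw [h1, iterate_map_add, map_add, ih]
    have h2 : ev ((⇑D)^[j] (t ^ (j + 1) * D g)) = 0 := by
      apply wr_abs_jet_zero_of_mem D ev (k := j + 1) _ (Nat.lt_succ_self j)
      apply Ideal.mul_mem_right
      exact Ideal.pow_mem_pow (by simpa [RingHom.mem_ker] using ht) _
    rw [h2, add_zero, map_mul, map_mul, map_natCast, Nat.factorial_succ]
    push_cast
    ring

lemma wr_abs_pow_le {t : A} (ht : ev t = 0)
    (hm : RingHom.ker ev ≤ Ideal.span {t} ⊔ (RingHom.ker ev) ^ 2) (k : ℕ) :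
    (RingHom.ker ev) ^ k ≤ Ideal.span {t ^ k} ⊔ (RingHom.ker ev) ^ (k + 1) := by
  have htm : Ideal.span {t} ≤ RingHom.ker ev := by
    rw [Ideal.span_singleton_le_iff_mem]; exact ht
  induction k with
  | zero => simp
  | succ k ih =>
    have htk : Ideal.span {t ^ k} ≤ (RingHom.ker ev) ^ k := by
      rw [← Ideal.span_singleton_pow]
      exact Ideal.pow_right_mono htm k
    calc (RingHom.ker ev) ^ (k + 1) = (RingHom.ker ev) ^ k * RingHom.ker ev := pow_succ _ _
      _ ≤ (Ideal.span {t ^ k} ⊔ (RingHom.ker ev) ^ (k + 1)) *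
          (Ideal.span {t} ⊔ (RingHom.ker ev) ^ 2) := Ideal.mul_mono ih hm
      _ ≤ Ideal.span {t ^ (k + 1)} ⊔ (RingHom.ker ev) ^ (k + 1 + 1) := by
        rw [Ideal.sup_mul, Ideal.mul_sup, Ideal.mul_sup]
        refine sup_le (sup_le ?_ ?_) (sup_le ?_ ?_)
        · rw [Ideal.span_singleton_mul_span_singleton, ← pow_succ]
          exact le_sup_left
        · refine le_trans ?_ le_sup_right
          calc Ideal.span {t ^ k} * (RingHom.ker ev) ^ 2 ≤ (RingHom.ker ev) ^ k * (RingHom.ker ev) ^ 2 :=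
                Ideal.mul_mono_left htk
            _ = (RingHom.ker ev) ^ (k + 1 + 1) := by rw [← pow_add]
        · refine le_trans ?_ le_sup_right
          calc (RingHom.ker ev) ^ (k + 1) * Ideal.span {t} ≤ (RingHom.ker ev) ^ (k + 1) * RingHom.ker ev :=
                Ideal.mul_mono_right htm
            _ = (RingHom.ker ev) ^ (k + 1 + 1) := by rw [← pow_succ]
        · refine le_trans ?_ le_sup_right
          rw [← pow_add]
          exact Ideal.pow_le_pow_right (by omega)

lemma wr_abs_mem_pow_of_jets [CharZero K] {t : A} (ht : ev t = 0) (hDt : ev (D t) ≠ 0)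
    (hm : RingHom.ker ev ≤ Ideal.span {t} ⊔ (RingHom.ker ev) ^ 2) (k : ℕ) {f : A}
    (hf : ∀ i < k, ev ((⇑D)^[i] f) = 0) : f ∈ (RingHom.ker ev) ^ k := by
  induction k with
  | zero => simp
  | succ k ih =>
    have h1 : f ∈ (RingHom.ker ev) ^ k := ih fun i hi => hf i (by omega)
    have h2 := wr_abs_pow_le ev ht hm k h1
    obtain ⟨u, hu, g, hg, rfl⟩ := Submodule.mem_sup.mp h2
    obtain ⟨a, rfl⟩ := Ideal.mem_span_singleton'.mp hu
    have h3 := hf k (Nat.lt_succ_self k)
    rw [iterate_map_add, map_add, wr_abs_jet_zero_of_mem D ev hg (Nat.lt_succ_self k), add_zero,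
      mul_comm a, wr_abs_jet_pow D ev ht] at h3
    have h4 : ev a = 0 := by
      rcases mul_eq_zero.mp h3 with h5 | h5
      · exfalso
        rcases mul_eq_zero.mp h5 with h6 | h6
        · exact (Nat.cast_ne_zero.mpr (Nat.factorial_ne_zero k)) h6
        · exact hDt ((pow_eq_zero_iff (M₀ := K) (n := k) (a := ev (D t)) (by rintro rfl; simp at h6)).mp h6)
      · exact h5
    refine Ideal.add_mem _ ?_ hg
    rw [pow_succ, mul_comm a]
    exact Ideal.mul_mem_mul (Ideal.pow_mem_pow (by simpa [RingHom.mem_ker] using ht) _)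
      (by simpa [RingHom.mem_ker] using h4)

theorem wr_abs_taylor [CharZero K] {t : A} (ht : ev t = 0) (hDt : ev (D t) ≠ 0)
    (hm : RingHom.ker ev ≤ Ideal.span {t} ⊔ (RingHom.ker ev) ^ 2) (k : ℕ) (f : A) :
    f ∈ (RingHom.ker ev) ^ k ↔ ∀ i < k, ev ((⇑D)^[i] f) = 0 :=
  ⟨fun hf _ hi => wr_abs_jet_zero_of_mem D ev hf hi,
    fun hf => wr_abs_mem_pow_of_jets D ev ht hDt hm k hf⟩

lemma wr_abs_jet_surj [CharZero K] {t : A} (ht : ev t = 0) (hDt : ev (D t) ≠ 0) (k : ℕ)
    (c : ℕ → K) : ∃ f : A, ∀ i < k, ev ((⇑D)^[i] f) = c i := by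
  induction k with
  | zero => exact ⟨0, fun i hi => absurd hi (Nat.not_lt_zero i)⟩
  | succ k ih =>
    obtain ⟨f₀, hf₀⟩ := ih
    have hne : ((k.factorial : K) * ev (D t) ^ k) ≠ 0 :=
      mul_ne_zero (Nat.cast_ne_zero.mpr (Nat.factorial_ne_zero k)) (pow_ne_zero _ hDt)
    refine ⟨f₀ + t ^ k * algebraMap K A ((c k - ev ((⇑D)^[k] f₀)) /
      ((k.factorial : K) * ev (D t) ^ k)), fun i hi => ?_⟩
    rw [iterate_map_add, map_add]
    rcases Nat.lt_succ_iff_lt_or_eq.mp hi with h | rfl
    · rw [hf₀ i h, wr_abs_jet_zero_of_mem D ev (k := k) _ h, add_zero]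
      apply Ideal.mul_mem_right
      exact Ideal.pow_mem_pow (by simpa [RingHom.mem_ker] using ht) _
    · rw [wr_abs_jet_pow D ev ht, AlgHom.commutes, Algebra.algebraMap_self_apply,
        mul_div_cancel₀ _ hne]
      ring

end abstractTaylor

section abstractJet

variable {K A : Type*} [Field K] [CommRing A] [Algebra K A]
  (D : Derivation K A A) (ev : A →ₐ[K] K)

lemma wr_abs_iter_smul (c : K) (f : A) (i : ℕ) : (⇑D)^[i] (c • f) = c • (⇑D)^[i] f := by
  induction i generalizing f with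
  | zero => rfl
  | succ i ih => rw [Function.iterate_succ_apply, Function.iterate_succ_apply, Derivation.map_smul, ih]

/-- The `k`-jet map `f ↦ (ev (D^i f))_{i<k}`. -/
def wrJetLin (k : ℕ) : A →ₗ[K] (Fin k → K) where
  toFun f i := ev ((⇑D)^[i] f)
  map_add' f g := by
    funext i
    simp only [iterate_map_add, map_add, Pi.add_apply]
  map_smul' c f := by
    funext i
    simp only [wr_abs_iter_smul, map_smul, Pi.smul_apply, RingHom.id_apply]

lemma wrJetLin_apply (k : ℕ) (f : A) (i : Fin k) : wrJetLin D ev k f i = ev ((⇑D)^[i] f) := rfl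

lemma wr_abs_ker_jet [CharZero K] {t : A} (ht : ev t = 0) (hDt : ev (D t) ≠ 0)
    (hm : RingHom.ker ev ≤ Ideal.span {t} ⊔ (RingHom.ker ev) ^ 2) (k : ℕ) :
    LinearMap.ker (wrJetLin D ev k) = ((RingHom.ker ev) ^ k).restrictScalars K := by
  ext f
  rw [LinearMap.mem_ker, Submodule.restrictScalars_mem, wr_abs_taylor D ev ht hDt hm]
  constructor
  · intro h i hi
    exact congrFun h ⟨i, hi⟩
  · intro h
    funext i
    exact h i i.2

lemma wr_abs_jet_surjective [CharZero K] {t : A} (ht : ev t = 0) (hDt : ev (D t) ≠ 0) (k : ℕ) :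
    Function.Surjective (wrJetLin D ev k) := by
  intro c
  obtain ⟨f, hf⟩ := wr_abs_jet_surj D ev ht hDt k (fun i => if h : i < k then c ⟨i, h⟩ else 0)
  refine ⟨f, ?_⟩
  funext i
  rw [wrJetLin_apply, hf i i.2, dif_pos i.2]

/-- The quotient by the `k`-th power of the kernel of `ev` is `K^k`. -/
def wrAbsQuotEquiv [CharZero K] {t : A} (ht : ev t = 0) (hDt : ev (D t) ≠ 0)
    (hm : RingHom.ker ev ≤ Ideal.span {t} ⊔ (RingHom.ker ev) ^ 2) (k : ℕ) :
    (A ⧸ (RingHom.ker ev) ^ k) ≃ₗ[K] (Fin k → K) :=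
  ((Submodule.Quotient.restrictScalarsEquiv K ((RingHom.ker ev) ^ k)).symm.trans
    (Submodule.quotEquivOfEq _ _ (wr_abs_ker_jet D ev ht hDt hm k).symm)).trans
    ((wrJetLin D ev k).quotKerEquivOfSurjective (wr_abs_jet_surjective D ev ht hDt k))

theorem wr_abs_finrank [CharZero K] {t : A} (ht : ev t = 0) (hDt : ev (D t) ≠ 0)
    (hm : RingHom.ker ev ≤ Ideal.span {t} ⊔ (RingHom.ker ev) ^ 2) (k : ℕ) :
    Module.finrank K (A ⧸ (RingHom.ker ev) ^ k) = k := by
  rw [(wrAbsQuotEquiv D ev ht hDt hm k).finrank_eq]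
  simp

lemma wr_abs_finite [CharZero K] {t : A} (ht : ev t = 0) (hDt : ev (D t) ≠ 0)
    (hm : RingHom.ker ev ≤ Ideal.span {t} ⊔ (RingHom.ker ev) ^ 2) (k : ℕ) :
    Module.Finite K (A ⧸ (RingHom.ker ev) ^ k) :=
  Module.Finite.equiv (wrAbsQuotEquiv D ev ht hDt hm k).symm

end abstractJet

section evaluation

variable {R : Type*} [CommRing R] (W : WeierstrassCurve.Affine R) {x y : R}

/-- Evaluation of elements of the coordinate ring at a point `(x, y)` of the curve. -/
def wrEv (h : W.Equation x y) : W.CoordinateRing →ₐ[R] R :=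
  { AdjoinRoot.evalEval (p := W.polynomial) (x := x) (y := y) h with
    commutes' := fun r =>
      (AdjoinRoot.evalEval_mk (p := W.polynomial) (x := x) (y := y) h (C (C r))).trans
        (evalEval_CC x y r) }

lemma wrEv_mk (h : W.Equation x y) (g : R[X][Y]) :
    wrEv W h (CoordinateRing.mk W g) = g.evalEval x y :=
  AdjoinRoot.evalEval_mk h g

lemma wrEv_wrMk (h : W.Equation x y) (p q : R[X]) :
    wrEv W h (wrMk W p q) = p.eval x + q.eval x * y := by
  have h1 : wrMk W p q = CoordinateRing.mk W (C p + C q * Y) := by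
    simp only [wrMk, CoordinateRing.smul, mul_one, map_add, map_mul]
  rw [h1, wrEv_mk]
  simp [evalEval]

lemma wrEv_eq (h : W.Equation x y) (f : W.CoordinateRing) :
    wrEv W h f = (wrP W f).eval x + (wrQ W f).eval x * y := by
  conv_lhs => rw [← wrMk_wrP_wrQ W f]
  exact wrEv_wrMk W h _ _

lemma wrEv_XClass (h : W.Equation x y) : wrEv W h (CoordinateRing.XClass W x) = 0 := by
  rw [CoordinateRing.XClass, wrEv_mk]
  simp [evalEval]

lemma wrEv_YClass (h : W.Equation x y) : wrEv W h (CoordinateRing.YClass W (C y)) = 0 := by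
  rw [CoordinateRing.YClass, wrEv_mk]
  simp [evalEval]

lemma wr_XClass_eq : CoordinateRing.XClass W x = wrMk W (X - C x) 0 := by
  simp only [wrMk, CoordinateRing.XClass, CoordinateRing.smul, mul_one, zero_smul, add_zero]

lemma wr_YClass_eq : CoordinateRing.YClass W (C y) = wrMk W (- C y) 1 := by
  simp only [wrMk, CoordinateRing.YClass, CoordinateRing.smul, mul_one, one_smul, map_sub,
    map_neg]
  ring

lemma wr_sub_ev_mem (h : W.Equation x y) (f : W.CoordinateRing) :
    f - algebraMap R W.CoordinateRing (wrEv W h f) ∈ CoordinateRing.XYIdeal W x (C y) := by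
  obtain ⟨p, q, rfl⟩ : ∃ p q, f = wrMk W p q := ⟨_, _, (wrMk_wrP_wrQ W f).symm⟩
  rw [wrEv_wrMk]
  obtain ⟨p1, hp1⟩ : (X - C x) ∣ p - C (p.eval x) := by
    rw [Polynomial.dvd_iff_isRoot]; simp
  obtain ⟨q1, hq1⟩ : (X - C x) ∣ q - C (q.eval x) := by
    rw [Polynomial.dvd_iff_isRoot]; simp
  have hX : CoordinateRing.XClass W x ∈ CoordinateRing.XYIdeal W x (C y) :=
    Ideal.subset_span (by simp)
  have hY : CoordinateRing.YClass W (C y) ∈ CoordinateRing.XYIdeal W x (C y) :=
    Ideal.subset_span (by simp)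
  have e1 : p = C (p.eval x) + (X - C x) * p1 := by rw [← hp1]; ring
  have e2 : q = C (q.eval x) + (X - C x) * q1 := by rw [← hq1]; ring
  have key : ∀ P0 Q0 : R, wrMk W (C P0 + (X - C x) * p1) (C Q0 + (X - C x) * q1) -
      algebraMap R W.CoordinateRing (P0 + Q0 * y) =
      CoordinateRing.XClass W x * (wrMk W p1 0 + wrMk W q1 0 * CoordinateRing.mk W Y) +
        CoordinateRing.YClass W (C y) * wrMk W (C Q0) 0 := by
    intro P0 Q0
    have e3 : algebraMap R W.CoordinateRing (P0 + Q0 * y) =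
        CoordinateRing.mk W (C (C (P0 + Q0 * y))) := rfl
    rw [e3]
    simp only [wrMk, CoordinateRing.XClass, CoordinateRing.YClass, CoordinateRing.smul, mul_one,
      zero_smul, add_zero, map_add, map_mul, map_sub]
    ring
  have key2 := key (p.eval x) (q.eval x)
  rw [← e1, ← e2] at key2
  rw [key2]
  exact Ideal.add_mem _ (Ideal.mul_mem_right _ _ hX) (Ideal.mul_mem_right _ _ hY)

theorem wr_ker_ev (h : W.Equation x y) :
    RingHom.ker (wrEv W h) = CoordinateRing.XYIdeal W x (C y) := by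
  apply le_antisymm
  · intro f hf
    rw [RingHom.mem_ker] at hf
    have := wr_sub_ev_mem W h f
    rwa [hf, map_zero, sub_zero] at this
  · rw [CoordinateRing.XYIdeal, Ideal.span_le]
    rintro f (rfl | rfl)
    · exact wrEv_XClass W h
    · exact wrEv_YClass W h

lemma wrEv_mem_iff (h : W.Equation x y) (f : W.CoordinateRing) :
    f ∈ CoordinateRing.XYIdeal W x (C y) ↔ wrEv W h f = 0 := by
  rw [← wr_ker_ev W h, RingHom.mem_ker]

end evaluation

section uniformizer

variable {R : Type*} [CommRing R] (W : WeierstrassCurve.Affine R) {x y : R}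

lemma wrEv_wrD_XClass (h : W.Equation x y) :
    wrEv W h (wrD W (CoordinateRing.XClass W x)) = 2 * y + W.a₁ * x + W.a₃ := by
  rw [wr_XClass_eq, wrD_wrMk, wrEv_wrMk]
  simp [wrDP, wrDQ, wrL]
  ring

lemma wrEv_wrD_YClass (h : W.Equation x y) :
    wrEv W h (wrD W (CoordinateRing.YClass W (C y))) =
      -(W.a₁ * y - (3 * x ^ 2 + 2 * W.a₂ * x + W.a₄)) := by
  rw [wr_YClass_eq, wrD_wrMk, wrEv_wrMk]
  simp [wrDP, wrDQ, wrC']
  ring

/-- The Taylor expansion of the Weierstrass equation at a point of the curve. -/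
lemma wr_taylor_identity (h : W.Equation x y) :
    algebraMap R W.CoordinateRing (W.a₁ * y - (3 * x ^ 2 + 2 * W.a₂ * x + W.a₄)) *
        CoordinateRing.XClass W x +
      algebraMap R W.CoordinateRing (2 * y + W.a₁ * x + W.a₃) * CoordinateRing.YClass W (C y) +
      (CoordinateRing.YClass W (C y) ^ 2 +
        algebraMap R W.CoordinateRing W.a₁ * CoordinateRing.XClass W x *
          CoordinateRing.YClass W (C y) -
        algebraMap R W.CoordinateRing (3 * x + W.a₂) * CoordinateRing.XClass W x ^ 2 -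
        CoordinateRing.XClass W x ^ 3) = 0 := by
  have hpoly : (C (C (W.a₁ * y - (3 * x ^ 2 + 2 * W.a₂ * x + W.a₄))) * C (X - C x) +
      C (C (2 * y + W.a₁ * x + W.a₃)) * (Y - C (C y)) +
      ((Y - C (C y)) ^ 2 + C (C W.a₁) * C (X - C x) * (Y - C (C y)) -
        C (C (3 * x + W.a₂)) * C (X - C x) ^ 2 - C (X - C x) ^ 3) : R[X][Y]) =
      W.polynomial - C (C (y ^ 2 + W.a₁ * x * y + W.a₃ * y -
        (x ^ 3 + W.a₂ * x ^ 2 + W.a₄ * x + W.a₆))) := by
    rw [WeierstrassCurve.Affine.polynomial]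
    simp only [map_ofNat, C_add, C_sub, C_mul, C_pow]
    ring
  have hc : y ^ 2 + W.a₁ * x * y + W.a₃ * y - (x ^ 3 + W.a₂ * x ^ 2 + W.a₄ * x + W.a₆) = 0 := by
    rw [sub_eq_zero]
    exact (equation_iff x y).mp h
  have hz : CoordinateRing.mk W W.polynomial = 0 := AdjoinRoot.mk_self
  have hA : ∀ r : R, algebraMap R W.CoordinateRing r = CoordinateRing.mk W (C (C r)) :=
    fun _ => rfl
  rw [hc, map_zero, map_zero, sub_zero] at hpoly
  have h2 := congrArg (CoordinateRing.mk W) hpoly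
  rw [hz] at h2
  rw [← h2]
  simp only [hA, CoordinateRing.XClass, CoordinateRing.YClass, map_add, map_sub, map_mul, map_pow]

end uniformizer

section field

lemma wr_unif_aux {K A : Type*} [Field K] [CommRing A] [Algebra K A] (m : Ideal A) (u v : A)
    (hm : m = Ideal.span {u, v}) (a b : K) (r : A) (hr : r ∈ m ^ 2)
    (hT : algebraMap K A a * u + algebraMap K A b * v + r = 0) (hb : b ≠ 0) :
    m ≤ Ideal.span {u} ⊔ m ^ 2 := by
  have hu' : u ∈ Ideal.span {u} ⊔ m ^ 2 := Ideal.mem_sup_left (Ideal.subset_span rfl)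
  have h1 : algebraMap K A b * v ∈ Ideal.span {u} ⊔ m ^ 2 := by
    have : algebraMap K A b * v = -(algebraMap K A a * u) - r := by
      linear_combination hT
    rw [this]
    exact Ideal.sub_mem _ (neg_mem (Ideal.mul_mem_left _ _ hu')) (Ideal.mem_sup_right hr)
  have h2 : v = algebraMap K A b⁻¹ * (algebraMap K A b * v) := by
    rw [← mul_assoc, ← map_mul, inv_mul_cancel₀ hb, map_one, one_mul]
  have h3 : v ∈ Ideal.span {u} ⊔ m ^ 2 := by
    rw [h2]; exact Ideal.mul_mem_left _ _ h1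
  intro f hf
  rw [hm] at hf
  refine (Ideal.span_le (I := Ideal.span {u} ⊔ m ^ 2)).mpr ?_ hf
  intro g hg
  rcases hg with hg | hg
  · rw [hg]; exact hu'
  · rw [Set.mem_singleton_iff.mp hg]; exact h3

variable {K : Type*} [Field K] (W : WeierstrassCurve.Affine K) {x y : K}

lemma wr_unif (h : W.Nonsingular x y) :
    ∃ t : W.CoordinateRing, wrEv W h.1 t = 0 ∧ wrEv W h.1 (wrD W t) ≠ 0 ∧
      RingHom.ker (wrEv W h.1) ≤ Ideal.span {t} ⊔ (RingHom.ker (wrEv W h.1)) ^ 2 := by
  have hT := wr_taylor_identity W h.1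
  have hu : CoordinateRing.XClass W x ∈ RingHom.ker (wrEv W h.1) := wrEv_XClass W h.1
  have hv : CoordinateRing.YClass W (C y) ∈ RingHom.ker (wrEv W h.1) := wrEv_YClass W h.1
  have hrest : CoordinateRing.YClass W (C y) ^ 2 +
        algebraMap K W.CoordinateRing W.a₁ * CoordinateRing.XClass W x *
          CoordinateRing.YClass W (C y) -
        algebraMap K W.CoordinateRing (3 * x + W.a₂) * CoordinateRing.XClass W x ^ 2 -
        CoordinateRing.XClass W x ^ 3 ∈ (RingHom.ker (wrEv W h.1)) ^ 2 := by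
    refine Ideal.sub_mem _ (Ideal.sub_mem _ (Ideal.add_mem _ ?_ ?_) ?_) ?_
    · exact Ideal.pow_mem_pow hv 2
    · rw [mul_assoc, pow_two]
      exact Ideal.mul_mem_left _ _ (Ideal.mul_mem_mul hu hv)
    · exact Ideal.mul_mem_left _ _ (Ideal.pow_mem_pow hu 2)
    · exact Ideal.pow_le_pow_right (by norm_num) (Ideal.pow_mem_pow hu 3)
  have hmeq : RingHom.ker (wrEv W h.1) =
      Ideal.span {CoordinateRing.XClass W x, CoordinateRing.YClass W (C y)} := wr_ker_ev W h.1
  rcases ((nonsingular_iff' x y).mp h).2 with hx | hy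
  · -- `F_X ≠ 0`: `t = v`
    refine ⟨CoordinateRing.YClass W (C y), hv, ?_, ?_⟩
    · rw [wrEv_wrD_YClass]
      exact neg_ne_zero.mpr hx
    · refine wr_unif_aux _ _ _ (hmeq.trans (by rw [Set.pair_comm])) (2 * y + W.a₁ * x + W.a₃)
        (W.a₁ * y - (3 * x ^ 2 + 2 * W.a₂ * x + W.a₄)) _ hrest ?_ hx
      rw [← hT]; ring
  · -- `F_Y ≠ 0`: `t = u`
    refine ⟨CoordinateRing.XClass W x, hu, ?_, ?_⟩
    · rw [wrEv_wrD_XClass]
      exact hy
    · exact wr_unif_aux _ _ _ hmeq _ _ _ hrest hT hy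

/-- **Taylor criterion**: a function vanishes to order `≥ k` at a nonsingular point iff its first
`k` jets with respect to the invariant derivation vanish there. -/
theorem wr_taylor [CharZero K] (h : W.Nonsingular x y) (k : ℕ) (f : W.CoordinateRing) :
    f ∈ CoordinateRing.XYIdeal W x (C y) ^ k ↔ ∀ i < k, wrEv W h.1 ((⇑(wrD W))^[i] f) = 0 := by
  obtain ⟨t, ht, hDt, hm⟩ := wr_unif W h
  rw [← wr_ker_ev W h.1]
  exact wr_abs_taylor (wrD W) (wrEv W h.1) ht hDt hm k f

/-- The local ring at a nonsingular point modulo the `k`-th power of the maximal ideal has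
dimension `k`. -/
theorem wr_finrank_quot_pow [CharZero K] (h : W.Nonsingular x y) (k : ℕ) :
    Module.finrank K (W.CoordinateRing ⧸ CoordinateRing.XYIdeal W x (C y) ^ k) = k := by
  obtain ⟨t, ht, hDt, hm⟩ := wr_unif W h
  rw [← wr_ker_ev W h.1]
  exact wr_abs_finrank (wrD W) (wrEv W h.1) ht hDt hm k

lemma wr_finite_quot_pow [CharZero K] (h : W.Nonsingular x y) (k : ℕ) :
    Module.Finite K (W.CoordinateRing ⧸ CoordinateRing.XYIdeal W x (C y) ^ k) := by
  obtain ⟨t, ht, hDt, hm⟩ := wr_unif W h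
  rw [← wr_ker_ev W h.1]
  exact wr_abs_finite (wrD W) (wrEv W h.1) ht hDt hm k

end field

end

end Fermat.Agent.M13
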