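import Mathlib
import Fermat.Agent.M13.WrBasic
import Fermat.Agent.M13.WrTaylor

/-!
# The Wronskian criterion for torsion points

For a nonsingular point `P = (x, y)` of a Weierstrass curve `W` over a field `K` of characteristic
zero and `n ≥ 1`:

* `wr_tors_iff_principal` : `n • P = 0` iff the `n`-th power of the maximal ideal of `P` is
  principal (any field);
* `wr_tors_principal_iff` : that power is principal iff the Wronskian `wrW W n` vanishes at `P`;
* `wr_tors_iff`, `wr_tors_iff_poly` : `n • P = 0 ↔ wrEv W h (wrW W n) = 0`.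
-/

set_option autoImplicit false

namespace Fermat.Agent.M13

open Polynomial WeierstrassCurve WeierstrassCurve.Affine

open scoped Polynomial.Bivariate nonZeroDivisors

noncomputable section

section principal

variable {K : Type*} [Field K] [DecidableEq K] (W : WeierstrassCurve.Affine K) {x y : K}

/-- A nonsingular point is killed by `n` iff the `n`-th power of its maximal ideal is principal. -/
theorem wr_tors_iff_principal (h : W.Nonsingular x y) (n : ℕ) :
    n • (Point.some x y h : W.Point) = 0 ↔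
      ∃ f : W.CoordinateRing, f ≠ 0 ∧ CoordinateRing.XYIdeal W x (C y) ^ n = Ideal.span {f} := by
  have h3 : (Point.toClass (Point.some x y h) : Additive (ClassGroup W.CoordinateRing)) =
      Additive.ofMul (ClassGroup.mk W.FunctionField (CoordinateRing.XYIdeal' (W := W) h)) := rfl
  rw [← Point.toClass_eq_zero, map_nsmul, h3, ← ofMul_pow, ofMul_eq_zero, ← map_pow]
  have h2 : ((CoordinateRing.XYIdeal' (W := W) h ^ n :
      (FractionalIdeal W.CoordinateRing⁰ W.FunctionField)ˣ) :
      FractionalIdeal W.CoordinateRing⁰ W.FunctionField) =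
      ((CoordinateRing.XYIdeal W x (C y) ^ n : Ideal W.CoordinateRing) :
        FractionalIdeal W.CoordinateRing⁰ W.FunctionField) := by
    rw [Units.val_pow_eq_pow_val, CoordinateRing.XYIdeal'_eq, FractionalIdeal.coeIdeal_pow]
  exact ClassGroup.mk_eq_one_of_coe_ideal h2

end principal

section dims

variable {K : Type*} [Field K] (W : WeierstrassCurve.Affine K)

lemma wrt_finite_quot_span {f : W.CoordinateRing} (hf : f ≠ 0) :
    Module.Finite K (W.CoordinateRing ⧸ Ideal.span {f}) := by
  have hI : Ideal.span {f} ≠ ⊥ := Ideal.span_singleton_eq_bot.not.2 hf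
  exact Module.Finite.equiv (Ideal.quotientEquivDirectSum K (CoordinateRing.basis W) hI).symm

/-- An ideal containing a principal ideal of at most the same (finite) colength is equal to it. -/
lemma wrt_eq_of_le_of_finrank {f : W.CoordinateRing} (hf : f ≠ 0) {J : Ideal W.CoordinateRing}
    (hJ : Module.Finite K (W.CoordinateRing ⧸ J))
    (hle : Ideal.span {f} ≤ J)
    (hd : Module.finrank K (W.CoordinateRing ⧸ Ideal.span {f}) ≤
      Module.finrank K (W.CoordinateRing ⧸ J)) : J = Ideal.span {f} := by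
  have := wrt_finite_quot_span W hf
  have := hJ
  let L : (W.CoordinateRing ⧸ Ideal.span {f}) →ₗ[K] (W.CoordinateRing ⧸ J) :=
    (Ideal.Quotient.factorₐ K hle).toLinearMap
  have hsurj : Function.Surjective L := Ideal.Quotient.factor_surjective hle
  have h1 : Module.finrank K (W.CoordinateRing ⧸ J) ≤
      Module.finrank K (W.CoordinateRing ⧸ Ideal.span {f}) :=
    LinearMap.finrank_le_finrank_of_surjective hsurj
  have hinj : Function.Injective L :=
    (LinearMap.injective_iff_surjective_of_finrank_eq_finrank (le_antisymm hd h1)).mpr hsurj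
  refine le_antisymm ?_ hle
  intro g hg
  have h2 : L (Ideal.Quotient.mk _ g) = 0 := by
    change Ideal.Quotient.factor hle (Ideal.Quotient.mk _ g) = 0
    rw [Ideal.Quotient.factor_mk]
    exact Ideal.Quotient.eq_zero_iff_mem.mpr hg
  have h3 := hinj (h2.trans (map_zero L).symm)
  exact Ideal.Quotient.eq_zero_iff_mem.mp h3

end dims

section span

variable {K : Type*} [Field K] (W : WeierstrassCurve.Affine K)

/-- `f = p + qY` has pole order at most `n` at infinity: `2 deg p ≤ n`, `2 deg q + 3 ≤ n`. -/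
def wrtBd (n : ℕ) (f : W.CoordinateRing) : Prop :=
  (∀ i, n < 2 * i → (wrP W f).coeff i = 0) ∧ (∀ i, n < 2 * i + 3 → (wrQ W f).coeff i = 0)

lemma wrt_wrP_zero : wrP W (0 : W.CoordinateRing) = 0 := by
  rw [← wrMk_zero W, wrP_wrMk]

lemma wrt_wrQ_zero : wrQ W (0 : W.CoordinateRing) = 0 := by
  rw [← wrMk_zero W, wrQ_wrMk]

lemma wrtBd_zero (n : ℕ) : wrtBd W n 0 := by
  constructor <;> intro i _ <;> simp [wrt_wrP_zero, wrt_wrQ_zero]

lemma wrtBd_add {n : ℕ} {f g : W.CoordinateRing} (hf : wrtBd W n f) (hg : wrtBd W n g) :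
    wrtBd W n (f + g) := by
  constructor
  · intro i hi
    rw [wrP_add, coeff_add, hf.1 i hi, hg.1 i hi, add_zero]
  · intro i hi
    rw [wrQ_add, coeff_add, hf.2 i hi, hg.2 i hi, add_zero]

lemma wrtBd_smul {n : ℕ} (c : K) {f : W.CoordinateRing} (hf : wrtBd W n f) :
    wrtBd W n (c • f) := by
  constructor
  · intro i hi
    rw [wrP_smul, coeff_smul, hf.1 i hi, smul_zero]
  · intro i hi
    rw [wrQ_smul, coeff_smul, hf.2 i hi, smul_zero]

lemma wrt_wrOrd_le {n : ℕ} (j : Fin n) : wrOrd (j : ℕ) ≤ n := by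
  unfold wrOrd
  split_ifs <;> omega

lemma wrt_wrOrd_ne_one (j : ℕ) : wrOrd j ≠ 1 := by
  unfold wrOrd
  split_ifs <;> omega

lemma wrt_wrOrd_injective : Function.Injective wrOrd := by
  intro a b h
  unfold wrOrd at h
  split_ifs at h <;> omega

lemma wrtBd_wrMono {n m : ℕ} (hm : m ≤ n) (hm1 : m ≠ 1) : wrtBd W n (wrMono W m) := by
  unfold wrMono
  split_ifs with h
  · constructor
    · intro i hi
      rw [wrP_wrMk, coeff_X_pow, if_neg (by omega)]
    · intro i _
      rw [wrQ_wrMk, coeff_zero]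
  · constructor
    · intro i _
      rw [wrP_wrMk, coeff_zero]
    · intro i hi
      rw [wrQ_wrMk, coeff_X_pow, if_neg (by omega)]

lemma wrtBd_wrF (n : ℕ) (j : Fin n) : wrtBd W n (wrF W n j) :=
  wrtBd_wrMono W (wrt_wrOrd_le j) (wrt_wrOrd_ne_one _)

lemma wrtBd_of_mem_span {n : ℕ} {f : W.CoordinateRing}
    (hf : f ∈ Submodule.span K (Set.range (wrF W n))) : wrtBd W n f := by
  induction hf using Submodule.span_induction with
  | mem x hx =>
    obtain ⟨j, rfl⟩ := hx
    exact wrtBd_wrF W n j
  | zero => exact wrtBd_zero W n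
  | add x y _ _ hx hy => exact wrtBd_add W hx hy
  | smul c x _ hx => exact wrtBd_smul W c hx

lemma wrt_wrMk_eq (p q : K[X]) :
    wrMk W p q = algebraMap K[X] W.CoordinateRing p +
      algebraMap K[X] W.CoordinateRing q * CoordinateRing.mk W Y := by
  rw [wrMk, Algebra.smul_def, Algebra.smul_def, mul_one]

lemma wrt_algebraMap_X_pow_mem {n i : ℕ} (hn : 1 ≤ n) (hi : 2 * i ≤ n) :
    algebraMap K[X] W.CoordinateRing (X ^ i) ∈ Submodule.span K (Set.range (wrF W n)) := by
  apply Submodule.subset_span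
  rcases Nat.eq_zero_or_pos i with rfl | hpos
  · refine ⟨⟨0, by omega⟩, ?_⟩
    simp [wrF, wrOrd, wrMono, wrt_wrMk_eq]
  · refine ⟨⟨2 * i - 1, by omega⟩, ?_⟩
    have h1 : wrOrd (2 * i - 1) = 2 * i := by
      unfold wrOrd; split_ifs <;> omega
    simp only [wrF, h1, wrMono]
    rw [if_pos (by omega), wrt_wrMk_eq, map_zero, zero_mul, add_zero,
      show 2 * i / 2 = i by omega]

lemma wrt_algebraMap_X_pow_mul_Y_mem {n i : ℕ} (hi : 2 * i + 3 ≤ n) :
    algebraMap K[X] W.CoordinateRing (X ^ i) * CoordinateRing.mk W Y ∈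
      Submodule.span K (Set.range (wrF W n)) := by
  apply Submodule.subset_span
  refine ⟨⟨2 * i + 2, by omega⟩, ?_⟩
  have h1 : wrOrd (2 * i + 2) = 2 * i + 3 := by
    unfold wrOrd; split_ifs <;> omega
  simp only [wrF, h1, wrMono]
  rw [if_neg (by omega), wrt_wrMk_eq, map_zero, zero_add,
    show (2 * i + 3 - 3) / 2 = i by omega]

lemma wrt_algebraMap_smul (c : K) (g : K[X]) :
    algebraMap K[X] W.CoordinateRing (c • g) = c • algebraMap K[X] W.CoordinateRing g :=
  map_smul (IsScalarTower.toAlgHom K K[X] W.CoordinateRing) c g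

lemma wrt_algebraMap_eq_sum (p : K[X]) :
    algebraMap K[X] W.CoordinateRing p =
      ∑ i ∈ p.support, p.coeff i • algebraMap K[X] W.CoordinateRing (X ^ i) := by
  conv_lhs => rw [as_sum_support p]
  rw [map_sum]
  refine Finset.sum_congr rfl fun i _ => ?_
  rw [← C_mul_X_pow_eq_monomial, ← smul_eq_C_mul, wrt_algebraMap_smul]

lemma wrt_mem_span_of_bd {n : ℕ} (hn : 1 ≤ n) {f : W.CoordinateRing} (hf : wrtBd W n f) :
    f ∈ Submodule.span K (Set.range (wrF W n)) := by
  rw [← wrMk_wrP_wrQ W f, wrt_wrMk_eq]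
  refine Submodule.add_mem _ ?_ ?_
  · rw [wrt_algebraMap_eq_sum]
    refine Submodule.sum_mem _ fun i hi => Submodule.smul_mem _ _ ?_
    apply wrt_algebraMap_X_pow_mem W hn
    by_contra hlt
    exact (mem_support_iff.mp hi) (hf.1 i (by omega))
  · rw [wrt_algebraMap_eq_sum, Finset.sum_mul]
    refine Submodule.sum_mem _ fun i hi => ?_
    rw [smul_mul_assoc]
    refine Submodule.smul_mem _ _ ?_
    apply wrt_algebraMap_X_pow_mul_Y_mem W
    by_contra hlt
    exact (mem_support_iff.mp hi) (hf.2 i (by omega))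

/-- The coefficient of `f` at the monomial of pole order `m`. -/
def wrtCoef (m : ℕ) : W.CoordinateRing →ₗ[K] K where
  toFun f := if m % 2 = 0 then (wrP W f).coeff (m / 2) else (wrQ W f).coeff ((m - 3) / 2)
  map_add' f g := by
    simp only [wrP_add, wrQ_add, coeff_add]
    split_ifs <;> rfl
  map_smul' c f := by
    simp only [wrP_smul, wrQ_smul, coeff_smul, RingHom.id_apply]
    split_ifs <;> rfl

lemma wrtCoef_wrMono {m m' : ℕ} (hm : m ≠ 1) (hm' : m' ≠ 1) :
    wrtCoef W m (wrMono W m') = if m = m' then 1 else 0 := by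
  change (if m % 2 = 0 then (wrP W (wrMono W m')).coeff (m / 2)
    else (wrQ W (wrMono W m')).coeff ((m - 3) / 2)) = _
  unfold wrMono
  by_cases h1 : m % 2 = 0 <;> by_cases h2 : m' % 2 = 0
  · rw [if_pos h1, if_pos h2, wrP_wrMk, coeff_X_pow]
    by_cases h3 : m = m'
    · rw [if_pos h3, if_pos (by omega)]
    · rw [if_neg h3, if_neg (by omega)]
  · rw [if_pos h1, if_neg h2, wrP_wrMk, coeff_zero, if_neg (by omega)]
  · rw [if_neg h1, if_pos h2, wrQ_wrMk, coeff_zero, if_neg (by omega)]
  · rw [if_neg h1, if_neg h2, wrQ_wrMk, coeff_X_pow]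
    by_cases h3 : m = m'
    · rw [if_pos h3, if_pos (by omega)]
    · rw [if_neg h3, if_neg (by omega)]

lemma wrt_linearIndependent_wrF (n : ℕ) : LinearIndependent K (wrF W n) := by
  rw [Fintype.linearIndependent_iff]
  intro c hc j
  have h1 := congrArg (wrtCoef W (wrOrd (j : ℕ))) hc
  rw [map_sum, map_zero] at h1
  simp only [map_smul, wrF, wrtCoef_wrMono W (wrt_wrOrd_ne_one _) (wrt_wrOrd_ne_one _), smul_eq_mul,
    mul_ite, mul_one, mul_zero] at h1
  rw [Finset.sum_eq_single j] at h1
  · simpa using h1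
  · intro b _ hb
    rw [if_neg]
    intro h
    exact hb (Fin.ext (wrt_wrOrd_injective h)).symm
  · intro h
    exact absurd (Finset.mem_univ j) h

end span

section normdeg

variable {K : Type*} [Field K] (W : WeierstrassCurve.Affine K)

lemma wrt_degree_norm (f : W.CoordinateRing) :
    (Algebra.norm K[X] f).degree = max (2 • (wrP W f).degree) (2 • (wrQ W f).degree + 3) := by
  conv_lhs => rw [← wrMk_wrP_wrQ W f]
  exact CoordinateRing.degree_norm_smul_basis _ _

lemma wrt_two_nsmul_coe (i : ℕ) : (2 • (i : WithBot ℕ)) = ((2 * i : ℕ) : WithBot ℕ) := by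
  rw [two_nsmul, two_mul]; rfl

lemma wrtBd_of_natDegree_norm_le {n : ℕ} {f : W.CoordinateRing}
    (h : (Algebra.norm K[X] f).natDegree ≤ n) : wrtBd W n f := by
  have h1 : (Algebra.norm K[X] f).degree ≤ (n : WithBot ℕ) :=
    degree_le_natDegree.trans (by exact_mod_cast h)
  rw [wrt_degree_norm, max_le_iff] at h1
  constructor
  · intro i hi
    by_contra hne
    have h2 : (i : WithBot ℕ) ≤ (wrP W f).degree := le_degree_of_ne_zero hne
    have h3 : (2 • (i : WithBot ℕ)) ≤ 2 • (wrP W f).degree := nsmul_le_nsmul_right h2 2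
    have h4 := h3.trans h1.1
    rw [wrt_two_nsmul_coe] at h4
    have h5 : 2 * i ≤ n := by exact_mod_cast h4
    omega
  · intro i hi
    by_contra hne
    have h2 : (i : WithBot ℕ) ≤ (wrQ W f).degree := le_degree_of_ne_zero hne
    have h3 : (2 • (i : WithBot ℕ)) ≤ 2 • (wrQ W f).degree := nsmul_le_nsmul_right h2 2
    have h4 : (2 • (i : WithBot ℕ)) + 3 ≤ (n : WithBot ℕ) :=
      (add_le_add_left h3 3).trans h1.2
    rw [wrt_two_nsmul_coe] at h4
    have h5 : 2 * i + 3 ≤ n := by exact_mod_cast h4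
    omega

lemma wrt_natDegree_norm_le {n : ℕ} {f : W.CoordinateRing} (hf : wrtBd W n f) :
    (Algebra.norm K[X] f).natDegree ≤ n := by
  apply natDegree_le_of_degree_le
  rw [wrt_degree_norm, max_le_iff]
  constructor
  · have h1 : (wrP W f).degree ≤ ((n / 2 : ℕ) : WithBot ℕ) := by
      rw [degree_le_iff_coeff_zero]
      intro m hm
      have hm' : n / 2 < m := by exact_mod_cast hm
      exact hf.1 m (by omega)
    have h2 : 2 • (wrP W f).degree ≤ 2 • ((n / 2 : ℕ) : WithBot ℕ) := nsmul_le_nsmul_right h1 2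
    rw [wrt_two_nsmul_coe] at h2
    refine h2.trans ?_
    have : 2 * (n / 2) ≤ n := by omega
    exact_mod_cast this
  · by_cases hn : n < 3
    · have hq : wrQ W f = 0 := by
        ext i
        rw [coeff_zero]
        exact hf.2 i (by omega)
      rw [hq, degree_zero, two_nsmul, WithBot.bot_add, WithBot.bot_add]
      exact bot_le
    · have h1 : (wrQ W f).degree ≤ (((n - 3) / 2 : ℕ) : WithBot ℕ) := by
        rw [degree_le_iff_coeff_zero]
        intro m hm
        have hm' : (n - 3) / 2 < m := by exact_mod_cast hm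
        exact hf.2 m (by omega)
      have h2 : 2 • (wrQ W f).degree ≤ 2 • (((n - 3) / 2 : ℕ) : WithBot ℕ) :=
        nsmul_le_nsmul_right h1 2
      rw [wrt_two_nsmul_coe] at h2
      have h3 : 2 • (wrQ W f).degree + 3 ≤ ((2 * ((n - 3) / 2) : ℕ) : WithBot ℕ) + 3 :=
        add_le_add_left h2 3
      refine h3.trans ?_
      have : 2 * ((n - 3) / 2) + 3 ≤ n := by omega
      exact_mod_cast this

end normdeg

section main

variable {K : Type*} [Field K] (W : WeierstrassCurve.Affine K) {x y : K}

lemma wrt_jet_sum (h : W.Equation x y) (n : ℕ) (c : Fin n → K) (i : Fin n) :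
    wrEv W h ((⇑(wrD W))^[i] (∑ j, c j • wrF W n j)) =
      (((wrMat W n).map (wrEv W h)).mulVec c) i := by
  have h1 := congrFun (map_sum (wrJetLin (wrD W) (wrEv W h) n) (fun j => c j • wrF W n j)
    Finset.univ) i
  rw [wrJetLin_apply] at h1
  rw [h1, Finset.sum_apply, Matrix.mulVec, dotProduct]
  refine Finset.sum_congr rfl fun j _ => ?_
  rw [map_smul, Pi.smul_apply, wrJetLin_apply, smul_eq_mul, mul_comm]
  rfl

lemma wrEv_wrW (h : W.Equation x y) (n : ℕ) :
    wrEv W h (wrW W n) = ((wrMat W n).map (wrEv W h)).det := by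
  rw [wrW]
  exact RingHom.map_det (wrEv W h : W.CoordinateRing →+* K) (wrMat W n)

theorem wr_tors_principal_iff [CharZero K] (h : W.Nonsingular x y) {n : ℕ} (hn : 1 ≤ n) :
    (∃ f : W.CoordinateRing, f ≠ 0 ∧ CoordinateRing.XYIdeal W x (C y) ^ n = Ideal.span {f}) ↔
      wrEv W h.1 (wrW W n) = 0 := by
  rw [wrEv_wrW, ← Matrix.exists_mulVec_eq_zero_iff]
  constructor
  · rintro ⟨f, hf, hI⟩
    have h1 : Module.finrank K (W.CoordinateRing ⧸ Ideal.span {f}) =
        (Algebra.norm K[X] f).natDegree :=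
      finrank_quotient_span_eq_natDegree_norm (CoordinateRing.basis W) hf
    have h2 : Module.finrank K (W.CoordinateRing ⧸ Ideal.span {f}) = n := by
      rw [← hI]; exact wr_finrank_quot_pow W h n
    have h3 : (Algebra.norm K[X] f).natDegree ≤ n := by rw [← h1, h2]
    have h4 := wrt_mem_span_of_bd W hn (wrtBd_of_natDegree_norm_le W h3)
    obtain ⟨c, hc⟩ := (Submodule.mem_span_range_iff_exists_fun K).mp h4
    refine ⟨c, ?_, ?_⟩
    · rintro rfl
      apply hf
      rw [← hc]
      simp
    · funext i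
      rw [← wrt_jet_sum, hc, Pi.zero_apply]
      have h5 : f ∈ CoordinateRing.XYIdeal W x (C y) ^ n := by
        rw [hI]; exact Ideal.mem_span_singleton_self f
      exact (wr_taylor W h n f).mp h5 i i.2
  · rintro ⟨c, hc0, hc⟩
    have hLI := wrt_linearIndependent_wrF W n
    rw [Fintype.linearIndependent_iff] at hLI
    have hf0 : (∑ j, c j • wrF W n j) ≠ 0 := by
      intro h0
      exact hc0 (funext fun j => hLI c h0 j)
    refine ⟨∑ j, c j • wrF W n j, hf0, ?_⟩
    have hmem : (∑ j, c j • wrF W n j) ∈ CoordinateRing.XYIdeal W x (C y) ^ n := by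
      rw [wr_taylor W h n]
      intro i hi
      have := wrt_jet_sum W h.1 n c ⟨i, hi⟩
      rw [hc] at this
      exact this
    have hbd : wrtBd W n (∑ j, c j • wrF W n j) := by
      apply wrtBd_of_mem_span
      exact (Submodule.mem_span_range_iff_exists_fun K).mpr ⟨c, rfl⟩
    apply wrt_eq_of_le_of_finrank W hf0 (wr_finite_quot_pow W h n)
    · rw [Ideal.span_singleton_le_iff_mem]
      exact hmem
    · rw [finrank_quotient_span_eq_natDegree_norm (CoordinateRing.basis W) hf0,
        wr_finrank_quot_pow W h n]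
      exact wrt_natDegree_norm_le W hbd

/-- **Torsion criterion**: a nonsingular point `P = (x, y)` is killed by `n ≥ 1` iff the
Wronskian of the monomial basis of `L(n O)` vanishes at `P`. -/
theorem wr_tors_iff [CharZero K] [DecidableEq K] (h : W.Nonsingular x y) {n : ℕ} (hn : 1 ≤ n) :
    n • (Point.some x y h : W.Point) = 0 ↔ wrEv W h.1 (wrW W n) = 0 :=
  (wr_tors_iff_principal W h n).trans (wr_tors_principal_iff W h hn)

/-- The torsion criterion in terms of the two polynomials `wrPoly`, `wrPolyQ`. -/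
theorem wr_tors_iff_poly [CharZero K] [DecidableEq K] (h : W.Nonsingular x y) {n : ℕ}
    (hn : 1 ≤ n) :
    n • (Point.some x y h : W.Point) = 0 ↔
      (wrPoly W n).eval x + (wrPolyQ W n).eval x * y = 0 := by
  rw [wr_tors_iff W h hn, wrEv_eq]
  rfl

end main

end

end Fermat.Agent.M13
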