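import Fermat.Agent.M13.FinAsm
import Fermat.Agent.M13.WrDeg
import Fermat.Agent.M13.WrTors
import Fermat.Agent.M13.WrMain
import Fermat.Agent.M13.FreyInt

/-!
# S13, package [FINAL], part 3: the Wronskian outputs for the Frey curve and the end theorem

* `fin_wr_exists`, `fin_wr_card_le`, `fin_wr_prod` : the outputs of the Wronskian package [WR]
  (parts I, II, III) for the Frey curve over `ℚ̄`;
* `fin_S13` : the statement of S13.
-/

set_option autoImplicit false
set_option linter.unusedSectionVars false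
set_option linter.unusedVariables false
set_option linter.style.haveILetI false

namespace Fermat.Agent.M13

open WeierstrassCurve WeierstrassCurve.Affine WeierstrassCurve.Affine.Point
open Fermat.Agent.S05 Polynomial

variable (P : FreyPackage)

lemma fin_wr_hp2 : P.p ≠ 2 := by
  have := P.hp5
  omega

lemma fin_wr_odd : Odd P.p := P.pp.odd_of_ne_two (fin_wr_hp2 P)

lemma fin_wr_v_ne : ((wrV P.p : ℤ) : QQb) ≠ 0 := by
  exact_mod_cast wrV_ne_zero P.p

lemma fin_wr_tors (x y : QQb) (h : (EC P).Nonsingular x y) :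
    P.p • Point.some x y h = 0 ↔
      (wrPoly (EC P) P.p).eval x + (wrPolyQ (EC P) P.p).eval x * y = 0 :=
  wr_tors_iff_poly (EC P) h P.pp.one_le

/-- **[WR]** the Frey curve has a nonzero point of order `p` over `ℚ̄`. -/
theorem fin_wr_exists : ∃ T : (EC P).Point, T ≠ 0 ∧ P.p • T = 0 :=
  wr_main_exists (EC P) P.p ((wrV P.p : ℤ) : QQb) (fi_disc_ne P) P.pp (fin_wr_hp2 P)
    (fin_wr_v_ne P) (wr_natDegree_wrPoly_le (EC P) P.p (fin_wr_odd P))
    (wr_coeff_wrPoly (EC P) P.p (fin_wr_odd P))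
    (wr_natDegree_wrPolyQ (EC P) P.p (fin_wr_odd P) (by have := P.hp5; omega))
    (fin_wr_tors P)

/-- **[WR]** `E[p]` is finite of order at most `p²`. -/
theorem fin_wr_card_le : Finite (VV P) ∧ Nat.card (VV P) ≤ P.p ^ 2 :=
  wr_main_card_le (EC P) P.p ((wrV P.p : ℤ) : QQb) P.pp (fin_wr_hp2 P)
    (fin_wr_v_ne P) (wr_natDegree_wrPoly_le (EC P) P.p (fin_wr_odd P))
    (wr_coeff_wrPoly (EC P) P.p (fin_wr_odd P)) (fin_wr_tors P)

/-- The torsion polynomial of the Frey curve has integer coefficients. -/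
lemma fin_wr_map :
    (wrPoly P.freyCurveInt P.p).map (Int.castRingHom QQb) = wrPoly (EC P) P.p := by
  rw [wr_wrPoly_map]
  exact congrArg (fun W : WeierstrassCurve.Affine QQb => wrPoly W P.p) (fi_map' P)

/-- **[WR]** the product formula for the torsion polynomial. -/
theorem fin_wr_prod (hcard : Nat.card (VV P) = P.p ^ 2) :
    ∃ S : Finset QQb, S.card = (P.p ^ 2 - 1) / 2 ∧
      (∀ ξ, ξ ∈ S ↔ ∃ T : (EC P).Point, T ≠ 0 ∧ P.p • T = 0 ∧ xc T = ξ) ∧
      (wrPoly P.freyCurveInt P.p).map (Int.castRingHom QQb)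
        = C ((wrV P.p : ℤ) : QQb) * ∏ ξ ∈ S, (X - C ξ) := by
  obtain ⟨S, hS1, hS2, hS3⟩ := wr_main_prod (EC P) P.p ((wrV P.p : ℤ) : QQb) P.pp
    (fin_wr_hp2 P) (fin_wr_v_ne P) (wr_natDegree_wrPoly_le (EC P) P.p (fin_wr_odd P))
    (wr_coeff_wrPoly (EC P) P.p (fin_wr_odd P))
    (wr_natDegree_wrPolyQ (EC P) P.p (fin_wr_odd P) (by have := P.hp5; omega))
    (fin_wr_tors P) hcard
  refine ⟨S, hS1, fun ξ => ?_, by rw [fin_wr_map, hS3]⟩
  rw [hS2]
  constructor
  · rintro ⟨y, h, hp⟩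
    exact ⟨Point.some ξ y h, Point.some_ne_zero _, hp, rfl⟩
  · rintro ⟨T, hT, hpT, hx⟩
    cases T with
    | zero => exact absurd rfl hT
    | some x y h =>
      simp only [xc_some] at hx
      subst hx
      exact ⟨y, h, hpT⟩

/-- **S13**: if the mod `p` representation of the Frey curve is reducible, it has a
Galois-stable cofixed line. -/
theorem fin_S13 (hred : ¬ GaloisRepIsIrreducible (K := QQb) ℚ P.freyCurve P.p) :
    HasGaloisStableCofixedLine (K := QQb) ℚ P.freyCurve P.p :=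
  fin_asm P (fin_wr_exists P) (fin_wr_card_le P).1 (fin_wr_card_le P).2 (fin_wr_prod P) hred

end Fermat.Agent.M13
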