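import Fermat.Agent.S05.AddFormulas
import Fermat.Agent.S05.OrdVal

/-!
# M13 / LOC: the kernel of reduction `E¹` is closed under the group law

Abstract `OrdVal` framework (frozen S05 files).  For a Weierstrass curve with integral
coefficients we define

* `loc_E1 O P` : `P = 0` or `ord x(P) < 0`  ("`P` is in the kernel of reduction"),
* `loc_E0 O P` : `P = 0` or `x(P)` is not of positive order,

and prove that `loc_E1` is closed under negation, addition and subtraction (`loc_E1_neg`,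
`loc_E1_add`, `loc_E1_sub`).  Valid in every residue characteristic.
-/

set_option autoImplicit false
set_option linter.unusedSectionVars false
set_option linter.unusedVariables false

namespace Fermat.Agent.M13

open WeierstrassCurve WeierstrassCurve.Affine Fermat.Agent.S05 Fermat.Agent.S05.OrdVal

variable {K : Type*} [Field K] [DecidableEq K]

/-- An integral Weierstrass model with respect to `O` (in characteristic `≠ 2`). -/
structure loc_Int (W : WeierstrassCurve.Affine K) (O : OrdVal K) : Prop where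
  two_ne : (2 : K) ≠ 0
  hnat : ∀ n : ℕ, O.Ge (n : K) 0
  ha₁ : O.Ge W.a₁ 0
  ha₂ : O.Ge W.a₂ 0
  ha₃ : O.Ge W.a₃ 0
  ha₄ : O.Ge W.a₄ 0
  ha₆ : O.Ge W.a₆ 0

/-- `P` lies in the kernel of reduction: `P = 0` or `x(P)` has negative order. -/
def loc_E1 (O : OrdVal K) {W : WeierstrassCurve.Affine K} (P : W.Point) : Prop :=
  P = 0 ∨ (xc P ≠ 0 ∧ O.ord (xc P) < 0)

/-- `P` does not reduce to the point `x = 0`: `P = 0` or `x(P)` is not of positive order. -/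
def loc_E0 (O : OrdVal K) {W : WeierstrassCurve.Affine K} (P : W.Point) : Prop :=
  P = 0 ∨ ¬ O.Gt (xc P) 0

variable {W : WeierstrassCurve.Affine K} {O : OrdVal K}

lemma loc_E1_zero : loc_E1 O (0 : W.Point) := Or.inl rfl

lemma loc_E0_zero : loc_E0 O (0 : W.Point) := Or.inl rfl

lemma loc_E0_of_E1 {P : W.Point} (h : loc_E1 O P) : loc_E0 O P := by
  rcases h with h | ⟨h0, h1⟩
  · exact Or.inl h
  · right
    rintro (h2 | h2)
    · exact h0 h2
    · linarith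

lemma loc_E1_neg {P : W.Point} (h : loc_E1 O P) : loc_E1 O (-P) := by
  rcases h with h | h
  · left; rw [h, neg_zero]
  · right; rwa [xc_neg]

lemma loc_E0_neg {P : W.Point} (h : loc_E0 O P) : loc_E0 O (-P) := by
  rcases h with h | h
  · left; rw [h, neg_zero]
  · right; rwa [xc_neg]

/-- a nonzero point either has an `x`-coordinate of negative order or an integral one -/
lemma loc_E1_or_int (P : W.Point) : loc_E1 O P ∨ (P ≠ 0 ∧ O.Ge (xc P) 0) := by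
  by_cases hP : P = 0
  · exact Or.inl (Or.inl hP)
  by_cases hx : xc P = 0
  · exact Or.inr ⟨hP, Or.inl hx⟩
  by_cases h : O.ord (xc P) < 0
  · exact Or.inl (Or.inr ⟨hx, h⟩)
  · exact Or.inr ⟨hP, Or.inr (not_lt.1 h)⟩

lemma loc_not_E1_of_int {P : W.Point} (hP : P ≠ 0) (hx : O.Ge (xc P) 0) : ¬ loc_E1 O P := by
  rintro (h | ⟨h0, h1⟩)
  · exact hP h
  · have := hx.le_ord h0
    linarith

namespace loc_Int

variable (I : loc_Int W O)
include I

lemma h2 : O.Ge (2 : K) 0 := by simpa using I.hnat 2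
lemma h3 : O.Ge (3 : K) 0 := by simpa using I.hnat 3
lemma h4 : O.Ge (4 : K) 0 := by simpa using I.hnat 4

lemma hb₂ : O.Ge W.b₂ 0 := by
  rw [WeierstrassCurve.b₂]
  exact (I.ha₁.pow0 2).add (I.h4.mul0 I.ha₂)

lemma hb₄ : O.Ge W.b₄ 0 := by
  rw [WeierstrassCurve.b₄]
  exact (I.h2.mul0 I.ha₄).add (I.ha₁.mul0 I.ha₃)

lemma hb₆ : O.Ge W.b₆ 0 := by
  rw [WeierstrassCurve.b₆]
  exact (I.ha₃.pow0 2).add (I.h4.mul0 I.ha₆)

lemma hb₈ : O.Ge W.b₈ 0 := by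
  rw [WeierstrassCurve.b₈]
  exact (((((I.ha₁.pow0 2).mul0 I.ha₆).add ((I.h4.mul0 I.ha₂).mul0 I.ha₆)).sub
    ((I.ha₁.mul0 I.ha₃).mul0 I.ha₄)).add (I.ha₂.mul0 (I.ha₃.pow0 2))).sub (I.ha₄.pow0 2)

end loc_Int

/-- `O.Ge` for a product, with explicit target -/
lemma loc_ge_mul {x y : K} {r s u : ℚ} (hx : O.Ge x r) (hy : O.Ge y s) (h : u ≤ r + s) :
    O.Ge (x * y) u := (hx.mul hy).mono h

lemma loc_ge_self {x : K} : O.Ge x (O.ord x) := Or.inr le_rfl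

/-- order of `pNum` at two arguments of negative order -/
lemma loc_pNum_ord (I : loc_Int W O) {x₁ x₂ : K} (h₁0 : x₁ ≠ 0) (h₂0 : x₂ ≠ 0)
    (h₁ : O.ord x₁ < 0) (h₂ : O.ord x₂ < 0) :
    pNum W x₁ x₂ ≠ 0 ∧ O.ord (pNum W x₁ x₂) = 2 * O.ord x₁ + 2 * O.ord x₂ := by
  set e₁ := O.ord x₁ with he₁
  set e₂ := O.ord x₂ with he₂
  have hx₁ : O.Ge x₁ e₁ := loc_ge_self
  have hx₂ : O.Ge x₂ e₂ := loc_ge_self
  have hmain0 : x₁ ^ 2 * x₂ ^ 2 ≠ 0 := mul_ne_zero (pow_ne_zero 2 h₁0) (pow_ne_zero 2 h₂0)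
  have hmain : O.ord (x₁ ^ 2 * x₂ ^ 2) = 2 * e₁ + 2 * e₂ := by
    rw [O.ord_mul (pow_ne_zero 2 h₁0) (pow_ne_zero 2 h₂0), ord_sq h₁0, ord_sq h₂0]
  have hrest : O.Ge (-(W.b₄ * x₁ * x₂) - W.b₆ * (x₁ + x₂) - W.b₈) (e₁ + e₂) := by
    refine ((Ge.neg ?_).sub ?_).sub ?_
    · exact loc_ge_mul (loc_ge_mul I.hb₄ hx₁ (le_of_eq (zero_add e₁).symm)) hx₂ le_rfl
    · refine loc_ge_mul I.hb₆ (Ge.add (hx₁.mono ?_) (hx₂.mono ?_)) (le_of_eq (zero_add _).symm)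
      · linarith
      · linarith
    · exact I.hb₈.mono (by linarith)
  have hgt : O.Gt (-(W.b₄ * x₁ * x₂) - W.b₆ * (x₁ + x₂) - W.b₈) (O.ord (x₁ ^ 2 * x₂ ^ 2)) := by
    rw [hmain]
    exact hrest.gt_of_lt (by linarith)
  have e : pNum W x₁ x₂ = x₁ ^ 2 * x₂ ^ 2 + (-(W.b₄ * x₁ * x₂) - W.b₆ * (x₁ + x₂) - W.b₈) := by
    rw [pNum]; ring
  rw [e]
  obtain ⟨h0, h1⟩ := ord_add_eq_of_Gt hmain0 hgt
  exact ⟨h0, by rw [h1, hmain]⟩

/-- lower bound for the order of `sNum` at two arguments of negative order -/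
lemma loc_sNum_ge (I : loc_Int W O) {x₁ x₂ : K} (h₁0 : x₁ ≠ 0) (h₂0 : x₂ ≠ 0)
    (h₁ : O.ord x₁ < 0) (h₂ : O.ord x₂ < 0) :
    O.Ge (sNum W x₁ x₂) (O.ord x₁ + O.ord x₂ + min (O.ord x₁) (O.ord x₂)) := by
  set e₁ := O.ord x₁ with he₁
  set e₂ := O.ord x₂ with he₂
  have hx₁ : O.Ge x₁ e₁ := loc_ge_self
  have hx₂ : O.Ge x₂ e₂ := loc_ge_self
  have hm₁ : min e₁ e₂ ≤ e₁ := min_le_left _ _
  have hm₂ : min e₁ e₂ ≤ e₂ := min_le_right _ _
  have hm0 : min e₁ e₂ < 0 := lt_of_le_of_lt hm₁ h₁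
  have hsum : O.Ge (x₁ + x₂) (min e₁ e₂) := (hx₁.mono hm₁).add (hx₂.mono hm₂)
  rw [sNum]
  refine ((Ge.add ?_ ?_).add ?_).add ?_
  · exact loc_ge_mul (loc_ge_mul (loc_ge_mul I.h2 hx₁ (le_of_eq (zero_add e₁).symm)) hx₂ le_rfl)
      hsum le_rfl
  · exact loc_ge_mul (loc_ge_mul I.hb₂ hx₁ (le_of_eq (zero_add e₁).symm)) hx₂ (by linarith)
  · exact loc_ge_mul I.hb₄ hsum (by linarith)
  · exact I.hb₆.mono (by linarith)

/-- Sum of two points of the kernel of reduction with distinct `x`-coordinates. -/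
lemma loc_E1_add_of_ne (I : loc_Int W O) {P Q : W.Point} (hP : P ≠ 0) (hQ : Q ≠ 0)
    (hP0 : xc P ≠ 0) (hQ0 : xc Q ≠ 0) (hP1 : O.ord (xc P) < 0) (hQ1 : O.ord (xc Q) < 0)
    (hne : xc P ≠ xc Q) :
    P + Q ≠ 0 ∧ xc (P + Q) ≠ 0 ∧ O.ord (xc (P + Q)) < 0 := by
  obtain ⟨hadd, -, -, -⟩ := xc_add_sub P Q hP hQ hne
  have hprod := xc_prod I.two_ne P Q hP hQ hne
  have hsum := xc_sum I.two_ne P Q hP hQ hne
  obtain ⟨hp0, hpord⟩ := loc_pNum_ord I hP0 hQ0 hP1 hQ1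
  have hsge := loc_sNum_ge I hP0 hQ0 hP1 hQ1
  set e₁ := O.ord (xc P) with he₁
  set e₂ := O.ord (xc Q) with he₂
  set Xp := xc (P + Q) with hXp
  set Xm := xc (P - Q) with hXm
  have hd0 : xc P - xc Q ≠ 0 := sub_ne_zero.2 hne
  have hD0 : (xc P - xc Q) ^ 2 ≠ 0 := pow_ne_zero 2 hd0
  have hdge : min e₁ e₂ ≤ O.ord (xc P - xc Q) := O.ord_sub hP0 hQ0 hd0
  have hDord : O.ord ((xc P - xc Q) ^ 2) = 2 * O.ord (xc P - xc Q) := ord_sq hd0
  rw [← hprod] at hp0 hpord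
  have hXp0 : Xp ≠ 0 := by
    intro h; rw [h] at hp0; simp at hp0
  have hXm0 : Xm ≠ 0 := by
    intro h; rw [h] at hp0; simp at hp0
  rw [O.ord_mul (mul_ne_zero hXp0 hXm0) hD0, O.ord_mul hXp0 hXm0, hDord] at hpord
  refine ⟨hadd, hXp0, ?_⟩
  by_contra hcon
  rw [not_lt] at hcon
  have hm₁ : min e₁ e₂ ≤ e₁ := min_le_left _ _
  have hm₂ : min e₁ e₂ ≤ e₂ := min_le_right _ _
  have hmm : e₁ + e₂ < min e₁ e₂ := by
    rcases le_total e₁ e₂ with h | h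
    · rw [min_eq_left h]; linarith
    · rw [min_eq_right h]; linarith
  have hXmlt : O.ord Xm < O.ord Xp := by linarith
  have hs1 := O.ord_add_eq_of_gt hXp0 hXm0 hXmlt
  have hs0 : Xp + Xm ≠ 0 := by
    rw [add_comm]; exact O.add_ne_zero_of_lt hXmlt
  have hsn0 : sNum W (xc P) (xc Q) ≠ 0 := by
    rw [← hsum]; exact mul_ne_zero hs0 hD0
  have hsle := hsge.le_ord hsn0
  rw [← hsum, O.ord_mul hs0 hD0, hs1, hDord] at hsle
  linarith

/-- Doubling a point of the kernel of reduction. -/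
lemma loc_E1_double (I : loc_Int W O) {P : W.Point} (h : loc_E1 O P) : loc_E1 O (P + P) := by
  rcases h with h | ⟨hx0, hx1⟩
  · left; rw [h, add_zero]
  have hP : P ≠ 0 := by
    rintro rfl
    exact hx0 rfl
  by_cases hψ : psi P = 0
  · left
    have := (psi_eq_zero_iff P hP).1 hψ
    calc P + P = P + -P := by rw [← this]
      _ = 0 := add_neg_cancel P
  obtain ⟨h2P, hd⟩ := xc_double P hP hψ
  have hps := psi_sq P hP
  set e := O.ord (xc P) with he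
  have hx : O.Ge (xc P) e := loc_ge_self
  -- order of dNum
  have hmain0 : xc P ^ 4 ≠ 0 := pow_ne_zero 4 hx0
  have hmain : O.ord (xc P ^ 4) = 4 * e := by rw [O.ord_pow hx0, he]; norm_num
  have hrest : O.Ge (-(W.b₄ * xc P ^ 2) - 2 * W.b₆ * xc P - W.b₈) (2 * e) := by
    refine ((Ge.neg ?_).sub ?_).sub ?_
    · refine loc_ge_mul I.hb₄ (hx.pow 2) ?_
      push_cast; linarith
    · exact loc_ge_mul (I.h2.mul0 I.hb₆) hx (by linarith)
    · exact I.hb₈.mono (by linarith)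
  have hgt : O.Gt (-(W.b₄ * xc P ^ 2) - 2 * W.b₆ * xc P - W.b₈) (O.ord (xc P ^ 4)) := by
    rw [hmain]; exact hrest.gt_of_lt (by linarith)
  have e1 : dNum W (xc P) = xc P ^ 4 + (-(W.b₄ * xc P ^ 2) - 2 * W.b₆ * xc P - W.b₈) := by
    rw [dNum]; ring
  obtain ⟨hd0, hdord⟩ := ord_add_eq_of_Gt hmain0 hgt
  rw [← e1, hmain, ← hd] at hdord
  rw [← e1, ← hd] at hd0
  have hX0 : xc (P + P) ≠ 0 := by
    intro h; rw [h] at hd0; simp at hd0
  have hψ2 : psi P ^ 2 ≠ 0 := pow_ne_zero 2 hψ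
  rw [O.ord_mul hX0 hψ2] at hdord
  -- order of psi²
  have hpsge : O.Ge (psiSq W (xc P)) (3 * e) := by
    rw [psiSq]
    refine ((Ge.add ?_ ?_).add ?_).add ?_
    · refine loc_ge_mul I.h4 (hx.pow 3) ?_
      push_cast; linarith
    · refine loc_ge_mul I.hb₂ (hx.pow 2) ?_
      push_cast; linarith
    · exact loc_ge_mul (I.h2.mul0 I.hb₄) hx (by linarith)
    · exact I.hb₆.mono (by linarith)
  rw [← hps] at hpsge
  have := hpsge.le_ord hψ2
  right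
  exact ⟨hX0, by linarith⟩

/-- **(L0)** The kernel of reduction is closed under addition. -/
theorem loc_E1_add (I : loc_Int W O) {P Q : W.Point} (hP : loc_E1 O P) (hQ : loc_E1 O Q) :
    loc_E1 O (P + Q) := by
  rcases hP with hP | ⟨hP0, hP1⟩
  · rw [hP, zero_add]; exact hQ
  rcases hQ with hQ | ⟨hQ0, hQ1⟩
  · rw [hQ, add_zero]; exact Or.inr ⟨hP0, hP1⟩
  have hPne : P ≠ 0 := by rintro rfl; exact hP0 rfl
  have hQne : Q ≠ 0 := by rintro rfl; exact hQ0 rfl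
  by_cases hne : xc P = xc Q
  · rcases (xc_eq_iff P Q hPne hQne).1 hne with h | h
    · rw [h]; exact loc_E1_double I (Or.inr ⟨hQ0, hQ1⟩)
    · left; rw [h]; exact neg_add_cancel Q
  · obtain ⟨-, h0, h1⟩ := loc_E1_add_of_ne I hPne hQne hP0 hQ0 hP1 hQ1 hne
    exact Or.inr ⟨h0, h1⟩

/-- **(L0)** The kernel of reduction is closed under subtraction. -/
theorem loc_E1_sub (I : loc_Int W O) {P Q : W.Point} (hP : loc_E1 O P) (hQ : loc_E1 O Q) :
    loc_E1 O (P - Q) := by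
  rw [sub_eq_add_neg]; exact loc_E1_add I hP (loc_E1_neg hQ)

/-- integrality of `y` from integrality of `x` -/
lemma loc_y_int (I : loc_Int W O) {x y : K} (h : W.Equation x y) (hx : O.Ge x 0) : O.Ge y 0 := by
  by_contra hcon
  have hy0 : y ≠ 0 := fun h0 => hcon (Or.inl h0)
  have hy1 : O.ord y < 0 := by
    by_contra h1
    exact hcon (Or.inr (not_lt.1 h1))
  have he := (equation_iff x y).1 h
  have hmain : O.ord (y ^ 2) = 2 * O.ord y := ord_sq hy0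
  have hyge : O.Ge y (O.ord y) := loc_ge_self
  have hrest : O.Ge (W.a₁ * x * y + W.a₃ * y - (x ^ 3 + W.a₂ * x ^ 2 + W.a₄ * x + W.a₆))
      (O.ord y) := by
    refine (Ge.add ?_ ?_).sub ?_
    · exact loc_ge_mul (I.ha₁.mul0 hx) hyge (by linarith)
    · exact loc_ge_mul I.ha₃ hyge (by linarith)
    · exact ((((hx.pow0 3).add (I.ha₂.mul0 (hx.pow0 2))).add (I.ha₄.mul0 hx)).add I.ha₆).mono
        hy1.le
  have hgt : O.Gt (W.a₁ * x * y + W.a₃ * y - (x ^ 3 + W.a₂ * x ^ 2 + W.a₄ * x + W.a₆))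
      (O.ord (y ^ 2)) := by
    rw [hmain]; exact hrest.gt_of_lt (by linarith)
  obtain ⟨h0, -⟩ := ord_add_eq_of_Gt (pow_ne_zero 2 hy0) hgt
  apply h0
  linear_combination he

end Fermat.Agent.M13
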