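import Fermat.Agent.M13.LocRed

/-!
# M13 / LOC: the node model (node at the origin)

`loc_NodeCtx W O`: integral model with `a₃ = a₆ = 0`, `a₄ ≠ 0` of positive order and `b₂` a unit
(multiplicative reduction with the node at `(0,0)`).

* `loc_node_ns`  : an integral point with unit `x`-coordinate has nonsingular reduction;
* `loc_node_F1`  : two congruent integral points, not reducing to the node, differ by an element
  of the kernel of reduction;
* `loc_node_type`, `loc_node_type_sub` : the two branches at the node.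
-/

set_option autoImplicit false
set_option linter.unusedSectionVars false
set_option linter.unusedVariables false

namespace Fermat.Agent.M13

open WeierstrassCurve WeierstrassCurve.Affine Fermat.Agent.S05 Fermat.Agent.S05.OrdVal

variable {K : Type*} [Field K] [DecidableEq K]
variable {W : WeierstrassCurve.Affine K} {O : OrdVal K}

/-- The node model: multiplicative reduction with the node at the origin. -/
structure loc_NodeCtx (W : WeierstrassCurve.Affine K) (O : OrdVal K) : Prop where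
  int : loc_Int W O
  ha₃ : W.a₃ = 0
  ha₆ : W.a₆ = 0
  hb₂ : O.IsU W.b₂
  ha₄0 : W.a₄ ≠ 0
  ha₄ : 0 < O.ord W.a₄

lemma loc_gt_of_ge_of_not_isU {x : K} (h : O.Ge x 0) (h' : ¬ O.IsU x) : O.Gt x 0 := by
  by_contra hcon
  exact h' (isU_of_ge_of_not_gt h hcon)

/-- cancel a unit factor -/
lemma loc_gt_of_isU_mul {u x : K} (hu : O.IsU u) (h : O.Gt (u * x) 0) : O.Gt x 0 := by
  have := h.mul_isU hu.inv
  have e : u * x * u⁻¹ = x := by
    have := hu.1
    field_simp
  rwa [e] at this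

namespace loc_NodeCtx

variable (C : loc_NodeCtx W O)
include C

lemma a₄_gt : O.Gt W.a₄ 0 := Or.inr C.ha₄

/-- On the node model, an integral point with unit `x`-coordinate has nonsingular reduction. -/
theorem ns_of_isU {x y : K} (h : W.Equation x y) (hxU : O.IsU x) :
    O.IsU (2 * y + W.a₁ * x + W.a₃) ∨
      O.IsU (W.a₁ * y - (3 * x ^ 2 + 2 * W.a₂ * x + W.a₄)) := by
  have I := C.int
  have hx := hxU.ge
  have hy := loc_y_int I h hx
  have hFYge : O.Ge (2 * y + W.a₁ * x + W.a₃) 0 :=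
    ((I.h2.mul0 hy).add (I.ha₁.mul0 hx)).add I.ha₃
  have hFXge : O.Ge (W.a₁ * y - (3 * x ^ 2 + 2 * W.a₂ * x + W.a₄)) 0 :=
    (I.ha₁.mul0 hy).sub (((I.h3.mul0 (hx.pow0 2)).add ((I.h2.mul0 I.ha₂).mul0 hx)).add I.ha₄)
  by_contra hcon
  rw [not_or] at hcon
  have hFY := loc_gt_of_ge_of_not_isU hFYge hcon.1
  have hFX := loc_gt_of_ge_of_not_isU hFXge hcon.2
  have he := (equation_iff x y).1 h
  -- `x² (4x + b₂) ∈ 𝔪`
  have h1 : O.Gt (x ^ 2 * (4 * x + W.b₂)) 0 := by
    have e : x ^ 2 * (4 * x + W.b₂) =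
        (2 * y + W.a₁ * x + W.a₃) * (2 * y + W.a₁ * x + W.a₃) - (4 * x) * W.a₄ := by
      rw [WeierstrassCurve.b₂]
      linear_combination (-4 : K) * he - (2 * W.a₁ * x + W.a₃) * C.ha₃ - 4 * C.ha₆
    rw [e]
    exact (hFY.mul_ge0 hFYge).sub ((I.h4.mul0 hx).mul_gt0 C.a₄_gt)
  have h1' : O.Gt (4 * x + W.b₂) 0 := loc_gt_of_isU_mul (hxU.pow 2) h1
  -- `x (12x + 2b₂) ∈ 𝔪`
  have h2 : O.Gt (x * (12 * x + 2 * W.b₂)) 0 := by
    have e : x * (12 * x + 2 * W.b₂) =
        (2 * W.a₁) * (2 * y + W.a₁ * x + W.a₃) -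
          4 * (W.a₁ * y - (3 * x ^ 2 + 2 * W.a₂ * x + W.a₄)) - 4 * W.a₄ := by
      rw [WeierstrassCurve.b₂]
      linear_combination (-2 * W.a₁) * C.ha₃
    rw [e]
    exact (((I.h2.mul0 I.ha₁).mul_gt0 hFY).sub (I.h4.mul_gt0 hFX)).sub (I.h4.mul_gt0 C.a₄_gt)
  have h2' : O.Gt (12 * x + 2 * W.b₂) 0 := loc_gt_of_isU_mul hxU h2
  have h3 : O.Gt W.b₂ 0 := by
    have e : W.b₂ = 3 * (4 * x + W.b₂) - (12 * x + 2 * W.b₂) := by ring
    rw [e]
    exact (I.h3.mul_gt0 h1').sub h2'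
  exact C.hb₂.not_gt h3

/-- point version of `ns_of_isU` -/
theorem ns_of_not_gt {P : W.Point} (hP : P ≠ 0) (hx : O.Ge (xc P) 0) (hxu : ¬ O.Gt (xc P) 0) :
    O.IsU (psi P) ∨ O.IsU (loc_FX P) := by
  cases P with
  | zero => exact absurd rfl hP
  | some x y h =>
    simp only [xc_some] at hx hxu
    exact C.ns_of_isU h.1 (isU_of_ge_of_not_gt hx hxu)

/-- **(F1)** Two congruent integral points, the first of which does not reduce to the node,
differ by an element of the kernel of reduction. -/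
theorem F1 {P Q : W.Point} (hP : P ≠ 0) (hQ : Q ≠ 0) (hxP : O.Ge (xc P) 0)
    (hPu : ¬ O.Gt (xc P) 0) (hdx : O.Gt (xc P - xc Q) 0) (hdy : O.Gt (yc P - yc Q) 0) :
    loc_E1 O (P - Q) := by
  have h1 : loc_E1 O (Q - P) := by
    refine loc_sub_mem_E1 C.int hP hQ hxP ?_ ?_ (C.ns_of_not_gt hP hxP hPu)
    · have := hdx.neg; rwa [neg_sub] at this
    · have := hdy.neg; rwa [neg_sub] at this
  have := loc_E1_neg h1
  rwa [neg_sub] at this

/-- **(F1)**, unpacked: if moreover `P ≠ Q` then `P - Q ≠ 0` and `x(P - Q)` has negative order. -/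
theorem F1' {P Q : W.Point} (hP : P ≠ 0) (hQ : Q ≠ 0) (hxP : O.Ge (xc P) 0)
    (hPu : ¬ O.Gt (xc P) 0) (hdx : O.Gt (xc P - xc Q) 0) (hdy : O.Gt (yc P - yc Q) 0)
    (hne : P ≠ Q) :
    P - Q ≠ 0 ∧ xc (P - Q) ≠ 0 ∧ O.ord (xc (P - Q)) < 0 := by
  have hsub : P - Q ≠ 0 := sub_ne_zero.2 hne
  rcases C.F1 hP hQ hxP hPu hdx hdy with h | h
  · exact absurd h hsub
  · exact ⟨hsub, h⟩

section roots

variable {l₁ l₂ : K} (hsum : l₁ + l₂ = -W.a₁) (hprod : l₁ * l₂ = -W.a₂)
include hsum hprod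

lemma root_eq : l₁ ^ 2 + W.a₁ * l₁ - W.a₂ = 0 := by
  linear_combination l₁ * hsum - hprod

lemma root_int : O.Ge l₁ 0 := by
  have I := C.int
  by_contra hcon
  have h0 : l₁ ≠ 0 := fun h0 => hcon (Or.inl h0)
  have h1 : O.ord l₁ < 0 := by
    by_contra h1
    exact hcon (Or.inr (not_lt.1 h1))
  have hrest : O.Ge (W.a₁ * l₁ - W.a₂) (O.ord l₁) :=
    (loc_ge_mul I.ha₁ loc_ge_self (by linarith)).sub (I.ha₂.mono h1.le)
  have hgt : O.Gt (W.a₁ * l₁ - W.a₂) (O.ord (l₁ ^ 2)) := by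
    rw [ord_sq h0]; exact hrest.gt_of_lt (by linarith)
  obtain ⟨h2, -⟩ := ord_add_eq_of_Gt (pow_ne_zero 2 h0) hgt
  apply h2
  linear_combination C.root_eq hsum hprod

lemma root_sub_sq : (l₁ - l₂) ^ 2 = W.b₂ := by
  rw [WeierstrassCurve.b₂]
  linear_combination (l₁ + l₂ - W.a₁) * hsum - 4 * hprod

lemma root_sub_isU : O.IsU (l₁ - l₂) := by
  have h := C.root_sub_sq hsum hprod
  have hU := C.hb₂
  rw [← h] at hU
  have h0 : l₁ - l₂ ≠ 0 := by
    intro h0
    rw [h0] at hU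
    exact hU.1 (by simp)
  refine ⟨h0, ?_⟩
  have := hU.2
  rw [ord_sq h0] at this
  linarith

/-- the product formula `s t = x (x² + a₄)` -/
lemma st_eq {x y : K} (h : W.Equation x y) :
    (y - l₁ * x) * (y - l₂ * x) = x * (x ^ 2 + W.a₄) := by
  have he := (equation_iff x y).1 h
  linear_combination he - x * y * hsum + x ^ 2 * hprod - y * C.ha₃ + C.ha₆

/-- The two branches at the node: for a point with `0 < ord x < ord a₄`, exactly one of
`s = y - l₁ x`, `t = y - l₂ x` has order `ord x`, the other one has larger order. -/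
theorem type_cases {x y : K} (h : W.Equation x y) (hx0 : x ≠ 0) (hpos : 0 < O.ord x)
    (hlt : O.ord x < O.ord W.a₄) :
    (O.Gt (y - l₁ * x) (O.ord x) ∧ y - l₂ * x ≠ 0 ∧ O.ord (y - l₂ * x) = O.ord x) ∨
    (O.Gt (y - l₂ * x) (O.ord x) ∧ y - l₁ * x ≠ 0 ∧ O.ord (y - l₁ * x) = O.ord x) := by
  have hU := C.root_sub_isU hsum hprod
  have hst := C.st_eq hsum hprod h
  set e := O.ord x with he
  have hxge : O.Ge x e := loc_ge_self
  have hq : O.Gt (x ^ 2 + W.a₄) e := by
    refine Gt.add (Or.inr ?_) (Or.inr hlt)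
    rw [ord_sq hx0]; linarith
  have hprodgt : O.Gt ((y - l₁ * x) * (y - l₂ * x)) (e + e) := by
    rw [hst]; exact hxge.mul_gt hq
  have hdx0 : (l₁ - l₂) * x ≠ 0 := mul_ne_zero hU.1 hx0
  have hdx : O.ord ((l₁ - l₂) * x) = e := ord_isU_mul hU hx0
  have hdx0' : (l₂ - l₁) * x ≠ 0 := by
    intro h0; apply hdx0; linear_combination -h0
  have hdx' : O.ord ((l₂ - l₁) * x) = e := by
    have e1 : (l₂ - l₁) * x = -((l₁ - l₂) * x) := by ring
    rw [e1, O.ord_neg, hdx]
  by_cases hs : O.Gt (y - l₁ * x) e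
  · left
    refine ⟨hs, ?_⟩
    have e1 : y - l₂ * x = (l₁ - l₂) * x + (y - l₁ * x) := by ring
    rw [e1]
    have := ord_add_eq_of_Gt hdx0 (by rw [hdx]; exact hs)
    exact ⟨this.1, by rw [this.2, hdx]⟩
  · right
    have hs0 : y - l₁ * x ≠ 0 := fun h0 => hs (Or.inl h0)
    have hsle : O.ord (y - l₁ * x) ≤ e := by
      by_contra h1
      exact hs (Or.inr (not_le.1 h1))
    have ht : O.Gt (y - l₂ * x) e := by
      by_cases ht0 : y - l₂ * x = 0
      · exact Or.inl ht0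
      · right
        have := hprodgt.lt_ord (mul_ne_zero hs0 ht0)
        rw [O.ord_mul hs0 ht0] at this
        linarith
    refine ⟨ht, ?_⟩
    have e1 : y - l₁ * x = (l₂ - l₁) * x + (y - l₂ * x) := by ring
    rw [e1]
    have := ord_add_eq_of_Gt hdx0' (by rw [hdx']; exact ht)
    exact ⟨this.1, by rw [this.2, hdx']⟩

/-- Two points on the same branch at the node, at the same level: their difference does not
reduce to the node. -/
theorem type_sub {x y x' y' : K} (h : W.Nonsingular x y) (h' : W.Nonsingular x' y')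
    (hx0 : x ≠ 0) (hx'0 : x' ≠ 0) (hpos : 0 < O.ord x) (hxx : O.ord x' = O.ord x)
    (hs : O.Gt (y - l₁ * x) (O.ord x)) (hs' : O.Gt (y' - l₁ * x') (O.ord x))
    (ht0 : y - l₂ * x ≠ 0) (ht : O.ord (y - l₂ * x) = O.ord x)
    (ht'0 : y' - l₂ * x' ≠ 0) (ht' : O.ord (y' - l₂ * x') = O.ord x) :
    loc_E0 O (Point.some x' y' h' - Point.some x y h) := by
  have I := C.int
  have ha₁ : W.a₁ = -(l₁ + l₂) := by linear_combination hsum
  have ha₂ : W.a₂ = -(l₁ * l₂) := by linear_combination hprod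
  set e := O.ord x with he
  rw [sub_eq_add_neg, Point.neg_some]
  by_cases hxe : x' = x
  · subst hxe
    rcases Y_eq_of_X_eq h'.1 h.1 rfl with hyy | hyy
    · subst hyy
      left
      exact Point.add_of_Y_eq rfl (negY_negY _ _).symm
    · exfalso
      -- `s' = -t`
      have e1 : y' - l₁ * x' = -(y - l₂ * x') := by
        rw [hyy, negY, C.ha₃, ha₁]; ring
      rw [e1] at hs'
      have := hs'.lt_ord (neg_ne_zero.2 ht0)
      rw [O.ord_neg, ht] at this
      exact lt_irrefl _ this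
  · have hd0 : x' - x ≠ 0 := sub_ne_zero.2 hxe
    have hadd := Point.add_of_X_ne (h₁ := h') (h₂ := (nonsingular_neg x y).mpr h) hxe
    rw [hadd]
    right
    simp only [xc_some]
    rw [slope_of_X_ne hxe]
    have key : W.addX x' x ((y' - W.negY x y) / (x' - x)) * (x' - x) ^ 2 =
        ((y - l₂ * x) + (y' - l₁ * x')) * ((y' - l₂ * x') + (y - l₁ * x)) -
          (x' + x) * (x' - x) ^ 2 := by
      rw [addX, negY, C.ha₃, ha₁, ha₂]
      field_simp
      ring
    -- orders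
    have hA := ord_add_eq_of_Gt ht0 (by rw [ht]; exact hs')
    have hB := ord_add_eq_of_Gt ht'0 (by rw [ht']; exact hs)
    have hAB0 := mul_ne_zero hA.1 hB.1
    have hAB : O.ord (((y - l₂ * x) + (y' - l₁ * x')) * ((y' - l₂ * x') + (y - l₁ * x))) =
        2 * e := by
      rw [O.ord_mul hA.1 hB.1, hA.2, hB.2, ht, ht']; ring
    have hxge : O.Ge x e := loc_ge_self
    have hx'ge : O.Ge x' e := Or.inr hxx.ge
    have hdge : O.Ge (x' - x) e := hx'ge.sub hxge
    have hC : O.Gt ((x' + x) * (x' - x) ^ 2)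
        (O.ord (((y - l₂ * x) + (y' - l₁ * x')) * ((y' - l₂ * x') + (y - l₁ * x)))) := by
      rw [hAB]
      have h1 : O.Ge ((x' + x) * (x' - x) ^ 2) (e + 2 * e) := by
        have := (hx'ge.add hxge).mul (hdge.pow 2)
        simpa using this
      exact h1.gt_of_lt (by linarith)
    obtain ⟨h0, h1⟩ := ord_sub_eq_of_Gt hAB0 hC
    rw [← key] at h0 h1
    have hX0 : W.addX x' x ((y' - W.negY x y) / (x' - x)) ≠ 0 := by
      intro hz; rw [hz, zero_mul] at h0; exact h0 rfl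
    rw [O.ord_mul hX0 (pow_ne_zero 2 hd0), ord_sq hd0, hAB] at h1
    have hdle := hdge.le_ord hd0
    rintro (hz | hz)
    · exact hX0 hz
    · linarith

end roots

end loc_NodeCtx

end Fermat.Agent.M13
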