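import Fermat.Agent.M13.LocKey

/-!
# M13 / LOC: the node statements over an algebraically closed field

Over an algebraically closed field the tangent slopes at the node (the roots of
`T² + a₁ T - a₂`) exist, so (L2) and (L3) hold without mentioning them:

* `loc_exists_roots`
* `loc_node_sub_E0_closed : ∀ T, loc_E0 O (φ T - T)`
* `loc_key_node_closed : ∀ T, loc_E1 O (φ (φ T - T) - (φ T - T))`
-/

set_option autoImplicit false
set_option linter.unusedSectionVars false
set_option linter.unusedVariables false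

namespace Fermat.Agent.M13

open WeierstrassCurve WeierstrassCurve.Affine Fermat.Agent.S05 Fermat.Agent.S05.OrdVal
open Polynomial

variable {K : Type*} [Field K] [DecidableEq K]
variable {W : WeierstrassCurve.Affine K} {O : OrdVal K}

/-- In an algebraically closed field, every monic quadratic `T² + a T - b` splits. -/
theorem loc_exists_roots [IsAlgClosed K] (a b : K) :
    ∃ l₁ l₂ : K, l₁ + l₂ = -a ∧ l₁ * l₂ = -b := by
  have hdeg : (X ^ 2 + C a * X - C b : K[X]).degree ≠ 0 := by
    have h2 : (X ^ 2 + C a * X - C b : K[X]).degree = 2 := by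
      have e : (X ^ 2 + C a * X - C b : K[X]) = X ^ 2 + (C a * X + C (-b)) := by
        rw [map_neg]; ring
      rw [e]
      have hlt : (C a * X + C (-b) : K[X]).degree < (X ^ 2 : K[X]).degree := by
        rw [degree_X_pow]
        exact lt_of_le_of_lt (degree_linear_le) (by norm_num)
      rw [degree_add_eq_left_of_degree_lt hlt, degree_X_pow]
      rfl
    rw [h2]
    norm_num
  obtain ⟨l, hl⟩ := IsAlgClosed.exists_root _ hdeg
  have hl' : l ^ 2 + a * l - b = 0 := by
    have := hl
    simp only [IsRoot.def, eval_sub, eval_add, eval_pow, eval_X, eval_mul, eval_C] at this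
    exact this
  refine ⟨l, -a - l, by ring, ?_⟩
  linear_combination -hl'

variable {φ : W.Point →+ W.Point} {σ : K →+* K}

/-- **(L2)** over an algebraically closed field. -/
theorem loc_node_sub_E0_closed [IsAlgClosed K] (I : loc_Int W O) (ha₃ : W.a₃ = 0)
    (ha₆ : W.a₆ = 0) (hb₂ : O.IsU W.b₂) (ha₄0 : W.a₄ ≠ 0) (ha₄ : 0 < O.ord W.a₄)
    (H : loc_Inertial W O φ σ) (T : W.Point) : loc_E0 O (φ T - T) := by
  obtain ⟨l₁, l₂, hsum, hprod⟩ := loc_exists_roots W.a₁ W.a₂
  exact H.node_sub_E0 ⟨I, ha₃, ha₆, hb₂, ha₄0, ha₄⟩ hsum hprod T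

/-- **(L3)** over an algebraically closed field. -/
theorem loc_key_node_closed [IsAlgClosed K] (I : loc_Int W O) (ha₃ : W.a₃ = 0)
    (ha₆ : W.a₆ = 0) (hb₂ : O.IsU W.b₂) (ha₄0 : W.a₄ ≠ 0) (ha₄ : 0 < O.ord W.a₄)
    (H : loc_Inertial W O φ σ) (T : W.Point) : loc_E1 O (φ (φ T - T) - (φ T - T)) := by
  obtain ⟨l₁, l₂, hsum, hprod⟩ := loc_exists_roots W.a₁ W.a₂
  exact H.key_node ⟨I, ha₃, ha₆, hb₂, ha₄0, ha₄⟩ hsum hprod T

end Fermat.Agent.M13
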