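import Fermat.Agent.S05.Torsion

/-!
# M13 / MULT: multiples of a torsion point in the kernel of reduction

For a nonzero point `T` of odd prime order `p` on a Weierstrass curve with integral
`b`-invariants, with `ord x(T) < 0`, all multiples `k • T`, `0 < k < p`, satisfy
`x(T) / x(k • T) ≡ k² mod 𝔪`.  If the integers `1, …, p - 1` are units (e.g. residue
characteristic `p`), then `ord x(k • T) = ord x(T)`.  Unlike `S05.xc_integral`, the prime `p`
is NOT assumed to be a unit.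
-/

set_option autoImplicit false

namespace Fermat.Agent.M13

open WeierstrassCurve WeierstrassCurve.Affine Fermat.Agent.S05 Fermat.Agent.S05.OrdVal

variable {K : Type*} [Field K] [DecidableEq K] {W : WeierstrassCurve.Affine K}

/-- The congruence `x(T) / x(k • T) ≡ k²` for `1 ≤ k < p`. -/
theorem mult_congr (O : OrdVal K) (hb₂ : O.Ge W.b₂ 0) (hb₄ : O.Ge W.b₄ 0) (hb₆ : O.Ge W.b₆ 0)
    (hb₈ : O.Ge W.b₈ 0) (hnat : ∀ n : ℕ, O.Ge (n : K) 0) (h2 : (2 : K) ≠ 0)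
    {p : ℕ} (hp : p.Prime) (hp2 : p ≠ 2)
    {T : W.Point} (hT : T ≠ 0) (hpT : p • T = 0) (hx : xc T ≠ 0) (hneg : O.ord (xc T) < 0)
    {k : ℕ} (hk0 : 0 < k) (hkp : k < p) :
    xc (k • T) ≠ 0 ∧ O.Gt (xc T / xc (k • T) - ((k : ℕ) : K) ^ 2) 0 := by
  have h2' : O.Ge (2 : K) 0 := by simpa using hnat 2
  have hone : O.Ge (1 : K) 0 := by simpa using hnat 1
  have hp3 : 3 ≤ p := by
    have := hp.two_le
    omega
  -- the claim for two consecutive indices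
  have hclaim : ∀ j : ℕ, j + 2 < p →
      (xc ((j + 1) • T) ≠ 0 ∧ O.Gt (xc T / xc ((j + 1) • T) - ((j + 1 : ℕ) : K) ^ 2) 0) ∧
      (xc ((j + 2) • T) ≠ 0 ∧ O.Gt (xc T / xc ((j + 2) • T) - ((j + 2 : ℕ) : K) ^ 2) 0) := by
    intro j
    induction j with
    | zero =>
      intro _
      refine ⟨⟨by simpa using hx, ?_⟩, ?_⟩
      · left
        simp [div_self hx]
      · have hD := seq_double hp hp2 hT hpT
        have := seqInt_base (O := O) W.b₂ W.b₄ W.b₆ W.b₈ hb₂ hb₄ hb₆ hb₈ h2' (xc T)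
          (xc (2 • T)) hx hneg (by simpa [psiSq, dNum] using hD)
        simpa using this
    | succ j ih =>
      intro hj
      obtain ⟨⟨ha, hwa⟩, ⟨hb, hwb⟩⟩ := ih (by omega)
      refine ⟨⟨hb, hwb⟩, ?_⟩
      have hPk := seq_prod h2 hp hT hpT (k := j + 2) (by omega) (by omega)
      have hSk := seq_sum h2 hp hT hpT (k := j + 2) (by omega) (by omega)
      have e1 : j + 2 - 1 = j + 1 := by omega
      rw [e1] at hPk hSk
      have hwa' : O.Gt (xc T / xc ((j + 1) • T) - (((j + 2 : ℕ) : K) - 1) ^ 2) 0 := by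
        have : (((j + 2 : ℕ) : K) - 1) = ((j + 1 : ℕ) : K) := by push_cast; ring
        rw [this]; exact hwa
      have := seqInt_step (O := O) W.b₂ W.b₄ W.b₆ W.b₈ hb₂ hb₄ hb₆ hb₈ h2' (xc T)
        (xc ((j + 1) • T)) (xc ((j + 2) • T)) (xc ((j + 2 + 1) • T)) ((j + 2 : ℕ) : K)
        (hnat _) hone hx hneg ha hb hwa' hwb
        (by simpa [pNum] using hPk) (by simpa [sNum] using hSk)
      have e2 : (((j + 2 : ℕ) : K) + 1) = ((j + 1 + 2 : ℕ) : K) := by push_cast; ring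
      rw [e2] at this
      exact this
  rcases Nat.lt_or_ge k 2 with hk2 | hk2
  · have hk1 : k = 1 := by omega
    subst hk1
    refine ⟨by simpa using hx, ?_⟩
    left
    simp [div_self hx]
  · have := (hclaim (k - 2) (by omega)).2
    have e : k - 2 + 2 = k := by omega
    rw [e] at this
    exact this

/-- If `1, …, p - 1` are units, all nonzero multiples of `T` have the same (negative) order
of the `x`-coordinate. -/
theorem mult_ord_eq (O : OrdVal K) (hb₂ : O.Ge W.b₂ 0) (hb₄ : O.Ge W.b₄ 0) (hb₆ : O.Ge W.b₆ 0)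
    (hb₈ : O.Ge W.b₈ 0) (hnat : ∀ n : ℕ, O.Ge (n : K) 0) (h2 : (2 : K) ≠ 0)
    {p : ℕ} (hp : p.Prime) (hp2 : p ≠ 2)
    (hunit : ∀ k : ℕ, 0 < k → k < p → O.IsU ((k : ℕ) : K))
    {T : W.Point} (hT : T ≠ 0) (hpT : p • T = 0) (hx : xc T ≠ 0) (hneg : O.ord (xc T) < 0)
    {k : ℕ} (hk0 : 0 < k) (hkp : k < p) :
    xc (k • T) ≠ 0 ∧ O.ord (xc (k • T)) = O.ord (xc T) := by
  obtain ⟨hne, hgt⟩ := mult_congr O hb₂ hb₄ hb₆ hb₈ hnat h2 hp hp2 hT hpT hx hneg hk0 hkp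
  refine ⟨hne, ?_⟩
  have hU : O.IsU (((k : ℕ) : K) ^ 2) := (hunit k hk0 hkp).pow 2
  have hU' : O.IsU (xc T / xc (k • T)) := by
    have := hU.add_gt hgt
    have e : ((k : ℕ) : K) ^ 2 + (xc T / xc (k • T) - ((k : ℕ) : K) ^ 2) = xc T / xc (k • T) := by
      ring
    rwa [e] at this
  have := hU'.2
  rw [O.ord_div hx hne] at this
  linarith

/-- Variant: every nonzero multiple (any `k` not divisible by `p`) has negative order. -/
theorem mult_ord_neg (O : OrdVal K) (hb₂ : O.Ge W.b₂ 0) (hb₄ : O.Ge W.b₄ 0) (hb₆ : O.Ge W.b₆ 0)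
    (hb₈ : O.Ge W.b₈ 0) (hnat : ∀ n : ℕ, O.Ge (n : K) 0) (h2 : (2 : K) ≠ 0)
    {p : ℕ} (hp : p.Prime) (hp2 : p ≠ 2)
    (hunit : ∀ k : ℕ, 0 < k → k < p → O.IsU ((k : ℕ) : K))
    {T : W.Point} (hT : T ≠ 0) (hpT : p • T = 0) (hx : xc T ≠ 0) (hneg : O.ord (xc T) < 0)
    {k : ℕ} (hk : ¬ p ∣ k) :
    k • T ≠ 0 ∧ xc (k • T) ≠ 0 ∧ O.ord (xc (k • T)) = O.ord (xc T) := by
  have hmod : k • T = (k % p) • T := by
    conv_lhs => rw [← Nat.div_add_mod k p]
    rw [add_smul, mul_smul, smul_comm, hpT, smul_zero, zero_add]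
  have hk0 : 0 < k % p := Nat.pos_of_ne_zero (fun h => hk (Nat.dvd_of_mod_eq_zero h))
  have hkp : k % p < p := Nat.mod_lt _ hp.pos
  rw [hmod]
  exact ⟨nsmul_ne_zero_of_lt hp hT hpT hk0 hkp,
    mult_ord_eq O hb₂ hb₄ hb₆ hb₈ hnat h2 hp hp2 hunit hT hpT hx hneg hk0 hkp⟩

end Fermat.Agent.M13
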