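import Fermat.Agent.S05.OrdVal

/-!
# Newton polygon step for S13 (package [NP] + [SS])

Pure valued-field lemmas in the `OrdVal` framework of S05.

* `np_ord_prod` : the order of a finite product of nonzero elements.
* `np_gt_sum` : a finite sum of elements of order `> c` has order `> c`.
* `np_ord_sum_finset` (NP1) : the unique-minimum ultrametric equality for finite sums.
* `np_neg_sum` (NP2) : for a polynomial `lc * ∏ (X - r i)` whose coefficients have
  natural-number order (or vanish), the total order of the roots of negative order is `-k`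
  with `k ≤ ord lc` a natural number.
* `np_exists_nonneg` (SS) : under the hypotheses of (NP2) with `ord lc = e > 0`, if a proper
  nonempty subfamily `T` of the roots has total order divisible by `e`, then not all roots
  have negative order.
-/

set_option autoImplicit false

namespace Fermat.Agent.M13

open Fermat.Agent.S05 Polynomial

variable {K : Type*} [Field K] (O : OrdVal K)

/-- The order of a finite product of nonzero elements is the sum of the orders. -/
theorem np_ord_prod {ι : Type*} (s : Finset ι) (f : ι → K) (hf : ∀ i ∈ s, f i ≠ 0) :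
    O.ord (∏ i ∈ s, f i) = ∑ i ∈ s, O.ord (f i) := by
  classical
  induction s using Finset.induction_on with
  | empty => simp [O.ord_one]
  | insert a s ha ih =>
    have h1 : f a ≠ 0 := hf a (Finset.mem_insert_self a s)
    have h2 : ∀ i ∈ s, f i ≠ 0 := fun i hi => hf i (Finset.mem_insert_of_mem hi)
    rw [Finset.prod_insert ha, Finset.sum_insert ha,
      O.ord_mul h1 (Finset.prod_ne_zero_iff.2 h2), ih h2]

/-- A finite sum of elements of order `> c` (or zero) has order `> c` (or is zero). -/
theorem np_gt_sum {ι : Type*} (s : Finset ι) (f : ι → K) (c : ℚ)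
    (h : ∀ i ∈ s, O.Gt (f i) c) : O.Gt (∑ i ∈ s, f i) c := by
  classical
  induction s using Finset.induction_on with
  | empty => simpa using OrdVal.Gt.zero (O := O) c
  | insert a s ha ih =>
    rw [Finset.sum_insert ha]
    exact (h a (Finset.mem_insert_self a s)).add
      (ih fun i hi => h i (Finset.mem_insert_of_mem hi))

/-- A finite sum of elements of order `≥ c` (or zero) has order `≥ c` (or is zero). -/
theorem np_ge_sum {ι : Type*} (s : Finset ι) (f : ι → K) (c : ℚ)
    (h : ∀ i ∈ s, O.Ge (f i) c) : O.Ge (∑ i ∈ s, f i) c := by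
  classical
  induction s using Finset.induction_on with
  | empty => simpa using OrdVal.Ge.zero (O := O) c
  | insert a s ha ih =>
    rw [Finset.sum_insert ha]
    exact (h a (Finset.mem_insert_self a s)).add
      (ih fun i hi => h i (Finset.mem_insert_of_mem hi))

/-- **(NP1)** unique-minimum ultrametric equality: if one term of a finite sum is nonzero and
all other terms vanish or have strictly larger order, the sum is nonzero and has the order of
that term. -/
theorem np_ord_sum_finset {ι : Type*} (s : Finset ι) (f : ι → K) (i₀ : ι) (hi₀ : i₀ ∈ s)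
    (hf : f i₀ ≠ 0) (h : ∀ i ∈ s, i ≠ i₀ → f i = 0 ∨ O.ord (f i₀) < O.ord (f i)) :
    ∑ i ∈ s, f i ≠ 0 ∧ O.ord (∑ i ∈ s, f i) = O.ord (f i₀) := by
  classical
  rw [← Finset.add_sum_erase s f hi₀]
  refine OrdVal.ord_add_eq_of_Gt hf ?_
  refine np_gt_sum O _ f _ fun i hi => ?_
  rw [Finset.mem_erase] at hi
  exact h i hi.2 hi.1

/-- Comparison of sums: among the subsets `t` with the same cardinality as
`S = {i | g i < 0}`, the sum of `g` over `t` is minimal exactly for `t = S`. -/
theorem np_sum_lt_of_ne {ι : Type*} [DecidableEq ι] (g : ι → ℚ) (S t : Finset ι)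
    (hS : ∀ i, i ∈ S ↔ g i < 0) (hcard : t.card = S.card) (hne : t ≠ S) :
    ∑ i ∈ S, g i < ∑ i ∈ t, g i := by
  have h1 : ∑ i ∈ S \ (S ∩ t), g i + ∑ i ∈ S ∩ t, g i = ∑ i ∈ S, g i :=
    Finset.sum_sdiff Finset.inter_subset_left
  have h2 : ∑ i ∈ t \ (S ∩ t), g i + ∑ i ∈ S ∩ t, g i = ∑ i ∈ t, g i :=
    Finset.sum_sdiff Finset.inter_subset_right
  have h3 : 0 ≤ ∑ i ∈ t \ (S ∩ t), g i := by
    refine Finset.sum_nonneg fun i hi => ?_
    rw [Finset.mem_sdiff, Finset.mem_inter] at hi
    by_contra hlt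
    exact hi.2 ⟨(hS i).2 (not_le.1 hlt), hi.1⟩
  have h4 : (S \ (S ∩ t)).Nonempty := by
    rw [Finset.nonempty_iff_ne_empty]
    intro h0
    rw [Finset.sdiff_eq_empty_iff_subset] at h0
    have hSt : S ⊆ t := fun i hi => (Finset.mem_inter.1 (h0 hi)).2
    exact hne (Finset.eq_of_subset_of_card_le hSt hcard.le).symm
  have h5 : ∑ i ∈ S \ (S ∩ t), g i < 0 := by
    refine Finset.sum_neg (fun i hi => ?_) h4
    rw [Finset.mem_sdiff] at hi
    exact (hS i).1 hi.1
  linarith

/-- The coefficient of `X ^ (card ι - m)` of `∏ (X - r i)` is `(-1) ^ m` times the `m`-th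
elementary symmetric function of the `r i`. -/
theorem np_coeff_prod {ι : Type*} [Fintype ι] (r : ι → K) (m : ℕ) (hm : m ≤ Fintype.card ι) :
    (∏ i, (X - C (r i))).coeff (Fintype.card ι - m)
      = (-1) ^ m * ∑ t ∈ Finset.powersetCard m (Finset.univ : Finset ι), ∏ i ∈ t, r i := by
  classical
  have h1 : (∏ i, (X - C (r i)))
      = (((Finset.univ : Finset ι).val.map r).map fun t => X - C t).prod := by
    rw [Multiset.map_map]
    rfl
  have hcard : Multiset.card ((Finset.univ : Finset ι).val.map r) = Fintype.card ι := by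
    rw [Multiset.card_map]; rfl
  rw [h1, Multiset.prod_X_sub_C_coeff _ (by rw [hcard]; exact Nat.sub_le _ _), hcard,
    Nat.sub_sub_self hm, Finset.esymm_map_val]

/-- **(NP2)** Newton polygon, integrality of the total pole order: let
`F = lc * ∏ (X - r i)` with all `r i ≠ 0`, `ord lc = e ∈ ℕ`, such that every nonzero
coefficient of `F` has order in `ℕ`.  Then the sum of the orders of the roots of negative
order is `-k` for a natural number `k ≤ e`. -/
theorem np_neg_sum {ι : Type*} [Fintype ι] (lc : K) (hlc : lc ≠ 0) (e : ℕ)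
    (hlce : O.ord lc = e) (r : ι → K) (hr : ∀ i, r i ≠ 0)
    (hint : ∀ n, (C lc * ∏ i, (X - C (r i))).coeff n = 0 ∨
      ∃ k : ℕ, O.ord ((C lc * ∏ i, (X - C (r i))).coeff n) = k) :
    ∃ k : ℕ, k ≤ e ∧
      ∑ i ∈ Finset.univ.filter (fun i => O.ord (r i) < 0), O.ord (r i) = -(k : ℚ) := by
  classical
  set S : Finset ι := Finset.univ.filter (fun i => O.ord (r i) < 0) with hSdef
  have hS : ∀ i, i ∈ S ↔ O.ord (r i) < 0 := fun i => by simp [hSdef]
  have hm : S.card ≤ Fintype.card ι := Finset.card_le_univ S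
  -- the relevant coefficient
  have hcoeff : (C lc * ∏ i, (X - C (r i))).coeff (Fintype.card ι - S.card)
      = lc * ((-1) ^ S.card *
          ∑ t ∈ Finset.powersetCard S.card (Finset.univ : Finset ι), ∏ i ∈ t, r i) := by
    rw [Polynomial.coeff_C_mul, np_coeff_prod r S.card hm]
  -- the dominant term
  have hprod_ne : ∀ t : Finset ι, ∏ i ∈ t, r i ≠ 0 := fun t =>
    Finset.prod_ne_zero_iff.2 fun i _ => hr i
  have hSmem : S ∈ Finset.powersetCard S.card (Finset.univ : Finset ι) :=
    Finset.mem_powersetCard.2 ⟨Finset.subset_univ S, rfl⟩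
  have hdom := np_ord_sum_finset O (Finset.powersetCard S.card (Finset.univ : Finset ι))
    (fun t => ∏ i ∈ t, r i) S hSmem (hprod_ne S) (fun t ht hne => by
      right
      rw [np_ord_prod O S r fun i _ => hr i, np_ord_prod O t r fun i _ => hr i]
      exact np_sum_lt_of_ne (fun i => O.ord (r i)) S t hS (Finset.mem_powersetCard.1 ht).2 hne)
  obtain ⟨hsum_ne, hsum_ord⟩ := hdom
  have hsign : ((-1 : K) ^ S.card) ≠ 0 := pow_ne_zero _ (neg_ne_zero.2 one_ne_zero)
  have hsign_ord : O.ord ((-1 : K) ^ S.card) = 0 := by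
    rw [O.ord_pow (neg_ne_zero.2 one_ne_zero), O.ord_neg_one, mul_zero]
  have hc_ne : (C lc * ∏ i, (X - C (r i))).coeff (Fintype.card ι - S.card) ≠ 0 := by
    rw [hcoeff]
    exact mul_ne_zero hlc (mul_ne_zero hsign hsum_ne)
  have hc_ord : O.ord ((C lc * ∏ i, (X - C (r i))).coeff (Fintype.card ι - S.card))
      = e + ∑ i ∈ S, O.ord (r i) := by
    rw [hcoeff, O.ord_mul hlc (mul_ne_zero hsign hsum_ne), O.ord_mul hsign hsum_ne, hsign_ord,
      hsum_ord, hlce, np_ord_prod O S r fun i _ => hr i, zero_add]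
  obtain ⟨k, hk⟩ := (hint (Fintype.card ι - S.card)).resolve_left hc_ne
  rw [hc_ord] at hk
  have hnonpos : ∑ i ∈ S, O.ord (r i) ≤ 0 :=
    Finset.sum_nonpos fun i hi => ((hS i).1 hi).le
  have hke : k ≤ e := by
    have : (k : ℚ) ≤ e := by linarith
    exact_mod_cast this
  refine ⟨e - k, Nat.sub_le e k, ?_⟩
  rw [Nat.cast_sub hke]
  linarith

/-- **(SS)** the supersingular contradiction: under the hypotheses of (NP2) with
`ord lc = e > 0`, if a proper nonempty subfamily `T` of the roots has total order in `e ℤ`,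
then some root has nonnegative order. -/
theorem np_exists_nonneg {ι : Type*} [Fintype ι] (lc : K) (hlc : lc ≠ 0) (e : ℕ) (he : 0 < e)
    (hlce : O.ord lc = e) (r : ι → K) (hr : ∀ i, r i ≠ 0)
    (hint : ∀ n, (C lc * ∏ i, (X - C (r i))).coeff n = 0 ∨
      ∃ k : ℕ, O.ord ((C lc * ∏ i, (X - C (r i))).coeff n) = k)
    (T : Finset ι) (hT : T.Nonempty) (hT' : T ≠ Finset.univ)
    (hTint : ∃ k : ℤ, ∑ i ∈ T, O.ord (r i) = (e : ℚ) * k) :
    ∃ i, 0 ≤ O.ord (r i) := by
  classical
  by_contra hcon
  simp only [not_exists, not_le] at hcon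
  obtain ⟨k, hke, hk⟩ := np_neg_sum O lc hlc e hlce r hr hint
  have hfilter : Finset.univ.filter (fun i => O.ord (r i) < 0) = (Finset.univ : Finset ι) :=
    Finset.filter_true_of_mem fun i _ => hcon i
  rw [hfilter] at hk
  obtain ⟨j, hj⟩ := hTint
  have hTneg : ∑ i ∈ T, O.ord (r i) < 0 := Finset.sum_neg (fun i _ => hcon i) hT
  have heQ : (0 : ℚ) < e := by exact_mod_cast he
  have hj_neg : j < 0 := by
    by_contra hj0
    simp only [not_lt] at hj0
    have : (0 : ℚ) ≤ (e : ℚ) * j := mul_nonneg heQ.le (by exact_mod_cast hj0)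
    linarith
  have hj_le : (j : ℚ) ≤ -1 := by
    have : j ≤ -1 := by omega
    exact_mod_cast this
  have hT_le : ∑ i ∈ T, O.ord (r i) ≤ -(e : ℚ) := by
    rw [hj]
    nlinarith
  have hcompl : (Finset.univ \ T).Nonempty := by
    rw [Finset.nonempty_iff_ne_empty]
    intro h0
    rw [Finset.sdiff_eq_empty_iff_subset] at h0
    exact hT' (Finset.eq_univ_iff_forall.2 fun i => h0 (Finset.mem_univ i))
  have hcompl_neg : ∑ i ∈ Finset.univ \ T, O.ord (r i) < 0 :=
    Finset.sum_neg (fun i _ => hcon i) hcompl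
  have hsplit : ∑ i ∈ Finset.univ \ T, O.ord (r i) + ∑ i ∈ T, O.ord (r i)
      = ∑ i, O.ord (r i) := Finset.sum_sdiff (Finset.subset_univ T)
  have hkQ : (k : ℚ) ≤ e := by exact_mod_cast hke
  linarith

end Fermat.Agent.M13
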