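import Fermat.Agent.M13.Node2Curve

/-!
# S13, package [RATPT], generic part

* `ratpt_sub_ord_neg`: two distinct affine points `P`, `Q` with `x(P) ≡ x(Q)` and
  `y(P) + y(Q) + a₁ x(Q) + a₃` a unit (i.e. `P ≡ Q` at a point where `ψ₂` is a unit) have
  `P - Q` in the kernel of reduction: `ord x(P - Q) < 0`.
* `ratpt_generic`: on a node model with `a₁ = 1` in residue characteristic `2`, a point `T` of
  order `p` such that `x(T)`, `x(2T)` are units with `x(2T) ≡ x(T)` and `y(2T) - y(T) ≡ 0` or `1`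
  cannot exist.
-/

set_option autoImplicit false
set_option linter.unusedSectionVars false

namespace Fermat.Agent.M13

open WeierstrassCurve WeierstrassCurve.Affine
open Fermat.Agent.S05 Fermat.Agent.S05.OrdVal

variable {K : Type*} [Field K] [DecidableEq K] {W : WeierstrassCurve.Affine K} (O : OrdVal K)

/-- The subtraction estimate for coordinates. -/
theorem ratpt_sub_some (ha₁ : O.Ge W.a₁ 0) (ha₂ : O.Ge W.a₂ 0)
    {x₁ y₁ x₂ y₂ : K} (h₁ : W.Nonsingular x₁ y₁) (h₂ : W.Nonsingular x₂ y₂)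
    (hx₁ : O.Ge x₁ 0) (hx₂ : O.Ge x₂ 0)
    (hx : x₁ ≠ x₂) (hdx : O.Gt (x₁ - x₂) 0) (hnum : O.IsU (y₁ + y₂ + W.a₁ * x₂ + W.a₃)) :
    xc (Point.some x₁ y₁ h₁ - Point.some x₂ y₂ h₂) ≠ 0 ∧
      O.ord (xc (Point.some x₁ y₁ h₁ - Point.some x₂ y₂ h₂)) < 0 := by
  rw [sub_eq_add_neg, Point.neg_some, Point.add_of_X_ne hx]
  simp only [xc_some, addX, slope_of_X_ne hx]
  have hd0 : x₁ - x₂ ≠ 0 := sub_ne_zero.2 hx
  have hdpos : 0 < O.ord (x₁ - x₂) := hdx.lt_ord hd0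
  have hnumeq : y₁ - W.negY x₂ y₂ = y₁ + y₂ + W.a₁ * x₂ + W.a₃ := by rw [negY]; ring
  rw [hnumeq]
  set lam := (y₁ + y₂ + W.a₁ * x₂ + W.a₃) / (x₁ - x₂) with hlam
  have hlam0 : lam ≠ 0 := div_ne_zero hnum.1 hd0
  have hlamord : O.ord lam = -O.ord (x₁ - x₂) := by
    rw [hlam, O.ord_div hnum.1 hd0, hnum.2]; ring
  have hlamneg : O.ord lam < 0 := by rw [hlamord]; linarith
  have hsq0 : lam ^ 2 ≠ 0 := pow_ne_zero 2 hlam0
  have hsqord : O.ord (lam ^ 2) = 2 * O.ord lam := ord_sq hlam0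
  -- the remaining terms have larger order
  have hrest : O.Gt (W.a₁ * lam - W.a₂ - x₁ - x₂) (O.ord (lam ^ 2)) := by
    rw [hsqord]
    have t1 : O.Gt (W.a₁ * lam) (2 * O.ord lam) := by
      have : O.Ge (W.a₁ * lam) (0 + O.ord lam) := ha₁.mul (Or.inr le_rfl)
      exact this.gt_of_lt (by linarith)
    have t2 : O.Gt W.a₂ (2 * O.ord lam) := ha₂.gt_of_lt (by linarith)
    have t3 : O.Gt x₁ (2 * O.ord lam) := hx₁.gt_of_lt (by linarith)
    have t4 : O.Gt x₂ (2 * O.ord lam) := hx₂.gt_of_lt (by linarith)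
    exact ((t1.sub t2).sub t3).sub t4
  have e : lam ^ 2 + W.a₁ * lam - W.a₂ - x₁ - x₂ = lam ^ 2 + (W.a₁ * lam - W.a₂ - x₁ - x₂) := by
    ring
  rw [e]
  obtain ⟨hne, hord⟩ := ord_add_eq_of_Gt hsq0 hrest
  refine ⟨hne, ?_⟩
  rw [hord, hsqord]
  linarith

/-- The subtraction estimate for points. -/
theorem ratpt_sub_ord_neg (ha₁ : O.Ge W.a₁ 0) (ha₂ : O.Ge W.a₂ 0)
    (P Q : W.Point) (hP : P ≠ 0) (hQ : Q ≠ 0)
    (hxP : O.Ge (xc P) 0) (hxQ : O.Ge (xc Q) 0)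
    (hx : xc P ≠ xc Q) (hdx : O.Gt (xc P - xc Q) 0)
    (hnum : O.IsU (yc P + yc Q + W.a₁ * xc Q + W.a₃)) :
    xc (P - Q) ≠ 0 ∧ O.ord (xc (P - Q)) < 0 := by
  cases P with
  | zero => exact absurd rfl hP
  | some x₁ y₁ h₁ =>
    cases Q with
    | zero => exact absurd rfl hQ
    | some x₂ y₂ h₂ =>
      exact ratpt_sub_some O ha₁ ha₂ h₁ h₂ hxP hxQ hx hdx hnum

/-- `y` is integral when `x` is, on an integral model. -/
theorem ratpt_yc_int (ha₁ : O.Ge W.a₁ 0) (ha₂ : O.Ge W.a₂ 0) (ha₃ : O.Ge W.a₃ 0)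
    (ha₄ : O.Ge W.a₄ 0) (ha₆ : O.Ge W.a₆ 0) (P : W.Point) (hxP : O.Ge (xc P) 0) :
    O.Ge (yc P) 0 := by
  cases P with
  | zero => exact Or.inl rfl
  | some x y h =>
    simp only [xc_some] at hxP
    change O.Ge y 0
    by_contra hcon
    have hy0 : y ≠ 0 := fun h0 => hcon (Or.inl h0)
    have hyneg : O.ord y < 0 := by
      by_contra h'
      exact hcon (Or.inr (not_lt.1 h'))
    have he := (equation_iff x y).1 h.1
    have hlin : O.Gt (W.a₁ * x + W.a₃) (O.ord y) :=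
      ((ha₁.mul0 hxP).add ha₃).gt_of_lt hyneg
    obtain ⟨hne, hord⟩ := ord_add_eq_of_Gt hy0 hlin
    have hL : y ^ 2 + W.a₁ * x * y + W.a₃ * y = y * (y + (W.a₁ * x + W.a₃)) := by ring
    have hR : O.Ge (x ^ 3 + W.a₂ * x ^ 2 + W.a₄ * x + W.a₆) 0 :=
      (((hxP.pow0 3).add (ha₂.mul0 (hxP.pow0 2))).add (ha₄.mul0 hxP)).add ha₆
    rw [← he, hL] at hR
    have hprod0 : y * (y + (W.a₁ * x + W.a₃)) ≠ 0 := mul_ne_zero hy0 hne
    have := hR.le_ord hprod0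
    rw [O.ord_mul hy0 hne, hord] at this
    linarith

omit [DecidableEq K] in
theorem ratpt_yc_neg (P : W.Point) (hP : P ≠ 0) :
    yc (-P) = -yc P - W.a₁ * xc P - W.a₃ := by
  cases P with
  | zero => exact absurd rfl hP
  | some x y h => rw [Point.neg_some, yc_some, yc_some, xc_some, negY]

variable {O}

/-- **[RATPT], generic form**: on a node model with `a₁ = 1` in residue characteristic `2`
there is no point `T` of order `p` such that `x(T)` is a unit, `x(2T) ≡ x(T)` and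
`y(2T) - y(T) ≡ 0` or `1` modulo the maximal ideal. -/
theorem ratpt_generic {p : ℕ} (C : Node2Ctx W O p) (ha₁ : W.a₁ = 1) (ha₂ : O.Ge W.a₂ 0)
    (h2 : O.Gt (2 : K) 0) {T : W.Point} (hT : T ≠ 0) (hpT : p • T = 0)
    (hx1 : O.IsU (xc T)) (hxx : O.Gt (xc (2 • T) - xc T) 0)
    (hyy : O.Gt (yc (2 • T) - yc T) 0 ∨ O.Gt (yc (2 • T) - yc T - 1) 0) : False := by
  have hp5 := C.hp5
  have h2T : 2 • T ≠ 0 := C.two_nsmul_ne hT hpT
  have hp2T : p • (2 • T) = 0 := C.nsmul_tors hpT 2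
  have hx2int : O.Ge (xc (2 • T)) 0 := C.node2_xc_int h2T hp2T
  have hne : xc (2 • T) ≠ xc T := xc_nsmul_ne C.hp hT hpT (le_refl 2) (by omega)
  have ha₁' : O.Ge W.a₁ 0 := by rw [ha₁]; exact (isU_one (O := O)).ge
  have ha₃' : O.Ge W.a₃ 0 := by rw [C.ha₃]; exact Or.inl rfl
  have ha₆' : O.Ge W.a₆ 0 := by rw [C.ha₆]; exact Or.inl rfl
  have hy1int : O.Ge (yc T) 0 := ratpt_yc_int O ha₁' ha₂ ha₃' C.a₄_ge ha₆' T hx1.ge
  rcases hyy with hy | hy
  · -- `2T ≡ T`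
    have hnum : O.IsU (yc (2 • T) + yc T + W.a₁ * xc T + W.a₃) := by
      have e : yc (2 • T) + yc T + W.a₁ * xc T + W.a₃ =
          xc T + ((yc (2 • T) - yc T) + 2 * yc T) := by
        rw [ha₁, C.ha₃]; ring
      rw [e]
      exact hx1.add_gt (hy.add (h2.mul_ge0 hy1int))
    obtain ⟨h0, hneg⟩ := ratpt_sub_ord_neg O ha₁' ha₂ (2 • T) T h2T hT hx2int hx1.ge hne hxx hnum
    have e : 2 • T - T = T := by rw [two_nsmul]; abel
    rw [e, hx1.2] at hneg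
    exact lt_irrefl _ hneg
  · -- `2T ≡ -T`
    have hnT : -T ≠ 0 := neg_ne_zero.2 hT
    have hnum : O.IsU (yc (2 • T) + yc (-T) + W.a₁ * xc (-T) + W.a₃) := by
      have e : yc (2 • T) + yc (-T) + W.a₁ * xc (-T) + W.a₃ =
          1 + (yc (2 • T) - yc T - 1) := by
        rw [ratpt_yc_neg T hT, xc_neg]; ring
      rw [e]
      exact (isU_one (O := O)).add_gt hy
    have hxn : xc (-T) = xc T := xc_neg T
    obtain ⟨h0, hneg⟩ := ratpt_sub_ord_neg O ha₁' ha₂ (2 • T) (-T) h2T hnT hx2int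
      (by rw [hxn]; exact hx1.ge) (by rw [hxn]; exact hne) (by rw [hxn]; exact hxx) hnum
    have e : 2 • T - -T = 3 • T := by
      rw [sub_neg_eq_add, ← succ_nsmul]
    rw [e] at h0 hneg
    have h3T : 3 • T ≠ 0 := nsmul_ne_zero_of_lt C.hp hT hpT (by norm_num) (by omega)
    have := (C.node2_xc_int h3T (C.nsmul_tors hpT 3)).le_ord h0
    linarith

end Fermat.Agent.M13
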