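import Fermat.Agent.M13.RatPt
import Fermat.Agent.S05.Frey
import Fermat.Agent.Frob.Exists

/-!
# S13, package [RATPT], the Frey curve: rational numbers at a place over `2`
-/

set_option autoImplicit false
set_option linter.unusedSectionVars false

namespace Fermat.Agent.M13

open WeierstrassCurve WeierstrassCurve.Affine
open Fermat.Agent.S05 Fermat.Agent.S05.OrdVal

local notation "Qb" => AlgebraicClosure ℚ

section Rational

variable {A : ValuationSubring Qb} {q : ℕ} {O : OrdVal Qb} (D : PlaceData A q O)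
include D

/-- A rational number which is integral at the place is `≡ 0` or has a denominator prime
to `q`: we only need the following form.  If `r ∈ ℚ` is integral at a place over `q` then
`r = n / d` with `q ∤ d`. -/
theorem ratpt_exists_den (r : ℚ) (hr : O.Ge (algebraMap ℚ Qb r) 0) :
    ∃ n d : ℤ, ¬ (q : ℤ) ∣ d ∧ algebraMap ℚ Qb r = (n : Qb) / (d : Qb) := by
  have hcast : algebraMap ℚ Qb r = ((r.num : ℤ) : Qb) / ((r.den : ℤ) : Qb) := by
    conv_lhs => rw [← Rat.num_div_den r]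
    rw [map_div₀]
    simp
  refine ⟨r.num, r.den, ?_, hcast⟩
  intro hd
  -- then `q ∤ num`, so `ord r < 0`
  have hcop : IsCoprime r.num (r.den : ℤ) := by
    have := r.reduced
    rw [Nat.Coprime] at this
    exact Int.isCoprime_iff_gcd_eq_one.2 (by simpa [Int.gcd] using this)
  have hn : ¬ (q : ℤ) ∣ r.num := by
    intro hn
    have hq1 : IsUnit (q : ℤ) := hcop.isUnit_of_dvd' hn hd
    have : (q : ℤ) = 1 ∨ (q : ℤ) = -1 := Int.isUnit_iff.1 hq1
    have hq2 := D.hq.two_le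
    omega
  have hnU := D.int_isU hn
  have hdG := D.int_gt hd
  have hd0 : ((r.den : ℤ) : Qb) ≠ 0 := by
    have := r.den_ne_zero
    exact_mod_cast this
  have hne : algebraMap ℚ Qb r ≠ 0 := by
    rw [hcast]
    exact div_ne_zero hnU.1 hd0
  have h1 := hr.le_ord hne
  rw [hcast, O.ord_div hnU.1 hd0, hnU.2] at h1
  have h2 := hdG.lt_ord hd0
  linarith

end Rational

section AtTwo

variable {A : ValuationSubring Qb} {O : OrdVal Qb} (D : PlaceData A 2 O)
include D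

/-- At a place over `2`, an integral rational number is `≡ 0` or `≡ 1`. -/
theorem ratpt_rat_zero_or_one (r : ℚ) (hr : O.Ge (algebraMap ℚ Qb r) 0) :
    O.Gt (algebraMap ℚ Qb r) 0 ∨ O.Gt (algebraMap ℚ Qb r - 1) 0 := by
  obtain ⟨n, d, hd, hrd⟩ := ratpt_exists_den D r hr
  have hdU := D.int_isU hd
  rw [hrd]
  by_cases hn : ((2 : ℕ) : ℤ) ∣ n
  · left
    rw [div_eq_mul_inv]
    exact (D.int_gt hn).mul_isU hdU.inv
  · right
    have hnd : ((2 : ℕ) : ℤ) ∣ n - d := by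
      have h1 : n % 2 = 1 := by
        have : ¬ (2 : ℤ) ∣ n := by simpa using hn
        omega
      have h2 : d % 2 = 1 := by
        have : ¬ (2 : ℤ) ∣ d := by simpa using hd
        omega
      have : (n - d) % 2 = 0 := by omega
      simpa using Int.dvd_of_emod_eq_zero this
    have e : (n : Qb) / (d : Qb) - 1 = ((n - d : ℤ) : Qb) * ((d : ℤ) : Qb)⁻¹ := by
      have := hdU.1
      push_cast
      field_simp
    rw [e]
    exact (D.int_gt hnd).mul_isU hdU.inv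

/-- At a place over `2`, a rational unit is `≡ 1`. -/
theorem ratpt_rat_unit (r : ℚ) (hr : O.IsU (algebraMap ℚ Qb r)) :
    O.Gt (algebraMap ℚ Qb r - 1) 0 := by
  rcases ratpt_rat_zero_or_one D r hr.ge with h | h
  · exact absurd h hr.not_gt
  · exact h

omit D in
theorem ratpt_isGalois_Qb : IsGalois ℚ Qb := by
  have h : (DivisionRing.toRatAlgebra : Algebra ℚ Qb) =
      AlgebraicClosure.instAlgebra ℚ := Subsingleton.elim _ _
  rw [h]
  infer_instance

omit D in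
/-- Elements fixed by the absolute Galois group are rational. -/
theorem ratpt_rational_of_fixed (z : Qb) (hz : ∀ σ : Qb ≃ₐ[ℚ] Qb, σ z = z) :
    ∃ r : ℚ, algebraMap ℚ Qb r = z :=
  haveI := ratpt_isGalois_Qb
  (InfiniteGalois.mem_range_algebraMap_iff_fixed z).2 hz

end AtTwo

section Frey

variable (P : FreyPackage)

/-- the Frey curve over `ℚ̄` -/
local notation "WQb" => ((P.freyCurve : WeierstrassCurve.Affine ℚ)⁄(AlgebraicClosure ℚ))

theorem ratpt_frey_a₁ : (WQb).a₁ = 1 := by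
  simp only [WeierstrassCurve.Affine.baseChange, WeierstrassCurve.baseChange,
    FreyPackage.freyCurve, WeierstrassCurve.map_a₁, map_one]

/-- `4 ∣ b ^ p - 1 - a ^ p`. -/
theorem ratpt_four_dvd : (4 : ℤ) ∣ P.b ^ P.p - 1 - P.a ^ P.p := by
  have key : ((P.b ^ P.p - 1 - P.a ^ P.p : ℤ) : ZMod 4) = 0 := by
    push_cast
    rw [P.ha4]
    have hb : (2 : ℤ) ∣ P.b := (ZMod.intCast_zmod_eq_zero_iff_dvd P.b 2).1 P.hb2
    obtain ⟨k, hk⟩ := hb
    have hp5 := P.hp5
    have hbp : ((P.b : ZMod 4)) ^ P.p = 0 := by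
      rw [hk]
      push_cast
      rw [mul_pow]
      have h2 : (2 : ZMod 4) ^ P.p = 0 := by
        have e : P.p = 2 + (P.p - 2) := by omega
        rw [e, pow_add]
        have : (2 : ZMod 4) ^ 2 = 0 := by decide
        rw [this, zero_mul]
      rw [h2, zero_mul]
    have h3 : (3 : ZMod 4) ^ P.p = 3 := by
      have e : (3 : ZMod 4) = -1 := by decide
      rw [e, P.hp_odd.neg_one_pow]
    rw [hbp, h3]
    decide
  exact (ZMod.intCast_zmod_eq_zero_iff_dvd _ 4).1 key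

theorem ratpt_frey_a₂ : ∃ m : ℤ, (WQb).a₂ = (m : AlgebraicClosure ℚ) := by
  obtain ⟨m, hm⟩ := ratpt_four_dvd P
  refine ⟨m, ?_⟩
  simp only [WeierstrassCurve.Affine.baseChange, WeierstrassCurve.baseChange,
    FreyPackage.freyCurve, WeierstrassCurve.map_a₂]
  have h : ((P.b : ℚ) ^ P.p - 1 - (P.a : ℚ) ^ P.p) / 4 = (m : ℚ) := by
    have := congrArg (fun n : ℤ => (n : ℚ)) hm
    simp only [Int.cast_sub, Int.cast_pow, Int.cast_one, Int.cast_mul, Int.cast_ofNat] at this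
    rw [this]
    ring
  rw [h]
  simp

variable {P} {A : ValuationSubring (AlgebraicClosure ℚ)} {O : OrdVal (AlgebraicClosure ℚ)}

theorem ratpt_frey_a₂_ge (D : PlaceData A 2 O) : O.Ge (WQb).a₂ 0 := by
  obtain ⟨m, hm⟩ := ratpt_frey_a₂ P
  rw [hm]
  exact D.int_ge m

theorem ratpt_two_gt (D : PlaceData A 2 O) : O.Gt (2 : AlgebraicClosure ℚ) 0 := by
  have := D.gt_of_nonunit D.hA
  simpa using this

/-- The coordinates of a Galois-fixed point are Galois-fixed. -/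
theorem ratpt_fixed_coords (E : WeierstrassCurve.Affine ℚ)
    (T : (E⁄(AlgebraicClosure ℚ)).Point)
    (hfix : ∀ σ : AlgebraicClosure ℚ ≃ₐ[ℚ] AlgebraicClosure ℚ,
      Point.map (W' := E) σ.toAlgHom T = T) :
    (∀ σ : AlgebraicClosure ℚ ≃ₐ[ℚ] AlgebraicClosure ℚ, σ (xc T) = xc T) ∧
    (∀ σ : AlgebraicClosure ℚ ≃ₐ[ℚ] AlgebraicClosure ℚ, σ (yc T) = yc T) := by
  cases T with
  | zero => exact ⟨fun σ => map_zero σ, fun σ => map_zero σ⟩
  | some x y h =>
    refine ⟨fun σ => ?_, fun σ => ?_⟩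
    · have := congrArg xc (hfix σ)
      rw [Point.map_some] at this
      exact this
    · have := congrArg yc (hfix σ)
      rw [Point.map_some] at this
      exact this

/-- **[RATPT], Frey curve, conditional form.** -/
theorem ratpt_false_of (D : PlaceData A 2 O) (C : Node2Ctx WQb O P.p)
    (hnn : ∀ Q : (WQb).Point, Q ≠ 0 → P.p • Q = 0 →
      (∀ σ : AlgebraicClosure ℚ ≃ₐ[ℚ] AlgebraicClosure ℚ, σ (xc Q) = xc Q) →
      ¬ 0 < O.ord (xc Q))
    (T : (WQb).Point) (hT : T ≠ 0) (hpT : P.p • T = 0)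
    (hfix : ∀ σ : AlgebraicClosure ℚ ≃ₐ[ℚ] AlgebraicClosure ℚ,
      Point.map (W' := (P.freyCurve : WeierstrassCurve.Affine ℚ)) σ.toAlgHom T = T) :
    False := by
  have h2T : 2 • T ≠ 0 := C.two_nsmul_ne hT hpT
  have hp2T : P.p • (2 • T) = 0 := C.nsmul_tors hpT 2
  have hfix2 : ∀ σ : AlgebraicClosure ℚ ≃ₐ[ℚ] AlgebraicClosure ℚ,
      Point.map (W' := (P.freyCurve : WeierstrassCurve.Affine ℚ)) σ.toAlgHom (2 • T) = 2 • T := by
    intro σ
    rw [map_nsmul, hfix σ]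
  obtain ⟨hx1, hy1⟩ := ratpt_fixed_coords _ T hfix
  obtain ⟨hx2, hy2⟩ := ratpt_fixed_coords _ (2 • T) hfix2
  -- the `x`-coordinates are units
  have hU : ∀ Q : (WQb).Point, Q ≠ 0 → P.p • Q = 0 →
      (∀ σ : AlgebraicClosure ℚ ≃ₐ[ℚ] AlgebraicClosure ℚ, σ (xc Q) = xc Q) → O.IsU (xc Q) := by
    intro Q hQ hpQ hσ
    have h0 := C.node2_xc_ne hQ hpQ
    refine ⟨h0, le_antisymm ?_ ((C.node2_xc_int hQ hpQ).le_ord h0)⟩
    exact not_lt.1 (hnn Q hQ hpQ hσ)
  have hxU1 := hU T hT hpT hx1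
  have hxU2 := hU (2 • T) h2T hp2T hx2
  obtain ⟨r1, hr1⟩ := ratpt_rational_of_fixed _ hx1
  obtain ⟨r2, hr2⟩ := ratpt_rational_of_fixed _ hx2
  have hg1 : O.Gt (xc T - 1) 0 := by
    rw [← hr1]; exact ratpt_rat_unit D r1 (by rw [hr1]; exact hxU1)
  have hg2 : O.Gt (xc (2 • T) - 1) 0 := by
    rw [← hr2]; exact ratpt_rat_unit D r2 (by rw [hr2]; exact hxU2)
  have hxx : O.Gt (xc (2 • T) - xc T) 0 := by
    have e : xc (2 • T) - xc T = (xc (2 • T) - 1) - (xc T - 1) := by ring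
    rw [e]; exact hg2.sub hg1
  -- the `y`-coordinates
  have ha₁' : O.Ge (WQb).a₁ 0 := by rw [ratpt_frey_a₁]; exact (isU_one (O := O)).ge
  have ha₃' : O.Ge (WQb).a₃ 0 := by rw [C.ha₃]; exact Or.inl rfl
  have ha₆' : O.Ge (WQb).a₆ 0 := by rw [C.ha₆]; exact Or.inl rfl
  have ha₂' := ratpt_frey_a₂_ge (P := P) D
  have hyi1 : O.Ge (yc T) 0 := ratpt_yc_int O ha₁' ha₂' ha₃' C.a₄_ge ha₆' T hxU1.ge
  have hyi2 : O.Ge (yc (2 • T)) 0 :=
    ratpt_yc_int O ha₁' ha₂' ha₃' C.a₄_ge ha₆' (2 • T) hxU2.ge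
  have hyfix : ∀ σ : AlgebraicClosure ℚ ≃ₐ[ℚ] AlgebraicClosure ℚ,
      σ (yc (2 • T) - yc T) = yc (2 • T) - yc T := by
    intro σ
    rw [map_sub, hy1 σ, hy2 σ]
  obtain ⟨r, hr⟩ := ratpt_rational_of_fixed _ hyfix
  have hyy : O.Gt (yc (2 • T) - yc T) 0 ∨ O.Gt (yc (2 • T) - yc T - 1) 0 := by
    rw [← hr]
    exact ratpt_rat_zero_or_one D r (by rw [hr]; exact hyi2.sub hyi1)
  exact ratpt_generic C (ratpt_frey_a₁ P) ha₂' (ratpt_two_gt D) hT hpT hxU1 hxx hyy

end Frey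

end Fermat.Agent.M13
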