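import Fermat.Agent.M13.NP
import Fermat.Agent.S05.Frey
import Fermat.Prelude.Def_FLTPrelim_CofixedLine

/-!
# The supersingular contradiction for S13 (package [SS])

Built on the Newton-polygon lemmas of `NP.lean`.

* `np_exists_nonneg_finset` : `Finset`-indexed version of `np_exists_nonneg`.
* `np_ss_simple` : version for a polynomial `lc * ∏_{ξ ∈ s} (X - ξ)` with simple roots and
  `ord lc = 1`.
* `np_ss_double` : version for a polynomial `lc * ∏_{i ∈ s} (X - x i)` where the roots come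
  in pairs (`x i = x j` for exactly two indices of the subfamily) and `ord lc = 2`.
* bridge lemmas for a place of `ℚ̄` over `q` (`PlaceData`): the order of a nonzero integer is a
  natural number, the order of a nonzero rational number (or of a nonzero Galois-fixed
  element) is an integer, polynomials with integer coefficients satisfy the integrality
  hypothesis of `np_neg_sum`.
* `np_ss_points`, `np_ss_points_simple` : the statement for points of a Weierstrass curve.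
* `np_ss_torsion`, `np_ss_torsion_simple` : the final form for a Galois-stable submodule
  `N ≠ ⊥, ⊤` of the `p`-torsion (prelude objects).
* `np_prod_points_eq_sq` : conversion between the two shapes of the torsion polynomial.
-/

set_option autoImplicit false

namespace Fermat.Agent.M13

open Fermat.Agent.S05 Polynomial

section abstract

variable {K : Type*} [Field K] (O : OrdVal K)

/-- `Finset`-indexed version of `np_exists_nonneg`. -/
theorem np_exists_nonneg_finset {α : Type*} (s : Finset α) (lc : K) (hlc : lc ≠ 0) (e : ℕ)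
    (he : 0 < e) (hlce : O.ord lc = e) (r : α → K) (hr : ∀ i ∈ s, r i ≠ 0)
    (hint : ∀ n, (C lc * ∏ i ∈ s, (X - C (r i))).coeff n = 0 ∨
      ∃ k : ℕ, O.ord ((C lc * ∏ i ∈ s, (X - C (r i))).coeff n) = k)
    (t : Finset α) (hts : t ⊆ s) (ht : t.Nonempty) (hne : t ≠ s)
    (hTint : ∃ k : ℤ, ∑ i ∈ t, O.ord (r i) = (e : ℚ) * k) :
    ∃ i ∈ s, 0 ≤ O.ord (r i) := by
  classical
  have hprod : ∏ i : s, (X - C (r i)) = ∏ i ∈ s, (X - C (r i)) :=
    Finset.prod_coe_sort s fun i => X - C (r i)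
  set T : Finset s := Finset.univ.filter (fun i : s => (i : α) ∈ t) with hT
  have hsum : ∑ i ∈ T, O.ord (r i) = ∑ i ∈ t, O.ord (r i) := by
    rw [hT, Finset.sum_filter]
    rw [Finset.sum_coe_sort s fun i => if i ∈ t then O.ord (r i) else 0]
    rw [← Finset.sum_filter]
    congr 1
    ext i
    simp only [Finset.mem_filter]
    exact ⟨fun h => h.2, fun h => ⟨hts h, h⟩⟩
  have hTne : T.Nonempty := by
    obtain ⟨i, hi⟩ := ht
    exact ⟨⟨i, hts hi⟩, by simp [hT, hi]⟩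
  have hTuniv : T ≠ Finset.univ := by
    intro h
    apply hne
    refine Finset.Subset.antisymm hts fun i hi => ?_
    have : (⟨i, hi⟩ : s) ∈ T := by rw [h]; exact Finset.mem_univ _
    simpa [hT] using this
  obtain ⟨i, hi⟩ := np_exists_nonneg O lc hlc e he hlce (fun i : s => r i) (fun i => hr i i.2)
    (by rw [hprod]; exact hint) T hTne hTuniv (by rw [hsum]; exact hTint)
  exact ⟨i, i.2, hi⟩

/-- Supersingular contradiction, simple roots, `ord lc = 1`. -/
theorem np_ss_simple [DecidableEq K] (s : Finset K) (hs : ∀ ξ ∈ s, ξ ≠ 0) (lc : K) (hlc : lc ≠ 0)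
    (hlce : O.ord lc = 1)
    (hint : ∀ n, (C lc * ∏ ξ ∈ s, (X - C ξ)).coeff n = 0 ∨
      ∃ k : ℕ, O.ord ((C lc * ∏ ξ ∈ s, (X - C ξ)).coeff n) = k)
    (t : Finset K) (hts : t ⊆ s) (ht : t.Nonempty) (hne : t ≠ s)
    (hTint : ∃ k : ℤ, O.ord (∏ ξ ∈ t, ξ) = k) :
    ∃ ξ ∈ s, 0 ≤ O.ord ξ := by
  refine np_exists_nonneg_finset O s lc hlc 1 one_pos (by simpa using hlce) (fun ξ => ξ) hs
    hint t hts ht hne ?_
  obtain ⟨k, hk⟩ := hTint
  refine ⟨k, ?_⟩
  rw [← np_ord_prod O t (fun ξ => ξ) fun ξ hξ => hs ξ (hts hξ), hk]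
  simp

/-- Supersingular contradiction, roots in pairs, `ord lc = 2`. -/
theorem np_ss_double [DecidableEq K] {α : Type*} (s : Finset α) (x : α → K)
    (hx : ∀ i ∈ s, x i ≠ 0) (lc : K) (hlc : lc ≠ 0) (hlce : O.ord lc = 2)
    (hint : ∀ n, (C lc * ∏ i ∈ s, (X - C (x i))).coeff n = 0 ∨
      ∃ k : ℕ, O.ord ((C lc * ∏ i ∈ s, (X - C (x i))).coeff n) = k)
    (t : Finset α) (hts : t ⊆ s) (ht : t.Nonempty) (hne : t ≠ s)
    (hfib : ∀ i ∈ t, (t.filter (fun j => x j = x i)).card = 2)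
    (hTint : ∃ k : ℤ, O.ord (∏ ξ ∈ t.image x, ξ) = k) :
    ∃ i ∈ s, 0 ≤ O.ord (x i) := by
  classical
  refine np_exists_nonneg_finset O s lc hlc 2 (by norm_num) (by simpa using hlce) x hx
    hint t hts ht hne ?_
  obtain ⟨k, hk⟩ := hTint
  refine ⟨k, ?_⟩
  have h1 : O.ord (∏ ξ ∈ t.image x, ξ) = ∑ ξ ∈ t.image x, O.ord ξ :=
    np_ord_prod O (t.image x) (fun ξ => ξ) fun ξ hξ => by
      obtain ⟨i, hi, rfl⟩ := Finset.mem_image.1 hξ
      exact hx i (hts hi)
  have h2 : ∑ ξ ∈ t.image x, 2 * O.ord ξ = ∑ i ∈ t, O.ord (x i) := by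
    refine Finset.sum_image' (fun i => O.ord (x i)) fun i hi => ?_
    have h3 : ∀ j ∈ t.filter (fun j => x j = x i), O.ord (x j) = O.ord (x i) := by
      intro j hj
      rw [(Finset.mem_filter.1 hj).2]
    rw [Finset.sum_congr rfl h3, Finset.sum_const, hfib i hi]
    simp
  rw [← h2, ← Finset.mul_sum, ← h1, hk]
  push_cast
  ring

end abstract

section bridge

variable {A : ValuationSubring (AlgebraicClosure ℚ)} {q : ℕ} {O : OrdVal (AlgebraicClosure ℚ)}

/-- The order of a nonzero integer at a place over `q` (normalised by `ord q = 1`) is a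
natural number. -/
theorem np_ord_intCast (D : PlaceData A q O) (hOq : O.ord (q : AlgebraicClosure ℚ) = 1)
    (c : ℤ) (hc : c ≠ 0) : ∃ k : ℕ, O.ord (c : AlgebraicClosure ℚ) = k := by
  have hfin : FiniteMultiplicity (q : ℤ) c :=
    Int.finiteMultiplicity_iff.mpr ⟨by simpa using D.hq.ne_one, hc⟩
  obtain ⟨c', hc', hndvd⟩ := hfin.exists_eq_pow_mul_and_not_dvd
  refine ⟨multiplicity (q : ℤ) c, ?_⟩
  have hU := D.int_isU hndvd
  have hq0 : (q : AlgebraicClosure ℚ) ≠ 0 := by exact_mod_cast D.hq.ne_zero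
  have h1 : (c : AlgebraicClosure ℚ) =
      (q : AlgebraicClosure ℚ) ^ (multiplicity (q : ℤ) c) * (c' : AlgebraicClosure ℚ) := by
    conv_lhs => rw [hc']
    push_cast
    rfl
  rw [h1, OrdVal.ord_mul_isU (pow_ne_zero _ hq0) hU, O.ord_pow hq0, hOq, mul_one]

/-- The order of a nonzero rational number is an integer. -/
theorem np_ord_ratCast (D : PlaceData A q O) (hOq : O.ord (q : AlgebraicClosure ℚ) = 1)
    (x : ℚ) (hx : x ≠ 0) : ∃ k : ℤ, O.ord (algebraMap ℚ (AlgebraicClosure ℚ) x) = k := by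
  obtain ⟨a, ha⟩ := np_ord_intCast D hOq x.num (Rat.num_ne_zero.2 hx)
  obtain ⟨b, hb⟩ := np_ord_intCast D hOq (x.den : ℤ) (by exact_mod_cast x.den_ne_zero)
  refine ⟨(a : ℤ) - b, ?_⟩
  have hn0 : ((x.num : ℤ) : AlgebraicClosure ℚ) ≠ 0 := by
    exact_mod_cast Rat.num_ne_zero.2 hx
  have hd0 : (((x.den : ℤ) : ℤ) : AlgebraicClosure ℚ) ≠ 0 := by
    exact_mod_cast x.den_ne_zero
  have h1 : algebraMap ℚ (AlgebraicClosure ℚ) x
      = ((x.num : ℤ) : AlgebraicClosure ℚ) / (((x.den : ℤ) : ℤ) : AlgebraicClosure ℚ) := by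
    conv_lhs => rw [← Rat.num_div_den x]
    simp
  rw [h1, O.ord_div hn0 hd0, ha, hb]
  push_cast
  ring

/-- The order of a nonzero Galois-fixed element of `ℚ̄` is an integer. -/
theorem np_ord_of_fixed (D : PlaceData A q O) (hOq : O.ord (q : AlgebraicClosure ℚ) = 1)
    (x : AlgebraicClosure ℚ) (hx : x ≠ 0)
    (hfix : ∀ σ : AlgebraicClosure ℚ ≃ₐ[ℚ] AlgebraicClosure ℚ, σ x = x) :
    ∃ k : ℤ, O.ord x = k := by
  have := Fermat.Agent.Frob.isAlgebraic_Qb
  have := Fermat.Agent.Frob.isAlgClosure_Qb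
  obtain ⟨y, rfl⟩ := (InfiniteGalois.mem_range_algebraMap_iff_fixed (k := ℚ)
    (K := AlgebraicClosure ℚ) x).mpr hfix
  exact np_ord_ratCast D hOq y fun h => hx (by rw [h, map_zero])

/-- Polynomials with integer coefficients satisfy the integrality hypothesis of
`np_neg_sum`. -/
theorem np_hint_of_int (D : PlaceData A q O) (hOq : O.ord (q : AlgebraicClosure ℚ) = 1)
    (G : Polynomial ℤ) (n : ℕ) :
    (G.map (Int.castRingHom (AlgebraicClosure ℚ))).coeff n = 0 ∨
      ∃ k : ℕ, O.ord ((G.map (Int.castRingHom (AlgebraicClosure ℚ))).coeff n) = k := by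
  rw [Polynomial.coeff_map]
  by_cases h : G.coeff n = 0
  · left; simp [h]
  · right
    exact np_ord_intCast D hOq (G.coeff n) h

/-- A product over a Galois-stable finite set is Galois-fixed. -/
theorem np_prod_fixed (t : Finset (AlgebraicClosure ℚ))
    (hgal : ∀ σ : AlgebraicClosure ℚ ≃ₐ[ℚ] AlgebraicClosure ℚ, ∀ ξ ∈ t, σ ξ ∈ t)
    (σ : AlgebraicClosure ℚ ≃ₐ[ℚ] AlgebraicClosure ℚ) : σ (∏ ξ ∈ t, ξ) = ∏ ξ ∈ t, ξ := by
  classical
  have himg : t.image σ = t := by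
    refine Finset.eq_of_subset_of_card_le (fun ξ hξ => ?_) ?_
    · obtain ⟨η, hη, rfl⟩ := Finset.mem_image.1 hξ
      exact hgal σ η hη
    · rw [Finset.card_image_of_injective _ σ.injective]
  rw [map_prod]
  conv_rhs => rw [← himg]
  rw [Finset.prod_image fun a _ b _ h => σ.injective h]

end bridge

section points

open WeierstrassCurve WeierstrassCurve.Affine WeierstrassCurve.Affine.Point

variable {A : ValuationSubring (AlgebraicClosure ℚ)} {q : ℕ} {O : OrdVal (AlgebraicClosure ℚ)}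

/-- The `x`-coordinate of a Galois translate. -/
theorem np_xc_smul (E : WeierstrassCurve.Affine ℚ)
    (σ : AlgebraicClosure ℚ ≃ₐ[ℚ] AlgebraicClosure ℚ) (T : (E⁄(AlgebraicClosure ℚ)).Point) :
    xc (σ • T) = σ (xc T) := by
  cases T with
  | zero => exact (_root_.map_zero σ).symm
  | some x y h => rfl

/-- The set of `x`-coordinates of a Galois-stable finite set of points is Galois-stable. -/
theorem np_image_xc_stable (E : WeierstrassCurve.Affine ℚ)
    (t : Finset (E⁄(AlgebraicClosure ℚ)).Point)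
    (hgal : ∀ σ : AlgebraicClosure ℚ ≃ₐ[ℚ] AlgebraicClosure ℚ, ∀ T ∈ t, σ • T ∈ t)
    (σ : AlgebraicClosure ℚ ≃ₐ[ℚ] AlgebraicClosure ℚ) :
    ∀ ξ ∈ t.image xc, σ ξ ∈ t.image xc := by
  intro ξ hξ
  obtain ⟨T, hT, rfl⟩ := Finset.mem_image.1 hξ
  rw [← np_xc_smul E σ T]
  exact Finset.mem_image_of_mem _ (hgal σ T hT)

/-- The order of the product of the `x`-coordinates of a Galois-stable finite set of points
(with nonzero `x`-coordinates) is an integer. -/
theorem np_ord_prod_xc_int (E : WeierstrassCurve.Affine ℚ) (D : PlaceData A q O)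
    (hOq : O.ord (q : AlgebraicClosure ℚ) = 1)
    (t : Finset (E⁄(AlgebraicClosure ℚ)).Point) (htx : ∀ T ∈ t, xc T ≠ 0)
    (hgal : ∀ σ : AlgebraicClosure ℚ ≃ₐ[ℚ] AlgebraicClosure ℚ, ∀ T ∈ t, σ • T ∈ t) :
    ∃ k : ℤ, O.ord (∏ ξ ∈ t.image xc, ξ) = k := by
  refine np_ord_of_fixed D hOq _ ?_ fun σ => np_prod_fixed _ (np_image_xc_stable E t hgal) σ
  refine Finset.prod_ne_zero_iff.2 fun ξ hξ => ?_
  obtain ⟨T, hT, rfl⟩ := Finset.mem_image.1 hξ
  exact htx T hT

/-- **Supersingular contradiction for points, squared shape** (`G = lc · ∏_{T ∈ s} (X - x(T))`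
with integer coefficients and `ord lc = 2`, `s` = the nonzero `p`-torsion points): if a proper
nonempty subset `t ⊆ s` is stable under negation and Galois, then some point of `s` has
`x`-coordinate of nonnegative order, i.e. does not lie in the kernel of reduction. -/
theorem np_ss_points (E : WeierstrassCurve.Affine ℚ) (D : PlaceData A q O)
    (hOq : O.ord (q : AlgebraicClosure ℚ) = 1)
    (s : Finset (E⁄(AlgebraicClosure ℚ)).Point) (hs0 : ∀ T ∈ s, T ≠ 0)
    (hsx : ∀ T ∈ s, xc T ≠ 0)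
    (G : Polynomial ℤ) (lc : ℤ) (hlcz : lc ≠ 0) (hlc : O.ord (lc : AlgebraicClosure ℚ) = 2)
    (hG : G.map (Int.castRingHom (AlgebraicClosure ℚ))
      = C (lc : AlgebraicClosure ℚ) * ∏ T ∈ s, (X - C (xc T)))
    (t : Finset (E⁄(AlgebraicClosure ℚ)).Point) (hts : t ⊆ s) (ht : t.Nonempty) (hne : t ≠ s)
    (hneg : ∀ T ∈ t, -T ∈ t) (hneg' : ∀ T ∈ t, -T ≠ T)
    (hgal : ∀ σ : AlgebraicClosure ℚ ≃ₐ[ℚ] AlgebraicClosure ℚ, ∀ T ∈ t, σ • T ∈ t) :
    ∃ T ∈ s, 0 ≤ O.ord (xc T) := by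
  classical
  have hlc0 : (lc : AlgebraicClosure ℚ) ≠ 0 := by exact_mod_cast hlcz
  refine np_ss_double O s xc hsx (lc : AlgebraicClosure ℚ) hlc0 hlc
    (fun n => by rw [← hG]; exact np_hint_of_int D hOq G n) t hts ht hne (fun T hT => ?_)
    (np_ord_prod_xc_int E D hOq t (fun T hT => hsx T (hts hT)) hgal)
  have hfilter : t.filter (fun T' => xc T' = xc T) = {T, -T} := by
    ext T'
    simp only [Finset.mem_filter, Finset.mem_insert, Finset.mem_singleton]
    constructor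
    · rintro ⟨hT', hx⟩
      exact (xc_eq_iff T' T (hs0 T' (hts hT')) (hs0 T (hts hT))).1 hx
    · rintro (rfl | rfl)
      · exact ⟨hT, rfl⟩
      · exact ⟨hneg T hT, xc_neg T⟩
  rw [hfilter, Finset.card_pair (hneg' T hT).symm]

/-- **Supersingular contradiction for points, simple shape** (`a = lc · ∏_ξ (X - ξ)`, the
product over the distinct `x`-coordinates of the nonzero `p`-torsion points `s`, with integer
coefficients and `ord lc = 1`): if a proper nonempty subset `t ⊆ s` is stable under negation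
and Galois, then some point of `s` has `x`-coordinate of nonnegative order. -/
theorem np_ss_points_simple (E : WeierstrassCurve.Affine ℚ) (D : PlaceData A q O)
    (hOq : O.ord (q : AlgebraicClosure ℚ) = 1)
    (s : Finset (E⁄(AlgebraicClosure ℚ)).Point) (hs0 : ∀ T ∈ s, T ≠ 0)
    (hsx : ∀ T ∈ s, xc T ≠ 0)
    (a : Polynomial ℤ) (lc : ℤ) (hlcz : lc ≠ 0) (hlc : O.ord (lc : AlgebraicClosure ℚ) = 1)
    (ha : a.map (Int.castRingHom (AlgebraicClosure ℚ))
      = C (lc : AlgebraicClosure ℚ) * ∏ ξ ∈ s.image xc, (X - C ξ))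
    (t : Finset (E⁄(AlgebraicClosure ℚ)).Point) (hts : t ⊆ s) (ht : t.Nonempty)
    (hne : ∃ T ∈ s, T ∉ t) (hneg : ∀ T ∈ t, -T ∈ t)
    (hgal : ∀ σ : AlgebraicClosure ℚ ≃ₐ[ℚ] AlgebraicClosure ℚ, ∀ T ∈ t, σ • T ∈ t) :
    ∃ T ∈ s, 0 ≤ O.ord (xc T) := by
  classical
  have hlc0 : (lc : AlgebraicClosure ℚ) ≠ 0 := by exact_mod_cast hlcz
  have hne' : t.image xc ≠ s.image xc := by
    obtain ⟨T, hTs, hTt⟩ := hne
    intro h
    have hmem : xc T ∈ t.image xc := by rw [h]; exact Finset.mem_image_of_mem _ hTs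
    obtain ⟨T', hT', hx⟩ := Finset.mem_image.1 hmem
    rcases (xc_eq_iff T' T (hs0 T' (hts hT')) (hs0 T hTs)).1 hx with h1 | h1
    · exact hTt (h1 ▸ hT')
    · have := hneg T' hT'
      rw [h1, neg_neg] at this
      exact hTt this
  obtain ⟨ξ, hξ, hord⟩ := np_ss_simple O (s.image xc)
    (fun ξ hξ => by
      obtain ⟨T, hT, rfl⟩ := Finset.mem_image.1 hξ
      exact hsx T hT)
    (lc : AlgebraicClosure ℚ) hlc0 hlc
    (fun n => by rw [← ha]; exact np_hint_of_int D hOq a n) (t.image xc)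
    (Finset.image_subset_image hts) (ht.image _) hne'
    (np_ord_prod_xc_int E D hOq t (fun T hT => hsx T (hts hT)) hgal)
  obtain ⟨T, hT, rfl⟩ := Finset.mem_image.1 hξ
  exact ⟨T, hT, hord⟩

end points

section torsion

open Fermat.Agent.S05 Polynomial
open WeierstrassCurve WeierstrassCurve.Affine WeierstrassCurve.Affine.Point

variable {A : ValuationSubring (AlgebraicClosure ℚ)} {q : ℕ} {O : OrdVal (AlgebraicClosure ℚ)}

/-- conversion between the two shapes of the torsion polynomial -/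
theorem np_prod_points_eq_sq (E : WeierstrassCurve.Affine ℚ)
    (s : Finset (E⁄(AlgebraicClosure ℚ)).Point) (hs0 : ∀ T ∈ s, T ≠ 0)
    (hneg : ∀ T ∈ s, -T ∈ s) (hneg' : ∀ T ∈ s, -T ≠ T) :
    ∏ T ∈ s, (X - C (xc T)) = ∏ ξ ∈ s.image xc, (X - C ξ : Polynomial (AlgebraicClosure ℚ)) ^ 2 := by
  classical
  symm
  refine Finset.prod_image' (fun T => (X - C (xc T) : Polynomial (AlgebraicClosure ℚ)))
    fun T hT => ?_
  have hfilter : s.filter (fun T' => xc T' = xc T) = {T, -T} := by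
    ext T'
    simp only [Finset.mem_filter, Finset.mem_insert, Finset.mem_singleton]
    constructor
    · rintro ⟨hT', hx⟩
      exact (xc_eq_iff T' T (hs0 T' hT') (hs0 T hT)).1 hx
    · rintro (rfl | rfl)
      · exact ⟨hT, rfl⟩
      · exact ⟨hneg T hT, xc_neg T⟩
  rw [hfilter, Finset.prod_pair (hneg' T hT).symm, xc_neg, sq]


/-- A point of odd order is not its own negative. -/
theorem np_neg_ne_self {F : Type*} [Field F] [DecidableEq F] {W : WeierstrassCurve.Affine F}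
    {p : ℕ} (hp : Odd p) {T : W.Point} (hT : T ≠ 0) (hpT : p • T = 0) : -T ≠ T := by
  intro h
  obtain ⟨k, rfl⟩ := hp
  have h2 : 2 • T = 0 := by
    rw [two_nsmul]
    nth_rewrite 1 [← h]
    exact neg_add_cancel T
  apply hT
  have : (2 * k + 1) • T = k • (2 • T) + T := by
    rw [add_smul, one_smul, mul_comm, mul_smul]
  rw [this, h2, smul_zero, zero_add] at hpT
  exact hpT

/-- The finset of points of a Galois-stable submodule `N` of the `p`-torsion inside a finset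
`s` of points. -/
noncomputable def npLine (E : WeierstrassCurve.Affine ℚ) (p : ℕ)
    (s : Finset (E⁄(AlgebraicClosure ℚ)).Point)
    (N : Submodule (ZMod p) (Submodule.torsionBy ℤ (E⁄(AlgebraicClosure ℚ)).Point p)) :
    Finset (E⁄(AlgebraicClosure ℚ)).Point :=
  @Finset.filter _ (fun T => ∃ h : T ∈ Submodule.torsionBy ℤ (E⁄(AlgebraicClosure ℚ)).Point p,
    (⟨T, h⟩ : Submodule.torsionBy ℤ (E⁄(AlgebraicClosure ℚ)).Point p) ∈ N)
    (Classical.decPred _) s

theorem np_mem_npLine (E : WeierstrassCurve.Affine ℚ) (p : ℕ)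
    (s : Finset (E⁄(AlgebraicClosure ℚ)).Point)
    (N : Submodule (ZMod p) (Submodule.torsionBy ℤ (E⁄(AlgebraicClosure ℚ)).Point p))
    (T : (E⁄(AlgebraicClosure ℚ)).Point) :
    T ∈ npLine E p s N ↔ T ∈ s ∧
      ∃ h : T ∈ Submodule.torsionBy ℤ (E⁄(AlgebraicClosure ℚ)).Point p,
        (⟨T, h⟩ : Submodule.torsionBy ℤ (E⁄(AlgebraicClosure ℚ)).Point p) ∈ N := by
  unfold npLine
  exact @Finset.mem_filter _ _ (Classical.decPred _) _ _

/-- membership in the torsion submodule in terms of `p • T = 0` -/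
theorem np_mem_torsionBy {F : Type*} [Field F] [DecidableEq F] {W : WeierstrassCurve.Affine F}
    (p : ℕ) (T : W.Point) : T ∈ Submodule.torsionBy ℤ W.Point p ↔ p • T = 0 := by
  rw [Submodule.mem_torsionBy_iff, natCast_zsmul]

section line

variable (E : WeierstrassCurve.Affine ℚ) (p : ℕ)
  (s : Finset (E⁄(AlgebraicClosure ℚ)).Point) (hs : ∀ T, T ∈ s ↔ T ≠ 0 ∧ p • T = 0)
  (N : Submodule (ZMod p) (Submodule.torsionBy ℤ (E⁄(AlgebraicClosure ℚ)).Point p))

include hs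

omit hs in
theorem np_npLine_subset : npLine E p s N ⊆ s := fun T hT =>
  ((np_mem_npLine E p s N T).1 hT).1

theorem np_npLine_nonempty (hbot : N ≠ ⊥) : (npLine E p s N).Nonempty := by
  obtain ⟨x, hxN, hx0⟩ := Submodule.exists_mem_ne_zero_of_ne_bot hbot
  refine ⟨x.1, (np_mem_npLine E p s N x.1).2 ⟨(hs x.1).2 ⟨?_, ?_⟩, x.2, hxN⟩⟩
  · intro h
    exact hx0 (Subtype.ext h)
  · exact (np_mem_torsionBy p x.1).1 x.2

theorem np_npLine_ne (htop : N ≠ ⊤) : ∃ T ∈ s, T ∉ npLine E p s N := by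
  have : ∃ x, x ∉ N := by
    by_contra h
    simp only [not_exists, not_not] at h
    exact htop (eq_top_iff.2 fun x _ => h x)
  obtain ⟨x, hx⟩ := this
  refine ⟨x.1, (hs x.1).2 ⟨?_, (np_mem_torsionBy p x.1).1 x.2⟩, ?_⟩
  · intro h
    apply hx
    have : x = 0 := Subtype.ext h
    rw [this]
    exact N.zero_mem
  · intro h
    obtain ⟨-, h', hN⟩ := (np_mem_npLine E p s N x.1).1 h
    exact hx hN

theorem np_npLine_neg : ∀ T ∈ npLine E p s N, -T ∈ npLine E p s N := by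
  intro T hT
  obtain ⟨hTs, h, hN⟩ := (np_mem_npLine E p s N T).1 hT
  have hs' := (hs T).1 hTs
  refine (np_mem_npLine E p s N (-T)).2 ⟨(hs (-T)).2 ⟨neg_ne_zero.2 hs'.1, ?_⟩, ?_⟩
  · exact (np_mem_torsionBy p (-T)).1 (Submodule.neg_mem _ h)
  · refine ⟨Submodule.neg_mem _ h, ?_⟩
    have := N.neg_mem hN
    exact this

theorem np_npLine_gal (hN : IsGaloisStable ℚ N) :
    ∀ σ : AlgebraicClosure ℚ ≃ₐ[ℚ] AlgebraicClosure ℚ, ∀ T ∈ npLine E p s N,
      σ • T ∈ npLine E p s N := by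
  intro σ T hT
  obtain ⟨hTs, h, hTN⟩ := (np_mem_npLine E p s N T).1 hT
  have hs' := (hs T).1 hTs
  have h1 := hN σ ⟨T, h⟩ hTN
  refine (np_mem_npLine E p s N (σ • T)).2 ⟨(hs (σ • T)).2 ⟨?_, ?_⟩, smul_mem_torsionBy σ h, h1⟩
  · intro h0
    apply hs'.1
    have h2 : σ⁻¹ • (σ • T) = σ⁻¹ • (0 : (E⁄(AlgebraicClosure ℚ)).Point) := congrArg _ h0
    rw [inv_smul_smul] at h2
    exact h2.trans (smul_zero (A := (E⁄(AlgebraicClosure ℚ)).Point) σ⁻¹)
  · exact (np_mem_torsionBy p (σ • T)).1 (smul_mem_torsionBy σ h)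

end line

/-- **[SS], final form, squared shape.**  `s` = the nonzero `p`-torsion points of `E` over `ℚ̄`
(`p` odd), `G ∈ ℤ[X]` with `G = lc · ∏_{T ∈ s} (X - x(T))`, `ord lc = 2` at a place over `q`
with `ord q = 1`.  If the `p`-torsion has a Galois-stable submodule `N ≠ ⊥, ⊤`, then some
nonzero `p`-torsion point has `x`-coordinate of nonnegative order. -/
theorem np_ss_torsion (E : WeierstrassCurve.Affine ℚ) (p : ℕ) (hp : Odd p)
    (D : PlaceData A q O) (hOq : O.ord (q : AlgebraicClosure ℚ) = 1)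
    (s : Finset (E⁄(AlgebraicClosure ℚ)).Point) (hs : ∀ T, T ∈ s ↔ T ≠ 0 ∧ p • T = 0)
    (hsx : ∀ T ∈ s, xc T ≠ 0)
    (G : Polynomial ℤ) (lc : ℤ) (hlcz : lc ≠ 0) (hlc : O.ord (lc : AlgebraicClosure ℚ) = 2)
    (hG : G.map (Int.castRingHom (AlgebraicClosure ℚ))
      = C (lc : AlgebraicClosure ℚ) * ∏ T ∈ s, (X - C (xc T)))
    (N : Submodule (ZMod p) (Submodule.torsionBy ℤ (E⁄(AlgebraicClosure ℚ)).Point p))
    (hN : IsGaloisStable ℚ N) (hbot : N ≠ ⊥) (htop : N ≠ ⊤) :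
    ∃ T : (E⁄(AlgebraicClosure ℚ)).Point, T ≠ 0 ∧ p • T = 0 ∧ 0 ≤ O.ord (xc T) := by
  have hsub := np_npLine_subset E p s N
  obtain ⟨T, hT, hord⟩ := np_ss_points E D hOq s (fun T hT => ((hs T).1 hT).1) hsx G lc hlcz hlc
    hG (npLine E p s N) hsub (np_npLine_nonempty E p s hs N hbot)
    (by
      obtain ⟨T, hTs, hTt⟩ := np_npLine_ne E p s hs N htop
      intro h
      exact hTt (by rw [h]; exact hTs))
    (np_npLine_neg E p s hs N)
    (fun T hT => np_neg_ne_self hp ((hs T).1 (hsub hT)).1 ((hs T).1 (hsub hT)).2)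
    (np_npLine_gal E p s hs N hN)
  exact ⟨T, ((hs T).1 hT).1, ((hs T).1 hT).2, hord⟩

/-- **[SS], final form, simple shape.**  As `np_ss_torsion`, for
`a = lc · ∏_ξ (X - ξ)` over the distinct `x`-coordinates, `ord lc = 1`. -/
theorem np_ss_torsion_simple (E : WeierstrassCurve.Affine ℚ) (p : ℕ)
    (D : PlaceData A q O) (hOq : O.ord (q : AlgebraicClosure ℚ) = 1)
    (s : Finset (E⁄(AlgebraicClosure ℚ)).Point) (hs : ∀ T, T ∈ s ↔ T ≠ 0 ∧ p • T = 0)
    (hsx : ∀ T ∈ s, xc T ≠ 0)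
    (a : Polynomial ℤ) (lc : ℤ) (hlcz : lc ≠ 0) (hlc : O.ord (lc : AlgebraicClosure ℚ) = 1)
    (ha : a.map (Int.castRingHom (AlgebraicClosure ℚ))
      = C (lc : AlgebraicClosure ℚ) * ∏ ξ ∈ s.image xc, (X - C ξ))
    (N : Submodule (ZMod p) (Submodule.torsionBy ℤ (E⁄(AlgebraicClosure ℚ)).Point p))
    (hN : IsGaloisStable ℚ N) (hbot : N ≠ ⊥) (htop : N ≠ ⊤) :
    ∃ T : (E⁄(AlgebraicClosure ℚ)).Point, T ≠ 0 ∧ p • T = 0 ∧ 0 ≤ O.ord (xc T) := by
  have hsub := np_npLine_subset E p s N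
  obtain ⟨T, hT, hord⟩ := np_ss_points_simple E D hOq s (fun T hT => ((hs T).1 hT).1) hsx a lc
    hlcz hlc ha (npLine E p s N) hsub (np_npLine_nonempty E p s hs N hbot)
    (np_npLine_ne E p s hs N htop) (np_npLine_neg E p s hs N) (np_npLine_gal E p s hs N hN)
  exact ⟨T, ((hs T).1 hT).1, ((hs T).1 hT).2, hord⟩

end torsion

end Fermat.Agent.M13
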