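import Fermat.Agent.M13.SS
import Fermat.Agent.M13.Mult

/-!
# The dichotomy at `p` for S13 (package [SS1'])

* `np_outside_nonneg` : under the hypotheses of (NP2) with `ord lc = e > 0`, if the roots
  indexed by a nonempty subfamily `T` all have negative order and their total order lies in
  `e ℤ`, then every root outside `T` has nonnegative order.
* `np_ord_eq_one_of_dvd` : an integer exactly divisible by `q` has order `1` at a place over `q`.
* `np_line_dichotomy` : the hypothesis (hS) of the case analysis at `p`: for a Galois-stable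
  line `N` of the `p`-torsion, either no nonzero point of `N` lies in the kernel of reduction
  at `p`, or no point outside `N` does.
-/

set_option autoImplicit false

namespace Fermat.Agent.M13

open Fermat.Agent.S05 Polynomial

section abstract

variable {K : Type*} [Field K] (O : OrdVal K)

/-- **(SS1')** under the hypotheses of (NP2) with `ord lc = e > 0`: if the roots indexed by a
nonempty `T` all have negative order with total order in `e ℤ`, then every root outside `T`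
has nonnegative order. -/
theorem np_outside_nonneg {ι : Type*} [Fintype ι] (lc : K) (hlc : lc ≠ 0) (e : ℕ) (he : 0 < e)
    (hlce : O.ord lc = e) (r : ι → K) (hr : ∀ i, r i ≠ 0)
    (hint : ∀ n, (C lc * ∏ i, (X - C (r i))).coeff n = 0 ∨
      ∃ k : ℕ, O.ord ((C lc * ∏ i, (X - C (r i))).coeff n) = k)
    (T : Finset ι) (hT : T.Nonempty) (hTneg : ∀ i ∈ T, O.ord (r i) < 0)
    (hTint : ∃ k : ℤ, ∑ i ∈ T, O.ord (r i) = (e : ℚ) * k) :
    ∀ i, i ∉ T → 0 ≤ O.ord (r i) := by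
  classical
  intro i₀ hi₀
  by_contra hcon
  rw [not_le] at hcon
  obtain ⟨k, hke, hk⟩ := np_neg_sum O lc hlc e hlce r hr hint
  set S : Finset ι := Finset.univ.filter (fun i => O.ord (r i) < 0) with hSdef
  have hTS : T ⊆ S := fun i hi => by
    rw [hSdef, Finset.mem_filter]
    exact ⟨Finset.mem_univ i, hTneg i hi⟩
  obtain ⟨j, hj⟩ := hTint
  have hsumT : ∑ i ∈ T, O.ord (r i) < 0 := Finset.sum_neg hTneg hT
  have heQ : (0 : ℚ) < e := by exact_mod_cast he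
  have hj_neg : j < 0 := by
    by_contra hj0
    simp only [not_lt] at hj0
    have : (0 : ℚ) ≤ (e : ℚ) * j := mul_nonneg heQ.le (by exact_mod_cast hj0)
    linarith
  have hj_le : (j : ℚ) ≤ -1 := by
    have : j ≤ -1 := by omega
    exact_mod_cast this
  have hT_le : ∑ i ∈ T, O.ord (r i) ≤ -(e : ℚ) := by
    rw [hj]
    nlinarith
  have hi₀S : i₀ ∈ S \ T := by
    rw [Finset.mem_sdiff, hSdef, Finset.mem_filter]
    exact ⟨⟨Finset.mem_univ _, hcon⟩, hi₀⟩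
  have hcompl_neg : ∑ i ∈ S \ T, O.ord (r i) < 0 :=
    Finset.sum_neg (fun i hi => by
      have := (Finset.mem_sdiff.1 hi).1
      rw [hSdef, Finset.mem_filter] at this
      exact this.2) ⟨i₀, hi₀S⟩
  have hsplit : ∑ i ∈ S \ T, O.ord (r i) + ∑ i ∈ T, O.ord (r i) = ∑ i ∈ S, O.ord (r i) :=
    Finset.sum_sdiff hTS
  have hkQ : (k : ℚ) ≤ e := by exact_mod_cast hke
  linarith

/-- `Finset`-indexed version of `np_outside_nonneg`. -/
theorem np_outside_nonneg_finset {α : Type*} (s : Finset α) (lc : K) (hlc : lc ≠ 0) (e : ℕ)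
    (he : 0 < e) (hlce : O.ord lc = e) (r : α → K) (hr : ∀ i ∈ s, r i ≠ 0)
    (hint : ∀ n, (C lc * ∏ i ∈ s, (X - C (r i))).coeff n = 0 ∨
      ∃ k : ℕ, O.ord ((C lc * ∏ i ∈ s, (X - C (r i))).coeff n) = k)
    (t : Finset α) (hts : t ⊆ s) (ht : t.Nonempty) (htneg : ∀ i ∈ t, O.ord (r i) < 0)
    (hTint : ∃ k : ℤ, ∑ i ∈ t, O.ord (r i) = (e : ℚ) * k) :
    ∀ i ∈ s, i ∉ t → 0 ≤ O.ord (r i) := by
  classical
  have hprod : ∏ i : s, (X - C (r i)) = ∏ i ∈ s, (X - C (r i)) :=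
    Finset.prod_coe_sort s fun i => X - C (r i)
  set T : Finset s := Finset.univ.filter (fun i : s => (i : α) ∈ t) with hT
  have hsum : ∑ i ∈ T, O.ord (r i) = ∑ i ∈ t, O.ord (r i) := by
    rw [hT, Finset.sum_filter]
    rw [Finset.sum_coe_sort s fun i => if i ∈ t then O.ord (r i) else 0]
    rw [← Finset.sum_filter]
    congr 1
    ext i
    simp only [Finset.mem_filter]
    exact ⟨fun h => h.2, fun h => ⟨hts h, h⟩⟩
  have hTne : T.Nonempty := by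
    obtain ⟨i, hi⟩ := ht
    exact ⟨⟨i, hts hi⟩, by simp [hT, hi]⟩
  intro i his hit
  exact np_outside_nonneg O lc hlc e he hlce (fun i : s => r i) (fun i => hr i i.2)
    (by rw [hprod]; exact hint) T hTne
    (fun i hi => htneg i (by simpa [hT] using hi)) (by rw [hsum]; exact hTint)
    ⟨i, his⟩ (by simpa [hT] using hit)

/-- (SS1') for a polynomial with simple roots, `ord lc = 1`. -/
theorem np_simple_outside (s : Finset K) (hs : ∀ ξ ∈ s, ξ ≠ 0) (lc : K) (hlc : lc ≠ 0)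
    (hlce : O.ord lc = 1)
    (hint : ∀ n, (C lc * ∏ ξ ∈ s, (X - C ξ)).coeff n = 0 ∨
      ∃ k : ℕ, O.ord ((C lc * ∏ ξ ∈ s, (X - C ξ)).coeff n) = k)
    (t : Finset K) (hts : t ⊆ s) (ht : t.Nonempty) (htneg : ∀ ξ ∈ t, O.ord ξ < 0)
    (hTint : ∃ k : ℤ, O.ord (∏ ξ ∈ t, ξ) = k) :
    ∀ ξ ∈ s, ξ ∉ t → 0 ≤ O.ord ξ := by
  refine np_outside_nonneg_finset O s lc hlc 1 one_pos (by simpa using hlce) (fun ξ => ξ) hs
    hint t hts ht htneg ?_
  obtain ⟨k, hk⟩ := hTint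
  refine ⟨k, ?_⟩
  rw [← np_ord_prod O t (fun ξ => ξ) fun ξ hξ => hs ξ (hts hξ), hk]
  simp

end abstract

section bridge

variable {A : ValuationSubring (AlgebraicClosure ℚ)} {q : ℕ} {O : OrdVal (AlgebraicClosure ℚ)}

/-- An integer exactly divisible by `q` has order `1` at a place over `q` (normalised by
`ord q = 1`). -/
theorem np_ord_eq_one_of_dvd (D : PlaceData A q O) (hOq : O.ord (q : AlgebraicClosure ℚ) = 1)
    (c : ℤ) (h1 : (q : ℤ) ∣ c) (h2 : ¬ (q : ℤ) ^ 2 ∣ c) :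
    (c : AlgebraicClosure ℚ) ≠ 0 ∧ O.ord (c : AlgebraicClosure ℚ) = 1 := by
  obtain ⟨c', rfl⟩ := h1
  have hndvd : ¬ (q : ℤ) ∣ c' := by
    intro h
    apply h2
    obtain ⟨d, rfl⟩ := h
    exact ⟨d, by ring⟩
  have hU := D.int_isU hndvd
  have hq0 : (q : AlgebraicClosure ℚ) ≠ 0 := by exact_mod_cast D.hq.ne_zero
  have h3 : (((q : ℤ) * c' : ℤ) : AlgebraicClosure ℚ)
      = (q : AlgebraicClosure ℚ) * (c' : AlgebraicClosure ℚ) := by
    push_cast
    rfl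
  rw [h3]
  exact ⟨mul_ne_zero hq0 hU.1, by rw [OrdVal.ord_mul_isU hq0 hU, hOq]⟩

end bridge

section points

open WeierstrassCurve WeierstrassCurve.Affine WeierstrassCurve.Affine.Point

variable {A : ValuationSubring (AlgebraicClosure ℚ)} {O : OrdVal (AlgebraicClosure ℚ)}

/-- In a line `N` (a submodule of cardinality `p`) of the `p`-torsion, every point is a
multiple of any given nonzero point. -/
theorem np_line_multiple (E : WeierstrassCurve.Affine ℚ) {p : ℕ} (hp : p.Prime)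
    (N : Submodule (ZMod p) (Submodule.torsionBy ℤ (E⁄(AlgebraicClosure ℚ)).Point p))
    (hcard : Nat.card N = p)
    (T₀ T : Submodule.torsionBy ℤ (E⁄(AlgebraicClosure ℚ)).Point p) (hT₀ : T₀ ∈ N)
    (hT₀0 : T₀ ≠ 0) (hT : T ∈ N) :
    ∃ n : ℕ, n • (T₀ : (E⁄(AlgebraicClosure ℚ)).Point) = (T : (E⁄(AlgebraicClosure ℚ)).Point) := by
  have : Fact p.Prime := ⟨hp⟩
  have hne : (⟨T₀, hT₀⟩ : N) ≠ 0 := fun h => hT₀0 (congrArg Subtype.val h)
  obtain ⟨n, hn⟩ := mem_multiples_of_prime_card (G := N) hcard hne (g' := ⟨T, hT⟩)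
  refine ⟨n, ?_⟩
  have h1 := congrArg (fun x : N => ((x : Submodule.torsionBy ℤ
    (E⁄(AlgebraicClosure ℚ)).Point p) : (E⁄(AlgebraicClosure ℚ)).Point)) hn
  simpa using h1

/-- **The dichotomy at `p`** (hypothesis (hS) of the case analysis): let `S` be the set of
`x`-coordinates of the nonzero `p`-torsion points, `a ∈ ℤ[X]` with
`a = lc · ∏_{x ∈ S} (X - x)`, `p ∣ lc`, `p² ∤ lc`, and `N` a Galois-stable line.  Then either
no nonzero point of `N` lies in the kernel of reduction at `p`, or no point outside `N` does. -/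
theorem np_line_dichotomy (E : WeierstrassCurve.Affine ℚ) {p : ℕ} (hp : p.Prime) (hp2 : p ≠ 2)
    (D : PlaceData A p O) (hOp : O.ord (p : AlgebraicClosure ℚ) = 1)
    (hb₂ : O.Ge (E⁄(AlgebraicClosure ℚ)).b₂ 0) (hb₄ : O.Ge (E⁄(AlgebraicClosure ℚ)).b₄ 0)
    (hb₆ : O.Ge (E⁄(AlgebraicClosure ℚ)).b₆ 0) (hb₈ : O.Ge (E⁄(AlgebraicClosure ℚ)).b₈ 0)
    (S : Finset (AlgebraicClosure ℚ))
    (hS : ∀ x, x ∈ S ↔ ∃ T : (E⁄(AlgebraicClosure ℚ)).Point, T ≠ 0 ∧ p • T = 0 ∧ xc T = x)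
    (hS0 : ∀ x ∈ S, x ≠ 0)
    (a : Polynomial ℤ) (lc : ℤ) (hlc1 : (p : ℤ) ∣ lc) (hlc2 : ¬ (p : ℤ) ^ 2 ∣ lc)
    (ha : a.map (Int.castRingHom (AlgebraicClosure ℚ))
      = C (lc : AlgebraicClosure ℚ) * ∏ x ∈ S, (X - C x))
    (N : Submodule (ZMod p) (Submodule.torsionBy ℤ (E⁄(AlgebraicClosure ℚ)).Point p))
    (hN : IsGaloisStable ℚ N) (hcard : Nat.card N = p) :
    (∀ T ∈ N, T ≠ 0 → 0 ≤ O.ord (xc (T : (E⁄(AlgebraicClosure ℚ)).Point))) ∨
    (∀ T : Submodule.torsionBy ℤ (E⁄(AlgebraicClosure ℚ)).Point p, T ∉ N →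
      0 ≤ O.ord (xc (T : (E⁄(AlgebraicClosure ℚ)).Point))) := by
  classical
  by_cases hcase : ∀ T ∈ N, T ≠ 0 → 0 ≤ O.ord (xc (T : (E⁄(AlgebraicClosure ℚ)).Point))
  · exact Or.inl hcase
  right
  simp only [not_forall, not_le] at hcase
  obtain ⟨T₀, hT₀N, hT₀0, hT₀neg⟩ := hcase
  -- basic facts on torsion points
  have htors : ∀ T : Submodule.torsionBy ℤ (E⁄(AlgebraicClosure ℚ)).Point p,
      p • (T : (E⁄(AlgebraicClosure ℚ)).Point) = 0 := fun T =>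
    (np_mem_torsionBy p T.1).1 T.2
  have hne0 : ∀ T : Submodule.torsionBy ℤ (E⁄(AlgebraicClosure ℚ)).Point p, T ≠ 0 →
      (T : (E⁄(AlgebraicClosure ℚ)).Point) ≠ 0 := fun T hT h => hT (Subtype.ext h)
  have hxS : ∀ T : Submodule.torsionBy ℤ (E⁄(AlgebraicClosure ℚ)).Point p, T ≠ 0 →
      xc (T : (E⁄(AlgebraicClosure ℚ)).Point) ∈ S := fun T hT =>
    (hS _).2 ⟨T.1, hne0 T hT, htors T, rfl⟩
  -- all nonzero points of `N` have negative order
  have h2 : (2 : AlgebraicClosure ℚ) ≠ 0 := two_ne_zero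
  have hunit : ∀ k : ℕ, 0 < k → k < p → O.IsU ((k : ℕ) : AlgebraicClosure ℚ) := fun k hk0 hkp =>
    D.nat_isU (Nat.not_dvd_of_pos_of_lt hk0 hkp)
  have hNneg : ∀ T ∈ N, T ≠ 0 → O.ord (xc (T : (E⁄(AlgebraicClosure ℚ)).Point)) < 0 := by
    intro T hTN hT0
    obtain ⟨n, hn⟩ := np_line_multiple E hp N hcard T₀ T hT₀N hT₀0 hTN
    have hpn : ¬ p ∣ n := by
      rintro ⟨m, rfl⟩
      apply hne0 T hT0
      rw [← hn, mul_comm, mul_smul, htors T₀, nsmul_zero]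
    have := mult_ord_neg O hb₂ hb₄ hb₆ hb₈ D.nat_ge h2 hp hp2 hunit (hne0 T₀ hT₀0) (htors T₀)
      (hS0 _ (hxS T₀ hT₀0)) hT₀neg hpn
    rw [← hn, this.2.2]
    exact hT₀neg
  -- the set of `x`-coordinates of `N \ 0`
  set t : Finset (AlgebraicClosure ℚ) := S.filter (fun ξ =>
    ∃ T ∈ N, T ≠ 0 ∧ xc (T : (E⁄(AlgebraicClosure ℚ)).Point) = ξ) with ht
  have hmem : ∀ ξ, ξ ∈ t ↔ ∃ T ∈ N, T ≠ 0 ∧ xc (T : (E⁄(AlgebraicClosure ℚ)).Point) = ξ := by
    intro ξ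
    rw [ht, Finset.mem_filter]
    constructor
    · exact fun h => h.2
    · rintro ⟨T, hTN, hT0, rfl⟩
      exact ⟨hxS T hT0, T, hTN, hT0, rfl⟩
  have hts : t ⊆ S := Finset.filter_subset _ _
  have htne : t.Nonempty := ⟨_, (hmem _).2 ⟨T₀, hT₀N, hT₀0, rfl⟩⟩
  have htneg : ∀ ξ ∈ t, O.ord ξ < 0 := by
    intro ξ hξ
    obtain ⟨T, hTN, hT0, rfl⟩ := (hmem ξ).1 hξ
    exact hNneg T hTN hT0
  have hgal : ∀ σ : AlgebraicClosure ℚ ≃ₐ[ℚ] AlgebraicClosure ℚ, ∀ ξ ∈ t, σ ξ ∈ t := by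
    intro σ ξ hξ
    obtain ⟨T, hTN, hT0, rfl⟩ := (hmem ξ).1 hξ
    refine (hmem _).2 ⟨σ • T, hN σ T hTN, ?_, ?_⟩
    · intro h0
      apply hT0
      have h3 : σ⁻¹ • (σ • T) = σ⁻¹ • (0 : Submodule.torsionBy ℤ
        (E⁄(AlgebraicClosure ℚ)).Point p) := congrArg _ h0
      rw [inv_smul_smul] at h3
      exact h3.trans (smul_zero σ⁻¹)
    · exact np_xc_smul E σ T.1
  have hprod0 : ∏ ξ ∈ t, ξ ≠ 0 := Finset.prod_ne_zero_iff.2 fun ξ hξ => hS0 ξ (hts hξ)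
  have hTint := np_ord_of_fixed D hOp _ hprod0 fun σ => np_prod_fixed t hgal σ
  obtain ⟨hlc0, hlcord⟩ := np_ord_eq_one_of_dvd D hOp lc hlc1 hlc2
  have key := np_simple_outside O S hS0 (lc : AlgebraicClosure ℚ) hlc0 hlcord
    (fun n => by rw [← ha]; exact np_hint_of_int D hOp a n) t hts htne htneg hTint
  intro T hTN
  have hT0 : T ≠ 0 := by
    rintro rfl
    exact hTN N.zero_mem
  refine key _ (hxS T hT0) fun hxt => ?_
  obtain ⟨T', hT'N, hT'0, hx⟩ := (hmem _).1 hxt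
  rcases (xc_eq_iff T'.1 T.1 (hne0 T' hT'0) (hne0 T hT0)).1 hx with h | h
  · exact hTN ((Subtype.ext h : T' = T) ▸ hT'N)
  · have h4 : T = -T' := Subtype.ext (by
      change (T : (E⁄(AlgebraicClosure ℚ)).Point) = -(T' : (E⁄(AlgebraicClosure ℚ)).Point)
      rw [h, neg_neg])
    exact hTN (h4 ▸ N.neg_mem hT'N)

/-- Conversion between the two descriptions of the set of `x`-coordinates of the nonzero
`p`-torsion points. -/
theorem np_exists_some_iff {F : Type*} [Field F] [DecidableEq F] (W : WeierstrassCurve.Affine F)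
    (p : ℕ) (x : F) :
    (∃ T : W.Point, T ≠ 0 ∧ p • T = 0 ∧ xc T = x) ↔
      ∃ y, ∃ h : W.Nonsingular x y, p • Point.some x y h = 0 := by
  constructor
  · rintro ⟨T, hT0, hpT, rfl⟩
    cases T with
    | zero => exact absurd rfl hT0
    | some x y h => exact ⟨y, h, hpT⟩
  · rintro ⟨y, h, hpT⟩
    exact ⟨Point.some x y h, Point.some_ne_zero _, hpT, rfl⟩

/-- `np_line_dichotomy` with the set `S` described via `Point.some`. -/
theorem np_line_dichotomy' (E : WeierstrassCurve.Affine ℚ) {p : ℕ} (hp : p.Prime) (hp2 : p ≠ 2)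
    (D : PlaceData A p O) (hOp : O.ord (p : AlgebraicClosure ℚ) = 1)
    (hb₂ : O.Ge (E⁄(AlgebraicClosure ℚ)).b₂ 0) (hb₄ : O.Ge (E⁄(AlgebraicClosure ℚ)).b₄ 0)
    (hb₆ : O.Ge (E⁄(AlgebraicClosure ℚ)).b₆ 0) (hb₈ : O.Ge (E⁄(AlgebraicClosure ℚ)).b₈ 0)
    (S : Finset (AlgebraicClosure ℚ))
    (hS : ∀ x, x ∈ S ↔ ∃ y, ∃ h : (E⁄(AlgebraicClosure ℚ)).Nonsingular x y,
      p • Point.some x y h = 0)
    (hx0 : ∀ T : (E⁄(AlgebraicClosure ℚ)).Point, T ≠ 0 → p • T = 0 → xc T ≠ 0)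
    (a : Polynomial ℤ) (lc : ℤ) (hlc1 : (p : ℤ) ∣ lc) (hlc2 : ¬ (p : ℤ) ^ 2 ∣ lc)
    (ha : a.map (Int.castRingHom (AlgebraicClosure ℚ))
      = C (lc : AlgebraicClosure ℚ) * ∏ x ∈ S, (X - C x))
    (N : Submodule (ZMod p) (Submodule.torsionBy ℤ (E⁄(AlgebraicClosure ℚ)).Point p))
    (hN : IsGaloisStable ℚ N) (hcard : Nat.card N = p) :
    (∀ T ∈ N, T ≠ 0 → 0 ≤ O.ord (xc (T : (E⁄(AlgebraicClosure ℚ)).Point))) ∨
    (∀ T : Submodule.torsionBy ℤ (E⁄(AlgebraicClosure ℚ)).Point p, T ∉ N →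
      0 ≤ O.ord (xc (T : (E⁄(AlgebraicClosure ℚ)).Point))) := by
  have hS' : ∀ x, x ∈ S ↔ ∃ T : (E⁄(AlgebraicClosure ℚ)).Point, T ≠ 0 ∧ p • T = 0 ∧ xc T = x :=
    fun x => (hS x).trans (np_exists_some_iff _ p x).symm
  refine np_line_dichotomy E hp hp2 D hOp hb₂ hb₄ hb₆ hb₈ S hS' (fun x hx => ?_) a lc hlc1 hlc2
    ha N hN hcard
  obtain ⟨T, hT0, hpT, rfl⟩ := (hS' x).1 hx
  exact hx0 T hT0 hpT

end points

end Fermat.Agent.M13
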