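import Fermat.Agent.M13.Unip

/-!
# S13, package [UNIP], set version

The case analysis with hypotheses on *sets* `S0`, `S1` (no subgroup property is needed):

* `(h2)` `∀ σ ∈ I, ∀ x, σ • x - x ∈ S0`;
* `(h1)` `∀ σ ∈ I, ∀ x ∈ S0, x ∈ S1 ∨ σ • x - x ∈ S1`;
* `(hS)` `S1 ∩ N0 = {0}` or `S1 = N0`.
-/

set_option autoImplicit false
set_option linter.unusedSectionVars false
set_option linter.style.haveILetI false

namespace Fermat.Agent.M13

variable {p : ℕ}

/-- On a group of prime order, an additive endomorphism `ψ` with `(ψ - 1) ^ 2 = 0` is the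
identity. -/
theorem unip_prime_card {Q : Type*} [AddCommGroup Q] (hp : p.Prime) (hQ : Nat.card Q = p)
    (ψ : Q →+ Q) (hsq : ∀ x, ψ (ψ x - x) - (ψ x - x) = 0) : ∀ x, ψ x = x := by
  haveI : Finite Q := Nat.finite_of_card_ne_zero (by rw [hQ]; exact hp.ne_zero)
  haveI : Fact p.Prime := ⟨hp⟩
  haveI hcyc : IsAddCyclic Q := isAddCyclic_of_prime_card hQ
  obtain ⟨g, hg⟩ := hcyc.exists_zsmul_surjective
  obtain ⟨k, hk⟩ := hg (ψ g)
  have hk' : ψ g = k • g := hk.symm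
  have hψz : ∀ m : ℤ, ψ (m • g) = m • ψ g := fun m => map_zsmul ψ m _
  have h1 : ψ g - g = (k - 1) • g := by rw [hk', sub_smul, one_smul]
  have h2 := hsq g
  rw [h1, hψz, hk', ← mul_smul, ← sub_smul] at h2
  have h3 : ((k - 1) * (k - 1)) • g = 0 := by
    have : (k - 1) * k - (k - 1) = (k - 1) * (k - 1) := by ring
    rw [← this]; exact h2
  have hg0 : g ≠ 0 := by
    intro h0
    have : ∀ y : Q, y = 0 := fun y => by
      obtain ⟨m, hm⟩ := hg y
      rw [← hm, h0]; simp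
    have hc1 : Nat.card Q = 1 := by
      rw [Nat.card_eq_one_iff_unique]
      exact ⟨⟨fun a b => (this a).trans (this b).symm⟩, ⟨0⟩⟩
    rw [hQ] at hc1
    exact hp.one_lt.ne' hc1
  have hord : addOrderOf g = p := by
    have hpg : p • g = 0 := by rw [← hQ]; exact card_nsmul_eq_zero'
    have hdvd := addOrderOf_dvd_of_nsmul_eq_zero hpg
    rcases (Nat.dvd_prime hp).1 hdvd with h | h
    · exact absurd (AddMonoid.addOrderOf_eq_one_iff.1 h) hg0
    · exact h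
  have hdiv : (p : ℤ) ∣ (k - 1) * (k - 1) := by
    rw [← hord]; exact (addOrderOf_dvd_iff_zsmul_eq_zero).2 h3
  have hdiv1 : (p : ℤ) ∣ k - 1 := by
    rcases (Nat.prime_iff_prime_int.1 hp).dvd_or_dvd hdiv with h | h <;> exact h
  have hg1 : (k - 1) • g = 0 := by
    rw [← hord] at hdiv1; exact (addOrderOf_dvd_iff_zsmul_eq_zero).1 hdiv1
  have hψg : ψ g = g := by rw [← sub_eq_zero, h1, hg1]
  intro x
  obtain ⟨m, hm⟩ := hg x
  rw [← hm, hψz, hψg]

variable {V : Type*} [AddCommGroup V]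

/-- If `φ` stabilises the line `N0` and `(φ - 1) ^ 2` maps `V` into `N0`, then `φ - 1` maps `V`
into `N0`. -/
theorem unip_quot_line (hp : p.Prime) (hcard : Nat.card V = p ^ 2) (φ : V →+ V)
    (N0 : AddSubgroup V) (hN0 : N0 ≠ ⊥) (hN0' : N0 ≠ ⊤)
    (hN : ∀ x ∈ N0, φ x ∈ N0) (hsq : ∀ x, φ (φ x - x) - (φ x - x) ∈ N0) :
    ∀ x, φ x - x ∈ N0 := by
  haveI := unip_finite hp hcard
  have hcN : Nat.card N0 = p := unip_card_line hp hcard N0 hN0 hN0'
  have hcQ : Nat.card (V ⧸ N0) = p := by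
    have h := AddSubgroup.card_eq_card_quotient_mul_card_addSubgroup N0
    rw [hcard, hcN, pow_two] at h
    exact (Nat.eq_of_mul_eq_mul_right hp.pos h).symm
  let ψ : V ⧸ N0 →+ V ⧸ N0 := QuotientAddGroup.map N0 N0 φ (fun x hx => hN x hx)
  have hψ : ∀ x : V, ψ (QuotientAddGroup.mk x) = QuotientAddGroup.mk (φ x) := fun x => rfl
  have hψsq : ∀ y, ψ (ψ y - y) - (ψ y - y) = 0 := by
    intro y
    obtain ⟨x, rfl⟩ := QuotientAddGroup.mk_surjective y
    have e : ψ (ψ (QuotientAddGroup.mk x) - QuotientAddGroup.mk x) -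
        (ψ (QuotientAddGroup.mk x) - QuotientAddGroup.mk x) =
        QuotientAddGroup.mk (φ (φ x - x) - (φ x - x)) := by
      rw [hψ, ← QuotientAddGroup.mk_sub, hψ, ← QuotientAddGroup.mk_sub]
    rw [e, QuotientAddGroup.eq_zero_iff]
    exact hsq x
  intro x
  have := unip_prime_card hp hcQ ψ hψsq (QuotientAddGroup.mk x)
  rw [hψ, ← sub_eq_zero, ← QuotientAddGroup.mk_sub, QuotientAddGroup.eq_zero_iff] at this
  exact this

/-- **[UNIP], set version.** `S0`, `S1` are arbitrary subsets of `V`. -/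
theorem unip_sets (hp : p.Prime) (hcard : Nat.card V = p ^ 2) {G : Type*} [Group G]
    [DistribMulAction G V] (I : Subgroup G)
    (N0 : AddSubgroup V) (hN0 : N0 ≠ ⊥) (hN0' : N0 ≠ ⊤)
    (hN : ∀ σ ∈ I, ∀ x ∈ N0, σ • x ∈ N0) (S0 S1 : Set V)
    (h2 : ∀ σ ∈ I, ∀ x : V, σ • x - x ∈ S0)
    (h1 : ∀ σ ∈ I, ∀ x ∈ S0, x ∈ S1 ∨ σ • x - x ∈ S1)
    (hS : (∀ x ∈ S1, x ∈ N0 → x = 0) ∨ (∀ x, x ∈ S1 → x ∈ N0)) :
    (∀ σ ∈ I, ∀ x ∈ N0, σ • x = x) ∨ (∀ σ ∈ I, ∀ x : V, σ • x - x ∈ N0) := by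
  have hcN : Nat.card N0 = p := unip_card_line hp hcard N0 hN0 hN0'
  rcases hS with hS | hS
  · left
    intro σ hσ
    refine unip_fix_line hp hcard hcN (DistribSMul.toAddMonoidHom V σ) (hN σ hσ) ?_
    intro x hx
    change σ • (σ • x - x) - (σ • x - x) = 0
    have hQN : σ • x - x ∈ N0 := N0.sub_mem (hN σ hσ x hx) hx
    rcases h1 σ hσ _ (h2 σ hσ x) with h | h
    · rw [hS _ h hQN, smul_zero, sub_zero]
    · exact hS _ h (N0.sub_mem (hN σ hσ _ hQN) hQN)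
  · right
    intro σ hσ
    refine unip_quot_line hp hcard (DistribSMul.toAddMonoidHom V σ) N0 hN0 hN0' (hN σ hσ) ?_
    intro x
    change σ • (σ • x - x) - (σ • x - x) ∈ N0
    rcases h1 σ hσ _ (h2 σ hσ x) with h | h
    · have hQN : σ • x - x ∈ N0 := hS _ h
      exact N0.sub_mem (hN σ hσ _ hQN) hQN
    · exact hS _ h

end Fermat.Agent.M13
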