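import Fermat.Agent.M13.WrDeg
import Fermat.Agent.M13.WrTors
import Fermat.Agent.M13.WrMain
import Fermat.Agent.M13.FreyInt

/-!
# The torsion polynomial of the Frey curve (wiring of the Wronskian package)
-/

set_option autoImplicit false

namespace Fermat.Agent.M13

open Polynomial WeierstrassCurve WeierstrassCurve.Affine Fermat.Agent.S05

noncomputable section

variable (P : FreyPackage)

lemma wrf_three_le : 3 ≤ P.p := le_trans (by norm_num) P.hp5

/-- The torsion polynomial of the Frey curve over `ℚ̄` is the image of an integer polynomial. -/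
theorem wrf_wrPoly_eq :
    wrPoly (EC P) P.p
      = (wrPoly (P.freyCurveInt : WeierstrassCurve.Affine ℤ) P.p).map (Int.castRingHom QQb) := by
  have h : WeierstrassCurve.Affine.map (P.freyCurveInt : WeierstrassCurve.Affine ℤ)
      (Int.castRingHom QQb) = EC P := fi_map' P
  rw [wr_wrPoly_map, h]

theorem wrf_wrPolyQ_eq :
    wrPolyQ (EC P) P.p
      = (wrPolyQ (P.freyCurveInt : WeierstrassCurve.Affine ℤ) P.p).map (Int.castRingHom QQb) := by
  have h : WeierstrassCurve.Affine.map (P.freyCurveInt : WeierstrassCurve.Affine ℤ)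
      (Int.castRingHom QQb) = EC P := fi_map' P
  rw [wr_wrPolyQ_map, h]

theorem wrf_lc_ne : ((wrV P.p : ℤ) : QQb) ≠ 0 :=
  Int.cast_ne_zero.2 (wrV_ne_zero P.p)

/-- The leading coefficient has the same order as `p` at every place over `p`. -/
theorem wrf_ord_lc {A : ValuationSubring (AlgebraicClosure ℚ)}
    {O : OrdVal (AlgebraicClosure ℚ)} (D : PlaceData A P.p O) :
    O.ord ((wrV P.p : ℤ) : QQb) = O.ord ((P.p : ℕ) : QQb) := by
  obtain ⟨u, hu⟩ := wrV_prime_dvd P.p P.pp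
  have hndvd : ¬ (P.p : ℤ) ∣ u := by
    intro h
    apply wrV_prime_sq_not_dvd P.p P.pp
    rw [hu, pow_two]
    exact mul_dvd_mul_left _ h
  have hU := D.int_isU hndvd
  have hp0 : ((P.p : ℕ) : QQb) ≠ 0 := Nat.cast_ne_zero.2 P.hp0
  rw [hu]
  push_cast
  rw [O.ord_mul hp0 hU.ne_zero, hU.ord_eq, add_zero]

/-- If `E[p]` has at most `p²` elements and contains a proper nonzero subspace, it has exactly
`p²` elements. -/
theorem wrf_card_eq_of_le (hfin : Finite (VV P)) (hle : Nat.card (VV P) ≤ P.p ^ 2)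
    (N : Submodule (ZMod P.p) (VV P)) (hbot : N ≠ ⊥) (htop : N ≠ ⊤) :
    Nat.card (VV P) = P.p ^ 2 := by
  have : Fact P.p.Prime := ⟨P.pp⟩
  have := hfin
  have : Module.Finite (ZMod P.p) (VV P) := Module.Finite.of_finite
  have h1 : Nat.card (VV P) = P.p ^ Module.finrank (ZMod P.p) (VV P) := by
    have := Module.natCard_eq_pow_finrank (K := ZMod P.p) (V := VV P)
    rw [this, Nat.card_zmod]
  have h2 : 0 < Module.finrank (ZMod P.p) N := by
    rw [Module.finrank_pos_iff]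
    exact Submodule.nontrivial_iff_ne_bot.2 hbot
  have h3 : Module.finrank (ZMod P.p) N < Module.finrank (ZMod P.p) (VV P) :=
    Submodule.finrank_lt htop
  have h4 : 2 ≤ Module.finrank (ZMod P.p) (VV P) := by omega
  have h5 : P.p ^ 2 ≤ P.p ^ Module.finrank (ZMod P.p) (VV P) :=
    Nat.pow_le_pow_right P.hppos h4
  omega

/-! ### The end product -/

lemma wrf_p_ne_two : P.p ≠ 2 := by
  have := P.hp5
  omega

/-- The torsion criterion for the Frey curve over `ℚ̄`. -/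
theorem wrf_tors (x y : QQb) (h : (EC P).Nonsingular x y) :
    P.p • Point.some x y h = 0 ↔
      (wrPoly (EC P) P.p).eval x + (wrPolyQ (EC P) P.p).eval x * y = 0 :=
  wr_tors_iff_poly (EC P) h P.pp.one_le

/-- **[WR] (A)**: the Frey curve has a nonzero point of order `p` over `ℚ̄`. -/
theorem wrf_exists : ∃ T : (EC P).Point, T ≠ 0 ∧ P.p • T = 0 :=
  wr_main_exists (EC P) P.p ((wrV P.p : ℤ) : QQb) (fi_disc_ne P) P.pp (wrf_p_ne_two P)
    (wrf_lc_ne P) (wr_natDegree_wrPoly_le (EC P) P.p P.hp_odd)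
    (wr_coeff_wrPoly (EC P) P.p P.hp_odd)
    (wr_natDegree_wrPolyQ (EC P) P.p P.hp_odd (wrf_three_le P)) (wrf_tors P)

/-- **[WR] (B)**: `E[p](ℚ̄)` is finite. -/
theorem wrf_finite : Finite (VV P) :=
  (wr_main_card_le (EC P) P.p ((wrV P.p : ℤ) : QQb) P.pp (wrf_p_ne_two P)
    (wrf_lc_ne P) (wr_natDegree_wrPoly_le (EC P) P.p P.hp_odd)
    (wr_coeff_wrPoly (EC P) P.p P.hp_odd) (wrf_tors P)).1

/-- **[WR] (B)**: `E[p](ℚ̄)` has at most `p²` elements. -/
theorem wrf_card_le : Nat.card (VV P) ≤ P.p ^ 2 :=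
  (wr_main_card_le (EC P) P.p ((wrV P.p : ℤ) : QQb) P.pp (wrf_p_ne_two P)
    (wrf_lc_ne P) (wr_natDegree_wrPoly_le (EC P) P.p P.hp_odd)
    (wr_coeff_wrPoly (EC P) P.p P.hp_odd) (wrf_tors P)).2

/-- If `E[p](ℚ̄)` contains a proper nonzero subspace, it has exactly `p²` elements. -/
theorem wrf_card_eq (N : Submodule (ZMod P.p) (VV P)) (hbot : N ≠ ⊥) (htop : N ≠ ⊤) :
    Nat.card (VV P) = P.p ^ 2 :=
  wrf_card_eq_of_le P (wrf_finite P) (wrf_card_le P) N hbot htop

/-- A proper nonzero subspace of `E[p](ℚ̄)` is a line. -/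
theorem wrf_card_line (N : Submodule (ZMod P.p) (VV P)) (hbot : N ≠ ⊥) (htop : N ≠ ⊤) :
    Nat.card N = P.p := by
  have : Fact P.p.Prime := ⟨P.pp⟩
  have := wrf_finite P
  have : Module.Finite (ZMod P.p) (VV P) := Module.Finite.of_finite
  have hV := wrf_card_eq P N hbot htop
  have h1 : Nat.card (VV P) = P.p ^ Module.finrank (ZMod P.p) (VV P) := by
    have := Module.natCard_eq_pow_finrank (K := ZMod P.p) (V := VV P)
    rw [this, Nat.card_zmod]
  have h1' : Nat.card N = P.p ^ Module.finrank (ZMod P.p) N := by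
    have := Module.natCard_eq_pow_finrank (K := ZMod P.p) (V := N)
    rw [this, Nat.card_zmod]
  have h2 : 0 < Module.finrank (ZMod P.p) N := by
    rw [Module.finrank_pos_iff]
    exact Submodule.nontrivial_iff_ne_bot.2 hbot
  have h3 : Module.finrank (ZMod P.p) N < Module.finrank (ZMod P.p) (VV P) :=
    Submodule.finrank_lt htop
  have h4 : Module.finrank (ZMod P.p) (VV P) = 2 := by
    rw [h1] at hV
    exact Nat.pow_right_injective P.pp.two_le hV
  have h5 : Module.finrank (ZMod P.p) N = 1 := by omega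
  rw [h1', h5, pow_one]

/-- **[WR] (C)**, Mathlib form: the torsion polynomial of the Frey curve is
`wrV p * ∏ (X - ξ)` over the `x`-coordinates `ξ` of the nonzero `p`-torsion points. -/
theorem wrf_prod' (hcard : Nat.card (VV P) = P.p ^ 2) :
    ∃ S : Finset QQb, S.card = (P.p ^ 2 - 1) / 2 ∧
      (∀ ξ, ξ ∈ S ↔ ∃ y, ∃ h : (EC P).Nonsingular ξ y, P.p • Point.some ξ y h = 0) ∧
      (wrPoly (P.freyCurveInt : WeierstrassCurve.Affine ℤ) P.p).map (Int.castRingHom QQb)
        = C ((wrV P.p : ℤ) : QQb) * ∏ ξ ∈ S, (X - C ξ) := by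
  rw [← wrf_wrPoly_eq]
  exact wr_main_prod (EC P) P.p ((wrV P.p : ℤ) : QQb) P.pp (wrf_p_ne_two P)
    (wrf_lc_ne P) (wr_natDegree_wrPoly_le (EC P) P.p P.hp_odd)
    (wr_coeff_wrPoly (EC P) P.p P.hp_odd)
    (wr_natDegree_wrPolyQ (EC P) P.p P.hp_odd (wrf_three_le P)) (wrf_tors P) hcard

/-- **[WR] (C)**: the torsion polynomial of the Frey curve is `wrV p * ∏ (X - ξ)` over the
`x`-coordinates `ξ` of the nonzero `p`-torsion points. -/
theorem wrf_prod (hcard : Nat.card (VV P) = P.p ^ 2) :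
    ∃ S : Finset QQb, S.card = (P.p ^ 2 - 1) / 2 ∧
      (∀ ξ, ξ ∈ S ↔ ∃ T : (EC P).Point, T ≠ 0 ∧ P.p • T = 0 ∧ xc T = ξ) ∧
      (wrPoly (P.freyCurveInt : WeierstrassCurve.Affine ℤ) P.p).map (Int.castRingHom QQb)
        = C ((wrV P.p : ℤ) : QQb) * ∏ ξ ∈ S, (X - C ξ) := by
  obtain ⟨S, h1, h2, h3⟩ := wrf_prod' P hcard
  refine ⟨S, h1, fun ξ => ?_, h3⟩
  rw [h2]
  constructor
  · rintro ⟨y, h, hp⟩
    exact ⟨Point.some ξ y h, Point.some_ne_zero h, hp, rfl⟩
  · rintro ⟨T, hT, hpT, rfl⟩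
    cases T with
    | zero => exact absurd rfl hT
    | some x y h => exact ⟨y, h, hpT⟩

/-- The torsion polynomial with all the data needed for the Newton polygon at `p`, given a
proper nonzero subspace. -/
theorem wrf_prod_of_line (N : Submodule (ZMod P.p) (VV P)) (hbot : N ≠ ⊥) (htop : N ≠ ⊤) :
    ∃ S : Finset QQb, S.card = (P.p ^ 2 - 1) / 2 ∧
      (∀ ξ, ξ ∈ S ↔ ∃ T : (EC P).Point, T ≠ 0 ∧ P.p • T = 0 ∧ xc T = ξ) ∧
      (wrPoly (P.freyCurveInt : WeierstrassCurve.Affine ℤ) P.p).map (Int.castRingHom QQb)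
        = C ((wrV P.p : ℤ) : QQb) * ∏ ξ ∈ S, (X - C ξ) :=
  wrf_prod P (wrf_card_eq P N hbot htop)

end

end Fermat.Agent.M13
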